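import Mathlib

/-!
# S58, row R2 (algebra): the Dickson transfer

helper82.  Mathlib-only.

* `h82_pow_add_pow` : `x ^ n + y ^ n = D_n(x + y, x y)` in a commutative ring
  (`D_n(t, d) = (Polynomial.dickson 1 d n).eval t`).
* `h82_quad_pow` : if `x ^ 2 - t x + d = 0` in a commutative ring then
  `(x ^ b) ^ 2 - D_b(t, d) x ^ b + d ^ b = 0`.
* `h82_dickson_dvd` : the divisibility `X ^ 2 - t X + d ∣ X ^ (2 b) - D_b(t, d) X ^ b + d ^ b`
  in `ℤ[X]`.
* `h82_quad_pow_ring` : the same relation for an element of an arbitrary ring satisfying a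
  quadratic relation with integer coefficients (e.g. an endomorphism of an abelian group).
* `h82_quad_pow_smul` : the action form: if `g • g • v - t • g • v + d • v = 0` for all `v` of an
  abelian group with a distributive action of a monoid, then
  `g ^ b • g ^ b • v - D_b(t, d) • g ^ b • v + d ^ b • v = 0`.
* `h82_trace_pow` / `h82_charpoly_pow` : for an endomorphism `f` of a free module of rank two,
  `tr (f ^ b) = D_b(tr f, det f)` and the characteristic polynomial of `f ^ b`.
-/

set_option autoImplicit false

namespace Fermat.Agent.S58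

open Polynomial

/-- The integer `D_b(t, d)`: the value at `t` of the Dickson polynomial of the first kind with
parameter `d`. -/
noncomputable def h82_D (t d : ℤ) (b : ℕ) : ℤ := (dickson 1 d b).eval t

theorem h82_D_zero (t d : ℤ) : h82_D t d 0 = 2 := by
  unfold h82_D
  rw [dickson_zero]
  norm_num

theorem h82_D_one (t d : ℤ) : h82_D t d 1 = t := by
  unfold h82_D
  rw [dickson_one, eval_X]

theorem h82_D_add_two (t d : ℤ) (b : ℕ) :
    h82_D t d (b + 2) = t * h82_D t d (b + 1) - d * h82_D t d b := by
  unfold h82_D
  rw [dickson_add_two, eval_sub, eval_mul, eval_mul, eval_X, eval_C]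

/-- Power sums are values of Dickson polynomials. -/
theorem h82_pow_add_pow {R : Type*} [CommRing R] (x y : R) (n : ℕ) :
    x ^ n + y ^ n = (dickson 1 (x * y) n).eval (x + y) := by
  induction n using Nat.twoStepInduction with
  | zero =>
    rw [dickson_zero]
    norm_num
  | one =>
    rw [dickson_one, eval_X, pow_one, pow_one]
  | more n h0 h1 =>
    rw [dickson_add_two, eval_sub, eval_mul, eval_mul, eval_X, eval_C, ← h0, ← h1]
    ring

/-- A root of `X ^ 2 - t X + d` has its `b`-th power a root of `X ^ 2 - D_b(t, d) X + d ^ b`. -/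
theorem h82_quad_pow {R : Type*} [CommRing R] (x t d : R) (h : x ^ 2 - t * x + d = 0) (b : ℕ) :
    (x ^ b) ^ 2 - (dickson 1 d b).eval t * x ^ b + d ^ b = 0 := by
  have hxy : x * (t - x) = d := by linear_combination -h
  have hsum : x + (t - x) = t := by ring
  have key := h82_pow_add_pow x (t - x) b
  rw [hxy, hsum] at key
  rw [← key, ← hxy, mul_pow]
  ring

/-- The divisibility behind the transfer. -/
theorem h82_dickson_dvd (t d : ℤ) (b : ℕ) :
    (X ^ 2 - C t * X + C d : ℤ[X]) ∣ X ^ (2 * b) - C (h82_D t d b) * X ^ b + C (d ^ b) := by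
  set p : ℤ[X] := X ^ 2 - C t * X + C d with hp
  rw [← AdjoinRoot.mk_eq_zero (f := p)]
  have hroot : (AdjoinRoot.root p) ^ 2 - (AdjoinRoot.of p t) * AdjoinRoot.root p
      + AdjoinRoot.of p d = 0 := by
    have h0 : AdjoinRoot.mk p p = 0 := AdjoinRoot.mk_self
    rw [hp, map_add, map_sub, map_mul, map_pow, AdjoinRoot.mk_C, AdjoinRoot.mk_C,
      AdjoinRoot.mk_X] at h0
    exact h0
  have key := h82_quad_pow (AdjoinRoot.root p) (AdjoinRoot.of p t) (AdjoinRoot.of p d) hroot b
  have hD : (dickson 1 (AdjoinRoot.of p d) b).eval (AdjoinRoot.of p t)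
      = AdjoinRoot.of p (h82_D t d b) := by
    unfold h82_D
    rw [← map_dickson (AdjoinRoot.of p), eval_map, eval₂_at_apply]
  rw [hD] at key
  rw [map_add, map_sub, map_mul, map_pow, map_pow, AdjoinRoot.mk_C, AdjoinRoot.mk_C,
    AdjoinRoot.mk_X, map_pow, pow_mul']
  exact key

/-- The transfer in an arbitrary ring: a quadratic relation with integer coefficients for `x`
gives one for `x ^ b`. -/
theorem h82_quad_pow_ring {S : Type*} [Ring S] (x : S) (t d : ℤ)
    (h : x * x - t • x + d • (1 : S) = 0) (b : ℕ) :
    x ^ b * x ^ b - h82_D t d b • x ^ b + (d ^ b) • (1 : S) = 0 := by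
  obtain ⟨c, hc⟩ := h82_dickson_dvd t d b
  have h1 : aeval x (X ^ 2 - C t * X + C d : ℤ[X]) = 0 := by
    rw [map_add, map_sub, map_mul, map_pow, aeval_X, aeval_C, aeval_C, pow_two,
      Algebra.algebraMap_eq_smul_one, Algebra.algebraMap_eq_smul_one, smul_mul_assoc, one_mul]
    exact h
  have h2 := congrArg (aeval x) hc
  rw [map_mul, h1, zero_mul, map_add, map_sub, map_mul, map_pow, map_pow, aeval_X, aeval_C,
    aeval_C, Algebra.algebraMap_eq_smul_one, Algebra.algebraMap_eq_smul_one, smul_mul_assoc,
    one_mul, two_mul, pow_add] at h2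
  exact h2

/-- The transfer for a distributive action on an abelian group. -/
theorem h82_quad_pow_smul {G : Type*} [Monoid G] {V : Type*} [AddCommGroup V]
    [DistribMulAction G V] (g : G) (t d : ℤ)
    (h : ∀ v : V, g • g • v - t • g • v + d • v = 0) (b : ℕ) (v : V) :
    g ^ b • g ^ b • v - h82_D t d b • g ^ b • v + (d ^ b) • v = 0 := by
  let x : Module.End ℤ V := (DistribSMul.toAddMonoidHom V g).toIntLinearMap
  have hx0 : ∀ w : V, x w = g • w := fun w => rfl
  have hxb : ∀ (n : ℕ) (w : V), (x ^ n) w = g ^ n • w := by
    intro n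
    induction n with
    | zero => intro w; rw [pow_zero, pow_zero, Module.End.one_apply, one_smul]
    | succ n ih =>
      intro w
      rw [pow_succ, Module.End.mul_apply, pow_succ, mul_smul, hx0, ih]
  have hx : x * x - t • x + d • (1 : Module.End ℤ V) = 0 := by
    apply LinearMap.ext
    intro w
    rw [LinearMap.add_apply, LinearMap.sub_apply, Module.End.mul_apply, LinearMap.smul_apply,
      LinearMap.smul_apply, Module.End.one_apply, LinearMap.zero_apply, hx0, hx0]
    exact h w
  have key := h82_quad_pow_ring x t d hx b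
  have key2 := congrArg (fun f : Module.End ℤ V => f v) key
  simp only [LinearMap.add_apply, LinearMap.sub_apply, Module.End.mul_apply,
    LinearMap.smul_apply, Module.End.one_apply, LinearMap.zero_apply, hxb] at key2
  exact key2

/-! ### Endomorphisms of a free module of rank two -/

section RankTwo

variable {O : Type*} [CommRing O] [Nontrivial O] {V : Type*} [AddCommGroup V] [Module O V]
  [Module.Free O V] [Module.Finite O V]

/-- The characteristic polynomial of an endomorphism of a free module of rank two. -/
theorem h82_charpoly_rank_two (hr : Module.finrank O V = 2) (f : Module.End O V) :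
    f.charpoly = X ^ 2 - C (LinearMap.trace O V f) * X + C (LinearMap.det f) := by
  classical
  have hcard : Fintype.card (Module.Free.ChooseBasisIndex O V) = 2 := by
    rw [← Module.finrank_eq_card_chooseBasisIndex, hr]
  rw [LinearMap.charpoly_def, Matrix.charpoly_of_card_eq_two _ hcard,
    LinearMap.trace_eq_matrix_trace O (Module.Free.chooseBasis O V) f, LinearMap.det_toMatrix]

/-- Trace and determinant read off a quadratic characteristic polynomial. -/
theorem h82_trace_det_of_charpoly (hr : Module.finrank O V = 2) (f : Module.End O V) (a l : O)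
    (h : f.charpoly = X ^ 2 - C a * X + C l) :
    LinearMap.trace O V f = a ∧ LinearMap.det f = l := by
  rw [h82_charpoly_rank_two hr f] at h
  have h0 := congrArg (fun q : O[X] => q.coeff 0) h
  have h1 := congrArg (fun q : O[X] => q.coeff 1) h
  simp only [coeff_add, coeff_sub, coeff_X_pow, coeff_C_mul, coeff_X_zero,
    coeff_X_one, coeff_C] at h0 h1
  norm_num at h0 h1
  exact ⟨h1, h0⟩

/-- Cayley-Hamilton in rank two. -/
theorem h82_cayley_hamilton (hr : Module.finrank O V = 2) (f : Module.End O V) :
    f * f - LinearMap.trace O V f • f + LinearMap.det f • (1 : Module.End O V) = 0 := by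
  have h := LinearMap.aeval_self_charpoly f
  rw [h82_charpoly_rank_two hr f, map_add, map_sub, map_mul, map_pow, aeval_X, aeval_C, aeval_C,
    pow_two, Algebra.algebraMap_eq_smul_one, Algebra.algebraMap_eq_smul_one, smul_mul_assoc,
    one_mul] at h
  exact h

/-- The trace of a power is the value of the Dickson polynomial. -/
theorem h82_trace_pow (hr : Module.finrank O V = 2) (f : Module.End O V) (b : ℕ) :
    LinearMap.trace O V (f ^ b) =
      (dickson 1 (LinearMap.det f) b).eval (LinearMap.trace O V f) := by
  have hCH := h82_cayley_hamilton hr f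
  induction b using Nat.twoStepInduction with
  | zero =>
    rw [pow_zero, dickson_zero, LinearMap.trace_one, hr]
    norm_num
  | one =>
    rw [pow_one, dickson_one, eval_X]
  | more n h0 h1 =>
    have e : f ^ (n + 2) = LinearMap.trace O V f • f ^ (n + 1)
        - LinearMap.det f • f ^ n := by
      have h2 : f * f = LinearMap.trace O V f • f - LinearMap.det f • (1 : Module.End O V) := by
        rw [← sub_eq_zero, ← hCH]
        abel
      rw [pow_succ, pow_succ, mul_assoc, h2, mul_sub, mul_smul_comm, mul_smul_comm, mul_one,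
        ← pow_succ]
    rw [e, map_sub, map_smul, map_smul, h0, h1, dickson_add_two, eval_sub, eval_mul, eval_mul,
      eval_X, eval_C, smul_eq_mul, smul_eq_mul]

/-- The characteristic polynomial of a power, in rank two. -/
theorem h82_charpoly_pow (hr : Module.finrank O V = 2) (f : Module.End O V) (a l : O)
    (h : f.charpoly = X ^ 2 - C a * X + C l) (b : ℕ) :
    (f ^ b).charpoly = X ^ 2 - C ((dickson 1 l b).eval a) * X + C (l ^ b) := by
  obtain ⟨ht, hd⟩ := h82_trace_det_of_charpoly hr f a l h
  rw [h82_charpoly_rank_two hr (f ^ b), h82_trace_pow hr f b, ht, hd, map_pow, hd]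

end RankTwo

end Fermat.Agent.S58
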