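import Mathlib
import Fermat.Agent.GAL.WCheb
import Fermat.Agent.GAL.h65_Cyclo
import Fermat.Agent.S41.h48_FrobRel
import Fermat.Agent.S41.h16_CField
import Fermat.Agent.S41.h70_P2
import Fermat.Agent.S58.h82_Dickson
import Fermat.Prelude.Def_GaloisRep_Adic

/-!
# S58, row R2: the Dickson transfer

`W` an integral model of the elliptic curve `E` over `ℚ`.

* `h82_transfer_W`: for every `σ` in the absolute Galois group, every odd `m ≥ 3`, every finite
  set `S` of primes and every finite level `L₀` there is a Frobenius element `τ` at a prime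
  `ℓ ∉ S` and `b` with `τ ^ b = σ` on `L₀` and
  `σ² P - D_b(a_ℓ, ℓ) σ P + ℓ ^ b P = 0` on `E[m]`.
* `h82_rho_congr`: trace and determinant of an adic representation modulo `𝔪 ^ n` only depend
  on the restriction to a finite level.
* `h82_transfer`: the combination: for a representation `ρ` with the characteristic polynomials
  `X² - a_ℓ(W) X + ℓ` at the Frobenius elements outside `S`, every `σ` satisfies on `E[m]` a
  relation `σ² - D σ + e = 0` with `D ≡ tr ρ(σ)`, `e ≡ det ρ(σ)` modulo `𝔪 ^ n`, and `σ` raises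
  the `c`-th roots of unity to the power `e`.
-/

set_option autoImplicit false

namespace Fermat.Agent.S58

open Polynomial WeierstrassCurve WeierstrassCurve.Affine

local notation "Qb" => AlgebraicClosure ℚ

/-- Finiteness of the `m`-torsion, `m ≥ 3` odd. -/
theorem h82_finite_torsion (E : WeierstrassCurve ℚ) [E.IsElliptic] (m : ℕ) (hodd : m % 2 = 1)
    (hm3 : 3 ≤ m) : Finite (Submodule.torsionBy ℤ (E.toAffine⁄Qb).Point m) := by
  have hcard : Nat.card (Submodule.torsionBy ℤ (E.toAffine⁄Qb).Point m) = m ^ 2 :=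
    Fermat.Agent.S41.h70_card_torsionBy (E.map (algebraMap ℚ (AlgebraicClosure ℚ))) hodd hm3
  exact Nat.finite_of_card_ne_zero (by rw [hcard]; positivity)

/-- **Transfer, curve side.** -/
theorem h82_transfer_W (E : WeierstrassCurve ℚ) [E.IsElliptic] {W : WeierstrassCurve ℤ}
    (hW : W.IsIntegralModelOf E) (hΔ : W.Δ ≠ 0) (m : ℕ) (hodd : m % 2 = 1) (hm3 : 3 ≤ m)
    (S : Finset ℕ) (L₀ : IntermediateField ℚ Qb) (hL₀ : FiniteDimensional ℚ L₀)
    (T : Finset Qb) (σ : Qb ≃ₐ[ℚ] Qb) :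
    ∃ (ℓ : ℕ) (A : ValuationSubring Qb) (τ : Qb ≃ₐ[ℚ] Qb) (b : ℕ),
      ℓ.Prime ∧ ℓ ∉ S ∧ A.LiesOverPrime ℓ ∧ A.IsFrobeniusAt τ ℓ ∧
      (∀ x ∈ L₀, (τ ^ b) x = σ x) ∧ (∀ x ∈ T, (τ ^ b) x = σ x) ∧
      ∀ P : Submodule.torsionBy ℤ (E.toAffine⁄Qb).Point m,
        σ • σ • P - h82_D (W.apOfModel ℓ) ℓ b • σ • P + ((ℓ : ℤ) ^ b) • P = 0 := by
  classical
  have hfin := h82_finite_torsion E m hodd hm3
  obtain ⟨L₁, hL₁fin, -, hT, hL₁⟩ := Fermat.Agent.S41.c_field E m hfin T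
  obtain ⟨L, hLfin, hLgal, hL₀L, hL₁L, -⟩ :=
    Fermat.Agent.GAL.h65_exists_galois_level L₀ L₁ hL₀ hL₁fin 1
  obtain ⟨ℓ, A, τ, -, b, hℓ, hℓS, hA, hτ, -, hag⟩ :=
    Fermat.Agent.GAL.gal_weak_chebotarev L σ (S ∪ {2, 3} ∪ m.primeFactors ∪ W.Δ.natAbs.primeFactors)
  have hℓS1 : ℓ ∉ S := fun h => hℓS (by simp [h])
  have hℓ2 : ℓ ≠ 2 := fun h => hℓS (by simp [h])
  have hℓ3 : ℓ ≠ 3 := fun h => hℓS (by simp [h])
  have hm0 : m ≠ 0 := by omega
  have hℓm : ¬ ℓ ∣ m := fun h => hℓS (by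
    have : ℓ ∈ m.primeFactors := Nat.mem_primeFactors.mpr ⟨hℓ, h, hm0⟩
    simp [this])
  have hgood : W.IsGoodPrimeFor ℓ := by
    intro h
    apply hℓS
    have : ℓ ∈ W.Δ.natAbs.primeFactors :=
      Nat.mem_primeFactors.mpr ⟨hℓ, Int.natCast_dvd.mp h, Int.natAbs_ne_zero.mpr hΔ⟩
    simp [this]
  have hℓ5 : 5 ≤ ℓ := by
    have h2 := hℓ.two_le
    by_contra hlt
    have h4 : ℓ = 4 := by omega
    rw [h4] at hℓ
    exact absurd hℓ (by decide)
  have : Fact ℓ.Prime := ⟨hℓ⟩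
  refine ⟨ℓ, A, τ, b, hℓ, hℓS1, hA, hτ, fun x hx => hag x (hL₀L hx),
    fun x hx => hag x (hL₁L (hT x hx)), fun P => ?_⟩
  have hrel : ∀ v : Submodule.torsionBy ℤ (E.toAffine⁄Qb).Point m,
      τ • τ • v - W.apOfModel ℓ • τ • v + (ℓ : ℤ) • v = 0 := fun v =>
    Fermat.Agent.S41.h48_frob_rel_torsion E hW ℓ hℓ5 hgood A hA τ hτ m hℓm v
  have key := h82_quad_pow_smul τ (W.apOfModel ℓ) (ℓ : ℤ) hrel b P
  have hσ : ∀ v : Submodule.torsionBy ℤ (E.toAffine⁄Qb).Point m, τ ^ b • v = σ • v :=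
    fun v => hL₁ (τ ^ b) σ (fun x hx => hag x (hL₁L hx)) v
  rw [hσ, hσ] at key
  exact key

/-- Coordinates of an element of `I • ⊤` lie in `I`. -/
theorem h82_repr_mem {O : Type*} [CommRing O] {V : Type*} [AddCommGroup V] [Module O V]
    {ι : Type*} (b : Module.Basis ι O V) (I : Ideal O) (x : V)
    (hx : x ∈ I • (⊤ : Submodule O V)) (i : ι) : b.repr x i ∈ I := by
  refine Submodule.smul_induction_on hx ?_ ?_
  · intro a ha w _
    rw [map_smul, Finsupp.smul_apply, smul_eq_mul]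
    exact I.mul_mem_right _ ha
  · intro x y hx hy
    rw [map_add, Finsupp.add_apply]
    exact I.add_mem hx hy

/-- Multiplying by an endomorphism congruent to the identity modulo `I` changes neither the
trace nor the determinant modulo `I`. -/
theorem h82_congr_trace_det {O : Type*} [CommRing O] {V : Type*} [AddCommGroup V] [Module O V]
    [Module.Free O V] [Module.Finite O V] (I : Ideal O) (f g : Module.End O V)
    (hg : ∀ v, g v - v ∈ I • (⊤ : Submodule O V)) :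
    LinearMap.trace O V (f * g) - LinearMap.trace O V f ∈ I ∧
      LinearMap.det (f * g) - LinearMap.det f ∈ I := by
  classical
  set b := Module.Free.chooseBasis O V with hb
  have hent : ∀ i j, (LinearMap.toMatrix b b g - 1) i j ∈ I := by
    intro i j
    have h1 := h82_repr_mem b I _ (hg (b j)) i
    rw [map_sub, Finsupp.sub_apply, Module.Basis.repr_self, Finsupp.single_apply] at h1
    rw [Matrix.sub_apply, LinearMap.toMatrix_apply, Matrix.one_apply]
    have e : (if j = i then (1 : O) else 0) = if i = j then 1 else 0 := by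
      by_cases h : i = j
      · subst h; simp
      · rw [if_neg h, if_neg (fun h' => h h'.symm)]
    rw [e] at h1
    exact h1
  constructor
  · have e : LinearMap.trace O V (f * g) - LinearMap.trace O V f =
        Matrix.trace (LinearMap.toMatrix b b f * (LinearMap.toMatrix b b g - 1)) := by
      rw [LinearMap.trace_eq_matrix_trace O b (f * g), LinearMap.trace_eq_matrix_trace O b f,
        LinearMap.toMatrix_mul, mul_sub, mul_one, Matrix.trace_sub]
    rw [e, Matrix.trace]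
    refine Ideal.sum_mem _ fun i _ => ?_
    rw [Matrix.diag_apply, Matrix.mul_apply]
    exact Ideal.sum_mem _ fun j _ => I.mul_mem_left _ (hent j i)
  · have hdet : LinearMap.det g - 1 ∈ I := by
      rw [← LinearMap.det_toMatrix b g, ← Ideal.Quotient.eq, map_one, RingHom.map_det]
      have e : (Ideal.Quotient.mk I).mapMatrix (LinearMap.toMatrix b b g) = 1 := by
        ext i j
        rw [RingHom.mapMatrix_apply, Matrix.map_apply, Matrix.one_apply]
        have h1 := hent i j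
        rw [Matrix.sub_apply, Matrix.one_apply, ← Ideal.Quotient.eq] at h1
        rw [h1]
        split_ifs <;> simp
      rw [e, Matrix.det_one]
    have e : LinearMap.det (f * g) - LinearMap.det f = LinearMap.det f * (LinearMap.det g - 1) := by
      rw [map_mul]; ring
    rw [e]
    exact I.mul_mem_left _ hdet

/-- **Transfer, representation side.** Modulo `𝔪 ^ n`, trace and determinant of an adic
representation only depend on the restriction to a finite level. -/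
theorem h82_rho_congr {O : Type} [CommRing O] [IsLocalRing O] (ρ : GaloisRepAdic O) (n : ℕ) :
    ∃ L : IntermediateField ℚ Qb, FiniteDimensional ℚ L ∧
      ∀ σ τ : Qb ≃ₐ[ℚ] Qb, (∀ x ∈ L, τ x = σ x) →
        LinearMap.trace O ρ.V (ρ.ρ τ) - LinearMap.trace O ρ.V (ρ.ρ σ) ∈
            IsLocalRing.maximalIdeal O ^ n ∧
          LinearMap.det (ρ.ρ τ) - LinearMap.det (ρ.ρ σ) ∈ IsLocalRing.maximalIdeal O ^ n := by
  obtain ⟨L, hL, h⟩ := ρ.isAdicContinuous n
  refine ⟨L, hL, fun σ τ hag => ?_⟩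
  have hfix : ∀ x ∈ L, (σ⁻¹ * τ) x = x := by
    intro x hx
    rw [AlgEquiv.mul_apply, hag x hx]
    exact σ.symm_apply_apply x
  have key := h82_congr_trace_det (IsLocalRing.maximalIdeal O ^ n) (ρ.ρ σ) (ρ.ρ (σ⁻¹ * τ))
    (h _ hfix)
  rw [← map_mul, mul_inv_cancel_left] at key
  exact key

/-- Powers of an automorphism acting on roots of unity by a power map. -/
theorem h82_pow_root (τ : Qb ≃ₐ[ℚ] Qb) (c ℓ : ℕ) (h : ∀ ζ : Qb, ζ ^ c = 1 → τ ζ = ζ ^ ℓ)
    (b : ℕ) (ζ : Qb) (hζ : ζ ^ c = 1) : (τ ^ b) ζ = ζ ^ (ℓ ^ b) := by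
  induction b generalizing ζ with
  | zero => rw [pow_zero, pow_zero, pow_one]; rfl
  | succ b ih =>
    rw [pow_succ, AlgEquiv.mul_apply, h ζ hζ, ih (ζ ^ ℓ) (by rw [← pow_mul, mul_comm, pow_mul, hζ, one_pow]),
      ← pow_mul, pow_succ, mul_comm]

/-- **Dickson transfer.** -/
theorem h82_transfer (E : WeierstrassCurve ℚ) [E.IsElliptic] {W : WeierstrassCurve ℤ}
    (hW : W.IsIntegralModelOf E) (hΔ : W.Δ ≠ 0)
    {O : Type} [CommRing O] [IsLocalRing O] (ρ : GaloisRepAdic O) (S : Finset ℕ)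
    (hρ : ∀ ℓ : ℕ, ℓ.Prime → ℓ ∉ S → ∀ A : ValuationSubring Qb, A.LiesOverPrime ℓ →
      ∀ τ : Qb ≃ₐ[ℚ] Qb, A.IsFrobeniusAt τ ℓ →
        LinearMap.charpoly (ρ.ρ τ) = X ^ 2 - C ((W.apOfModel ℓ : ℤ) : O) * X + C ((ℓ : ℕ) : O))
    (m : ℕ) (hodd : m % 2 = 1) (hm3 : 3 ≤ m) (n : ℕ) (c : ℕ) (hc : 0 < c) (σ : Qb ≃ₐ[ℚ] Qb) :
    ∃ (D : ℤ) (e : ℕ),
      (∀ P : Submodule.torsionBy ℤ (E.toAffine⁄Qb).Point m,
        σ • σ • P - D • σ • P + (e : ℤ) • P = 0) ∧
      LinearMap.trace O ρ.V (ρ.ρ σ) - (D : O) ∈ IsLocalRing.maximalIdeal O ^ n ∧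
      LinearMap.det (ρ.ρ σ) - (e : O) ∈ IsLocalRing.maximalIdeal O ^ n ∧
      ∀ ζ : Qb, ζ ^ c = 1 → σ ζ = ζ ^ e := by
  classical
  obtain ⟨L₀, hL₀, hcong⟩ := h82_rho_congr ρ n
  obtain ⟨ℓ, A, τ, b, hℓ, hℓS, hA, hτ, hag, hagT, hrel⟩ :=
    h82_transfer_W E hW hΔ m hodd hm3 (S ∪ c.primeFactors) L₀ hL₀
      (Polynomial.nthRootsFinset c (1 : Qb)) σ
  have hℓS1 : ℓ ∉ S := fun h => hℓS (Finset.mem_union_left _ h)
  have hℓc : ¬ ℓ ∣ c := fun h => hℓS (Finset.mem_union_right _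
    (Nat.mem_primeFactors.mpr ⟨hℓ, h, hc.ne'⟩))
  have hcp := h82_charpoly_pow ρ.finrank_eq (ρ.ρ τ) _ _ (hρ ℓ hℓ hℓS1 A hA τ hτ) b
  rw [← map_pow] at hcp
  obtain ⟨htr, hdet⟩ := h82_trace_det_of_charpoly ρ.finrank_eq (ρ.ρ (τ ^ b)) _ _ hcp
  obtain ⟨hc1, hc2⟩ := hcong σ (τ ^ b) hag
  refine ⟨h82_D (W.apOfModel ℓ) ℓ b, ℓ ^ b, fun P => ?_, ?_, ?_, ?_⟩
  · have := hrel P
    push_cast
    exact this
  · rw [htr] at hc1
    have e : ((h82_D (W.apOfModel ℓ) ℓ b : ℤ) : O) =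
        (dickson 1 ((ℓ : ℕ) : O) b).eval ((W.apOfModel ℓ : ℤ) : O) := by
      unfold h82_D
      have h1 : dickson 1 ((ℓ : ℕ) : O) b = (dickson 1 ((ℓ : ℕ) : ℤ) b).map (Int.castRingHom O) := by
        rw [Polynomial.map_dickson]
        simp
      rw [h1, Polynomial.eval_map, ← eq_intCast (Int.castRingHom O) (W.apOfModel ℓ),
        Polynomial.eval₂_at_apply]
      simp
    rw [e]
    have := (IsLocalRing.maximalIdeal O ^ n).neg_mem hc1
    rw [neg_sub] at this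
    exact this
  · rw [hdet] at hc2
    have := (IsLocalRing.maximalIdeal O ^ n).neg_mem hc2
    rw [neg_sub] at this
    push_cast
    exact this
  · intro ζ hζ
    have h1 : ζ ∈ Polynomial.nthRootsFinset c (1 : Qb) :=
      (Polynomial.mem_nthRootsFinset hc (1 : Qb)).mpr hζ
    rw [← hagT ζ h1]
    exact h82_pow_root τ c ℓ
      (fun ξ hξ => Fermat.Agent.GAL.h65_frob_root A hℓ hA hτ hℓc hξ) b ζ hζ

end Fermat.Agent.S58
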