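import Mathlib
import Fermat.Agent.S58.h82_Transfer

/-!
# S58, row R2 (second half): matching characteristic polynomials

`W` an integral Weierstrass model with `Δ ≠ 0`, `E := W.map (Int.castRingHom ℚ)`.

* `h82_isElliptic`, `h82_isIntegralModelOf`: `E` is elliptic and `W` is an integral model of `E`.
* `h82_kill_torsion`: an integer killing `E[m]` (`m ≥ 3` odd) is divisible by `m`.
* `h82_frob_congr_W`: if `σ² - t σ + d = 0` on `E[m]` and `σ ζ = ζ ^ d` on `μ_m`, then for a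
  suitable Frobenius power `τ ^ b` agreeing with `σ` on a prescribed level,
  `m ∣ D_b(a_ℓ', ℓ') - t`.
* `h82_match`: if `σ² - t σ + d = 0` on `E[lam ^ (k + 1)]` and `σ ζ = ζ ^ d` on `μ_(lam ^ (k + 1))`
  for all `k`, then `charpoly ρ(σ) = X² - t X + d` for every `lam`-adic representation `ρ` with
  the characteristic polynomials `X² - a_ℓ(W) X + ℓ` at the Frobenius elements outside a finite
  set.
* `h82_match_fix`: if `σ` fixes a point of exact order `lam ^ (k + 1)` and the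
  `lam ^ (k + 1)`-th roots of unity for all `k`, then `charpoly ρ(σ) = (X - 1)²`.
-/

set_option autoImplicit false

namespace Fermat.Agent.S58

open Polynomial WeierstrassCurve WeierstrassCurve.Affine

local notation "Qb" => AlgebraicClosure ℚ

/-- The generic fibre of an integral model with nonzero discriminant is elliptic. -/
theorem h82_isElliptic (W : WeierstrassCurve ℤ) (hΔ : W.Δ ≠ 0) :
    (W.map (Int.castRingHom ℚ)).IsElliptic := by
  refine ⟨?_⟩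
  rw [WeierstrassCurve.map_Δ]
  exact isUnit_iff_ne_zero.mpr (by simpa using hΔ)

/-- An integral model is an integral model of its generic fibre. -/
theorem h82_isIntegralModelOf (W : WeierstrassCurve ℤ) :
    W.IsIntegralModelOf (W.map (Int.castRingHom ℚ)) :=
  ⟨1, one_smul _ _⟩

/-- An integer killing the `m`-torsion (`m ≥ 3` odd) is divisible by `m`. -/
theorem h82_kill_torsion (E : WeierstrassCurve ℚ) [E.IsElliptic] (m : ℕ) (hodd : m % 2 = 1)
    (hm3 : 3 ≤ m) (c : ℤ)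
    (h : ∀ P : Submodule.torsionBy ℤ (E.toAffine⁄Qb).Point m, c • P = 0) : (m : ℤ) ∣ c := by
  classical
  have hcardm : Nat.card (Submodule.torsionBy ℤ (E.toAffine⁄Qb).Point m) = m ^ 2 :=
    Fermat.Agent.S41.h70_card_torsionBy (E.map (algebraMap ℚ (AlgebraicClosure ℚ))) hodd hm3
  set g : ℕ := Int.gcd c m with hg
  have hgm : g ∣ m := Int.natCast_dvd_natCast.mp (Int.gcd_dvd_right c m)
  have hgc : (g : ℤ) ∣ c := Int.gcd_dvd_left c m
  have hm0 : m ≠ 0 := by omega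
  have hg0 : g ≠ 0 := fun h0 => hm0 (Nat.eq_zero_of_zero_dvd (h0 ▸ hgm))
  have hgodd : g % 2 = 1 := by
    rcases Nat.even_or_odd g with he | ho
    · exfalso
      have h2 : 2 ∣ m := dvd_trans he.two_dvd hgm
      omega
    · exact Nat.odd_iff.mp ho
  -- every `m`-torsion point is killed by `g`
  have hkill : ∀ P : Submodule.torsionBy ℤ (E.toAffine⁄Qb).Point m,
      (g : ℤ) • (P : (E.toAffine⁄Qb).Point) = 0 := by
    intro P
    have h1 : (g : ℤ) = c * Int.gcdA c m + m * Int.gcdB c m := Int.gcd_eq_gcd_ab c m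
    have h2 : c • (P : (E.toAffine⁄Qb).Point) = 0 := by
      have := congrArg Subtype.val (h P)
      simpa using this
    have h3 : (m : ℤ) • (P : (E.toAffine⁄Qb).Point) = 0 := by
      have := P.2
      rwa [Submodule.mem_torsionBy_iff] at this
    rw [h1, add_zsmul, mul_comm c (Int.gcdA c m), mul_comm (m : ℤ) (Int.gcdB c m), mul_zsmul,
      mul_zsmul, h2, h3, zsmul_zero, zsmul_zero, add_zero]
  let f : Submodule.torsionBy ℤ (E.toAffine⁄Qb).Point m →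
      Submodule.torsionBy ℤ (E.toAffine⁄Qb).Point g :=
    fun P => ⟨P, (Submodule.mem_torsionBy_iff _ _).mpr (hkill P)⟩
  have hf : Function.Injective f := by
    intro P Q hPQ
    apply Subtype.ext
    have h1 : ((f P : Submodule.torsionBy ℤ (E.toAffine⁄Qb).Point g) : (E.toAffine⁄Qb).Point) =
        (f Q : Submodule.torsionBy ℤ (E.toAffine⁄Qb).Point g) := congrArg Subtype.val hPQ
    exact h1
  by_cases hg3 : 3 ≤ g
  · have hfin := h82_finite_torsion E g hgodd hg3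
    have hcardg : Nat.card (Submodule.torsionBy ℤ (E.toAffine⁄Qb).Point g) = g ^ 2 :=
      Fermat.Agent.S41.h70_card_torsionBy (E.map (algebraMap ℚ (AlgebraicClosure ℚ))) hgodd hg3
    have hle := Nat.card_le_card_of_injective f hf
    rw [hcardm, hcardg] at hle
    have hmg : m ≤ g := by
      by_contra hlt
      rw [not_le] at hlt
      have : g ^ 2 < m ^ 2 := Nat.pow_lt_pow_left hlt (by norm_num)
      omega
    have hgeq : g = m := le_antisymm (Nat.le_of_dvd (by omega) hgm) hmg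
    rw [← hgeq]
    exact hgc
  · exfalso
    have hg1 : g = 1 := by omega
    have hsub : Subsingleton (Submodule.torsionBy ℤ (E.toAffine⁄Qb).Point g) := by
      refine ⟨fun P Q => ?_⟩
      apply Subtype.ext
      have hg1' : (g : ℤ) = 1 := by exact_mod_cast hg1
      have key : ∀ R : Submodule.torsionBy ℤ (E.toAffine⁄Qb).Point g,
          (R : (E.toAffine⁄Qb).Point) = 0 := by
        intro R
        have hR : (g : ℤ) • (R : (E.toAffine⁄Qb).Point) = 0 :=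
          (Submodule.mem_torsionBy_iff _ _).mp R.2
        have e : (g : ℤ) • (R : (E.toAffine⁄Qb).Point) = (1 : ℤ) • (R : (E.toAffine⁄Qb).Point) :=
          congrArg (fun z : ℤ => z • (R : (E.toAffine⁄Qb).Point)) hg1'
        rw [e, one_zsmul] at hR
        exact hR
      rw [key P, key Q]
    have hle := Nat.card_le_card_of_injective f hf
    rw [hcardm, Nat.card_eq_one_iff_unique.mpr ⟨hsub, ⟨0⟩⟩] at hle
    nlinarith

/-- Primitive roots of unity in `ℚ̄`. -/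
theorem h82_exists_primitive_root (m : ℕ) (hm : 0 < m) : ∃ ζ : Qb, IsPrimitiveRoot ζ m := by
  have : NeZero (m : Qb) := ⟨by exact_mod_cast hm.ne'⟩
  exact HasEnoughRootsOfUnity.exists_primitiveRoot Qb m

/-- Equal powers of a primitive `m`-th root of unity have exponents congruent modulo `m`. -/
theorem h82_dvd_of_pow_eq {ζ : Qb} {m : ℕ} (hm : 0 < m) (hζ : IsPrimitiveRoot ζ m) {a b : ℕ}
    (h : ζ ^ a = ζ ^ b) : (m : ℤ) ∣ (a : ℤ) - (b : ℤ) := by
  have hζ0 : ζ ≠ 0 := hζ.ne_zero hm.ne'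
  have key : ∀ a b : ℕ, b ≤ a → ζ ^ a = ζ ^ b → (m : ℤ) ∣ (a : ℤ) - (b : ℤ) := by
    intro a b hba hab
    have h1 : ζ ^ (a - b) = 1 := by
      apply mul_right_cancel₀ (pow_ne_zero b hζ0)
      rw [← pow_add, Nat.sub_add_cancel hba, one_mul, hab]
    obtain ⟨u, hu⟩ := (hζ.pow_eq_one_iff_dvd _).mp h1
    refine ⟨u, ?_⟩
    have : ((a - b : ℕ) : ℤ) = (m : ℤ) * u := by exact_mod_cast hu
    rw [← this]
    omega
  rcases le_total b a with hba | hab
  · exact key a b hba h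
  · have := key b a hab h.symm
    have e : (a : ℤ) - (b : ℤ) = -((b : ℤ) - (a : ℤ)) := by ring
    rw [e]
    exact (dvd_neg).mpr this

/-- Two quadratic relations for `σ` on `E[m]` with constant terms congruent modulo `m` have
linear terms congruent modulo `m`. -/
theorem h82_rel_compare (E : WeierstrassCurve ℚ) [E.IsElliptic] (m : ℕ) (hodd : m % 2 = 1)
    (hm3 : 3 ≤ m) (σ : Qb ≃ₐ[ℚ] Qb) (D t e d : ℤ)
    (h1 : ∀ P : Submodule.torsionBy ℤ (E.toAffine⁄Qb).Point m,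
      σ • σ • P - D • σ • P + e • P = 0)
    (h2 : ∀ P : Submodule.torsionBy ℤ (E.toAffine⁄Qb).Point m,
      σ • σ • P - t • σ • P + d • P = 0)
    (hed : (m : ℤ) ∣ e - d) : (m : ℤ) ∣ D - t := by
  apply h82_kill_torsion E m hodd hm3
  intro Q
  obtain ⟨P, rfl⟩ : ∃ P : Submodule.torsionBy ℤ (E.toAffine⁄Qb).Point m, σ • P = Q :=
    ⟨σ⁻¹ • Q, smul_inv_smul σ Q⟩
  have r1 := h1 P
  have r2 := h2 P
  have h3 : (D - t) • σ • P = (e - d) • P := by
    generalize σ • σ • P = X at r1 r2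
    generalize σ • P = Y at r1 r2 ⊢
    linear_combination (norm := module) r2 - r1
  obtain ⟨u, hu⟩ := hed
  rw [h3, hu, mul_comm (m : ℤ) u, mul_smul u (m : ℤ) P, Submodule.smul_torsionBy, smul_zero]

/-- **Curve-side level congruence.** -/
theorem h82_frob_congr_W (E : WeierstrassCurve ℚ) [E.IsElliptic] {W : WeierstrassCurve ℤ}
    (hW : W.IsIntegralModelOf E) (hΔ : W.Δ ≠ 0) (m : ℕ) (hodd : m % 2 = 1) (hm3 : 3 ≤ m)
    (σ : Qb ≃ₐ[ℚ] Qb) (t : ℤ) (d : ℕ)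
    (hrel : ∀ P : Submodule.torsionBy ℤ (E.toAffine⁄Qb).Point m,
      σ • σ • P - t • σ • P + (d : ℤ) • P = 0)
    (hcyc : ∀ ζ : Qb, ζ ^ m = 1 → σ ζ = ζ ^ d)
    (S : Finset ℕ) (L₀ : IntermediateField ℚ Qb) (hL₀ : FiniteDimensional ℚ L₀) :
    ∃ (ℓ : ℕ) (A : ValuationSubring Qb) (τ : Qb ≃ₐ[ℚ] Qb) (b : ℕ),
      ℓ.Prime ∧ ℓ ∉ S ∧ A.LiesOverPrime ℓ ∧ A.IsFrobeniusAt τ ℓ ∧
      (∀ x ∈ L₀, (τ ^ b) x = σ x) ∧
      (m : ℤ) ∣ h82_D (W.apOfModel ℓ) ℓ b - t ∧ (m : ℤ) ∣ ((ℓ ^ b : ℕ) : ℤ) - (d : ℤ) := by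
  classical
  have hm0 : 0 < m := by omega
  obtain ⟨ℓ, A, τ, b, hℓ, hℓS, hA, hτ, hag, hagT, hrel'⟩ :=
    h82_transfer_W E hW hΔ m hodd hm3 (S ∪ m.primeFactors) L₀ hL₀
      (Polynomial.nthRootsFinset m (1 : Qb)) σ
  have hℓS1 : ℓ ∉ S := fun h => hℓS (Finset.mem_union_left _ h)
  have hℓm : ¬ ℓ ∣ m := fun h => hℓS (Finset.mem_union_right _
    (Nat.mem_primeFactors.mpr ⟨hℓ, h, hm0.ne'⟩))
  obtain ⟨ζ, hζ⟩ := h82_exists_primitive_root m hm0
  have hζ1 : ζ ^ m = 1 := hζ.pow_eq_one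
  have e1 : (τ ^ b) ζ = ζ ^ (ℓ ^ b) :=
    h82_pow_root τ m ℓ (fun ξ hξ => Fermat.Agent.GAL.h65_frob_root A hℓ hA hτ hℓm hξ) b ζ hζ1
  have e2 : (τ ^ b) ζ = σ ζ := hagT ζ ((Polynomial.mem_nthRootsFinset hm0 (1 : Qb)).mpr hζ1)
  have e3 : ζ ^ (ℓ ^ b) = ζ ^ d := by rw [← e1, e2, hcyc ζ hζ1]
  have hed : (m : ℤ) ∣ ((ℓ ^ b : ℕ) : ℤ) - (d : ℤ) := h82_dvd_of_pow_eq hm0 hζ e3
  refine ⟨ℓ, A, τ, b, hℓ, hℓS1, hA, hτ, hag, ?_, hed⟩
  exact h82_rel_compare E m hodd hm3 σ _ t (((ℓ ^ b : ℕ) : ℤ)) d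
    (fun P => by have := hrel' P; push_cast; exact this) hrel hed

section Adic

variable {O : Type} [CommRing O] [IsLocalRing O]

/-- Integers divisible by `lam ^ (k + 1)` lie in `𝔪 ^ (k + 1)` when `lam ∈ 𝔪`. -/
theorem h82_mem_pow_of_dvd (lam k : ℕ) (hlamO : (lam : O) ∈ IsLocalRing.maximalIdeal O) (x : ℤ)
    (h : ((lam ^ (k + 1) : ℕ) : ℤ) ∣ x) : (x : O) ∈ IsLocalRing.maximalIdeal O ^ (k + 1) := by
  obtain ⟨u, rfl⟩ := h
  push_cast
  exact Ideal.mul_mem_right _ _ (Ideal.pow_mem_pow hlamO _)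

/-- Krull intersection for the maximal ideal of a Noetherian local ring. -/
theorem h82_eq_zero_of_forall_mem [IsNoetherianRing O] (x : O)
    (h : ∀ k : ℕ, x ∈ IsLocalRing.maximalIdeal O ^ (k + 1)) : x = 0 := by
  have h1 : x ∈ ⨅ i : ℕ, IsLocalRing.maximalIdeal O ^ i := by
    rw [Ideal.mem_iInf]
    intro i
    exact Ideal.pow_le_pow_right (Nat.le_succ i) (h i)
  rw [Ideal.iInf_pow_eq_bot_of_isLocalRing _ (IsLocalRing.maximalIdeal.isMaximal O).ne_top] at h1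
  exact h1

end Adic

/-- An odd prime power is odd and at least three. -/
theorem h82_pow_odd {lam : ℕ} (hlam : lam.Prime) (hlam2 : lam ≠ 2) (k : ℕ) :
    lam ^ (k + 1) % 2 = 1 ∧ 3 ≤ lam ^ (k + 1) := by
  have hodd : Odd lam := hlam.odd_of_ne_two hlam2
  have h3 : 3 ≤ lam := by
    have := hlam.two_le
    omega
  refine ⟨Nat.odd_iff.mp hodd.pow, ?_⟩
  calc 3 ≤ lam := h3
    _ = lam ^ 1 := (pow_one lam).symm
    _ ≤ lam ^ (k + 1) := Nat.pow_le_pow_right (by omega) (by omega)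

section MatchThms

variable (E : WeierstrassCurve ℚ) [E.IsElliptic] {W : WeierstrassCurve ℤ}
  (hW : W.IsIntegralModelOf E) (hΔ : W.Δ ≠ 0)
  {O : Type} [CommRing O] [IsLocalRing O] [IsNoetherianRing O] (ρ : GaloisRepAdic O)
  (S : Finset ℕ)
  (hρ : ∀ ℓ : ℕ, ℓ.Prime → ℓ ∉ S → ∀ A : ValuationSubring Qb, A.LiesOverPrime ℓ →
    ∀ τ : Qb ≃ₐ[ℚ] Qb, A.IsFrobeniusAt τ ℓ →
      LinearMap.charpoly (ρ.ρ τ) = X ^ 2 - C ((W.apOfModel ℓ : ℤ) : O) * X + C ((ℓ : ℕ) : O))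
  (lam : ℕ) (hlam : lam.Prime) (hlam2 : lam ≠ 2)
  (hlamO : (lam : O) ∈ IsLocalRing.maximalIdeal O)
include hW hΔ hρ hlam hlam2 hlamO

/-- **MATCH.** A quadratic relation for `σ` on all `E[lam ^ (k + 1)]`, with constant term the
exponent of `σ` on the `lam`-power roots of unity, is the characteristic polynomial of `ρ(σ)`. -/
theorem h82_match (σ : Qb ≃ₐ[ℚ] Qb) (t : ℤ) (d : ℕ)
    (hrel : ∀ (k : ℕ)
      (P : Submodule.torsionBy ℤ (E.toAffine⁄Qb).Point ((lam ^ (k + 1) : ℕ) : ℤ)),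
      σ • σ • P - t • σ • P + (d : ℤ) • P = 0)
    (hcyc : ∀ (k : ℕ) (ζ : Qb), ζ ^ (lam ^ (k + 1)) = 1 → σ ζ = ζ ^ d) :
    LinearMap.charpoly (ρ.ρ σ) = X ^ 2 - C (t : O) * X + C (d : O) := by
  have key : ∀ k : ℕ,
      LinearMap.trace O ρ.V (ρ.ρ σ) - (t : O) ∈ IsLocalRing.maximalIdeal O ^ (k + 1) ∧
      LinearMap.det (ρ.ρ σ) - (d : O) ∈ IsLocalRing.maximalIdeal O ^ (k + 1) := by
    intro k
    obtain ⟨hodd, hm3⟩ := h82_pow_odd hlam hlam2 k
    have hm0 : 0 < lam ^ (k + 1) := by omega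
    obtain ⟨D, e, hrel', htr, hdet, hcyc'⟩ :=
      h82_transfer E hW hΔ ρ S hρ (lam ^ (k + 1)) hodd hm3 (k + 1) (lam ^ (k + 1)) hm0 σ
    obtain ⟨ζ, hζ⟩ := h82_exists_primitive_root (lam ^ (k + 1)) hm0
    have hζ1 : ζ ^ (lam ^ (k + 1)) = 1 := hζ.pow_eq_one
    have e3 : ζ ^ e = ζ ^ d := by rw [← hcyc' ζ hζ1, hcyc k ζ hζ1]
    have hed : ((lam ^ (k + 1) : ℕ) : ℤ) ∣ (e : ℤ) - (d : ℤ) := h82_dvd_of_pow_eq hm0 hζ e3
    have hDt : ((lam ^ (k + 1) : ℕ) : ℤ) ∣ D - t :=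
      h82_rel_compare E (lam ^ (k + 1)) hodd hm3 σ D t e d hrel' (hrel k) hed
    have h1 := h82_mem_pow_of_dvd (O := O) lam k hlamO _ hDt
    have h2 := h82_mem_pow_of_dvd (O := O) lam k hlamO _ hed
    push_cast at h1 h2
    constructor
    · have := Ideal.add_mem _ htr h1
      rwa [sub_add_sub_cancel] at this
    · have := Ideal.add_mem _ hdet h2
      rwa [sub_add_sub_cancel] at this
  have h1 := h82_eq_zero_of_forall_mem _ (fun k => (key k).1)
  have h2 := h82_eq_zero_of_forall_mem _ (fun k => (key k).2)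
  rw [h82_charpoly_rank_two ρ.finrank_eq (ρ.ρ σ), sub_eq_zero.mp h1, sub_eq_zero.mp h2]

/-- **MATCH-FIX.** If `σ` fixes a point of exact order `lam ^ (k + 1)` and the
`lam ^ (k + 1)`-th roots of unity for every `k`, then `ρ(σ)` is unipotent. -/
theorem h82_match_fix (σ : Qb ≃ₐ[ℚ] Qb)
    (hfix : ∀ k : ℕ, ∃ P : (E.toAffine⁄Qb).Point,
      lam ^ (k + 1) • P = 0 ∧ lam ^ k • P ≠ 0 ∧ σ • P = P)
    (hcyc : ∀ (k : ℕ) (ζ : Qb), ζ ^ (lam ^ (k + 1)) = 1 → σ ζ = ζ) :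
    LinearMap.charpoly (ρ.ρ σ) = (X - 1) ^ 2 := by
  have key : ∀ k : ℕ,
      LinearMap.trace O ρ.V (ρ.ρ σ) - (2 : O) ∈ IsLocalRing.maximalIdeal O ^ (k + 1) ∧
      LinearMap.det (ρ.ρ σ) - (1 : O) ∈ IsLocalRing.maximalIdeal O ^ (k + 1) := by
    intro k
    obtain ⟨hodd, hm3⟩ := h82_pow_odd hlam hlam2 k
    have hm0 : 0 < lam ^ (k + 1) := by omega
    obtain ⟨D, e, hrel', htr, hdet, hcyc'⟩ :=
      h82_transfer E hW hΔ ρ S hρ (lam ^ (k + 1)) hodd hm3 (k + 1) (lam ^ (k + 1)) hm0 σ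
    obtain ⟨ζ, hζ⟩ := h82_exists_primitive_root (lam ^ (k + 1)) hm0
    have hζ1 : ζ ^ (lam ^ (k + 1)) = 1 := hζ.pow_eq_one
    have e3 : ζ ^ e = ζ ^ 1 := by rw [← hcyc' ζ hζ1, hcyc k ζ hζ1, pow_one]
    have hed : ((lam ^ (k + 1) : ℕ) : ℤ) ∣ (e : ℤ) - ((1 : ℕ) : ℤ) := h82_dvd_of_pow_eq hm0 hζ e3
    -- the fixed point of exact order `lam ^ (k + 1)`
    obtain ⟨P, hP1, hP2, hP3⟩ := hfix k
    have hPmem : P ∈ Submodule.torsionBy ℤ (E.toAffine⁄Qb).Point ((lam ^ (k + 1) : ℕ) : ℤ) := by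
      rw [Submodule.mem_torsionBy_iff, natCast_zsmul]
      exact hP1
    have r := congrArg Subtype.val (hrel' ⟨P, hPmem⟩)
    have r' : σ • σ • P - D • σ • P + (e : ℤ) • P = 0 := r
    rw [hP3, hP3] at r'
    have r2 : ((1 : ℤ) - D + (e : ℤ)) • P = 0 := by
      rw [add_zsmul, sub_zsmul, one_zsmul]
      exact r'
    have : Fact lam.Prime := ⟨hlam⟩
    have hord : addOrderOf P = lam ^ (k + 1) := addOrderOf_eq_prime_pow hP2 hP1
    have hdvd : ((lam ^ (k + 1) : ℕ) : ℤ) ∣ (1 : ℤ) - D + (e : ℤ) := by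
      rw [← hord]
      exact (addOrderOf_dvd_iff_zsmul_eq_zero).mpr r2
    have hD2 : ((lam ^ (k + 1) : ℕ) : ℤ) ∣ D - 2 := by
      have e1 : D - 2 = ((e : ℤ) - ((1 : ℕ) : ℤ)) - ((1 : ℤ) - D + (e : ℤ)) := by push_cast; ring
      rw [e1]
      exact dvd_sub hed hdvd
    have h1 := h82_mem_pow_of_dvd (O := O) lam k hlamO _ hD2
    have h2 := h82_mem_pow_of_dvd (O := O) lam k hlamO _ hed
    push_cast at h1 h2
    constructor
    · have := Ideal.add_mem _ htr h1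
      rwa [sub_add_sub_cancel] at this
    · have := Ideal.add_mem _ hdet h2
      rwa [sub_add_sub_cancel] at this
  have h1 := h82_eq_zero_of_forall_mem _ (fun k => (key k).1)
  have h2 := h82_eq_zero_of_forall_mem _ (fun k => (key k).2)
  rw [h82_charpoly_rank_two ρ.finrank_eq (ρ.ρ σ), sub_eq_zero.mp h1, sub_eq_zero.mp h2]
  simp only [map_ofNat, map_one]
  ring

end MatchThms

end Fermat.Agent.S58
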