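import Mathlib
import Fermat.Agent.S35.h67_SMO
import Fermat.Agent.S58.h82_Match

/-!
# S58, row R6 (step (B)): the coefficients at ALL good primes

`g` a normalised weight-2 eigenform of level `M` whose prime coefficients are the integers
`a ℓ'` outside a finite set `S`.  For a prime `ℓ ∤ M` (possibly in `S`) and an auxiliary prime
`p ≠ ℓ`: if for every `n` the "curve side" provides, for every finite level `L₀` and every
finite set of primes, a Frobenius element `τ` at some `ℓ'` outside the set with `τ ^ b = σ` on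
`L₀` (`σ` a Frobenius element at `ℓ`) and `p ^ (n + 1) ∣ D_b(a ℓ', ℓ') - a ℓ`, then
`a_ℓ(g) = a ℓ`.

Mechanism = `S35/h67_SMOCore` with the second eigenform replaced by the curve side: at level
`n + 1` of the Hecke lattice `T_ℓ - D_b(T_ℓ', ℓ')` is divisible by `p ^ (n + 1)`
(`h67_level_congr`), so `(a_ℓ(g) - D_b(a ℓ', ℓ')) / p ^ (n + 1)` is an algebraic integer
(`h67_int_of_div`); adding the integer `(D_b(a ℓ', ℓ') - a ℓ) / p ^ (n + 1)` shows that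
`(a_ℓ(g) - a ℓ) / p ^ (n + 1)` is an algebraic integer for all `n`, hence zero (`h67_int0`).
-/

set_option autoImplicit false

open Polynomial CongruenceSubgroup ModularFormClass WeierstrassCurve WeierstrassCurve.Affine

namespace Fermat.Agent.S58

open Fermat.Agent.GAL Fermat.Agent.S35

local notation "Qb" => AlgebraicClosure ℚ

/-- The Dickson value at integers, as a complex number. -/
theorem h24_aeval_dickson (t d : ℤ) (b : ℕ) :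
    aeval ((t : ℤ) : ℂ) (Polynomial.dickson 1 d b) = ((h82_D t d b : ℤ) : ℂ) := by
  unfold h82_D
  have h := Polynomial.aeval_algebraMap_apply (A := ℤ) ℂ t (Polynomial.dickson 1 d b)
  have e1 : (algebraMap ℤ ℂ) t = ((t : ℤ) : ℂ) := rfl
  rw [e1] at h
  rw [h]
  rfl

/-- **R6, core.** -/
theorem h24_coeff_good_core {M : ℕ} [NeZero M] {g : CuspForm (Gamma0 M) 2}
    (hg : g.IsNormalizedEigenform) (a : ℕ → ℤ) (S : Finset ℕ)
    (hS : ∀ ℓ : ℕ, ℓ.Prime → ℓ ∉ S → qCoeff g ℓ = (a ℓ : ℂ))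
    (ℓ : ℕ) (hℓ : ℓ.Prime) (hℓM : ¬ ℓ ∣ M) (p : ℕ) (hp : p.Prime) (hpℓ : p ≠ ℓ)
    (A : ValuationSubring Qb) (hA : A.LiesOverPrime ℓ) (σ : Qb ≃ₐ[ℚ] Qb)
    (hσ : A.IsFrobeniusAt σ ℓ)
    (hW : ∀ (n : ℕ) (S' : Finset ℕ) (L₀ : IntermediateField ℚ Qb), FiniteDimensional ℚ L₀ →
      ∃ (ℓ' : ℕ) (A' : ValuationSubring Qb) (τ : Qb ≃ₐ[ℚ] Qb) (b : ℕ),
        ℓ'.Prime ∧ ℓ' ∉ S' ∧ A'.LiesOverPrime ℓ' ∧ A'.IsFrobeniusAt τ ℓ' ∧
        (∀ x ∈ L₀, (τ ^ b) x = σ x) ∧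
        ((p ^ (n + 1) : ℕ) : ℤ) ∣ h82_D (a ℓ') ℓ' b - a ℓ) :
    qCoeff g ℓ = (a ℓ : ℂ) := by
  classical
  set S0 : Finset ℕ := M.primeFactors ∪ {p} with hS0
  have hpS0 : p ∈ S0 := by simp [hS0]
  have hMS0 : ∀ q : ℕ, q.Prime → q ∣ M → q ∈ (↑S0 : Set ℕ) := by
    intro q hq hqM
    have : q ∈ M.primeFactors := Nat.mem_primeFactors.mpr ⟨hq, hqM, NeZero.ne M⟩
    simp [hS0, this]
  have hmemS0 : ∀ q : ℕ, q ∈ S0 → q ∣ M ∨ q = p := by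
    intro q hq
    simp only [hS0, Finset.mem_union, Finset.mem_singleton, Nat.mem_primeFactors] at hq
    rcases hq with h | h
    · exact Or.inl h.2.1
    · exact Or.inr h
  have hℓS0 : ℓ ∉ (↑S0 : Set ℕ) := by
    intro h
    rcases hmemS0 ℓ (Finset.mem_coe.mp h) with h | h
    · exact hℓM h
    · exact hpℓ h.symm
  have hpC : (p : ℂ) ≠ 0 := by exact_mod_cast hp.ne_zero
  have key : ∀ n : ℕ, IsIntegral ℤ ((qCoeff g ℓ - (a ℓ : ℂ)) / (p : ℂ) ^ (n + 1)) := by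
    intro n
    obtain ⟨L1, hL1fin, -, hL1⟩ := h67_level_congr hp hpS0 (h65_iota M (↑S0 : Set ℕ) hMS0)
      (n + 1) (h67_levels p M S0 hp hpS0 hMS0 (n + 1))
    obtain ⟨ℓ', A', τ, b, hℓ', hℓ'S, hA', hτ, hag, hdvd⟩ := hW n (S ∪ S0) L1 hL1fin
    have hℓ'S1 : ℓ' ∉ S := fun h => hℓ'S (Finset.mem_union_left _ h)
    have hℓ'S0 : ℓ' ∉ (↑S0 : Set ℕ) :=
      fun h => hℓ'S (Finset.mem_union_right _ (Finset.mem_coe.mp h))
    have hℓ'M : ¬ ℓ' ∣ M := fun h => hℓ'S0 (hMS0 ℓ' hℓ' h)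
    have hpn : 0 < p ^ (n + 1) := pow_pos hp.pos (n + 1)
    have d1 := hL1 ℓ hℓ hℓM hℓS0 A hA σ hσ ℓ' hℓ' hℓ'M hℓ'S0 A' hA' τ hτ b hag
    have i1 := h67_int_of_div M (↑S0 : Set ℕ) hMS0 _ (p ^ (n + 1)) hpn
      (fun v => by obtain ⟨y, hy⟩ := d1 v; exact ⟨y, by rw [hy]; push_cast; rfl⟩)
      g hg.ne_zero _ (h67_eig_diff hg hℓ hℓM hℓS0 hℓ' hℓ'M hℓ'S0 _)
    rw [hS ℓ' hℓ' hℓ'S1, h24_aeval_dickson] at i1
    obtain ⟨z, hz⟩ := hdvd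
    have hzC : ((h82_D (a ℓ') ℓ' b : ℤ) : ℂ) - (a ℓ : ℂ) = ((p ^ (n + 1) : ℕ) : ℂ) * (z : ℂ) := by
      have := congrArg (fun t : ℤ => (t : ℂ)) hz
      simpa using this
    have e : (qCoeff g ℓ - (a ℓ : ℂ)) / (p : ℂ) ^ (n + 1) =
        (qCoeff g ℓ - ((h82_D (a ℓ') ℓ' b : ℤ) : ℂ)) / ((p ^ (n + 1) : ℕ) : ℂ) + (z : ℂ) := by
      have hpnC : ((p ^ (n + 1) : ℕ) : ℂ) ≠ 0 := by exact_mod_cast hpn.ne'
      have h1 : (p : ℂ) ^ (n + 1) = ((p ^ (n + 1) : ℕ) : ℂ) := by push_cast; rfl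
      rw [h1]
      field_simp
      linear_combination hzC
    rw [e]
    exact i1.add (isIntegral_algebraMap (R := ℤ) (A := ℂ) (x := z))
  have key' : ∀ n : ℕ, IsIntegral ℤ ((qCoeff g ℓ - (a ℓ : ℂ)) / (p : ℂ) ^ n) := by
    intro n
    have e : (qCoeff g ℓ - (a ℓ : ℂ)) / (p : ℂ) ^ n =
        ((p : ℤ) : ℂ) * ((qCoeff g ℓ - (a ℓ : ℂ)) / (p : ℂ) ^ (n + 1)) := by
      push_cast
      field_simp
      ring
    rw [e]
    exact (isIntegral_algebraMap (R := ℤ) (A := ℂ) (x := (p : ℤ))).mul (key n)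
  have := h67_int0 p hp.two_le _ key'
  exact sub_eq_zero.mp this

/-- **R6 = step (B)**: the coefficient of `g` at a prime `ℓ ∤ M` at which the Frobenius
relation of `W` holds on all `E[p ^ (k + 1)]` is `a_ℓ(W)`, as soon as the prime coefficients
of `g` are those of `W` outside a finite set.  (Statement = `h82_CoeffStmt` of
`S58/h82_Top.lean`.) -/
theorem h24_coeff_good {M : ℕ} [NeZero M] {g : CuspForm (Gamma0 M) 2}
    (hg : g.IsNormalizedEigenform) (W : WeierstrassCurve ℤ) (hΔ : W.Δ ≠ 0)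
    (S : Finset ℕ) (hS : ∀ ℓ : ℕ, ℓ.Prime → ℓ ∉ S → qCoeff g ℓ = (W.apOfModel ℓ : ℂ))
    (ℓ : ℕ) (hℓ : ℓ.Prime) (hℓM : ¬ ℓ ∣ M) (p : ℕ) (hp : p.Prime) (hp2 : p ≠ 2) (hpℓ : p ≠ ℓ)
    (hfrob : ∀ (k : ℕ) (A : ValuationSubring Qb), A.LiesOverPrime ℓ → ∀ σ : Qb ≃ₐ[ℚ] Qb,
      A.IsFrobeniusAt σ ℓ →
      ∀ P : Submodule.torsionBy ℤ ((W.map (Int.castRingHom ℚ)).toAffine⁄Qb).Point
          ((p ^ (k + 1) : ℕ) : ℤ),
        σ • σ • P - W.apOfModel ℓ • σ • P + (ℓ : ℤ) • P = 0) :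
    qCoeff g ℓ = (W.apOfModel ℓ : ℂ) := by
  have hE := h82_isElliptic W hΔ
  obtain ⟨A, σ, hA, hσ⟩ := Fermat.Agent.S54.exists_isFrobeniusAt ℓ hℓ
  refine h24_coeff_good_core hg (fun ℓ' => W.apOfModel ℓ') S hS ℓ hℓ hℓM p hp hpℓ A hA σ hσ ?_
  intro n S' L₀ hL₀
  have hpodd : p % 2 = 1 := by
    rcases hp.eq_two_or_odd with h | h
    · exact absurd h hp2
    · exact h
  have hodd : p ^ (n + 1) % 2 = 1 := by
    rw [Nat.pow_mod, hpodd, one_pow]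
    rfl
  have hp3 : 3 ≤ p := by
    have := hp.two_le
    omega
  have hm3 : 3 ≤ p ^ (n + 1) := by
    calc 3 ≤ p := hp3
      _ = p ^ 1 := (pow_one p).symm
      _ ≤ p ^ (n + 1) := Nat.pow_le_pow_right hp.pos (by omega)
  have hℓpn : ¬ ℓ ∣ p ^ (n + 1) := fun h =>
    hpℓ ((Nat.prime_dvd_prime_iff_eq hℓ hp).mp (hℓ.dvd_of_dvd_pow h)).symm
  obtain ⟨ℓ', A', τ, b, h1, h2, h3, h4, h5, h6, -⟩ :=
    h82_frob_congr_W (W.map (Int.castRingHom ℚ)) (h82_isIntegralModelOf W) hΔ (p ^ (n + 1))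
      hodd hm3 σ (W.apOfModel ℓ) ℓ (hfrob n A hA σ hσ)
      (fun ζ hζ => h65_frob_root A hℓ hA hσ hℓpn hζ) S' L₀ hL₀
  exact ⟨ℓ', A', τ, b, h1, h2, h3, h4, h5, h6⟩

end Fermat.Agent.S58
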