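import Mathlib

/-!
# S58, row R1 (E-UNIP / FIX): the generic group-theoretic count

`E` an abelian group (the points), `E0` a subgroup (the points with nonsingular reduction),
`p` a prime.  If `E[p]`, `E[p^k]`, `E[p^(k+1)]` have `p²`, `p^(2k)`, `p^(2k+2)` elements and the
`p`-torsion of `E / E0` has at most `p` elements (in the form: among any `p + 1` points `S` with
`p • S ∈ E0` two are congruent modulo `E0`), then `E0` contains a point of EXACT order
`p^(k+1)`.

(`G = E[p^(k+1)]`, `H = G ∩ E0`; if `H ≤ E[p^k] = pG` then the preimage `B` of `H` under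
multiplication by `p` on `G` has index `p²` over `H`, and `B / H` injects into `(E / E0)[p]`.)
-/

set_option autoImplicit false

namespace Fermat.Agent.S58

theorem h26_un2_count_gen {E : Type*} [AddCommGroup E] (E0 : AddSubgroup E) (p : ℕ)
    (hp : p.Prime) (k : ℕ)
    (hc1 : Nat.card {T : E // p • T = 0} = p ^ 2)
    (hck : Nat.card {T : E // p ^ k • T = 0} = p ^ (2 * k))
    (hck1 : Nat.card {T : E // p ^ (k + 1) • T = 0} = p ^ (2 * (k + 1)))
    (hQ : ∀ f : Fin (p + 1) → E, (∀ i, p • f i ∈ E0) → ∃ i j, i ≠ j ∧ f i - f j ∈ E0) :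
    ∃ T : E, p ^ (k + 1) • T = 0 ∧ p ^ k • T ≠ 0 ∧ T ∈ E0 := by
  classical
  by_contra hcon
  push Not at hcon
  have hp0 : 0 < p := hp.pos
  let Tn : ℕ → AddSubgroup E := fun n => (nsmulAddMonoidHom n : E →+ E).ker
  have hTn : ∀ (n : ℕ) (x : E), x ∈ Tn n ↔ n • x = 0 := fun n x => Iff.rfl
  have hcard : ∀ n : ℕ, Nat.card (Tn n) = Nat.card {T : E // n • T = 0} := fun n =>
    Nat.card_congr (Equiv.subtypeEquivRight (fun x => hTn n x))
  let G : AddSubgroup E := Tn (p ^ (k + 1))
  have hG : Nat.card G = p ^ (2 * (k + 1)) := (hcard _).trans hck1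
  have hfin : Finite G := Nat.finite_of_card_ne_zero (by rw [hG]; positivity)
  have hT1G : Tn p ≤ G := by
    intro x hx
    rw [hTn] at hx
    show p ^ (k + 1) • x = 0
    rw [pow_succ, mul_smul, hx, smul_zero]
  have hTkG : Tn (p ^ k) ≤ G := by
    intro x hx
    rw [hTn] at hx
    show p ^ (k + 1) • x = 0
    rw [pow_succ', mul_smul, hx, smul_zero]
  let ψ : G →+ G := nsmulAddMonoidHom p
  have hψ : ∀ x : G, ((ψ x : G) : E) = p • (x : E) := fun x => rfl
  have hkerψ : ψ.ker = (Tn p).addSubgroupOf G := by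
    ext x
    rw [AddMonoidHom.mem_ker, AddSubgroup.mem_addSubgroupOf, hTn, ← hψ, Subtype.ext_iff]
    rfl
  have hcardker : Nat.card ψ.ker = p ^ 2 := by
    rw [hkerψ, Nat.card_congr (AddSubgroup.addSubgroupOfEquivOfLe hT1G).toEquiv, hcard, hc1]
  have hrange_le : ψ.range ≤ (Tn (p ^ k)).addSubgroupOf G := by
    rintro _ ⟨x, rfl⟩
    rw [AddSubgroup.mem_addSubgroupOf, hTn, hψ, ← mul_smul, ← pow_succ]
    exact (hTn _ _).mp x.2
  have hcardrange : Nat.card ψ.range = p ^ (2 * k) := by
    have h1 := AddSubgroup.card_mul_index ψ.ker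
    rw [AddSubgroup.index_ker, hcardker, hG] at h1
    have h2 : p ^ (2 * (k + 1)) = p ^ 2 * p ^ (2 * k) := by ring
    rw [h2] at h1
    exact Nat.eq_of_mul_eq_mul_left (by positivity) h1
  have hrange : ψ.range = (Tn (p ^ k)).addSubgroupOf G := by
    refine AddSubgroup.eq_of_le_of_card_ge hrange_le ?_
    rw [hcardrange, Nat.card_congr (AddSubgroup.addSubgroupOfEquivOfLe hTkG).toEquiv, hcard, hck]
  let H' : AddSubgroup G := E0.addSubgroupOf G
  have hH'le : H' ≤ ψ.range := by
    rw [hrange]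
    intro x hx
    rw [AddSubgroup.mem_addSubgroupOf] at hx ⊢
    rw [hTn]
    by_contra hne
    exact hcon (x : E) ((hTn _ _).mp x.2) hne hx
  let B : AddSubgroup G := H'.comap ψ
  have hH'B : H' ≤ B := by
    intro x hx
    rw [AddSubgroup.mem_comap]
    exact H'.nsmul_mem hx p
  have hidx_range : ψ.range.index = p ^ 2 := by
    have h1 := AddSubgroup.card_mul_index ψ.range
    rw [hcardrange, hG] at h1
    have h2 : p ^ (2 * (k + 1)) = p ^ (2 * k) * p ^ 2 := by ring
    rw [h2] at h1
    exact Nat.eq_of_mul_eq_mul_left (by positivity) h1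
  have hBidx : B.index = H'.relIndex ψ.range := AddSubgroup.index_comap H' ψ
  have h2 : H'.relIndex ψ.range * p ^ 2 = H'.index := by
    rw [← hidx_range]
    exact AddSubgroup.relIndex_mul_index hH'le
  have h3 : H'.relIndex B * B.index = H'.index := AddSubgroup.relIndex_mul_index hH'B
  have hBidx0 : B.index ≠ 0 := AddSubgroup.index_ne_zero_of_finite
  have h4 : H'.relIndex B = p ^ 2 := by
    rw [hBidx] at h3 hBidx0
    rw [← h2, mul_comm] at h3
    exact Nat.eq_of_mul_eq_mul_left (Nat.pos_of_ne_zero hBidx0) h3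
  have hcardq : Nat.card (B ⧸ H'.addSubgroupOf B) = p ^ 2 := by
    rw [← AddSubgroup.index_eq_card]
    exact h4
  have hfinq : Finite (B ⧸ H'.addSubgroupOf B) :=
    Nat.finite_of_card_ne_zero (by rw [hcardq]; positivity)
  have _ := Fintype.ofFinite (B ⧸ H'.addSubgroupOf B)
  have hle : Fintype.card (Fin (p + 1)) ≤ Fintype.card (B ⧸ H'.addSubgroupOf B) := by
    rw [Fintype.card_fin, ← Nat.card_eq_fintype_card, hcardq]
    nlinarith [hp.two_le]
  obtain ⟨e⟩ := Function.Embedding.nonempty_of_card_le hle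
  obtain ⟨i, j, hij, hmem⟩ := hQ (fun i => (((Quotient.out (e i) : B) : G) : E)) (fun i => by
    have hB := (Quotient.out (e i) : B).2
    exact hB)
  apply hij
  apply e.injective
  rw [← Quotient.out_eq (e i), ← Quotient.out_eq (e j)]
  refine QuotientAddGroup.eq.mpr ?_
  rw [AddSubgroup.mem_addSubgroupOf, AddSubgroup.mem_addSubgroupOf]
  have h5 := E0.neg_mem hmem
  rw [neg_sub, sub_eq_neg_add] at h5
  exact h5

end Fermat.Agent.S58
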