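import Mathlib
import Fermat.Agent.S13.h99_NodeLevel
import Fermat.Agent.S58.h26_Un2Gen

/-!
# S58, row R1 (FIX), sub-row (R1-b): the count on the split nodal form `Y² + d X Y = X³ + c X`

S13 language (`h45_nodalW d c`, `v(d) = 1`, `0 < v(c) < 1`, ANY residue characteristic), `p` an odd
prime.

* `h26_un2_inM_odd`  : an odd multiple of a point of the middle component reduces to the node;
* `h26_un2_classes`  : among `p + 1` points `S` with `p • S ∈ E₀` two are congruent modulo `E₀`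
  (labels `0`, `± j`, `0 < 2 j < p`, from the level lemma `h99_level`);
* `h26_un2_count`    : if `E[p]`, `E[p^k]`, `E[p^(k+1)]` have `p²`, `p^(2k)`, `p^(2k+2)` elements,
  there is a point of EXACT order `p^(k+1)` with nonsingular reduction.
-/

set_option autoImplicit false

namespace Fermat.Agent.S58

open WeierstrassCurve Fermat.Agent.S13

variable {K : Type*} [Field K] [DecidableEq K] (A : ValuationSubring K) (d c : K)

/-- No odd multiple of a point of the middle component lies in `E₀`. -/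
theorem h26_un2_inM_odd (hd : A.valuation d = 1) (hc : A.valuation c < 1) (hc0 : c ≠ 0)
    {T : (h45_nodalW d c).toAffine.Point} (hT : h45_InM d c A T) {n : ℕ} (hn : Odd n) :
    h45_IsN d c A (n • T) := by
  by_contra hcon
  have h1 : T + h99_T0 d c hc0 ∈ h99_E0 A d c hd hc := h99_inM_add_T0 A d c hc0 hT
  have h2 : n • (T + h99_T0 d c hc0) ∈ h99_E0 A d c hd hc :=
    (h99_E0 A d c hd hc).nsmul_mem h1 n
  have h3 : n • T ∈ h99_E0 A d c hd hc := hcon
  obtain ⟨j, rfl⟩ := hn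
  have h4 : (2 * j + 1) • h99_T0 d c hc0 = h99_T0 d c hc0 := by
    rw [add_smul, mul_comm, mul_smul, two_smul, h99_T0_add_T0, smul_zero, one_smul, zero_add]
  rw [smul_add, h4] at h2
  have h5 := (h99_E0 A d c hd hc).sub_mem h2 h3
  rw [add_sub_cancel_left] at h5
  exact h5 (h99_isN_T0 A d c hc0)

/-- **The `p`-torsion of `E / E₀` has at most `p` elements.** -/
theorem h26_un2_classes (hd : A.valuation d = 1) (hc : A.valuation c < 1) (hc0 : c ≠ 0)
    (p : ℕ) (hp : p.Prime) (hp2 : p ≠ 2)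
    (f : Fin (p + 1) → (h45_nodalW d c).toAffine.Point)
    (hf : ∀ i, ¬ h45_IsN d c A (p • f i)) :
    ∃ i j, i ≠ j ∧ ¬ h45_IsN d c A (f i - f j) := by
  classical
  have hvc0 : A.valuation c ≠ 0 := (Valuation.ne_zero_iff _).mpr hc0
  have hvcpos : 0 < A.valuation c := lt_of_le_of_ne zero_le (Ne.symm hvc0)
  have hp0 : p ≠ 0 := hp.ne_zero
  have hodd : Odd p := hp.odd_of_ne_two hp2
  obtain ⟨m, hm⟩ : ∃ m, p = 2 * m + 1 := hodd
  let L : (h45_nodalW d c).toAffine.Point → ℤ → Prop := fun T z =>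
    (z = 0 ∧ ¬ h45_IsN d c A T) ∨
    (∃ (g : A.ValueGroup) (k : ℕ), 0 < k ∧ z = k ∧ h45_InC d c A g T ∧
      g ^ p = A.valuation c ^ (2 * k)) ∨
    (∃ (g : A.ValueGroup) (k : ℕ), 0 < k ∧ z = -(k : ℤ) ∧ h45_InC d c A g (-T) ∧
      g ^ p = A.valuation c ^ (2 * k))
  have hk_bd : ∀ (g : A.ValueGroup) (k : ℕ), A.valuation c < g → g < 1 →
      g ^ p = A.valuation c ^ (2 * k) → 0 < k ∧ k ≤ m := by
    intro g k hbg hg1 hgk
    constructor
    · rcases Nat.eq_zero_or_pos k with h0 | h0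
      · exfalso
        rw [h0, mul_zero, pow_zero] at hgk
        exact absurd hgk (pow_lt_one₀ zero_le hg1 hp0).ne
      · exact h0
    · have h1 : A.valuation c ^ p < g ^ p := pow_lt_pow_left₀ hbg zero_le hp0
      rw [hgk] at h1
      have h2' : 2 * k < p := (pow_lt_pow_iff_right_of_lt_one₀ hvcpos hc).mp h1
      omega
  have hbounds : ∀ (g : A.ValueGroup) (T : (h45_nodalW d c).toAffine.Point),
      h45_InC d c A g T → A.valuation c < g ∧ g < 1 := by
    rintro g T ⟨_, _, _, -, -, h1, h2, -⟩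
    exact ⟨h1, h2⟩
  have hlabel : ∀ i, ∃ z : ℤ, z ∈ Finset.Icc (-(m : ℤ)) m ∧ L (f i) z := by
    intro i
    by_cases hN : h45_IsN d c A (f i)
    · rcases h99_trichotomy A d c hN with ⟨g, hC⟩ | ⟨g, hC⟩ | hM
      · obtain ⟨k, hk⟩ := h99_level A d c hd hc hc0 hC p (hf i)
        obtain ⟨hbg, hg1⟩ := hbounds g _ hC
        obtain ⟨hk0, hkm⟩ := hk_bd g k hbg hg1 hk
        exact ⟨k, by rw [Finset.mem_Icc]; omega, Or.inr (Or.inl ⟨g, k, hk0, rfl, hC, hk⟩)⟩
      · have hneg : ¬ h45_IsN d c A (p • -f i) := by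
          rw [smul_neg, h99_isN_neg_iff]
          exact hf i
        obtain ⟨k, hk⟩ := h99_level A d c hd hc hc0 hC p hneg
        obtain ⟨hbg, hg1⟩ := hbounds g _ hC
        obtain ⟨hk0, hkm⟩ := hk_bd g k hbg hg1 hk
        exact ⟨-(k : ℤ), by rw [Finset.mem_Icc]; omega,
          Or.inr (Or.inr ⟨g, k, hk0, rfl, hC, hk⟩)⟩
      · exact absurd (h26_un2_inM_odd A d c hd hc hc0 hM (hp.odd_of_ne_two hp2)) (hf i)
    · exact ⟨0, by rw [Finset.mem_Icc]; omega, Or.inl ⟨rfl, hN⟩⟩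
  choose lab hlab using hlabel
  have hsame : ∀ (T T' : (h45_nodalW d c).toAffine.Point) (z : ℤ), L T z → L T' z →
      ¬ h45_IsN d c A (T - T') := by
    intro T T' z hL hL'
    rcases hL with ⟨hz, hN⟩ | ⟨g, k, hk0, hz, hC, hgk⟩ | ⟨g, k, hk0, hz, hC, hgk⟩
    · rcases hL' with ⟨-, hN'⟩ | ⟨g', k', hk0', hz', -, -⟩ | ⟨g', k', hk0', hz', -, -⟩
      · exact (h99_mem_E0_iff A d c hd hc).mp
          ((h99_E0 A d c hd hc).sub_mem ((h99_mem_E0_iff A d c hd hc).mpr hN)
            ((h99_mem_E0_iff A d c hd hc).mpr hN'))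
      · omega
      · omega
    · rcases hL' with ⟨hz', -⟩ | ⟨g', k', hk0', hz', hC', hgk'⟩ | ⟨g', k', hk0', hz', -, -⟩
      · omega
      · have hkk : k = k' := by omega
        subst hkk
        have hgg : g = g' := (pow_left_inj₀ zero_le zero_le hp0).mp (hgk.trans hgk'.symm)
        subst hgg
        exact h99_inC_sub_not_isN A d c hd hC hC'
      · omega
    · rcases hL' with ⟨hz', -⟩ | ⟨g', k', hk0', hz', -, -⟩ | ⟨g', k', hk0', hz', hC', hgk'⟩
      · omega
      · omega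
      · have hkk : k = k' := by omega
        subst hkk
        have hgg : g = g' := (pow_left_inj₀ zero_le zero_le hp0).mp (hgk.trans hgk'.symm)
        subst hgg
        have h3 := h99_inC_sub_not_isN A d c hd hC hC'
        have e : -T - -T' = -(T - T') := by abel
        rw [e, h99_isN_neg_iff] at h3
        exact h3
  have hcard' : (Finset.Icc (-(m : ℤ)) m).card <
      (Finset.univ : Finset (Fin (p + 1))).card := by
    rw [Finset.card_univ, Fintype.card_fin, Int.card_Icc]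
    omega
  obtain ⟨x, -, y, -, hxy, hfxy⟩ := Finset.exists_ne_map_eq_of_card_lt_of_maps_to hcard'
    (fun i _ => (hlab i).1)
  exact ⟨x, y, hxy, hsame (f x) (f y) (lab x) (hlab x).2 (hfxy ▸ (hlab y).2)⟩

/-- **(R1-b), (COUNT_k) on the split nodal form.** -/
theorem h26_un2_count (hd : A.valuation d = 1) (hc : A.valuation c < 1) (hc0 : c ≠ 0)
    (p : ℕ) (hp : p.Prime) (hp2 : p ≠ 2) (k : ℕ)
    (hc1 : Nat.card {T : (h45_nodalW d c).toAffine.Point // p • T = 0} = p ^ 2)
    (hck : Nat.card {T : (h45_nodalW d c).toAffine.Point // p ^ k • T = 0} = p ^ (2 * k))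
    (hck1 : Nat.card {T : (h45_nodalW d c).toAffine.Point // p ^ (k + 1) • T = 0} =
      p ^ (2 * (k + 1))) :
    ∃ T : (h45_nodalW d c).toAffine.Point,
      p ^ (k + 1) • T = 0 ∧ p ^ k • T ≠ 0 ∧ ¬ h45_IsN d c A T :=
  h26_un2_count_gen (h99_E0 A d c hd hc) p hp k hc1 hck hck1
    (fun f hf => h26_un2_classes A d c hd hc hc0 p hp hp2 f hf)

end Fermat.Agent.S58
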