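import Mathlib
import Fermat.Agent.S13.h45_NodalDefs

/-!
# S58, row R1 (FIX), sub-row (R1-d): the split nodal model at a place of residue characteristic 2

`K` algebraically closed, `A` a valuation subring with `v(2) < 1`, `2 ≠ 0`.  A Weierstrass curve
`W` over `K` with integral coefficients, `v(a₁) = 1` and `0 ≠ Δ`, `v(Δ) < 1` is carried by a
variable change `C = (u = 1, r, s, t)` with `r, s, t ∈ A` to the split nodal form
`Y² + d X Y = X³ + c X` (`h45_nodalW d c`) with `v(d) = 1`, `v(c) < 1`, `c ≠ 0`: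

* `r` an INTEGRAL root of the `2`-division cubic `4x³ + b₂x² + 2b₄x + b₆` (`v(b₂) = 1`);
* `t = -(a₁ r + a₃)/2`, integral because it is a root of the monic `y`-equation at `x = r`;
* `s` a root of `s² + a₁ s - (a₂ + 3r)`.
-/

set_option autoImplicit false

namespace Fermat.Agent.S58

open WeierstrassCurve Fermat.Agent.S13

section gen

variable {K : Type*} [Field K] (A : ValuationSubring K)

/-- A root of a monic quadratic with integral coefficients is integral. -/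
lemma h26_un2_quad_mem {β γ x : K} (hβ : β ∈ A) (hγ : γ ∈ A) (hx : x ^ 2 + β * x + γ = 0) :
    x ∈ A := by
  rw [← A.valuation_le_one_iff] at hβ hγ ⊢
  by_contra h
  rw [not_le] at h
  have h1 : x ^ 2 = -(β * x + γ) := by linear_combination hx
  have h3 : A.valuation (β * x + γ) ≤ A.valuation x := by
    refine le_trans (A.valuation.map_add _ _) (max_le ?_ (hγ.trans h.le))
    rw [map_mul]
    exact mul_le_of_le_one_left' hβ
  have h4 : A.valuation x < A.valuation x ^ 2 := lt_self_pow₀ h (by norm_num)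
  rw [← map_pow, h1, Valuation.map_neg] at h4
  exact absurd h3 (not_le.mpr h4)

/-- A monic quadratic has a root in an algebraically closed field. -/
lemma h26_un2_exists_quad_root [IsAlgClosed K] (β γ : K) : ∃ x : K, x ^ 2 + β * x + γ = 0 := by
  have hdeg : (Polynomial.X ^ 2 + Polynomial.C β * Polynomial.X + Polynomial.C γ :
      Polynomial K).degree ≠ 0 := by
    have : (Polynomial.X ^ 2 + Polynomial.C β * Polynomial.X + Polynomial.C γ :
      Polynomial K).degree = 2 := by compute_degree!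
    rw [this]
    norm_num
  obtain ⟨x, hx⟩ := IsAlgClosed.exists_root _ hdeg
  refine ⟨x, ?_⟩
  simpa [Polynomial.IsRoot] using hx

/-- **Integral root of the `2`-division cubic.** -/
lemma h26_un2_cubic_root [IsAlgClosed K] (b2 b4 b6 : K) (hb2 : A.valuation b2 = 1)
    (hb4 : b4 ∈ A) (hb6 : b6 ∈ A) (h2 : (2 : K) ≠ 0) (hv2 : A.valuation (2 : K) < 1) :
    ∃ r : K, r ∈ A ∧ 4 * r ^ 3 + b2 * r ^ 2 + 2 * b4 * r + b6 = 0 := by
  have h4 : (4 : K) ≠ 0 := by
    have : (4 : K) = 2 * 2 := by norm_num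
    rw [this]
    exact mul_ne_zero h2 h2
  obtain ⟨x1, hx1⟩ : ∃ x1 : K, 4 * x1 ^ 3 + b2 * x1 ^ 2 + 2 * b4 * x1 + b6 = 0 := by
    have hdeg : (Polynomial.C 4 * Polynomial.X ^ 3 + Polynomial.C b2 * Polynomial.X ^ 2 +
        Polynomial.C (2 * b4) * Polynomial.X + Polynomial.C b6 : Polynomial K).degree ≠ 0 := by
      have : (Polynomial.C 4 * Polynomial.X ^ 3 + Polynomial.C b2 * Polynomial.X ^ 2 +
        Polynomial.C (2 * b4) * Polynomial.X + Polynomial.C b6 : Polynomial K).degree = 3 := by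
        compute_degree!
      rw [this]
      norm_num
    obtain ⟨x, hx⟩ := IsAlgClosed.exists_root _ hdeg
    refine ⟨x, ?_⟩
    simpa [Polynomial.IsRoot] using hx
  by_cases hmem : x1 ∈ A
  · exact ⟨x1, hmem, hx1⟩
  · have hv : 1 < A.valuation x1 := by
      rw [← A.valuation_le_one_iff] at hmem
      exact not_le.mp hmem
    have hx0 : x1 ≠ 0 := by
      rintro rfl
      rw [map_zero] at hv
      exact absurd hv (not_lt.mpr zero_le_one)
    have hb4' : A.valuation b4 ≤ 1 := (A.valuation_le_one_iff b4).mpr hb4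
    have hb6' : A.valuation b6 ≤ 1 := (A.valuation_le_one_iff b6).mpr hb6
    have hy : A.valuation x1⁻¹ < 1 := by
      rw [map_inv₀]
      exact inv_lt_one_of_one_lt₀ hv
    have h1 : x1 * x1⁻¹ = 1 := mul_inv_cancel₀ hx0
    have hε : b2 + 4 * x1 + 2 * b4 * x1⁻¹ + b6 * x1⁻¹ ^ 2 = 0 := by
      linear_combination x1⁻¹ ^ 2 * hx1 -
        ((4 * x1 + b2) * (x1 * x1⁻¹ + 1) + 2 * b4 * x1⁻¹) * h1
    have h4x : A.valuation (4 * x1) = 1 := by
      have e : 4 * x1 = -(b2 + (2 * b4 * x1⁻¹ + b6 * x1⁻¹ ^ 2)) := by linear_combination hε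
      have hsmall : A.valuation (2 * b4 * x1⁻¹ + b6 * x1⁻¹ ^ 2) < 1 := by
        refine lt_of_le_of_lt (A.valuation.map_add _ _) (max_lt ?_ ?_)
        · rw [map_mul, mul_comm]
          exact mul_lt_one_of_lt_of_le hy
            (by rw [map_mul]; exact mul_le_one' hv2.le hb4')
        · rw [map_mul, map_pow, mul_comm]
          exact mul_lt_one_of_lt_of_le (pow_lt_one₀ zero_le hy two_ne_zero) hb6'
      rw [e, Valuation.map_neg, Valuation.map_add_eq_of_lt_left _ (by rw [hb2]; exact hsmall), hb2]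
    have h4x0 : 4 * x1 ≠ 0 := mul_ne_zero h4 hx0
    have hw : (4 * x1)⁻¹ ∈ A := by
      rw [← A.valuation_le_one_iff, map_inv₀, h4x, inv_one]
    have hw1 : 4 * x1 * (4 * x1)⁻¹ = 1 := mul_inv_cancel₀ h4x0
    have hy4 : x1⁻¹ = 4 * (4 * x1)⁻¹ := by
      linear_combination (4 * (4 * x1)⁻¹) * h1 - x1⁻¹ * hw1
    rw [hy4] at hε h1
    generalize (4 * x1)⁻¹ = w at hw hε h1
    obtain ⟨x2, hx2⟩ := h26_un2_exists_quad_root (-(2 * b4 * w + 4 * b6 * w ^ 2)) (-(b6 * w))
    have h2A : (2 : K) ∈ A := (A.valuation_le_one_iff 2).mp hv2.le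
    have h4A : (4 : K) ∈ A := by
      have : (4 : K) = 2 * 2 := by norm_num
      rw [this]
      exact A.mul_mem _ _ h2A h2A
    refine ⟨x2, h26_un2_quad_mem A ?_ ?_ hx2, ?_⟩
    · exact A.neg_mem _ (A.add_mem _ _ (A.mul_mem _ _ (A.mul_mem _ _ h2A hb4) hw)
        (A.mul_mem _ _ (A.mul_mem _ _ h4A hb6) (pow_mem hw 2)))
    · exact A.neg_mem _ (A.mul_mem _ _ hb6 hw)
    · linear_combination 4 * (x2 - x1) * hx2 + x2 ^ 2 * hε -
        ((2 * b4 + b6 * (4 * w)) * x2 + b6) * h1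

/-- **(R1-d), generic form: the split nodal model.** -/
theorem h26_un2_model_gen [IsAlgClosed K] (W : WeierstrassCurve K) (h2 : (2 : K) ≠ 0)
    (hv2 : A.valuation (2 : K) < 1) (ha1 : A.valuation W.a₁ = 1) (ha2 : W.a₂ ∈ A)
    (ha3 : W.a₃ ∈ A) (ha4 : W.a₄ ∈ A) (ha6 : W.a₆ ∈ A) (hΔ0 : W.Δ ≠ 0)
    (hΔ : A.valuation W.Δ < 1) :
    ∃ (C : VariableChange K) (d c : K), (C.u : K) = 1 ∧ C.r ∈ A ∧ C.s ∈ A ∧ C.t ∈ A ∧
      C • W = h45_nodalW d c ∧ A.valuation d = 1 ∧ A.valuation c < 1 ∧ c ≠ 0 := by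
  have ha1A : W.a₁ ∈ A := (A.valuation_le_one_iff _).mp ha1.le
  have h2A : (2 : K) ∈ A := (A.valuation_le_one_iff 2).mp hv2.le
  have h4A : (4 : K) ∈ A := by
    have : (4 : K) = 2 * 2 := by norm_num
    rw [this]
    exact A.mul_mem _ _ h2A h2A
  have h3A : (3 : K) ∈ A := by
    have : (3 : K) = 2 + 1 := by norm_num
    rw [this]
    exact A.add_mem _ _ h2A A.one_mem
  -- the 2-division cubic
  have hb2 : A.valuation (W.a₁ ^ 2 + 4 * W.a₂) = 1 := by
    have hs : A.valuation (4 * W.a₂) < 1 := by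
      have : (4 : K) * W.a₂ = 2 * (2 * W.a₂) := by ring
      rw [this, map_mul]
      exact mul_lt_one_of_lt_of_le hv2
        ((A.valuation_le_one_iff _).mpr (A.mul_mem _ _ h2A ha2))
    rw [Valuation.map_add_eq_of_lt_left _ (by rw [map_pow, ha1, one_pow]; exact hs), map_pow, ha1,
      one_pow]
  obtain ⟨r, hr, hrr⟩ := h26_un2_cubic_root A (W.a₁ ^ 2 + 4 * W.a₂) (2 * W.a₄ + W.a₁ * W.a₃)
    (W.a₃ ^ 2 + 4 * W.a₆) hb2 (A.add_mem _ _ (A.mul_mem _ _ h2A ha4) (A.mul_mem _ _ ha1A ha3))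
    (A.add_mem _ _ (pow_mem ha3 2) (A.mul_mem _ _ h4A ha6)) h2 hv2
  -- the y-coordinate
  obtain ⟨t, ht⟩ : ∃ t : K, 2 * t = -(W.a₁ * r + W.a₃) :=
    ⟨-(W.a₁ * r + W.a₃) / 2, by field_simp⟩
  have htq : t ^ 2 + (W.a₁ * r + W.a₃) * t +
      -(r ^ 3 + W.a₂ * r ^ 2 + W.a₄ * r + W.a₆) = 0 := by
    have h4 : (4 : K) ≠ 0 := by
      have : (4 : K) = 2 * 2 := by norm_num
      rw [this]
      exact mul_ne_zero h2 h2
    apply mul_left_cancel₀ h4
    linear_combination (2 * t + (W.a₁ * r + W.a₃)) * ht - hrr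
  have htA : t ∈ A := h26_un2_quad_mem A
    (A.add_mem _ _ (A.mul_mem _ _ ha1A hr) ha3)
    (A.neg_mem _ (A.add_mem _ _ (A.add_mem _ _ (A.add_mem _ _ (pow_mem hr 3)
      (A.mul_mem _ _ ha2 (pow_mem hr 2))) (A.mul_mem _ _ ha4 hr)) ha6)) htq
  -- the slope
  obtain ⟨s, hs⟩ := h26_un2_exists_quad_root W.a₁ (-(W.a₂ + 3 * r))
  have hsA : s ∈ A := h26_un2_quad_mem A ha1A
    (A.neg_mem _ (A.add_mem _ _ ha2 (A.mul_mem _ _ h3A hr))) hs
  -- the model
  have hd : A.valuation (W.a₁ + 2 * s) = 1 := by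
    have hs' : A.valuation (2 * s) < 1 := by
      rw [map_mul]
      exact mul_lt_one_of_lt_of_le hv2 ((A.valuation_le_one_iff _).mpr hsA)
    rw [Valuation.map_add_eq_of_lt_left _ (by rw [ha1]; exact hs'), ha1]
  have hmodel : (⟨1, r, s, t⟩ : VariableChange K) • W =
      h45_nodalW (W.a₁ + 2 * s)
        (W.a₄ - s * W.a₃ + 2 * r * W.a₂ - (t + r * s) * W.a₁ + 3 * r ^ 2 - 2 * s * t) := by
    ext
    · rw [variableChange_a₁, h45_nodalW_a₁]
      simp
    · rw [variableChange_a₂, h45_nodalW_a₂]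
      simp only [Units.val_one, inv_one, one_pow, one_mul]
      linear_combination -hs
    · rw [variableChange_a₃, h45_nodalW_a₃]
      simp only [Units.val_one, inv_one, one_pow, one_mul]
      linear_combination ht
    · rw [variableChange_a₄, h45_nodalW_a₄]
      simp
    · rw [variableChange_a₆, h45_nodalW_a₆]
      simp only [Units.val_one, inv_one, one_pow, one_mul]
      linear_combination -htq
  set d := W.a₁ + 2 * s with hd_def
  set c := W.a₄ - s * W.a₃ + 2 * r * W.a₂ - (t + r * s) * W.a₁ + 3 * r ^ 2 - 2 * s * t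
    with hc_def
  have hcA : c ∈ A := by
    rw [hc_def]
    exact sub_mem (A.add_mem _ _ (sub_mem (A.add_mem _ _ (sub_mem ha4
      (A.mul_mem _ _ hsA ha3)) (A.mul_mem _ _ (A.mul_mem _ _ h2A hr) ha2))
      (A.mul_mem _ _ (A.add_mem _ _ htA (A.mul_mem _ _ hr hsA)) ha1A))
      (A.mul_mem _ _ h3A (pow_mem hr 2))) (A.mul_mem _ _ (A.mul_mem _ _ h2A hsA) htA)
  have hΔeq : W.Δ = c ^ 2 * (d ^ 4 - 64 * c) := by
    have h1 := variableChange_Δ W (⟨1, r, s, t⟩ : VariableChange K)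
    rw [hmodel, h45_nodalW_Δ] at h1
    rw [h1]
    simp
  have hc0 : c ≠ 0 := by
    rintro h0
    apply hΔ0
    rw [hΔeq, h0]
    ring
  have hunit : A.valuation (d ^ 4 - 64 * c) = 1 := by
    have hs' : A.valuation (64 * c) < 1 := by
      have : (64 : K) * c = 2 * (32 * c) := by ring
      rw [this, map_mul]
      refine mul_lt_one_of_lt_of_le hv2 ((A.valuation_le_one_iff _).mpr (A.mul_mem _ _ ?_ hcA))
      have : (32 : K) = 2 * 2 * 2 * 2 * 2 := by norm_num
      rw [this]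
      exact A.mul_mem _ _ (A.mul_mem _ _ (A.mul_mem _ _ (A.mul_mem _ _ h2A h2A) h2A) h2A) h2A
    rw [sub_eq_add_neg, Valuation.map_add_eq_of_lt_left _
      (by rw [Valuation.map_neg, map_pow, hd, one_pow]; exact hs'), map_pow, hd, one_pow]
  have hc1 : A.valuation c < 1 := by
    rw [hΔeq, map_mul, hunit, mul_one, map_pow] at hΔ
    by_contra hge
    rw [not_lt] at hge
    exact absurd (one_le_pow₀ hge) (not_le.mpr hΔ)
  exact ⟨⟨1, r, s, t⟩, d, c, by simp, hr, hsA, htA, hmodel, hd, hc1, hc0⟩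

end gen

end Fermat.Agent.S58
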