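import Mathlib
import Fermat.Prelude.Def_FLTPrelim_GaloisRep
import Fermat.Prelude.Def_FLTPrelim_Ramification
import Fermat.Agent.S05.InertiaVal
import Fermat.Agent.S51.VarChange
import Fermat.Agent.S13.h48_At2Core
import Fermat.Agent.S41.h70_P2
import Fermat.Agent.S58.h26_Un2Model
import Fermat.Agent.S58.h26_Un2Count

/-!
# S58, row R1 (FIX): the bad case `q = 2`

For an integral Weierstrass curve `W` with `2 ∣ Δ`, `2 ∤ c₄` (multiplicative reduction at `2`), an
odd prime `p` and a place `A` of `ℚ̄` over `2`: there is a point of EXACT order `p^(k+1)` on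
`W_ℚ̄` fixed by the whole inertia group of `A` (`h26_un2_fix`).

* `h26_un2_fix_gen` : generic form (`K` algebraically closed of characteristic zero, `A` a
  valuation subring with `v(2) < 1`): a point of exact order `p^(k+1)` which is integral and has
  nonsingular reduction ON `W` ITSELF (model `h26_un2_model_gen` + count `h26_un2_count` +
  transport along the integral variable change with `u = 1`);
* `h26_un2_fix` : the statement over `ℚ̄` (`h48_fixed_of_unit` on `W_ℚ̄`).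
-/

set_option autoImplicit false

namespace Fermat.Agent.S58

open WeierstrassCurve Fermat.Agent.S13

/-- Transport of points along a variable change `C • W = W'`. -/
lemma h26_un2_vc {K : Type*} [Field K] [DecidableEq K] (W W' : WeierstrassCurve K)
    (C : VariableChange K) (hC : C • W = W') :
    ∃ e : W'.toAffine.Point ≃+ W.toAffine.Point,
      ∀ (x y : K) (h : W'.toAffine.Nonsingular x y),
        ∃ h' : W.toAffine.Nonsingular (S51.vc_X C x) (S51.vc_Y C x y),
          e (Affine.Point.some x y h) = Affine.Point.some (S51.vc_X C x) (S51.vc_Y C x y) h' := by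
  subst hC
  exact ⟨S51.vc_addEquiv W C, fun x y h => ⟨_, rfl⟩⟩

/-- **Generic form of the bad case `q = 2`.** -/
theorem h26_un2_fix_gen {K : Type*} [Field K] [DecidableEq K] [IsAlgClosed K] [CharZero K]
    (A : ValuationSubring K) (W : WeierstrassCurve K) (hW : S05.h18_Integral A W.toAffine)
    (hv2 : A.valuation (2 : K) < 1) (ha1 : A.valuation W.a₁ = 1) (hΔ0 : W.Δ ≠ 0)
    (hΔ : A.valuation W.Δ < 1) (p : ℕ) (hp : p.Prime) (hp2 : p ≠ 2)
    (hvp : A.valuation (p : K) = 1) (k : ℕ) :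
    ∃ (X Y : K) (h : W.toAffine.Nonsingular X Y),
      p ^ (k + 1) • Affine.Point.some X Y h = 0 ∧ p ^ k • Affine.Point.some X Y h ≠ 0 ∧ X ∈ A ∧
      ¬ (W.toAffine.polynomialX.evalEval X Y ∈ A.nonunits ∧
        W.toAffine.polynomialY.evalEval X Y ∈ A.nonunits) := by
  obtain ⟨C, d, c, hu, hr, hs, ht, hmodel, hd, hc, hc0⟩ :=
    h26_un2_model_gen A W two_ne_zero hv2 ha1 hW.a₂ hW.a₃ hW.a₄ hW.a₆ hΔ0 hΔ
  obtain ⟨e, he⟩ := h26_un2_vc W (h45_nodalW d c) C hmodel
  haveI : W.IsElliptic := ⟨hΔ0.isUnit⟩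
  have hcardW : ∀ n : ℕ, n % 2 = 1 → 3 ≤ n →
      Nat.card {T : (h45_nodalW d c).toAffine.Point // n • T = 0} = n ^ 2 := by
    intro n hodd h3
    rw [← S41.h70_card_torsionBy W hodd h3]
    refine Nat.card_congr (Equiv.subtypeEquiv e.toEquiv (fun x => ?_))
    rw [Submodule.mem_torsionBy_iff, natCast_zsmul]
    show n • x = 0 ↔ n • e x = 0
    rw [← map_nsmul, AddEquiv.map_eq_zero_iff]
  have hpodd : p % 2 = 1 := (hp.eq_two_or_odd).resolve_left hp2
  have hp3 : 3 ≤ p := by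
    have := hp.two_le
    omega
  have hpowodd : ∀ j : ℕ, p ^ j % 2 = 1 := fun j => by
    rw [Nat.pow_mod, hpodd, one_pow]
    rfl
  have hpow3 : ∀ j : ℕ, 1 ≤ j → 3 ≤ p ^ j := fun j hj =>
    le_trans hp3 (Nat.le_self_pow (by omega) p)
  have hcardj : ∀ j : ℕ,
      Nat.card {T : (h45_nodalW d c).toAffine.Point // p ^ j • T = 0} = p ^ (2 * j) := by
    intro j
    rcases Nat.eq_zero_or_pos j with rfl | hj
    · simp only [pow_zero, one_smul, mul_zero]
      exact Nat.card_unique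
    · rw [hcardW (p ^ j) (hpowodd j) (hpow3 j hj), ← pow_mul, mul_comm]
  obtain ⟨T, hT1, hT2, hT3⟩ := h26_un2_count A d c hd hc hc0 p hp hp2 k (hcardW p hpodd hp3)
    (hcardj k) (hcardj (k + 1))
  rcases T with _ | ⟨x, y, h⟩
  · exact absurd (smul_zero _) hT2
  · have hWn := h48_nodal_integral A d c hd hc
    have hvpk : ((p ^ (k + 1) : ℕ) : K) ∉ A.nonunits := by
      rw [A.mem_nonunits_iff, Nat.cast_pow, map_pow, hvp, one_pow]
      exact lt_irrefl _
    have hxge : 1 ≤ A.valuation x := by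
      by_contra hlt
      exact hT3 ⟨x, y, h, rfl, not_le.mp hlt⟩
    have hx1 : A.valuation x = 1 := by
      rcases hxge.lt_or_eq with hgt | heq
      · exfalso
        have hxA : x ∉ A := by
          rw [← A.valuation_le_one_iff]
          exact not_le.mpr hgt
        exact S05.h86_nsmul_ne_zero_of_notMem A (h45_nodalW d c) hWn.a₁ hWn.a₂ hWn.a₃ hWn.a₄
          hWn.a₆ h hxA hvpk hT1
      · exact heq.symm
    have hxA : x ∈ A := (A.valuation_le_one_iff x).mp hx1.le
    have hyA : y ∈ A := S05.h18_y_mem hWn h.1 hxA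
    obtain ⟨h', he'⟩ := he x y h
    refine ⟨S51.vc_X C x, S51.vc_Y C x y, h', ?_, ?_, ?_, ?_⟩
    · rw [← he', ← map_nsmul, hT1, map_zero]
    · rw [← he', ← map_nsmul]
      exact fun h0 => hT2 ((AddEquiv.map_eq_zero_iff e).mp h0)
    · simp only [S51.vc_X, hu, one_pow, one_mul]
      exact A.add_mem _ _ hxA hr
    · rintro ⟨-, hY⟩
      rw [Affine.evalEval_polynomialY, A.mem_nonunits_iff] at hY
      have e1 := S51.vc_polyY W C x y
      rw [hmodel, hu] at e1
      simp only [h45_nodalW_a₁, h45_nodalW_a₃, one_pow, one_mul, add_zero] at e1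
      have e2 : 2 * S51.vc_Y C x y + W.toAffine.a₁ * S51.vc_X C x + W.toAffine.a₃ =
          2 * y + d * x := e1
      rw [e2] at hY
      have h1 : A.valuation (2 * y) < 1 := by
        rw [map_mul]
        exact mul_lt_one_of_lt_of_le hv2 ((A.valuation_le_one_iff y).mpr hyA)
      have h3 : A.valuation (d * x) = 1 := by
        rw [map_mul, hd, hx1, one_mul]
      rw [Valuation.map_add_eq_of_lt_right _ (by rw [h3]; exact h1), h3] at hY
      exact lt_irrefl _ hY

local notation "Qb" => AlgebraicClosure ℚ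

open WeierstrassCurve.Affine in
/-- **S58 (R1)/(FIX), the bad case `q = 2`:** a point of exact order `p^(k+1)` fixed by the inertia
group of a place over `2`, for an integral model with multiplicative reduction at `2`. -/
theorem h26_un2_fix (W : WeierstrassCurve ℤ) (hΔ : W.Δ ≠ 0) {p : ℕ} (hp : p.Prime) (hp2 : p ≠ 2)
    (h2Δ : (2 : ℤ) ∣ W.Δ) (h2c4 : ¬ (2 : ℤ) ∣ W.c₄) (A : ValuationSubring Qb)
    (hA : A.LiesOverPrime 2) (k : ℕ) :
    ∃ P : ((W.map (Int.castRingHom ℚ)).toAffine⁄Qb).Point,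
      p ^ (k + 1) • P = 0 ∧ p ^ k • P ≠ 0 ∧ ∀ τ ∈ A.inertiaSubgroupIn ℚ, τ • P = P := by
  have hcoe : ∀ n : ℤ, algebraMap ℚ Qb ((Int.castRingHom ℚ) n) = (n : Qb) := fun n => by simp
  have hmem : ∀ n : ℤ, algebraMap ℚ Qb ((Int.castRingHom ℚ) n) ∈ A := fun n => by
    rw [hcoe, ← A.valuation_le_one_iff]
    exact (S05.valuation_intCast A 2 Nat.prime_two hA n).1
  have hint : S05.h18_Integral A
      ((W.map (Int.castRingHom ℚ)).map (algebraMap ℚ Qb)).toAffine :=
    ⟨hmem _, hmem _, hmem _, hmem _, hmem _⟩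
  have hv2 : A.valuation (2 : Qb) < 1 := by
    have h : ((2 : ℕ) : Qb) ∈ A.nonunits := hA
    rw [A.mem_nonunits_iff] at h
    exact_mod_cast h
  have h2a1 : ¬ (2 : ℤ) ∣ W.a₁ := by
    rintro ⟨m, hm⟩
    apply h2c4
    refine ⟨8 * (m ^ 2 + W.a₂) ^ 2 - 24 * (W.a₄ + m * W.a₃), ?_⟩
    simp only [WeierstrassCurve.c₄, WeierstrassCurve.b₂, WeierstrassCurve.b₄]
    rw [hm]
    ring
  have ha1 : A.valuation ((W.map (Int.castRingHom ℚ)).map (algebraMap ℚ Qb)).a₁ = 1 := by
    show A.valuation (algebraMap ℚ Qb ((Int.castRingHom ℚ) W.a₁)) = 1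
    rw [hcoe]
    exact S05.valuation_intCast_eq_one A 2 Nat.prime_two hA W.a₁ (by exact_mod_cast h2a1)
  have hΔeq : ((W.map (Int.castRingHom ℚ)).map (algebraMap ℚ Qb)).Δ = (W.Δ : Qb) := by
    rw [WeierstrassCurve.map_Δ, WeierstrassCurve.map_Δ, hcoe]
  have hΔ0 : ((W.map (Int.castRingHom ℚ)).map (algebraMap ℚ Qb)).Δ ≠ 0 := by
    rw [hΔeq]
    exact_mod_cast hΔ
  have hΔv : A.valuation ((W.map (Int.castRingHom ℚ)).map (algebraMap ℚ Qb)).Δ < 1 := by
    rw [hΔeq]
    exact (S05.valuation_intCast A 2 Nat.prime_two hA W.Δ).2.mpr (by exact_mod_cast h2Δ)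
  have hvp : A.valuation (p : Qb) = 1 :=
    S05.valuation_natCast_eq_one A 2 Nat.prime_two hA p
      (fun h => hp2 ((Nat.prime_dvd_prime_iff_eq Nat.prime_two hp).mp h).symm)
  obtain ⟨X, Y, h, hT1, hT2, hX, hns⟩ := h26_un2_fix_gen A
    ((W.map (Int.castRingHom ℚ)).map (algebraMap ℚ Qb)) hint hv2 ha1 hΔ0 hΔv p hp hp2 hvp k
  refine ⟨Affine.Point.some X Y h, hT1, hT2, fun τ hτ => ?_⟩
  obtain ⟨-, hσm⟩ := S05.inertia_valuation A τ hτ
  have hvpk : ((p ^ (k + 1) : ℕ) : Qb) ∉ A.nonunits := by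
    rw [A.mem_nonunits_iff, Nat.cast_pow, map_pow, hvp, one_pow]
    exact lt_irrefl _
  exact h48_fixed_of_unit A ((W.map (Int.castRingHom ℚ)).map (algebraMap ℚ Qb)) hint
    (p ^ (k + 1)) hvpk τ
    (fun x hx => A.mem_nonunits_iff.mpr (hσm x ((A.valuation_le_one_iff x).mpr hx)))
    (Affine.Point.map τ.toAlgHom)
    (fun x y h => ⟨_, Affine.Point.map_some τ.toAlgHom h⟩) h hX hns hT1

end Fermat.Agent.S58
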