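import Mathlib

/-!
# S58, row R1 (FIX): the generic count

`E` an abelian group with `#E[p^j] = p^(2j)` for all `j`, `E0` a subgroup such that the points `T`
with `p • T ∈ E0` fall into at most `p` classes modulo `E0` (given by a label `f` with values
`< p`).  Then `E0` contains a point of exact order `p^(k+1)`, for every `k`.

Proof.  Let `G = E[p^(k+1)]`, `H = G ∩ E0`, `S = {T ∈ G | p • T ∈ E0}`.  Multiplication by `p`
maps `G` onto `E[p^k]` (count the fibres).  If `H ⊆ E[p^k]`, every `h ∈ H` is `p • s` with `s ∈ G`,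
so `S ⊇ ⋃_h (s_h + E[p])` has at least `p² · #H` elements; but `S` meets at most `p` classes modulo
`H`, so `#S ≤ p · #H`.
-/

set_option autoImplicit false

namespace Fermat.Agent.S58

/-- **The generic count.** -/
theorem h45_un_count_gen {E : Type*} [AddCommGroup E] (E0 : AddSubgroup E) (p : ℕ) (hp : 2 ≤ p)
    (k : ℕ) (f : E → ℕ) (hf : ∀ T, p • T ∈ E0 → f T < p)
    (hf' : ∀ T T', p • T ∈ E0 → p • T' ∈ E0 → f T = f T' → T - T' ∈ E0)
    (hc : ∀ j : ℕ, {T : E | p ^ j • T = 0}.ncard = (p ^ j) ^ 2) :
    ∃ T ∈ E0, p ^ (k + 1) • T = 0 ∧ p ^ k • T ≠ 0 := by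
  classical
  have hp0 : 0 < p := by omega
  have hfin : ∀ j : ℕ, {T : E | p ^ j • T = 0}.Finite := fun j =>
    Set.finite_of_ncard_ne_zero (by rw [hc j]; positivity)
  let F : ℕ → Finset E := fun j => (hfin j).toFinset
  have hF : ∀ j T, T ∈ F j ↔ p ^ j • T = 0 := fun j T => by simp [F]
  have hFc : ∀ j, (F j).card = (p ^ j) ^ 2 := fun j => by
    rw [← hc j, Set.ncard_eq_toFinset_card _ (hfin j)]
  by_contra hcon
  push Not at hcon
  -- Step 1: multiplication by `p` maps `E[p^(k+1)]` onto `E[p^k]`
  have himg : (F (k + 1)).image (fun T => p • T) = F k := by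
    apply Finset.eq_of_subset_of_card_le
    · intro x hx
      obtain ⟨T, hT, rfl⟩ := Finset.mem_image.mp hx
      rw [hF] at hT ⊢
      rw [← mul_smul, ← pow_succ]
      exact hT
    · have h1 : (F (k + 1)).card ≤ p ^ 2 * ((F (k + 1)).image (fun T => p • T)).card := by
        apply Finset.card_le_mul_card_image
        intro a ha
        obtain ⟨x0, hx0, rfl⟩ := Finset.mem_image.mp ha
        have h2 : ((F (k + 1)).filter (fun x => p • x = p • x0)).card ≤ (F 1).card := by
          apply Finset.card_le_card_of_injOn (fun x => x - x0)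
          · intro x hx
            rw [Finset.mem_coe, Finset.mem_filter] at hx
            rw [Finset.mem_coe, hF, pow_one, smul_sub, hx.2, sub_self]
          · intro x _ y _ hxy
            exact sub_left_injective hxy
        rw [hFc 1, pow_one] at h2
        exact h2
      rw [hFc (k + 1)] at h1
      rw [hFc k]
      have h3 : (p ^ (k + 1)) ^ 2 = p ^ 2 * (p ^ k) ^ 2 := by ring
      rw [h3] at h1
      exact Nat.le_of_mul_le_mul_left h1 (by positivity)
  let H : Finset E := (F (k + 1)).filter (fun T => T ∈ E0)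
  let S : Finset E := (F (k + 1)).filter (fun T => p • T ∈ E0)
  have hH : ∀ T, T ∈ H ↔ p ^ (k + 1) • T = 0 ∧ T ∈ E0 := fun T => by
    simp only [H, Finset.mem_filter, hF]
  have hS : ∀ T, T ∈ S ↔ p ^ (k + 1) • T = 0 ∧ p • T ∈ E0 := fun T => by
    simp only [S, Finset.mem_filter, hF]
  have hH0 : (0 : E) ∈ H := by
    rw [hH]
    exact ⟨smul_zero _, E0.zero_mem⟩
  have hHpos : 0 < H.card := Finset.card_pos.mpr ⟨0, hH0⟩
  -- upper bound
  have hup : S.card ≤ H.card * p := by
    have h1 : S.card ≤ H.card * (S.image f).card := by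
      apply Finset.card_le_mul_card_image
      intro a ha
      obtain ⟨x0, hx0, rfl⟩ := Finset.mem_image.mp ha
      rw [hS] at hx0
      apply Finset.card_le_card_of_injOn (fun x => x - x0)
      · intro x hx
        rw [Finset.mem_coe, Finset.mem_filter, hS] at hx
        obtain ⟨⟨hx1, hx2⟩, hfx⟩ := hx
        rw [Finset.mem_coe, hH]
        refine ⟨?_, hf' x x0 hx2 hx0.2 hfx⟩
        rw [smul_sub, hx1, hx0.1, sub_zero]
      · intro x _ y _ hxy
        exact sub_left_injective hxy
    have h2 : (S.image f).card ≤ p := by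
      calc (S.image f).card ≤ (Finset.range p).card := Finset.card_le_card (by
            intro a ha
            obtain ⟨x, hx, rfl⟩ := Finset.mem_image.mp ha
            rw [hS] at hx
            exact Finset.mem_range.mpr (hf x hx.2))
        _ = p := Finset.card_range p
    exact h1.trans (Nat.mul_le_mul_left _ h2)
  -- lower bound
  have hlow : H.card * p ^ 2 ≤ S.card := by
    have hpre : ∀ h ∈ H, ∃ s, p ^ (k + 1) • s = 0 ∧ p • s = h := by
      intro h hh
      rw [hH] at hh
      have hk : h ∈ F k := (hF k h).mpr (hcon h hh.2 hh.1)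
      rw [← himg] at hk
      obtain ⟨s, hs, hsh⟩ := Finset.mem_image.mp hk
      exact ⟨s, (hF _ _).mp hs, hsh⟩
    choose! s hs hsp using hpre
    have h1 : (H ×ˢ F 1).card ≤ S.card := by
      apply Finset.card_le_card_of_injOn (fun x => s x.1 + x.2)
      · rintro ⟨h, t⟩ hx
        rw [Finset.mem_coe, Finset.mem_product] at hx
        obtain ⟨hh, ht⟩ := hx
        rw [hF, pow_one] at ht
        have hh' := (hH h).mp hh
        rw [Finset.mem_coe, hS]
        constructor
        · rw [smul_add, hs h hh, pow_succ, mul_smul, ht, smul_zero, add_zero]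
        · rw [smul_add, hsp h hh, ht, add_zero]
          exact hh'.2
      · rintro ⟨h, t⟩ hx ⟨h', t'⟩ hx' hxy
        rw [Finset.mem_coe, Finset.mem_product] at hx hx'
        have ht := (hF 1 t).mp hx.2
        have ht' := (hF 1 t').mp hx'.2
        rw [pow_one] at ht ht'
        have hxy' : s h + t = s h' + t' := hxy
        have e1 : h = h' := by
          have h4 := congrArg (fun x => p • x) hxy'
          simp only [smul_add, hsp h hx.1, hsp h' hx'.1, ht, ht', add_zero] at h4
          exact h4
        subst e1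
        have e2 : t = t' := add_left_cancel hxy'
        rw [e2]
    rw [Finset.card_product, hFc 1, pow_one] at h1
    exact h1
  have h5 : H.card * p ^ 2 ≤ H.card * p := hlow.trans hup
  have h6 : p ^ 2 ≤ p := Nat.le_of_mul_le_mul_left h5 hHpos
  nlinarith

end Fermat.Agent.S58
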