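import Mathlib
import Fermat.Agent.S05.Core

/-!
# S58, row R1 (E-UNIP), sub-row (R1-a): the generic core on `Y² = X³ + a X² + b X`

Setting of S05: `K` algebraically closed, `A` a valuation subring, `v(a) = 1`, `0 < v(b) < 1`,
`v(2) = 1` (multiplicative reduction, node at the origin, residue characteristic `≠ 2`);
`σ` a ring automorphism of `K` preserving the valuation, trivial on the residue field, with
`σ a = a`; `φ` its action on the points.  No hypothesis on `v(b)` (in S05 it is a `p`-th power).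

* `h45_un_sub_not_isN` : `φ T - T ∈ E₀` for EVERY point `T`;
* `h45_un_unip`        : `(φ - 1)² T = 0` for every `T` killed by an `n` with `v(n) = 1`;
* `h45_un_fixed`       : `φ T = T` for such `T` in `E₀`;
* `h45_un_torsion_cases` : a `p`-torsion point (`p` an odd prime) lies in `E₀` or `± T` lies in a
  component `C_g` with `g ^ p = v(b) ^ (2 k)`;
* `h45_un_exists_E0_torsion` : if there are more than `p` points killed by `p`, one of them is
  nonzero and lies in `E₀` (pigeonhole on the at most `p` components).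
-/

set_option autoImplicit false

namespace Fermat.Agent.S58

open WeierstrassCurve Fermat.Agent.S05

variable {K : Type*} [Field K] [DecidableEq K] (A : ValuationSubring K) (a b : K)

/-- A point of the kernel of reduction does not reduce to the node. -/
lemma h45_un_not_isN_of_isE1 {P : (shortW a b).toAffine.Point} (h : IsE1 a b A P) :
    ¬ IsN a b A P := by
  rintro ⟨X, Y, hXY, rfl, hX⟩
  rcases h with h0 | ⟨X', Y', h', e, hX'⟩
  · exact Affine.Point.some_ne_zero hXY h0
  · rw [Affine.Point.some.injEq] at e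
    obtain ⟨rfl, rfl⟩ := e
    exact lt_asymm hX hX'

/-- `σ` preserves every component `C_g`. -/
lemma h45_un_inC_sigma (r : K) (σ : K ≃+* K)
    (hσv : ∀ x, A.valuation (σ x) = A.valuation x) (hσr : σ r = r)
    (φ : (shortW a b).toAffine.Point →+ (shortW a b).toAffine.Point)
    (hφ : ∀ (X Y : K) (h : (shortW a b).toAffine.Nonsingular X Y),
        ∃ h', φ (Affine.Point.some X Y h) = Affine.Point.some (σ X) (σ Y) h')
    {g : A.ValueGroup} {P : (shortW a b).toAffine.Point} (hP : InC a b A r g P) :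
    InC a b A r g (φ P) := by
  obtain ⟨X, Y, h, rfl, hX, hbg, hg1, hs⟩ := hP
  obtain ⟨h', e⟩ := hφ X Y h
  refine ⟨σ X, σ Y, h', e, by rw [hσv, hX], hbg, hg1, ?_⟩
  have h1 : σ Y - r * σ X = σ (Y - r * X) := by rw [map_sub, map_mul, hσr]
  rw [h1, hσv]
  exact hs

/-- `σ` preserves the middle component. -/
lemma h45_un_inM_sigma (σ : K ≃+* K)
    (hσv : ∀ x, A.valuation (σ x) = A.valuation x)
    (φ : (shortW a b).toAffine.Point →+ (shortW a b).toAffine.Point)
    (hφ : ∀ (X Y : K) (h : (shortW a b).toAffine.Nonsingular X Y),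
        ∃ h', φ (Affine.Point.some X Y h) = Affine.Point.some (σ X) (σ Y) h')
    {P : (shortW a b).toAffine.Point} (hP : InM a b A P) : InM a b A (φ P) := by
  obtain ⟨X, Y, h, rfl, hX⟩ := hP
  obtain ⟨h', e⟩ := hφ X Y h
  exact ⟨σ X, σ Y, h', e, by rw [hσv]; exact hX⟩

/-- An auxiliary point `Q₃` in a component `C_g` with `v(b) < g²`. -/
lemma h45_un_exists_aux [IsAlgClosed K] (r : K) (hr : r ^ 2 = a) (ha : A.valuation a = 1)
    (hb1 : A.valuation b < 1) (hb0 : b ≠ 0) (h2 : A.valuation (2 : K) = 1) :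
    ∃ (g : A.ValueGroup) (Q : (shortW a b).toAffine.Point),
      InC a b A r g Q ∧ A.valuation b < g ^ 2 := by
  have hsq : ∀ x : K, ∃ y, y ^ 2 = x := fun x => IsAlgClosed.exists_pow_nat_eq x two_pos
  have hvb0 : A.valuation b ≠ 0 := (Valuation.ne_zero_iff _).mpr hb0
  obtain ⟨x3, hx3⟩ := IsAlgClosed.exists_pow_nat_eq b (n := 3) (by norm_num)
  have hg3 : A.valuation x3 ^ 3 = A.valuation b := by rw [← map_pow, hx3]
  have hg3pos : 0 < A.valuation x3 := by
    refine lt_of_le_of_ne zero_le (Ne.symm ?_)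
    intro h0
    rw [h0] at hg3
    exact hvb0 (by rw [← hg3]; simp)
  have hg3lt : A.valuation x3 < 1 := by
    by_contra hge
    have : 1 ≤ A.valuation x3 ^ 3 := one_le_pow₀ (not_lt.mp hge)
    rw [hg3] at this
    exact absurd hb1 (not_lt.mpr this)
  have hg3sq : A.valuation b < A.valuation x3 ^ 2 := by
    rw [← hg3, pow_succ]
    exact mul_lt_of_lt_one_right (pow_pos hg3pos 2) hg3lt
  have hg3b : A.valuation b < A.valuation x3 :=
    lt_of_lt_of_le hg3sq (pow_le_of_le_one zero_le hg3lt.le two_ne_zero)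
  obtain ⟨Y3, h3, hQ3⟩ := exists_inC A a b r hr ha hb1 hb0 h2 hsq x3 hg3lt hg3b
  exact ⟨_, _, hQ3, hg3sq⟩

/-- Two points of the middle component differ by a point of `E₀`. -/
lemma h45_un_inM_sub [IsAlgClosed K] (r : K) (hr : r ^ 2 = a) (ha : A.valuation a = 1)
    (hb1 : A.valuation b < 1) (hb0 : b ≠ 0) (h2 : A.valuation (2 : K) = 1)
    {P P' : (shortW a b).toAffine.Point} (hP : InM a b A P) (hP' : InM a b A P') :
    ¬ IsN a b A (P - P') := by
  obtain ⟨g, Q, hQ, hg⟩ := h45_un_exists_aux A a b r hr ha hb1 hb0 h2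
  have h1 := inC_neg_add_of_inM A a b r hr ha hb1 hb0 h2 hP hQ hg
  have h1' := inC_neg_add_of_inM A a b r hr ha hb1 hb0 h2 hP' hQ hg
  have h3 := inC_sub_not_isN A a b r hr ha hb1 h2 h1 h1'
  have e : -(P + Q) - -(P' + Q) = -(P - P') := by abel
  rw [e, isN_neg_iff] at h3
  exact h3

/-- A square root of the unit `a` is fixed by `σ` (residue characteristic `≠ 2`). -/
lemma h45_un_sigma_r (r : K) (hr : r ^ 2 = a) (ha : A.valuation a = 1)
    (h2 : A.valuation (2 : K) = 1) (σ : K ≃+* K)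
    (hσm : ∀ x, A.valuation x ≤ 1 → A.valuation (σ x - x) < 1) (hσa : σ a = a) : σ r = r := by
  have hvr : A.valuation r = 1 := nodeA_val_r A a r hr ha
  have h1 : (σ r) ^ 2 = r ^ 2 := by rw [← map_pow, hr, hσa]
  rcases sq_eq_sq_iff_eq_or_eq_neg.mp h1 with h | h
  · exact h
  · exfalso
    have h3 := hσm r hvr.le
    rw [h] at h3
    have h4 : -r - r = -(2 * r) := by ring
    rw [h4, Valuation.map_neg, map_mul, h2, hvr, one_mul] at h3
    exact lt_irrefl _ h3

section Main

variable [IsAlgClosed K]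

/-- **(R1-a)(i).** For every point `T`, `σ T - T` has nonsingular reduction. -/
theorem h45_un_sub_not_isN (ha : A.valuation a = 1) (hb1 : A.valuation b < 1) (hb0 : b ≠ 0)
    (h2 : A.valuation (2 : K) = 1) (σ : K ≃+* K)
    (hσv : ∀ x, A.valuation (σ x) = A.valuation x)
    (hσm : ∀ x, A.valuation x ≤ 1 → A.valuation (σ x - x) < 1) (hσa : σ a = a)
    (φ : (shortW a b).toAffine.Point →+ (shortW a b).toAffine.Point)
    (hφ : ∀ (X Y : K) (h : (shortW a b).toAffine.Nonsingular X Y),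
        ∃ h', φ (Affine.Point.some X Y h) = Affine.Point.some (σ X) (σ Y) h')
    (T : (shortW a b).toAffine.Point) : ¬ IsN a b A (φ T - T) := by
  obtain ⟨r, hr⟩ := IsAlgClosed.exists_pow_nat_eq a (n := 2) two_pos
  have hσr : σ r = r := h45_un_sigma_r A a r hr ha h2 σ hσm hσa
  have hσA : ∀ x, A.valuation (σ x) ≤ 1 ↔ A.valuation x ≤ 1 := fun x => by rw [hσv]
  by_cases hN : IsN a b A T
  · rcases node_trichotomy A a b r hr ha hb1 h2 hN with ⟨g, hC⟩ | ⟨g, hC⟩ | hM
    · exact inC_sub_not_isN A a b r hr ha hb1 h2 (h45_un_inC_sigma A a b r σ hσv hσr φ hφ hC) hC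
    · have h3 := inC_sub_not_isN A a b r hr ha hb1 h2
        (h45_un_inC_sigma A a b r σ hσv hσr φ hφ hC) hC
      have e : φ (-T) - -T = -(φ T - T) := by rw [map_neg]; abel
      rw [e, isN_neg_iff] at h3
      exact h3
    · exact h45_un_inM_sub A a b r hr ha hb1 hb0 h2 (h45_un_inM_sigma A a b σ hσv φ hφ hM) hM
  · exact h45_un_not_isN_of_isE1 A a b (core_sub_isE1 A a b h2 ha.le hb1.le σ hσA hσm φ hφ
      (fun hE hX => ns_of_mult A a b ha hb1 hE hX) T hN)

/-- Torsion points of `E₀` of order prime to the residue characteristic are fixed by `σ`. -/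
theorem h45_un_fixed (ha : A.valuation a = 1) (hb1 : A.valuation b < 1)
    (h2 : A.valuation (2 : K) = 1) (σ : K ≃+* K)
    (hσv : ∀ x, A.valuation (σ x) = A.valuation x)
    (hσm : ∀ x, A.valuation x ≤ 1 → A.valuation (σ x - x) < 1)
    (φ : (shortW a b).toAffine.Point →+ (shortW a b).toAffine.Point)
    (hφ : ∀ (X Y : K) (h : (shortW a b).toAffine.Nonsingular X Y),
        ∃ h', φ (Affine.Point.some X Y h) = Affine.Point.some (σ X) (σ Y) h')
    (n : ℕ) (hn : A.valuation (n : K) = 1)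
    (D : (shortW a b).toAffine.Point) (hD : ¬ IsN a b A D) (hnD : n • D = 0) : φ D = D := by
  have hσA : ∀ x, A.valuation (σ x) ≤ 1 ↔ A.valuation x ≤ 1 := fun x => by rw [hσv]
  have hE := core_sub_isE1 A a b h2 ha.le hb1.le σ hσA hσm φ hφ
    (fun hE hX => ns_of_mult A a b ha hb1 hE hX) D hD
  have h0 : n • (φ D - D) = 0 := by rw [smul_sub, ← map_nsmul, hnD, map_zero, sub_zero]
  exact sub_eq_zero.mp (isE1_eq_zero_of_nsmul A a b ha.le hb1.le h2 n hn hE h0)

/-- **(R1-a)(ii).** `(σ - 1)² = 0` on the torsion of order prime to the residue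
characteristic. -/
theorem h45_un_unip (ha : A.valuation a = 1) (hb1 : A.valuation b < 1) (hb0 : b ≠ 0)
    (h2 : A.valuation (2 : K) = 1) (σ : K ≃+* K)
    (hσv : ∀ x, A.valuation (σ x) = A.valuation x)
    (hσm : ∀ x, A.valuation x ≤ 1 → A.valuation (σ x - x) < 1) (hσa : σ a = a)
    (φ : (shortW a b).toAffine.Point →+ (shortW a b).toAffine.Point)
    (hφ : ∀ (X Y : K) (h : (shortW a b).toAffine.Nonsingular X Y),
        ∃ h', φ (Affine.Point.some X Y h) = Affine.Point.some (σ X) (σ Y) h')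
    (n : ℕ) (hn : A.valuation (n : K) = 1)
    (T : (shortW a b).toAffine.Point) (hT : n • T = 0) : φ (φ T - T) = φ T - T := by
  refine h45_un_fixed A a b ha hb1 h2 σ hσv hσm φ hφ n hn _
    (h45_un_sub_not_isN A a b ha hb1 hb0 h2 σ hσv hσm hσa φ hφ T) ?_
  rw [smul_sub, ← map_nsmul, hT, map_zero, sub_zero]

/-- **(R1-a), classification of `p`-torsion by components.** -/
theorem h45_un_torsion_cases (r : K) (hr : r ^ 2 = a) (ha : A.valuation a = 1)
    (hb1 : A.valuation b < 1) (hb0 : b ≠ 0) (h2 : A.valuation (2 : K) = 1)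
    (p : ℕ) (hp : p.Prime) (hp2 : p ≠ 2)
    {T : (shortW a b).toAffine.Point} (hT : p • T = 0) :
    ¬ IsN a b A T ∨ ∃ (g : A.ValueGroup) (k : ℕ),
      (InC a b A r g T ∨ InC a b A r g (-T)) ∧ g ^ p = A.valuation b ^ (2 * k) := by
  classical
  have hvb0 : A.valuation b ≠ 0 := (Valuation.ne_zero_iff _).mpr hb0
  have hvbpos : 0 < A.valuation b := lt_of_le_of_ne zero_le (Ne.symm hvb0)
  have hsq : ∀ x : K, ∃ y, y ^ 2 = x := fun x => IsAlgClosed.exists_pow_nat_eq x two_pos
  let mk : (shortW a b).toAffine.Point →+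
      (shortW a b).toAffine.Point ⧸ (E0 A a b ha hb1 h2) :=
    QuotientAddGroup.mk' (E0 A a b ha hb1 h2)
  have hmk0 : ∀ P, mk P = 0 ↔ ¬ IsN a b A P := fun P =>
    (QuotientAddGroup.eq_zero_iff P).trans (mem_E0_iff A a b ha hb1 h2)
  have hmkC : ∀ (g : A.ValueGroup) (P P' : (shortW a b).toAffine.Point),
      InC a b A r g P → InC a b A r g P' → mk P = mk P' := by
    intro g P P' hP hP'
    refine sub_eq_zero.mp ?_
    rw [← map_sub]
    exact (hmk0 _).mpr (inC_sub_not_isN A a b r hr ha hb1 h2 hP hP')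
  let c : A.ValueGroup → (shortW a b).toAffine.Point ⧸ (E0 A a b ha hb1 h2) := fun g =>
    if hex : ∃ P, InC a b A r g P then mk hex.choose else 0
  have hc_eq : ∀ (g : A.ValueGroup) (P : (shortW a b).toAffine.Point),
      InC a b A r g P → c g = mk P := by
    intro g P hP
    have hex : ∃ P, InC a b A r g P := ⟨P, hP⟩
    simp only [c, dif_pos hex]
    exact hmkC g _ _ hex.choose_spec hP
  have exC : ∀ g : A.ValueGroup, A.valuation b < g → g < 1 → ∃ P, InC a b A r g P := by
    intro g hg1 hg2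
    obtain ⟨x, rfl⟩ := A.valuation_surjective g
    obtain ⟨Y, hY, hC⟩ := exists_inC A a b r hr ha hb1 hb0 h2 hsq x hg2 hg1
    exact ⟨_, hC⟩
  obtain ⟨T0, hT0⟩ := exists_inM A a b ha hb1 hb0 h2
  have hmkM : ∀ P : (shortW a b).toAffine.Point, InM a b A P → mk P = mk T0 := by
    intro P hPM
    refine sub_eq_zero.mp ?_
    rw [← map_sub]
    exact (hmk0 _).mpr (h45_un_inM_sub A a b r hr ha hb1 hb0 h2 hPM hT0)
  obtain ⟨hpμ, htors⟩ := torsion_component (A.valuation b) hvbpos hb1 c (mk T0)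
    (fun g => by
      obtain ⟨x, rfl⟩ := A.valuation_surjective g
      obtain ⟨y, hy⟩ := IsAlgClosed.exists_pow_nat_eq x (n := 3) (by norm_num)
      exact ⟨A.valuation y, by rw [← map_pow, hy]⟩)
    (fun g₁ g₂ h21 h11 hh => by
      have hg2lt1 : g₂ < 1 := h21.trans h11
      have hbg1 : A.valuation b < g₁ := lt_of_lt_of_le hh (mul_le_of_le_one_right' hg2lt1.le)
      have hbg2 : A.valuation b < g₂ := lt_of_lt_of_le hh (mul_le_of_le_one_left' h11.le)
      obtain ⟨P1, hP1⟩ := exC g₁ hbg1 h11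
      obtain ⟨P2, hP2⟩ := exC g₂ hbg2 hg2lt1
      rw [hc_eq g₁ P1 hP1, hc_eq g₂ P2 hP2,
        hc_eq _ _ (inC_add A a b r hr ha hb1 h2 hP1 hP2 h21 hh), map_add])
    (fun g₁ g₂ h21 h11 hh => by
      have hg2lt1 : g₂ < 1 := h21.trans h11
      have hg1pos : 0 < g₁ := by
        refine lt_of_le_of_ne zero_le (Ne.symm ?_)
        intro h0
        rw [h0, zero_mul] at hh
        exact hvb0 hh.symm
      have hg2pos : 0 < g₂ := by
        refine lt_of_le_of_ne zero_le (Ne.symm ?_)
        intro h0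
        rw [h0, mul_zero] at hh
        exact hvb0 hh.symm
      have hbg1 : A.valuation b < g₁ := by
        rw [← hh]; exact mul_lt_of_lt_one_right hg1pos hg2lt1
      have hbg2 : A.valuation b < g₂ := by
        rw [← hh]; exact mul_lt_of_lt_one_left hg2pos h11
      obtain ⟨P1, hP1⟩ := exC g₁ hbg1 h11
      obtain ⟨P2, hP2⟩ := exC g₂ hbg2 hg2lt1
      rw [hc_eq g₁ P1 hP1, hc_eq g₂ P2 hP2, ← map_add]
      exact hmkM _ (inM_add A a b r hr ha hb1 h2 hP1 hP2 h21 hh))
    (fun g hg1 hgsq => by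
      have hbg : A.valuation b < g :=
        lt_of_lt_of_le hgsq (pow_le_of_le_one zero_le hg1.le two_ne_zero)
      obtain ⟨Q, hQ⟩ := exC g hbg hg1
      have h3 := inC_neg_add_of_inM A a b r hr ha hb1 hb0 h2 hT0 hQ hgsq
      rw [hc_eq g Q hQ, hc_eq _ _ h3, map_neg, map_add, neg_neg])
    (fun g hbg hg1 => by
      obtain ⟨P, hP⟩ := exC g hbg hg1
      rw [hc_eq g P hP]
      intro h0
      exact ((hmk0 P).mp h0) (core_isN_of_inC A a b hP))
    (fun h0 => ((hmk0 T0).mp h0) (core_isN_of_inM A a b hb1 hT0))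
    p hp hp2
  have key : ∀ (S : (shortW a b).toAffine.Point) (g : A.ValueGroup),
      InC a b A r g S → p • S = 0 → ∃ k : ℕ, g ^ p = A.valuation b ^ (2 * k) := by
    intro S g hC hpS
    have hbg : A.valuation b < g := by obtain ⟨_, _, _, -, -, hbg, -, -⟩ := hC; exact hbg
    have hg1 : g < 1 := by obtain ⟨_, _, _, -, -, -, hg1, -⟩ := hC; exact hg1
    have hpc : p • c g = 0 := by rw [hc_eq g _ hC, ← map_nsmul, hpS, map_zero]
    exact htors g hbg hg1 hpc
  by_cases hN : IsN a b A T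
  · right
    rcases node_trichotomy A a b r hr ha hb1 h2 hN with ⟨g, hC⟩ | ⟨g, hC⟩ | hM
    · obtain ⟨k, hk⟩ := key T g hC hT
      exact ⟨g, k, Or.inl hC, hk⟩
    · obtain ⟨k, hk⟩ := key (-T) g hC (by rw [smul_neg, hT, neg_zero])
      exact ⟨g, k, Or.inr hC, hk⟩
    · exfalso
      apply hpμ
      rw [← hmkM _ hM, ← map_nsmul, hT, map_zero]
  · exact Or.inl hN

/-- **(R1-a)(iii), the count.** If more than `p` points are killed by the odd prime `p`, then
some NONZERO point killed by `p` has nonsingular reduction. -/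
theorem h45_un_exists_E0_torsion (ha : A.valuation a = 1)
    (hb1 : A.valuation b < 1) (hb0 : b ≠ 0) (h2 : A.valuation (2 : K) = 1)
    (p : ℕ) (hp : p.Prime) (hp2 : p ≠ 2)
    (hcard : p < Nat.card {T : (shortW a b).toAffine.Point // p • T = 0}) :
    ∃ T : (shortW a b).toAffine.Point, T ≠ 0 ∧ p • T = 0 ∧ ¬ IsN a b A T := by
  classical
  obtain ⟨r, hr⟩ := IsAlgClosed.exists_pow_nat_eq a (n := 2) two_pos
  have hvb0 : A.valuation b ≠ 0 := (Valuation.ne_zero_iff _).mpr hb0
  have hvbpos : 0 < A.valuation b := lt_of_le_of_ne zero_le (Ne.symm hvb0)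
  have hp0 : p ≠ 0 := hp.ne_zero
  obtain ⟨m, hm⟩ : ∃ m, p = 2 * m + 1 := by
    rcases hp.eq_two_or_odd with h | h
    · exact absurd h hp2
    · exact ⟨p / 2, by omega⟩
  -- the label relation
  let L : (shortW a b).toAffine.Point → ℤ → Prop := fun T z =>
    (z = 0 ∧ ¬ IsN a b A T) ∨
    (∃ (g : A.ValueGroup) (k : ℕ), 0 < k ∧ z = k ∧ InC a b A r g T ∧
      g ^ p = A.valuation b ^ (2 * k)) ∨
    (∃ (g : A.ValueGroup) (k : ℕ), 0 < k ∧ z = -(k : ℤ) ∧ InC a b A r g (-T) ∧
      g ^ p = A.valuation b ^ (2 * k))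
  -- bounds on `k`
  have hk_bd : ∀ (g : A.ValueGroup) (k : ℕ), A.valuation b < g → g < 1 →
      g ^ p = A.valuation b ^ (2 * k) → 0 < k ∧ k ≤ m := by
    intro g k hbg hg1 hgk
    have hgpos : 0 < g := hvbpos.trans hbg
    constructor
    · rcases Nat.eq_zero_or_pos k with h0 | h0
      · exfalso
        rw [h0, mul_zero, pow_zero] at hgk
        exact absurd hgk (pow_lt_one₀ zero_le hg1 hp0).ne
      · exact h0
    · have h1 : A.valuation b ^ p < g ^ p := pow_lt_pow_left₀ hbg zero_le hp0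
      rw [hgk] at h1
      have h2' : 2 * k < p := (pow_lt_pow_iff_right_of_lt_one₀ hvbpos hb1).mp h1
      omega
  have hlabel : ∀ T : {T : (shortW a b).toAffine.Point // p • T = 0},
      ∃ z : ℤ, z ∈ Finset.Icc (-(m : ℤ)) m ∧ L T.1 z := by
    rintro ⟨T, hT⟩
    rcases h45_un_torsion_cases A a b r hr ha hb1 hb0 h2 p hp hp2 hT with hN | ⟨g, k, hC, hgk⟩
    · exact ⟨0, by rw [Finset.mem_Icc]; omega, Or.inl ⟨rfl, hN⟩⟩
    · rcases hC with hC | hC
      · have hbg : A.valuation b < g := by obtain ⟨_, _, _, -, -, hbg, -, -⟩ := hC; exact hbg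
        have hg1 : g < 1 := by obtain ⟨_, _, _, -, -, -, hg1, -⟩ := hC; exact hg1
        obtain ⟨hk0, hkm⟩ := hk_bd g k hbg hg1 hgk
        exact ⟨k, by rw [Finset.mem_Icc]; omega, Or.inr (Or.inl ⟨g, k, hk0, rfl, hC, hgk⟩)⟩
      · have hbg : A.valuation b < g := by obtain ⟨_, _, _, -, -, hbg, -, -⟩ := hC; exact hbg
        have hg1 : g < 1 := by obtain ⟨_, _, _, -, -, -, hg1, -⟩ := hC; exact hg1
        obtain ⟨hk0, hkm⟩ := hk_bd g k hbg hg1 hgk
        exact ⟨-(k : ℤ), by rw [Finset.mem_Icc]; omega,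
          Or.inr (Or.inr ⟨g, k, hk0, rfl, hC, hgk⟩)⟩
  choose f hf using hlabel
  -- same label ⟹ difference in `E₀`
  have hsame : ∀ (T T' : (shortW a b).toAffine.Point) (z : ℤ), L T z → L T' z →
      ¬ IsN a b A (T - T') := by
    intro T T' z hL hL'
    rcases hL with ⟨hz, hN⟩ | ⟨g, k, hk0, hz, hC, hgk⟩ | ⟨g, k, hk0, hz, hC, hgk⟩
    · rcases hL' with ⟨-, hN'⟩ | ⟨g', k', hk0', hz', -, -⟩ | ⟨g', k', hk0', hz', -, -⟩
      · exact (mem_E0_iff A a b ha hb1 h2).mp
          ((E0 A a b ha hb1 h2).sub_mem ((mem_E0_iff A a b ha hb1 h2).mpr hN)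
            ((mem_E0_iff A a b ha hb1 h2).mpr hN'))
      · omega
      · omega
    · rcases hL' with ⟨hz', -⟩ | ⟨g', k', hk0', hz', hC', hgk'⟩ | ⟨g', k', hk0', hz', -, -⟩
      · omega
      · have hkk : k = k' := by omega
        subst hkk
        have hgg : g = g' := (pow_left_inj₀ zero_le zero_le hp0).mp (hgk.trans hgk'.symm)
        subst hgg
        exact inC_sub_not_isN A a b r hr ha hb1 h2 hC hC'
      · omega
    · rcases hL' with ⟨hz', -⟩ | ⟨g', k', hk0', hz', -, -⟩ | ⟨g', k', hk0', hz', hC', hgk'⟩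
      · omega
      · omega
      · have hkk : k = k' := by omega
        subst hkk
        have hgg : g = g' := (pow_left_inj₀ zero_le zero_le hp0).mp (hgk.trans hgk'.symm)
        subst hgg
        have h3 := inC_sub_not_isN A a b r hr ha hb1 h2 hC hC'
        have e : -T - -T' = -(T - T') := by abel
        rw [e, isN_neg_iff] at h3
        exact h3
  -- pigeonhole
  have hfin : Finite {T : (shortW a b).toAffine.Point // p • T = 0} :=
    Nat.finite_of_card_ne_zero (by omega)
  have _ := Fintype.ofFinite {T : (shortW a b).toAffine.Point // p • T = 0}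
  have hcard' : (Finset.Icc (-(m : ℤ)) m).card <
      (Finset.univ : Finset {T : (shortW a b).toAffine.Point // p • T = 0}).card := by
    rw [Finset.card_univ, ← Nat.card_eq_fintype_card, Int.card_Icc]
    have : ((m : ℤ) + 1 - -(m : ℤ)).toNat = p := by omega
    rw [this]
    exact hcard
  obtain ⟨x, -, y, -, hxy, hfxy⟩ := Finset.exists_ne_map_eq_of_card_lt_of_maps_to hcard'
    (fun T _ => (hf T).1)
  refine ⟨x.1 - y.1, ?_, ?_, ?_⟩
  · intro h0
    exact hxy (Subtype.ext (sub_eq_zero.mp h0))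
  · rw [smul_sub, x.2, y.2, sub_zero]
  · exact hsame x.1 y.1 (f x) (hf x).2 (hfxy ▸ (hf y).2)

end Main

end Fermat.Agent.S58
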