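import Mathlib
import Fermat.Agent.S05.Core
import Fermat.Agent.S58.h45_UnShort

/-!
# S58, row R1 (FIX), the count on `Y² = X³ + a X² + b X` (odd residue characteristic)

Setting of S05 / `h45_UnShort`: `K` algebraically closed, `A` a valuation subring, `v(a) = 1`,
`0 < v(b) < 1`, `v(2) = 1`; `E₀` = the points not reducing to the node.

* `h45_un_cases_E0` : a point `T` with `p • T ∈ E₀` (`p` an odd prime) lies in `E₀` or `± T` lies
  in a component `C_g` with `g ^ p = v(b) ^ (2 k)`;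
* `h45_un_label`    : a labelling `f` of the points with values `< p` on `{T | p • T ∈ E₀}` such
  that two such points with the same label are congruent modulo `E₀` (so the `p`-torsion of
  `Pt / E₀` has at most `p` elements).
-/

set_option autoImplicit false

namespace Fermat.Agent.S58

open WeierstrassCurve Fermat.Agent.S05

variable {K : Type*} [Field K] [DecidableEq K] (A : ValuationSubring K) (a b : K)

section Main

variable [IsAlgClosed K]

/-- Classification by components of the points `T` with `p • T ∈ E₀`. -/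
theorem h45_un_cases_E0 (r : K) (hr : r ^ 2 = a) (ha : A.valuation a = 1)
    (hb1 : A.valuation b < 1) (hb0 : b ≠ 0) (h2 : A.valuation (2 : K) = 1)
    (p : ℕ) (hp : p.Prime) (hp2 : p ≠ 2)
    {T : (shortW a b).toAffine.Point} (hT : ¬ IsN a b A (p • T)) :
    ¬ IsN a b A T ∨ ∃ (g : A.ValueGroup) (k : ℕ),
      (InC a b A r g T ∨ InC a b A r g (-T)) ∧ g ^ p = A.valuation b ^ (2 * k) := by
  classical
  have hvb0 : A.valuation b ≠ 0 := (Valuation.ne_zero_iff _).mpr hb0
  have hvbpos : 0 < A.valuation b := lt_of_le_of_ne zero_le (Ne.symm hvb0)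
  have hsq : ∀ x : K, ∃ y, y ^ 2 = x := fun x => IsAlgClosed.exists_pow_nat_eq x two_pos
  let mk : (shortW a b).toAffine.Point →+
      (shortW a b).toAffine.Point ⧸ (E0 A a b ha hb1 h2) :=
    QuotientAddGroup.mk' (E0 A a b ha hb1 h2)
  have hmk0 : ∀ P, mk P = 0 ↔ ¬ IsN a b A P := fun P =>
    (QuotientAddGroup.eq_zero_iff P).trans (mem_E0_iff A a b ha hb1 h2)
  have hmkC : ∀ (g : A.ValueGroup) (P P' : (shortW a b).toAffine.Point),
      InC a b A r g P → InC a b A r g P' → mk P = mk P' := by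
    intro g P P' hP hP'
    refine sub_eq_zero.mp ?_
    rw [← map_sub]
    exact (hmk0 _).mpr (inC_sub_not_isN A a b r hr ha hb1 h2 hP hP')
  let c : A.ValueGroup → (shortW a b).toAffine.Point ⧸ (E0 A a b ha hb1 h2) := fun g =>
    if hex : ∃ P, InC a b A r g P then mk hex.choose else 0
  have hc_eq : ∀ (g : A.ValueGroup) (P : (shortW a b).toAffine.Point),
      InC a b A r g P → c g = mk P := by
    intro g P hP
    have hex : ∃ P, InC a b A r g P := ⟨P, hP⟩
    simp only [c, dif_pos hex]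
    exact hmkC g _ _ hex.choose_spec hP
  have exC : ∀ g : A.ValueGroup, A.valuation b < g → g < 1 → ∃ P, InC a b A r g P := by
    intro g hg1 hg2
    obtain ⟨x, rfl⟩ := A.valuation_surjective g
    obtain ⟨Y, hY, hC⟩ := exists_inC A a b r hr ha hb1 hb0 h2 hsq x hg2 hg1
    exact ⟨_, hC⟩
  obtain ⟨T0, hT0⟩ := exists_inM A a b ha hb1 hb0 h2
  have hmkM : ∀ P : (shortW a b).toAffine.Point, InM a b A P → mk P = mk T0 := by
    intro P hPM
    refine sub_eq_zero.mp ?_
    rw [← map_sub]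
    exact (hmk0 _).mpr (h45_un_inM_sub A a b r hr ha hb1 hb0 h2 hPM hT0)
  obtain ⟨hpμ, htors⟩ := torsion_component (A.valuation b) hvbpos hb1 c (mk T0)
    (fun g => by
      obtain ⟨x, rfl⟩ := A.valuation_surjective g
      obtain ⟨y, hy⟩ := IsAlgClosed.exists_pow_nat_eq x (n := 3) (by norm_num)
      exact ⟨A.valuation y, by rw [← map_pow, hy]⟩)
    (fun g₁ g₂ h21 h11 hh => by
      have hg2lt1 : g₂ < 1 := h21.trans h11
      have hbg1 : A.valuation b < g₁ := lt_of_lt_of_le hh (mul_le_of_le_one_right' hg2lt1.le)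
      have hbg2 : A.valuation b < g₂ := lt_of_lt_of_le hh (mul_le_of_le_one_left' h11.le)
      obtain ⟨P1, hP1⟩ := exC g₁ hbg1 h11
      obtain ⟨P2, hP2⟩ := exC g₂ hbg2 hg2lt1
      rw [hc_eq g₁ P1 hP1, hc_eq g₂ P2 hP2,
        hc_eq _ _ (inC_add A a b r hr ha hb1 h2 hP1 hP2 h21 hh), map_add])
    (fun g₁ g₂ h21 h11 hh => by
      have hg2lt1 : g₂ < 1 := h21.trans h11
      have hg1pos : 0 < g₁ := by
        refine lt_of_le_of_ne zero_le (Ne.symm ?_)
        intro h0
        rw [h0, zero_mul] at hh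
        exact hvb0 hh.symm
      have hg2pos : 0 < g₂ := by
        refine lt_of_le_of_ne zero_le (Ne.symm ?_)
        intro h0
        rw [h0, mul_zero] at hh
        exact hvb0 hh.symm
      have hbg1 : A.valuation b < g₁ := by
        rw [← hh]; exact mul_lt_of_lt_one_right hg1pos hg2lt1
      have hbg2 : A.valuation b < g₂ := by
        rw [← hh]; exact mul_lt_of_lt_one_left hg2pos h11
      obtain ⟨P1, hP1⟩ := exC g₁ hbg1 h11
      obtain ⟨P2, hP2⟩ := exC g₂ hbg2 hg2lt1
      rw [hc_eq g₁ P1 hP1, hc_eq g₂ P2 hP2, ← map_add]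
      exact hmkM _ (inM_add A a b r hr ha hb1 h2 hP1 hP2 h21 hh))
    (fun g hg1 hgsq => by
      have hbg : A.valuation b < g :=
        lt_of_lt_of_le hgsq (pow_le_of_le_one zero_le hg1.le two_ne_zero)
      obtain ⟨Q, hQ⟩ := exC g hbg hg1
      have h3 := inC_neg_add_of_inM A a b r hr ha hb1 hb0 h2 hT0 hQ hgsq
      rw [hc_eq g Q hQ, hc_eq _ _ h3, map_neg, map_add, neg_neg])
    (fun g hbg hg1 => by
      obtain ⟨P, hP⟩ := exC g hbg hg1
      rw [hc_eq g P hP]
      intro h0
      exact ((hmk0 P).mp h0) (core_isN_of_inC A a b hP))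
    (fun h0 => ((hmk0 T0).mp h0) (core_isN_of_inM A a b hb1 hT0))
    p hp hp2
  have key : ∀ (S : (shortW a b).toAffine.Point) (g : A.ValueGroup),
      InC a b A r g S → ¬ IsN a b A (p • S) → ∃ k : ℕ, g ^ p = A.valuation b ^ (2 * k) := by
    intro S g hC hpS
    have hbg : A.valuation b < g := by obtain ⟨_, _, _, -, -, hbg, -, -⟩ := hC; exact hbg
    have hg1 : g < 1 := by obtain ⟨_, _, _, -, -, -, hg1, -⟩ := hC; exact hg1
    have hpc : p • c g = 0 := by
      rw [hc_eq g _ hC, ← map_nsmul]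
      exact (hmk0 _).mpr hpS
    exact htors g hbg hg1 hpc
  by_cases hN : IsN a b A T
  · right
    rcases node_trichotomy A a b r hr ha hb1 h2 hN with ⟨g, hC⟩ | ⟨g, hC⟩ | hM
    · obtain ⟨k, hk⟩ := key T g hC hT
      exact ⟨g, k, Or.inl hC, hk⟩
    · obtain ⟨k, hk⟩ := key (-T) g hC (by rw [smul_neg, isN_neg_iff]; exact hT)
      exact ⟨g, k, Or.inr hC, hk⟩
    · exfalso
      apply hpμ
      rw [← hmkM _ hM, ← map_nsmul]
      exact (hmk0 _).mpr hT
  · exact Or.inl hN


/-- **The label.** The points `T` with `p • T ∈ E₀` fall into at most `p` classes modulo `E₀`. -/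
theorem h45_un_label (ha : A.valuation a = 1)
    (hb1 : A.valuation b < 1) (hb0 : b ≠ 0) (h2 : A.valuation (2 : K) = 1)
    (p : ℕ) (hp : p.Prime) (hp2 : p ≠ 2) :
    ∃ f : (shortW a b).toAffine.Point → ℕ,
      (∀ T, ¬ IsN a b A (p • T) → f T < p) ∧
      ∀ T T', ¬ IsN a b A (p • T) → ¬ IsN a b A (p • T') → f T = f T' →
        ¬ IsN a b A (T - T') := by
  classical
  obtain ⟨r, hr⟩ := IsAlgClosed.exists_pow_nat_eq a (n := 2) two_pos
  have hvb0 : A.valuation b ≠ 0 := (Valuation.ne_zero_iff _).mpr hb0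
  have hvbpos : 0 < A.valuation b := lt_of_le_of_ne zero_le (Ne.symm hvb0)
  have hp0 : p ≠ 0 := hp.ne_zero
  obtain ⟨m, hm⟩ : ∃ m, p = 2 * m + 1 := by
    rcases hp.eq_two_or_odd with h | h
    · exact absurd h hp2
    · exact ⟨p / 2, by omega⟩
  -- the label relation
  let L : (shortW a b).toAffine.Point → ℤ → Prop := fun T z =>
    (z = 0 ∧ ¬ IsN a b A T) ∨
    (∃ (g : A.ValueGroup) (k : ℕ), 0 < k ∧ z = k ∧ InC a b A r g T ∧
      g ^ p = A.valuation b ^ (2 * k)) ∨
    (∃ (g : A.ValueGroup) (k : ℕ), 0 < k ∧ z = -(k : ℤ) ∧ InC a b A r g (-T) ∧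
      g ^ p = A.valuation b ^ (2 * k))
  -- bounds on `k`
  have hk_bd : ∀ (g : A.ValueGroup) (k : ℕ), A.valuation b < g → g < 1 →
      g ^ p = A.valuation b ^ (2 * k) → 0 < k ∧ k ≤ m := by
    intro g k hbg hg1 hgk
    have hgpos : 0 < g := hvbpos.trans hbg
    constructor
    · rcases Nat.eq_zero_or_pos k with h0 | h0
      · exfalso
        rw [h0, mul_zero, pow_zero] at hgk
        exact absurd hgk (pow_lt_one₀ zero_le hg1 hp0).ne
      · exact h0
    · have h1 : A.valuation b ^ p < g ^ p := pow_lt_pow_left₀ hbg zero_le hp0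
      rw [hgk] at h1
      have h2' : 2 * k < p := (pow_lt_pow_iff_right_of_lt_one₀ hvbpos hb1).mp h1
      omega
  have hlabel : ∀ T : (shortW a b).toAffine.Point, ¬ IsN a b A (p • T) →
      ∃ z : ℤ, (-(m : ℤ) ≤ z ∧ z ≤ m) ∧ L T z := by
    intro T hT
    rcases h45_un_cases_E0 A a b r hr ha hb1 hb0 h2 p hp hp2 hT with hN | ⟨g, k, hC, hgk⟩
    · exact ⟨0, by omega, Or.inl ⟨rfl, hN⟩⟩
    · rcases hC with hC | hC
      · have hbg : A.valuation b < g := by obtain ⟨_, _, _, -, -, hbg, -, -⟩ := hC; exact hbg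
        have hg1 : g < 1 := by obtain ⟨_, _, _, -, -, -, hg1, -⟩ := hC; exact hg1
        obtain ⟨hk0, hkm⟩ := hk_bd g k hbg hg1 hgk
        exact ⟨k, by omega, Or.inr (Or.inl ⟨g, k, hk0, rfl, hC, hgk⟩)⟩
      · have hbg : A.valuation b < g := by obtain ⟨_, _, _, -, -, hbg, -, -⟩ := hC; exact hbg
        have hg1 : g < 1 := by obtain ⟨_, _, _, -, -, -, hg1, -⟩ := hC; exact hg1
        obtain ⟨hk0, hkm⟩ := hk_bd g k hbg hg1 hgk
        exact ⟨-(k : ℤ), by omega, Or.inr (Or.inr ⟨g, k, hk0, rfl, hC, hgk⟩)⟩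
  -- same label ⟹ difference in `E₀`
  have hsame : ∀ (T T' : (shortW a b).toAffine.Point) (z : ℤ), L T z → L T' z →
      ¬ IsN a b A (T - T') := by
    intro T T' z hL hL'
    rcases hL with ⟨hz, hN⟩ | ⟨g, k, hk0, hz, hC, hgk⟩ | ⟨g, k, hk0, hz, hC, hgk⟩
    · rcases hL' with ⟨-, hN'⟩ | ⟨g', k', hk0', hz', -, -⟩ | ⟨g', k', hk0', hz', -, -⟩
      · exact (mem_E0_iff A a b ha hb1 h2).mp
          ((E0 A a b ha hb1 h2).sub_mem ((mem_E0_iff A a b ha hb1 h2).mpr hN)
            ((mem_E0_iff A a b ha hb1 h2).mpr hN'))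
      · omega
      · omega
    · rcases hL' with ⟨hz', -⟩ | ⟨g', k', hk0', hz', hC', hgk'⟩ | ⟨g', k', hk0', hz', -, -⟩
      · omega
      · have hkk : k = k' := by omega
        subst hkk
        have hgg : g = g' := (pow_left_inj₀ zero_le zero_le hp0).mp (hgk.trans hgk'.symm)
        subst hgg
        exact inC_sub_not_isN A a b r hr ha hb1 h2 hC hC'
      · omega
    · rcases hL' with ⟨hz', -⟩ | ⟨g', k', hk0', hz', -, -⟩ | ⟨g', k', hk0', hz', hC', hgk'⟩
      · omega
      · omega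
      · have hkk : k = k' := by omega
        subst hkk
        have hgg : g = g' := (pow_left_inj₀ zero_le zero_le hp0).mp (hgk.trans hgk'.symm)
        subst hgg
        have h3 := inC_sub_not_isN A a b r hr ha hb1 h2 hC hC'
        have e : -T - -T' = -(T - T') := by abel
        rw [e, isN_neg_iff] at h3
        exact h3
  -- the label function
  let z : (shortW a b).toAffine.Point → ℤ := fun T =>
    if hT : ¬ IsN a b A (p • T) then (hlabel T hT).choose else 0
  have hz : ∀ T, ¬ IsN a b A (p • T) → (-(m : ℤ) ≤ z T ∧ z T ≤ m) ∧ L T (z T) := by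
    intro T hT
    simp only [z, dif_pos hT]
    exact (hlabel T hT).choose_spec
  refine ⟨fun T => (z T + m).toNat, fun T hT => ?_, fun T T' hT hT' hff => ?_⟩
  · have := (hz T hT).1
    change (z T + m).toNat < p
    omega
  · have h1 := (hz T hT).1
    have h1' := (hz T' hT').1
    have hzz : z T = z T' := by
      change (z T + m).toNat = (z T' + m).toNat at hff
      omega
    exact hsame T T' (z T) (hz T hT).2 (hzz ▸ (hz T' hT').2)

end Main

end Fermat.Agent.S58
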