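import Mathlib
import Fermat.Agent.S05.Defs
import Fermat.Agent.S05.VC

/-!
# S58, row R1 (E-UNIP), sub-row (R1-c), part 1: the local model at an odd bad prime

`K` algebraically closed, `A` a valuation subring with `v(2) = 1`, `W` a Weierstrass curve over `K`
with coefficients in `A`, `v(c₄) = 1`, `0 < v(Δ) < 1` (multiplicative reduction).  Then the
`2`-division cubic `4x³ + b₂x² + 2b₄x + b₆` has roots `e, e', e''` in `A` with `e ≡ e'` and
`e ≢ e''` modulo the maximal ideal (`h45_un_roots`), and the translation of `(e, -(a₃ + a₁e)/2)` to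
the origin after completing the square puts `W` in the form `Y² = X³ + aX² + bX` with `v(a) = 1`,
`0 < v(b) < 1` (`h45_un_model_odd`), `a = b₂/4 + 3e`, `b = b₄/2 + b₂e/2 + 3e²`.

-/

set_option autoImplicit false

namespace Fermat.Agent.S58

open WeierstrassCurve Fermat.Agent.S05

variable {K : Type*} [Field K] (A : ValuationSubring K)

/-- `v(4) = 1` when `v(2) = 1`. -/
lemma h45_un_val_four (h2 : A.valuation (2 : K) = 1) : A.valuation (4 : K) = 1 := by
  have : (4 : K) = 2 * 2 := by norm_num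
  rw [this, map_mul, h2, one_mul]

/-- A root of `4x³ + c₂x² + c₁x + c₀` with integral coefficients is integral. -/
lemma h45_un_root_mem (h2 : A.valuation (2 : K) = 1) {c2 c1 c0 x : K}
    (hc2 : A.valuation c2 ≤ 1) (hc1 : A.valuation c1 ≤ 1) (hc0 : A.valuation c0 ≤ 1)
    (h : 4 * x ^ 3 + c2 * x ^ 2 + c1 * x + c0 = 0) : A.valuation x ≤ 1 := by
  by_contra hx
  replace hx := not_le.mp hx
  have hx0 : x ≠ 0 := by
    rintro rfl
    rw [map_zero] at hx
    exact absurd hx (not_lt.mpr zero_le)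
  have hy : A.valuation x⁻¹ < 1 := by
    rw [map_inv₀]
    exact inv_lt_one_of_one_lt₀ hx
  have h4 : (4 : K) = -(x⁻¹ * (c2 + c1 * x⁻¹ + c0 * x⁻¹ ^ 2)) := by
    field_simp
    linear_combination h
  have hy1 : A.valuation x⁻¹ ≤ 1 := hy.le
  have h5 : A.valuation (c2 + c1 * x⁻¹ + c0 * x⁻¹ ^ 2) ≤ 1 := by
    refine le_trans (A.valuation.map_add _ _) (max_le (le_trans (A.valuation.map_add _ _)
      (max_le hc2 ?_)) ?_)
    · rw [map_mul]; exact mul_le_one' hc1 hy1
    · rw [map_mul, map_pow]; exact mul_le_one' hc0 (pow_le_one₀ zero_le hy1)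
  have h6 : A.valuation (4 : K) < 1 := by
    rw [h4, Valuation.map_neg, map_mul]
    exact mul_lt_one_of_lt_of_le hy h5
  rw [h45_un_val_four A h2] at h6
  exact lt_irrefl _ h6

section Model

variable [IsAlgClosed K] (W : WeierstrassCurve K)

/-- **The roots of the 2-division cubic at a multiplicative prime.** -/
theorem h45_un_roots (h2 : A.valuation (2 : K) = 1)
    (h1W : A.valuation W.a₁ ≤ 1) (h2W : A.valuation W.a₂ ≤ 1) (h3W : A.valuation W.a₃ ≤ 1)
    (h4W : A.valuation W.a₄ ≤ 1) (h6W : A.valuation W.a₆ ≤ 1)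
    (hΔ0 : W.Δ ≠ 0) (hΔ : A.valuation W.Δ < 1) (hc4 : A.valuation W.c₄ = 1) :
    ∃ e e' e'' : K, A.valuation e ≤ 1 ∧ A.valuation e' ≤ 1 ∧ A.valuation e'' ≤ 1 ∧
      (W.b₂ = -4 * (e + e' + e'') ∧ 2 * W.b₄ = 4 * (e * e' + e * e'' + e' * e'') ∧
        W.b₆ = -4 * (e * e' * e'')) ∧
      A.valuation (e - e') < 1 ∧ A.valuation (e - e'') = 1 ∧ e ≠ e' := by
  have h4 : A.valuation (4 : K) = 1 := h45_un_val_four A h2
  have h40 : (4 : K) ≠ 0 := by
    intro h
    rw [h, map_zero] at h4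
    exact zero_ne_one h4
  have hb2 : A.valuation W.b₂ ≤ 1 := by
    rw [WeierstrassCurve.b₂]
    refine le_trans (A.valuation.map_add _ _) (max_le ?_ ?_)
    · rw [map_pow]; exact pow_le_one₀ zero_le h1W
    · rw [map_mul, h4, one_mul]; exact h2W
  have hb4 : A.valuation (2 * W.b₄) ≤ 1 := by
    rw [map_mul, h2, one_mul, WeierstrassCurve.b₄]
    refine le_trans (A.valuation.map_add _ _) (max_le ?_ ?_)
    · rw [map_mul, h2, one_mul]; exact h4W
    · rw [map_mul]; exact mul_le_one' h1W h3W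
  have hb6 : A.valuation W.b₆ ≤ 1 := by
    rw [WeierstrassCurve.b₆]
    refine le_trans (A.valuation.map_add _ _) (max_le ?_ ?_)
    · rw [map_pow]; exact pow_le_one₀ zero_le h3W
    · rw [map_mul, h4, one_mul]; exact h6W
  -- the three roots
  obtain ⟨e1, he1⟩ : ∃ e1 : K, 4 * e1 ^ 3 + W.b₂ * e1 ^ 2 + 2 * W.b₄ * e1 + W.b₆ = 0 := by
    have hdeg : (Polynomial.C (4 : K) * Polynomial.X ^ 3 + Polynomial.C W.b₂ * Polynomial.X ^ 2 +
        Polynomial.C (2 * W.b₄) * Polynomial.X + Polynomial.C W.b₆).degree ≠ 0 := by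
      have h3 : (Polynomial.C (4 : K) * Polynomial.X ^ 3 + Polynomial.C W.b₂ * Polynomial.X ^ 2 +
        Polynomial.C (2 * W.b₄) * Polynomial.X + Polynomial.C W.b₆).degree = 3 :=
        Polynomial.degree_cubic h40
      rw [h3]
      norm_num
    obtain ⟨e1, he1⟩ := IsAlgClosed.exists_root _ hdeg
    refine ⟨e1, ?_⟩
    have := he1
    simp only [Polynomial.IsRoot, Polynomial.eval_add, Polynomial.eval_mul, Polynomial.eval_C,
      Polynomial.eval_pow, Polynomial.eval_X] at this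
    exact this
  obtain ⟨e2, he2⟩ : ∃ e2 : K, 4 * e2 ^ 2 + (W.b₂ + 4 * e1) * e2 +
      (2 * W.b₄ + W.b₂ * e1 + 4 * e1 ^ 2) = 0 := by
    have hdeg : (Polynomial.C (4 : K) * Polynomial.X ^ 2 +
        Polynomial.C (W.b₂ + 4 * e1) * Polynomial.X +
        Polynomial.C (2 * W.b₄ + W.b₂ * e1 + 4 * e1 ^ 2)).degree ≠ 0 := by
      rw [Polynomial.degree_quadratic h40]
      norm_num
    obtain ⟨e2, he2⟩ := IsAlgClosed.exists_root _ hdeg
    refine ⟨e2, ?_⟩
    have := he2
    simp only [Polynomial.IsRoot, Polynomial.eval_add, Polynomial.eval_mul, Polynomial.eval_C,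
      Polynomial.eval_pow, Polynomial.eval_X] at this
    exact this
  obtain ⟨e3, h4e3⟩ : ∃ e3 : K, 4 * e3 = -(W.b₂ + 4 * e1) - 4 * e2 :=
    ⟨(-(W.b₂ + 4 * e1) - 4 * e2) / 4, by field_simp⟩
  have hfac : ∀ x : K, 4 * x ^ 3 + W.b₂ * x ^ 2 + 2 * W.b₄ * x + W.b₆ =
      4 * ((x - e1) * (x - e2) * (x - e3)) := by
    intro x
    linear_combination he1 + (x - e1) * he2 + (x - e1) * (x - e2) * h4e3
  -- Vieta
  have hV2 : W.b₂ = -4 * (e1 + e2 + e3) := by linear_combination h4e3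
  have hV4 : 2 * W.b₄ = 4 * (e1 * e2 + e1 * e3 + e2 * e3) := by
    linear_combination he2 - (e1 + e2) * h4e3
  have hV6 : W.b₆ = -4 * (e1 * e2 * e3) := by
    have := hfac 0
    linear_combination this
  -- integrality
  have hroot : ∀ x : K, 4 * x ^ 3 + W.b₂ * x ^ 2 + 2 * W.b₄ * x + W.b₆ = 0 →
      A.valuation x ≤ 1 := fun x hx => h45_un_root_mem A h2 hb2 hb4 hb6 hx
  have hm1 : A.valuation e1 ≤ 1 := hroot e1 he1
  have hm2 : A.valuation e2 ≤ 1 := hroot e2 (by rw [hfac]; ring)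
  have hm3 : A.valuation e3 ≤ 1 := hroot e3 (by rw [hfac]; ring)
  -- discriminant and c₄ in terms of the roots
  have hDisc : W.Δ = 16 * ((e1 - e2) ^ 2 * (e1 - e3) ^ 2 * (e2 - e3) ^ 2) := by
    have hb8 := W.b_relation
    have hV4' : W.b₄ = 2 * (e1 * e2 + e1 * e3 + e2 * e3) := by
      have h2' : (2 : K) ≠ 0 := by
        intro h
        rw [h, map_zero] at h2
        exact zero_ne_one h2
      have : 2 * W.b₄ = 2 * (2 * (e1 * e2 + e1 * e3 + e2 * e3)) := by rw [hV4]; ring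
      exact mul_left_cancel₀ h2' this
    have h4Δ : 4 * W.Δ = 4 * (16 * ((e1 - e2) ^ 2 * (e1 - e3) ^ 2 * (e2 - e3) ^ 2)) := by
      rw [WeierstrassCurve.Δ]
      have e8 : 4 * W.b₈ = (-4 * (e1 + e2 + e3)) * (-4 * (e1 * e2 * e3)) -
          (2 * (e1 * e2 + e1 * e3 + e2 * e3)) ^ 2 := by rw [hb8, hV2, hV6, hV4']
      rw [hV2, hV6, hV4']
      linear_combination (-(-4 * (e1 + e2 + e3)) ^ 2) * e8
    exact mul_left_cancel₀ h40 h4Δ
  have hC4 : W.c₄ = 8 * ((e1 - e2) ^ 2 + (e1 - e3) ^ 2 + (e2 - e3) ^ 2) := by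
    rw [WeierstrassCurve.c₄, hV2]
    linear_combination (-12 : K) * hV4
  have hsub : ∀ x y : K, A.valuation x ≤ 1 → A.valuation y ≤ 1 → A.valuation (x - y) ≤ 1 :=
    fun x y hx hy => le_trans (A.valuation.map_sub _ _) (max_le hx hy)
  have h12 := hsub e1 e2 hm1 hm2
  have h13 := hsub e1 e3 hm1 hm3
  have h23 := hsub e2 e3 hm2 hm3
  have h16 : A.valuation (16 : K) = 1 := by
    have : (16 : K) = 4 * 4 := by norm_num
    rw [this, map_mul, h4, one_mul]
  have h8 : A.valuation (8 : K) = 1 := by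
    have : (8 : K) = 4 * 2 := by norm_num
    rw [this, map_mul, h4, h2, one_mul]
  -- one difference is a nonunit
  have hprod : A.valuation (e1 - e2) < 1 ∨ A.valuation (e1 - e3) < 1 ∨
      A.valuation (e2 - e3) < 1 := by
    by_contra hcon
    push Not at hcon
    obtain ⟨c1, c2, c3⟩ := hcon
    have e12 : A.valuation (e1 - e2) = 1 := le_antisymm h12 c1
    have e13 : A.valuation (e1 - e3) = 1 := le_antisymm h13 c2
    have e23 : A.valuation (e2 - e3) = 1 := le_antisymm h23 c3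
    rw [hDisc, map_mul, map_mul, map_mul, map_pow, map_pow, map_pow, h16, e12, e13, e23] at hΔ
    simp at hΔ
  -- not all differences are nonunits
  have hnot3 : ∀ x y z : K, A.valuation x < 1 → A.valuation y < 1 → A.valuation z < 1 →
      W.c₄ = 8 * (x ^ 2 + y ^ 2 + z ^ 2) → False := by
    intro x y z hx hy hz hc
    have hsq : ∀ w : K, A.valuation w < 1 → A.valuation (w ^ 2) < 1 := fun w hw => by
      rw [map_pow]; exact pow_lt_one₀ zero_le hw two_ne_zero
    have h1 : A.valuation (x ^ 2 + y ^ 2 + z ^ 2) < 1 :=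
      lt_of_le_of_lt (A.valuation.map_add _ _) (max_lt (lt_of_le_of_lt (A.valuation.map_add _ _)
        (max_lt (hsq x hx) (hsq y hy))) (hsq z hz))
    rw [hc, map_mul, h8, one_mul] at hc4
    exact absurd hc4 h1.ne
  have hne : ∀ x y z : K, W.Δ = 16 * (x ^ 2 * y ^ 2 * z ^ 2) → x ≠ 0 := by
    intro x y z h hx
    apply hΔ0
    rw [h, hx]
    ring
  rcases hprod with h | h | h
  · -- e1 ≡ e2
    refine ⟨e1, e2, e3, hm1, hm2, hm3, ⟨hV2, hV4, hV6⟩, h, ?_, ?_⟩
    · refine le_antisymm h13 (not_lt.mp fun h' => ?_)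
      have h'' : A.valuation (e2 - e3) < 1 := by
        have : e2 - e3 = (e1 - e3) - (e1 - e2) := by ring
        rw [this]
        exact lt_of_le_of_lt (A.valuation.map_sub _ _) (max_lt h' h)
      exact hnot3 _ _ _ h h' h'' hC4
    · exact sub_ne_zero.mp (hne _ _ _ hDisc)
  · -- e1 ≡ e3
    refine ⟨e1, e3, e2, hm1, hm3, hm2, ⟨by rw [hV2]; ring, by rw [hV4]; ring, by rw [hV6]; ring⟩,
      h, ?_, ?_⟩
    · refine le_antisymm h12 (not_lt.mp fun h' => ?_)
      have h'' : A.valuation (e2 - e3) < 1 := by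
        have : e2 - e3 = (e1 - e3) - (e1 - e2) := by ring
        rw [this]
        exact lt_of_le_of_lt (A.valuation.map_sub _ _) (max_lt h h')
      exact hnot3 _ _ _ h' h h'' hC4
    · exact sub_ne_zero.mp (hne (e1 - e3) (e1 - e2) (e2 - e3) (by rw [hDisc]; ring))
  · -- e2 ≡ e3
    refine ⟨e2, e3, e1, hm2, hm3, hm1, ⟨by rw [hV2]; ring, by rw [hV4]; ring, by rw [hV6]; ring⟩,
      h, ?_, ?_⟩
    · have h21 : A.valuation (e2 - e1) ≤ 1 := hsub e2 e1 hm2 hm1
      refine le_antisymm h21 (not_lt.mp fun h' => ?_)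
      have h12' : A.valuation (e1 - e2) < 1 := by
        have : e1 - e2 = -(e2 - e1) := by ring
        rw [this, Valuation.map_neg]
        exact h'
      have h'' : A.valuation (e1 - e3) < 1 := by
        have : e1 - e3 = (e1 - e2) + (e2 - e3) := by ring
        rw [this]
        exact lt_of_le_of_lt (A.valuation.map_add _ _) (max_lt h12' h)
      exact hnot3 _ _ _ h12' h'' h hC4
    · exact sub_ne_zero.mp (hne (e2 - e3) (e1 - e2) (e1 - e3) (by rw [hDisc]; ring))

/-- **The local model at an odd multiplicative prime.**  A change of variables with `u = 1` and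
integral `r, s, t` puts `W` in the form `Y² = X³ + aX² + bX`, `v(a) = 1`, `0 < v(b) < 1`. -/
theorem h45_un_model_odd (h2 : A.valuation (2 : K) = 1)
    (h1W : A.valuation W.a₁ ≤ 1) (h2W : A.valuation W.a₂ ≤ 1) (h3W : A.valuation W.a₃ ≤ 1)
    (h4W : A.valuation W.a₄ ≤ 1) (h6W : A.valuation W.a₆ ≤ 1)
    (hΔ0 : W.Δ ≠ 0) (hΔ : A.valuation W.Δ < 1) (hc4 : A.valuation W.c₄ = 1) :
    ∃ (a b : K) (C : VariableChange K), C • W = shortW a b ∧ (C.u : K) = 1 ∧
      A.valuation C.r ≤ 1 ∧ A.valuation C.s ≤ 1 ∧ A.valuation C.t ≤ 1 ∧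
      A.valuation a = 1 ∧ A.valuation b < 1 ∧ b ≠ 0 := by
  obtain ⟨e, e', e'', hm, hm', hm'', ⟨hV2, hV4, hV6⟩, h1, h1', hne⟩ :=
    h45_un_roots A W h2 h1W h2W h3W h4W h6W hΔ0 hΔ hc4
  have h20 : (2 : K) ≠ 0 := by
    intro h
    rw [h, map_zero] at h2
    exact zero_ne_one h2
  have h40 : (4 : K) ≠ 0 := by
    have : (4 : K) = 2 * 2 := by norm_num
    rw [this]
    exact mul_ne_zero h20 h20
  have hinv2 : A.valuation (2 : K)⁻¹ = 1 := by rw [map_inv₀, h2, inv_one]
  have hne' : e ≠ e'' := by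
    intro h
    rw [h, sub_self, map_zero] at h1'
    exact zero_ne_one h1'
  have hroot : 4 * e ^ 3 + W.b₂ * e ^ 2 + 2 * W.b₄ * e + W.b₆ = 0 := by
    rw [hV2, hV4, hV6]; ring
  have hb4 : W.b₄ = 2 * (e * e' + e * e'' + e' * e'') := by
    have : 2 * W.b₄ = 2 * (2 * (e * e' + e * e'' + e' * e'')) := by rw [hV4]; ring
    exact mul_left_cancel₀ h20 this
  have ha_eq : W.b₂ / 4 + 3 * e = (e - e') + (e - e'') := by
    rw [hV2]; field_simp; ring
  have hb_eq : W.b₄ / 2 + W.b₂ * e / 2 + 3 * e ^ 2 = (e - e') * (e - e'') := by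
    rw [hV2, hb4]; field_simp; ring
  refine ⟨W.b₂ / 4 + 3 * e, W.b₄ / 2 + W.b₂ * e / 2 + 3 * e ^ 2,
    ⟨1, e, -W.a₁ / 2, -(W.a₃ + W.a₁ * e) / 2⟩, ?_, rfl, hm, ?_, ?_, ?_, ?_, ?_⟩
  · rw [WeierstrassCurve.b₂, WeierstrassCurve.b₄, WeierstrassCurve.b₆] at hroot
    ext
    · simp only [variableChange_a₁, shortW_a₁, inv_one, Units.val_one, one_mul]
      field_simp
      ring
    · simp only [variableChange_a₂, shortW_a₂, inv_one, Units.val_one, one_mul, one_pow,
        WeierstrassCurve.b₂]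
      field_simp
      ring
    · simp only [variableChange_a₃, shortW_a₃, inv_one, Units.val_one, one_mul, one_pow]
      field_simp
      ring
    · simp only [variableChange_a₄, shortW_a₄, inv_one, Units.val_one, one_mul, one_pow,
        WeierstrassCurve.b₂, WeierstrassCurve.b₄]
      field_simp
      ring
    · simp only [variableChange_a₆, shortW_a₆, inv_one, Units.val_one, one_mul, one_pow]
      field_simp
      linear_combination hroot
  · change A.valuation (-W.a₁ / 2) ≤ 1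
    rw [div_eq_mul_inv, map_mul, hinv2, mul_one, Valuation.map_neg]
    exact h1W
  · change A.valuation (-(W.a₃ + W.a₁ * e) / 2) ≤ 1
    rw [div_eq_mul_inv, map_mul, hinv2, mul_one, Valuation.map_neg]
    refine le_trans (A.valuation.map_add _ _) (max_le h3W ?_)
    rw [map_mul]
    exact mul_le_one' h1W hm
  · rw [ha_eq, Valuation.map_add_eq_of_lt_right _ (by rw [h1']; exact h1), h1']
  · rw [hb_eq, map_mul, h1', mul_one]
    exact h1
  · rw [hb_eq]
    exact mul_ne_zero (sub_ne_zero.mpr hne) (sub_ne_zero.mpr hne')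

end Model

end Fermat.Agent.S58
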