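import Mathlib
import Fermat.Agent.S05.Core
import Fermat.Agent.S05.Red
import Fermat.Agent.S05.VC
import Fermat.Agent.S05.h18_Red
import Fermat.Agent.S05.h86_Formal
import Fermat.Agent.S05.InertiaVal
import Fermat.Agent.S13.h48_At2Core
import Fermat.Agent.S41.h70_P2
import Fermat.Agent.S58.h45_UnModelOdd
import Fermat.Agent.S58.h45_UnCountOdd
import Fermat.Agent.S58.h45_UnCountGen
import Fermat.Prelude.Def_FLTPrelim_Ramification
import Fermat.Prelude.Def_FLTPrelim_GaloisRep

/-!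
# S58, row R1 (FIX): an inertia-fixed point of exact order `p^(k+1)`

`W` a Weierstrass curve over `ℤ` with `Δ ≠ 0`, `q ≠ p` primes, `p` odd, `W` semistable at `q`
(`q ∣ Δ → q ∤ c₄`), `A` a valuation subring of `ℚ̄` over `q`.  Then for every `k` there is a point
of `W(ℚ̄)` of exact order `p^(k+1)` fixed by the inertia group of `A`.

* `h45_un_ncard`        : `#W[n] = n²` (`n` odd) as an `ncard`;
* `h45_un_exists_good`  : good reduction: a point of exact order `p^(k+1)` with integral `x` and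
  nonsingular reduction;
* `h45_un_transport`    : transport of such a point along a change of variables with `u = 1` and
  integral `r, s`;
* `h45_un_exists_mult`  : the same at a multiplicative prime of odd residue characteristic (model
  `h45_un_model_odd`, count `h45_un_label` + `h45_un_count_gen`);
* `h45_un_fixed_Qb`     : such a point is fixed by inertia (`S13.h48_fixed_of_unit`);
* `h45_un_fix_of_two`   : the statement, with the case `q = 2 ∣ Δ` as a hypothesis.
-/

set_option autoImplicit false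

namespace Fermat.Agent.S58

open WeierstrassCurve Fermat.Agent.S05

section KLevel

variable {K : Type*} [Field K] [DecidableEq K]

/-- Transport of a torsion point with integral `x` and nonsingular reduction along a change of
variables with `u = 1` and integral `r`, `s`. -/
theorem h45_un_transport (A : ValuationSubring K) (W W₀ : WeierstrassCurve K)
    (C : VariableChange K) (hC : C • W = W₀) (hu : (C.u : K) = 1) (hr : C.r ∈ A) (hs : C.s ∈ A)
    (n m : ℕ) {X Y : K} (h : W₀.toAffine.Nonsingular X Y)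
    (hn : n • (Affine.Point.some X Y h : W₀.toAffine.Point) = 0)
    (hm : m • (Affine.Point.some X Y h : W₀.toAffine.Point) ≠ 0) (hX : X ∈ A)
    (hns : ¬ (W₀.toAffine.polynomialX.evalEval X Y ∈ A.nonunits ∧
      W₀.toAffine.polynomialY.evalEval X Y ∈ A.nonunits)) :
    ∃ (x y : K) (h' : W.toAffine.Nonsingular x y),
      n • (Affine.Point.some x y h' : W.toAffine.Point) = 0 ∧
      m • (Affine.Point.some x y h' : W.toAffine.Point) ≠ 0 ∧ x ∈ A ∧
      ¬ (W.toAffine.polynomialX.evalEval x y ∈ A.nonunits ∧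
        W.toAffine.polynomialY.evalEval x y ∈ A.nonunits) := by
  subst hC
  refine ⟨vc_X C X, vc_Y C X Y, (vc_nonsingular_iff W C X Y).mp h, ?_, ?_, ?_, ?_⟩
  · have h1 := congrArg (vc_addEquiv W C) hn
    rw [map_nsmul, map_zero, vc_addEquiv_apply, vc_fun_some] at h1
    exact h1
  · intro h0
    apply hm
    apply (vc_addEquiv W C).injective
    rw [map_nsmul, map_zero, vc_addEquiv_apply, vc_fun_some]
    exact h0
  · simp only [vc_X, hu, one_pow, one_mul]
    exact A.add_mem _ _ hX hr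
  · rintro ⟨h1, h2⟩
    apply hns
    rw [Affine.evalEval_polynomialX] at h1 ⊢
    rw [Affine.evalEval_polynomialY] at h2 ⊢
    have e1 := vc_polyX W C X Y
    have e2 := vc_polyY W C X Y
    rw [hu, one_pow, one_mul] at e2
    rw [hu, one_pow, one_pow, one_mul, one_mul] at e1
    have h2' : 2 * Y + (C • W).a₁ * X + (C • W).a₃ ∈ A.nonunits := by
      rw [← e2]
      exact h2
    refine ⟨?_, h2'⟩
    have e3 : (C • W).a₁ * Y - (3 * X ^ 2 + 2 * (C • W).a₂ * X + (C • W).a₄) =
        (W.a₁ * vc_Y C X Y - (3 * vc_X C X ^ 2 + 2 * W.a₂ * vc_X C X + W.a₄)) +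
          C.s * (2 * Y + (C • W).a₁ * X + (C • W).a₃) := by
      rw [e1]; ring
    rw [e3]
    exact add_mem h1 (h18_mul_nu_mem A hs h2')

variable [IsAlgClosed K] [CharZero K]

/-- `#W[n] = n²` for odd `n`, as an `ncard`. -/
theorem h45_un_ncard (W : WeierstrassCurve K) [W.IsElliptic] (n : ℕ) (hodd : n % 2 = 1) :
    {T : W.toAffine.Point | n • T = 0}.ncard = n ^ 2 := by
  rcases Nat.lt_or_ge n 3 with h | h
  · have h1 : n = 1 := by omega
    subst h1
    have h2 : {T : W.toAffine.Point | 1 • T = 0} = {0} := by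
      ext T
      simp
    rw [h2, Set.ncard_singleton]
    norm_num
  · have h1 := Fermat.Agent.S41.h70_card_torsionBy W hodd h
    rw [← h1, ← Nat.card_coe_set_eq]
    refine Nat.card_congr (Equiv.subtypeEquivRight (fun T => ?_))
    rw [Submodule.mem_torsionBy_iff, natCast_zsmul]
    rfl

/-- Odd prime powers are odd. -/
lemma h45_un_pow_odd {p : ℕ} (hp : p.Prime) (hp2 : p ≠ 2) (j : ℕ) : p ^ j % 2 = 1 := by
  rcases hp.eq_two_or_odd with h | h
  · exact absurd h hp2
  · rw [Nat.pow_mod, h, one_pow]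
    rfl

/-- **Good reduction.** A point of exact order `p^(k+1)` with integral `x`-coordinate and
nonsingular reduction. -/
theorem h45_un_exists_good (A : ValuationSubring K) (W : WeierstrassCurve K)
    (hW : h18_Integral A W.toAffine) (hΔ : W.Δ ∉ A.nonunits) (p : ℕ) (hp : p.Prime)
    (hp2 : p ≠ 2) (hvp : A.valuation (p : K) = 1) (k : ℕ) :
    ∃ (X Y : K) (h : W.toAffine.Nonsingular X Y),
      p ^ (k + 1) • (Affine.Point.some X Y h : W.toAffine.Point) = 0 ∧
      p ^ k • (Affine.Point.some X Y h : W.toAffine.Point) ≠ 0 ∧ X ∈ A ∧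
      ¬ (W.toAffine.polynomialX.evalEval X Y ∈ A.nonunits ∧
        W.toAffine.polynomialY.evalEval X Y ∈ A.nonunits) := by
  have hΔ0 : W.Δ ≠ 0 := by
    intro h0
    apply hΔ
    rw [h0, A.mem_nonunits_iff, map_zero]
    exact zero_lt_one
  have : W.IsElliptic := ⟨isUnit_iff_ne_zero.mpr hΔ0⟩
  obtain ⟨T, -, hT1, hT2⟩ := h45_un_count_gen (⊤ : AddSubgroup W.toAffine.Point) p hp.two_le k
    (fun _ => 0) (fun _ _ => hp.pos) (fun _ _ _ _ _ => AddSubgroup.mem_top _)
    (fun j => h45_un_ncard W (p ^ j) (h45_un_pow_odd hp hp2 j))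
  rcases T with _ | ⟨X, Y, h⟩
  · exact absurd (smul_zero _) hT2
  · have hpk : ((p ^ (k + 1) : ℕ) : K) ∉ A.nonunits := by
      rw [A.mem_nonunits_iff, Nat.cast_pow, map_pow, hvp, one_pow]
      exact lt_irrefl _
    have hX : X ∈ A := by
      by_contra hX
      exact h86_nsmul_ne_zero_of_notMem A W hW.a₁ hW.a₂ hW.a₃ hW.a₄ hW.a₆ h hX hpk hT1
    exact ⟨X, Y, h, hT1, hT2, hX, h18_nonsingular_reduction_of_Δ_unit hW hΔ h.1 hX⟩

/-- **Multiplicative reduction, odd residue characteristic.** A point of exact order `p^(k+1)`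
with integral `x`-coordinate and nonsingular reduction. -/
theorem h45_un_exists_mult (A : ValuationSubring K) (W : WeierstrassCurve K)
    (hW : h18_Integral A W.toAffine) (h2 : A.valuation (2 : K) = 1) (hΔ0 : W.Δ ≠ 0)
    (hΔ : A.valuation W.Δ < 1) (hc4 : A.valuation W.c₄ = 1) (p : ℕ) (hp : p.Prime)
    (hp2 : p ≠ 2) (hvp : A.valuation (p : K) = 1) (k : ℕ) :
    ∃ (X Y : K) (h : W.toAffine.Nonsingular X Y),
      p ^ (k + 1) • (Affine.Point.some X Y h : W.toAffine.Point) = 0 ∧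
      p ^ k • (Affine.Point.some X Y h : W.toAffine.Point) ≠ 0 ∧ X ∈ A ∧
      ¬ (W.toAffine.polynomialX.evalEval X Y ∈ A.nonunits ∧
        W.toAffine.polynomialY.evalEval X Y ∈ A.nonunits) := by
  have hv : ∀ x : K, x ∈ A → A.valuation x ≤ 1 := fun x hx => (A.valuation_le_one_iff x).mpr hx
  obtain ⟨a, b, C, hC, hu, hr, hs, -, ha, hb1, hb0⟩ := h45_un_model_odd A W h2 (hv _ hW.a₁)
    (hv _ hW.a₂) (hv _ hW.a₃) (hv _ hW.a₄) (hv _ hW.a₆) hΔ0 hΔ hc4
  have h4 : A.valuation (4 : K) = 1 := h45_un_val_four A h2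
  have hd : a ^ 2 - 4 * b ≠ 0 := by
    intro h0
    have h1 : A.valuation (a ^ 2 - 4 * b) = 1 := by
      rw [Valuation.map_sub_eq_of_lt_left, map_pow, ha, one_pow]
      rw [map_pow, ha, one_pow, map_mul, h4, one_mul]
      exact hb1
    rw [h0, map_zero] at h1
    exact zero_ne_one h1
  have : (shortW a b).IsElliptic := shortW_isElliptic a b two_ne_zero hb0 hd
  obtain ⟨f, hf, hf'⟩ := h45_un_label A a b ha hb1 hb0 h2 p hp hp2
  obtain ⟨T, hT0, hT1, hT2⟩ := h45_un_count_gen (E0 A a b ha hb1 h2) p hp.two_le k f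
    (fun T hT => hf T ((mem_E0_iff A a b ha hb1 h2).mp hT))
    (fun T T' hT hT' hff => (mem_E0_iff A a b ha hb1 h2).mpr
      (hf' T T' ((mem_E0_iff A a b ha hb1 h2).mp hT) ((mem_E0_iff A a b ha hb1 h2).mp hT') hff))
    (fun j => h45_un_ncard (shortW a b) (p ^ j) (h45_un_pow_odd hp hp2 j))
  rw [mem_E0_iff] at hT0
  rcases T with _ | ⟨X, Y, h⟩
  · exact absurd (smul_zero _) hT2
  · have hvpk : A.valuation ((p ^ (k + 1) : ℕ) : K) = 1 := by
      rw [Nat.cast_pow, map_pow, hvp, one_pow]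
    have hX1 : A.valuation X = 1 := by
      rcases lt_trichotomy (A.valuation X) 1 with hlt | heq | hgt
      · exact absurd ⟨X, Y, h, rfl, hlt⟩ hT0
      · exact heq
      · exact absurd hT1 (h86_nsmul_ne_zero A.valuation (shortW a b) (by simp) (by simpa using ha.le)
          (by simp) (by simpa using hb1.le) (by simp) h hgt hvpk)
    have hns := red_hns A a b h2 (ns_of_mult A a b ha hb1 h.1 hX1)
    exact h45_un_transport A W (shortW a b) C hC hu ((A.valuation_le_one_iff _).mp hr)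
      ((A.valuation_le_one_iff _).mp hs) _ _ h hT1 hT2 ((A.valuation_le_one_iff _).mp hX1.le) hns

end KLevel

section QbLevel

open WeierstrassCurve.Affine

local notation "Qb" => AlgebraicClosure ℚ

/-- A torsion point (of order prime to the residue characteristic) with integral `x`-coordinate
and nonsingular reduction is fixed by inertia. -/
theorem h45_un_fixed_Qb (E : WeierstrassCurve ℚ) (A : ValuationSubring Qb)
    (hint : h18_Integral A (E.toAffine⁄Qb)) (n : ℕ) (hn : A.valuation (n : Qb) = 1)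
    {X Y : Qb} (h : (E.toAffine⁄Qb).Nonsingular X Y) (hX : X ∈ A)
    (hns : ¬ ((E.toAffine⁄Qb).polynomialX.evalEval X Y ∈ A.nonunits ∧
      (E.toAffine⁄Qb).polynomialY.evalEval X Y ∈ A.nonunits))
    (hT : n • (Affine.Point.some X Y h : (E.toAffine⁄Qb).Point) = 0)
    (τ : Qb ≃ₐ[ℚ] Qb) (hτ : τ ∈ A.inertiaSubgroupIn ℚ) :
    τ • (Affine.Point.some X Y h : (E.toAffine⁄Qb).Point) = Affine.Point.some X Y h := by
  obtain ⟨-, hσm⟩ := inertia_valuation A τ hτ
  exact Fermat.Agent.S13.h48_fixed_of_unit A (E.toAffine⁄Qb) hint n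
    (by rw [A.mem_nonunits_iff, hn]; exact lt_irrefl _) τ
    (fun x hx => A.mem_nonunits_iff.mpr (hσm x ((A.valuation_le_one_iff x).mpr hx)))
    (DistribSMul.toAddMonoidHom _ τ) (fun X Y h => ⟨_, rfl⟩) h hX hns hT

/-- **(FIX), with the case `q = 2 ∣ Δ` as a hypothesis.** -/
theorem h45_un_fix_of_two (W : WeierstrassCurve ℤ) (hΔ : W.Δ ≠ 0) {p q : ℕ} (hp : p.Prime)
    (hp2 : p ≠ 2) (hq : q.Prime) (hqp : q ≠ p) (hss : (q : ℤ) ∣ W.Δ → ¬ (q : ℤ) ∣ W.c₄)
    (A : ValuationSubring Qb) (hA : A.LiesOverPrime q) (k : ℕ)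
    (h2bad : q = 2 → (2 : ℤ) ∣ W.Δ →
      ∃ P : ((W.map (Int.castRingHom ℚ)).toAffine⁄Qb).Point,
        p ^ (k + 1) • P = 0 ∧ p ^ k • P ≠ 0 ∧ ∀ τ ∈ A.inertiaSubgroupIn ℚ, τ • P = P) :
    ∃ P : ((W.map (Int.castRingHom ℚ)).toAffine⁄Qb).Point,
      p ^ (k + 1) • P = 0 ∧ p ^ k • P ≠ 0 ∧ ∀ τ ∈ A.inertiaSubgroupIn ℚ, τ • P = P := by
  set E : WeierstrassCurve ℚ := W.map (Int.castRingHom ℚ) with hE
  have hcoe : ∀ n : ℤ, algebraMap ℚ Qb ((Int.castRingHom ℚ) n) = (n : Qb) := fun n => by simp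
  have hint : h18_Integral A (E.toAffine⁄Qb) := by
    refine ⟨?_, ?_, ?_, ?_, ?_⟩ <;>
    · change algebraMap ℚ Qb ((Int.castRingHom ℚ) _) ∈ A
      rw [hcoe]
      exact h26_intCast_mem A _
  have hvp : A.valuation (p : Qb) = 1 := valuation_natCast_eq_one A q hq hA p
    (fun h => hqp ((Nat.prime_dvd_prime_iff_eq hq hp).mp h))
  have hvpk : A.valuation ((p ^ (k + 1) : ℕ) : Qb) = 1 := by
    rw [Nat.cast_pow, map_pow, hvp, one_pow]
  have hΔeq : (E.toAffine⁄Qb).Δ = ((W.Δ : ℤ) : Qb) := by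
    change (E.map (algebraMap ℚ Qb)).Δ = _
    rw [map_Δ, hE, map_Δ, hcoe]
  have hc4eq : (E.toAffine⁄Qb).c₄ = ((W.c₄ : ℤ) : Qb) := by
    change (E.map (algebraMap ℚ Qb)).c₄ = _
    rw [map_c₄, hE, map_c₄, hcoe]
  by_cases hqΔ : (q : ℤ) ∣ W.Δ
  · by_cases hq2 : q = 2
    · exact h2bad hq2 (by rw [hq2] at hqΔ; exact_mod_cast hqΔ)
    · have h2 : A.valuation (2 : Qb) = 1 := by
        have := valuation_natCast_eq_one A q hq hA 2
          (fun h => hq2 ((Nat.prime_dvd_prime_iff_eq hq Nat.prime_two).mp h))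
        exact_mod_cast this
      have hΔv : A.valuation (E.toAffine⁄Qb).Δ < 1 := by
        rw [hΔeq]
        exact (valuation_intCast A q hq hA W.Δ).2.mpr hqΔ
      have hc4v : A.valuation (E.toAffine⁄Qb).c₄ = 1 := by
        rw [hc4eq]
        exact valuation_intCast_eq_one A q hq hA W.c₄ (hss hqΔ)
      have hΔ0 : (E.toAffine⁄Qb).Δ ≠ 0 := by
        rw [hΔeq]
        exact Int.cast_ne_zero.mpr hΔ
      obtain ⟨X, Y, h, h1, h2', hX, hns⟩ :=
        h45_un_exists_mult A (E.toAffine⁄Qb) hint h2 hΔ0 hΔv hc4v p hp hp2 hvp k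
      exact ⟨Affine.Point.some X Y h, h1, h2',
        fun τ hτ => h45_un_fixed_Qb E A hint _ hvpk h hX hns h1 τ hτ⟩
  · have hΔu : (E.toAffine⁄Qb).Δ ∉ A.nonunits := by
      rw [hΔeq, A.mem_nonunits_iff, valuation_intCast_eq_one A q hq hA W.Δ hqΔ]
      exact lt_irrefl _
    obtain ⟨X, Y, h, h1, h2', hX, hns⟩ :=
      h45_un_exists_good A (E.toAffine⁄Qb) hint hΔu p hp hp2 hvp k
    exact ⟨Affine.Point.some X Y h, h1, h2',
      fun τ hτ => h45_un_fixed_Qb E A hint _ hvpk h hX hns h1 τ hτ⟩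

end QbLevel

end Fermat.Agent.S58
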