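import Mathlib
import Fermat.Prelude.Def_ModularForm_HeckeOperator
import Fermat.Prelude.Def_FLTPrelim_Modularity
import Fermat.Agent.S23.h97_LevelRaise

/-!
# S58, row R8 (STABILISE), analytic part: the degeneracy maps `Γ₀(M) → Γ₀(M q)`

For a cusp form `f` of weight `k` on `Γ₀(M)` and `q ≠ 0`:

* `h79_incl M q f` : the same function, seen on `Γ₀(M q)`; same `q`-expansion
  (`h79_qCoeff_incl`);
* `h79_Vq M q f` : the function `τ ↦ f (q τ)`, a cusp form on `Γ₀(M q)`, with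
  `qCoeff (h79_Vq M q f) n = if q ∣ n then qCoeff f (n / q) else 0` (`h79_qCoeff_Vq`);
* `h79_qCoeff_sub_smul` : the `q`-expansion of `A - β • B`.
-/

set_option autoImplicit false

open UpperHalfPlane ModularForm Filter Topology CongruenceSubgroup ModularFormClass
open scoped MatrixGroups ModularForm Manifold Pointwise

namespace Fermat.Agent.S58

open Fermat.Agent.S23

/-- `1` is a strict period of `Γ₀(N)`. -/
theorem h79_one_mem_strictPeriods (N : ℕ) :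
    (1 : ℝ) ∈ ((Gamma0 N : Subgroup SL(2, ℤ)) : Subgroup (GL (Fin 2) ℝ)).strictPeriods := by
  simp

theorem h79_Gamma0_mul_le (M q : ℕ) :
    ((Gamma0 (M * q) : Subgroup SL(2, ℤ)) : Subgroup (GL (Fin 2) ℝ)) ≤
      ((Gamma0 M : Subgroup SL(2, ℤ)) : Subgroup (GL (Fin 2) ℝ)) := by
  rintro _ ⟨γ, hγ, rfl⟩
  have hγ' : γ ∈ Gamma0 (M * q) := hγ
  have hmem : γ ∈ Gamma0 M := by
    rw [Gamma0_mem] at hγ' ⊢
    have h1 : ((M * q : ℕ) : ℤ) ∣ γ 1 0 := (ZMod.intCast_zmod_eq_zero_iff_dvd _ _).mp hγ'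
    rw [ZMod.intCast_zmod_eq_zero_iff_dvd]
    exact (Int.natCast_dvd_natCast.mpr (Dvd.intro q rfl)).trans h1
  exact ⟨γ, hmem, rfl⟩

/-- The conjugate of an element of `Γ₀(M q)` by `diag(q, 1)` lies in `Γ₀(M)`. -/
theorem h79_conjSL_mem (M q : ℕ) [NeZero q] (γ : SL(2, ℤ)) (hγ : γ ∈ Gamma0 (M * q))
    (h : (q : ℤ) ∣ γ 1 0) : h97_conjSL q γ h ∈ Gamma0 M := by
  have hq : (q : ℤ) ≠ 0 := by exact_mod_cast NeZero.ne q
  rw [Gamma0_mem] at hγ ⊢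
  have h1 : ((M * q : ℕ) : ℤ) ∣ γ 1 0 := (ZMod.intCast_zmod_eq_zero_iff_dvd _ _).mp hγ
  rw [ZMod.intCast_zmod_eq_zero_iff_dvd]
  have h2 : ((h97_conjSL q γ h) 1 0 : ℤ) = γ 1 0 / q := by simp [h97_conjSL]
  rw [h2]
  obtain ⟨c, hc⟩ := h1
  rw [hc]
  push_cast
  rw [mul_comm (M : ℤ) q, mul_assoc, Int.mul_ediv_cancel_left _ hq]
  exact dvd_mul_right _ _

theorem h79_Gamma0_le_conj (M q : ℕ) [NeZero q] :
    ((Gamma0 (M * q) : Subgroup SL(2, ℤ)) : Subgroup (GL (Fin 2) ℝ)) ≤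
      ConjAct.toConjAct (heckeDiagMatrix q)⁻¹ •
        ((Gamma0 M : Subgroup SL(2, ℤ)) : Subgroup (GL (Fin 2) ℝ)) := by
  rintro _ ⟨γ, hγ, rfl⟩
  rw [Subgroup.mem_pointwise_smul_iff_inv_smul_mem, ← map_inv, inv_inv, ConjAct.smul_def,
    ConjAct.ofConjAct_toConjAct]
  have hdvd : (q : ℤ) ∣ γ 1 0 := by
    have h1 : ((M * q : ℕ) : ℤ) ∣ γ 1 0 :=
      (ZMod.intCast_zmod_eq_zero_iff_dvd _ _).mp (Gamma0_mem.mp hγ)
    exact (Int.natCast_dvd_natCast.mpr (Dvd.intro_left M rfl)).trans h1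
  refine ⟨h97_conjSL q γ hdvd, h79_conjSL_mem M q γ hγ hdvd, ?_⟩
  rw [eq_mul_inv_iff_mul_eq]
  exact h97_conjSL_mul q γ hdvd

/-- A cusp form on `Γ₀(M)`, seen as a cusp form on `Γ₀(M q)`. -/
noncomputable def h79_incl (M q : ℕ) {k : ℤ}
    (f : CuspForm ((Gamma0 M : Subgroup SL(2, ℤ)) : Subgroup (GL (Fin 2) ℝ)) k) :
    CuspForm ((Gamma0 (M * q) : Subgroup SL(2, ℤ)) : Subgroup (GL (Fin 2) ℝ)) k where
  toFun := f
  slash_action_eq' := fun γ hγ => f.slash_action_eq' γ (h79_Gamma0_mul_le M q hγ)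
  holo' := f.holo'
  zero_at_cusps' := fun hc => f.zero_at_cusps' (hc.mono (h79_Gamma0_mul_le M q))

theorem h79_coe_incl (M q : ℕ) {k : ℤ}
    (f : CuspForm ((Gamma0 M : Subgroup SL(2, ℤ)) : Subgroup (GL (Fin 2) ℝ)) k) :
    ⇑(h79_incl M q f) = ⇑f := rfl

theorem h79_qCoeff_incl (M q : ℕ) {k : ℤ}
    (f : CuspForm ((Gamma0 M : Subgroup SL(2, ℤ)) : Subgroup (GL (Fin 2) ℝ)) k) (n : ℕ) :
    qCoeff (h79_incl M q f) n = qCoeff f n := rfl

theorem h79_VqFun_slash (M q : ℕ) [NeZero q] {k : ℤ}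
    (f : CuspForm ((Gamma0 M : Subgroup SL(2, ℤ)) : Subgroup (GL (Fin 2) ℝ)) k)
    (γ : GL (Fin 2) ℝ)
    (hγ : γ ∈ ((Gamma0 (M * q) : Subgroup SL(2, ℤ)) : Subgroup (GL (Fin 2) ℝ))) :
    (fun τ => f (heckeDiagMatrix q • τ)) ∣[k] γ = fun τ => f (heckeDiagMatrix q • τ) := by
  rw [h97_levelRaiseFun_eq q k]
  have h1 := (SlashInvariantForm.translate f (heckeDiagMatrix q)).slash_action_eq' γ
    (h79_Gamma0_le_conj M q hγ)
  have h2 : (⇑f ∣[k] heckeDiagMatrix q) ∣[k] γ = ⇑f ∣[k] heckeDiagMatrix q := h1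
  obtain ⟨γ', -, rfl⟩ := hγ
  have h3 : (((q : ℂ) ^ (1 - k)) • (⇑f ∣[k] heckeDiagMatrix q)) ∣[k]
      (Matrix.SpecialLinearGroup.mapGL ℝ γ') = ((q : ℂ) ^ (1 - k)) •
        ((⇑f ∣[k] heckeDiagMatrix q) ∣[k] (Matrix.SpecialLinearGroup.mapGL ℝ γ')) :=
    ModularForm.SL_smul_slash k γ' (⇑f ∣[k] heckeDiagMatrix q) ((q : ℂ) ^ (1 - k))
  rw [h3, h2]

/-- The degeneracy map `f(τ) ↦ f(qτ)` from `Γ₀(M)` to `Γ₀(M q)`, for cusp forms. -/
noncomputable def h79_Vq (M q : ℕ) [NeZero q] {k : ℤ}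
    (f : CuspForm ((Gamma0 M : Subgroup SL(2, ℤ)) : Subgroup (GL (Fin 2) ℝ)) k) :
    CuspForm ((Gamma0 (M * q) : Subgroup SL(2, ℤ)) : Subgroup (GL (Fin 2) ℝ)) k where
  toFun := fun τ => f (heckeDiagMatrix q • τ)
  slash_action_eq' := h79_VqFun_slash M q f
  holo' := h97_levelRaiseFun_mdiff q k f.holo'
  zero_at_cusps' := by
    intro c hc g hg
    have h1 := (CuspForm.translate f (heckeDiagMatrix q)).zero_at_cusps'
      (hc.mono (h79_Gamma0_le_conj M q)) g hg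
    have h2 : IsZeroAtImInfty ((⇑f ∣[k] heckeDiagMatrix q) ∣[k] g) := h1
    show IsZeroAtImInfty ((fun τ => f (heckeDiagMatrix q • τ)) ∣[k] g)
    rw [h97_levelRaiseFun_eq q k, ModularForm.smul_slash]
    exact h2.smul _

theorem h79_Vq_apply (M q : ℕ) [NeZero q] {k : ℤ}
    (f : CuspForm ((Gamma0 M : Subgroup SL(2, ℤ)) : Subgroup (GL (Fin 2) ℝ)) k) (τ : ℍ) :
    h79_Vq M q f τ = f (heckeDiagMatrix q • τ) := rfl

theorem h79_hasSum_VqFun (M q : ℕ) [NeZero q] {k : ℤ}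
    (f : CuspForm ((Gamma0 M : Subgroup SL(2, ℤ)) : Subgroup (GL (Fin 2) ℝ)) k) (τ : ℍ) :
    HasSum (fun n : ℕ => (if q ∣ n then (qExpansion 1 f).coeff (n / q) else 0) •
      Function.Periodic.qParam 1 τ ^ n) (f (heckeDiagMatrix q • τ)) := by
  have hN : q ≠ 0 := NeZero.ne q
  have : Fact (IsCusp OnePoint.infty
      ((Gamma0 M : Subgroup SL(2, ℤ)) : Subgroup (GL (Fin 2) ℝ))) :=
    ⟨Subgroup.isCusp_of_mem_strictPeriods one_pos (h79_one_mem_strictPeriods M)⟩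
  have h1 := ModularForm.hasSum_qExpansion f one_pos (h79_one_mem_strictPeriods M)
    (heckeDiagMatrix q • τ)
  have hq : Function.Periodic.qParam 1 ((heckeDiagMatrix q • τ : ℍ) : ℂ) =
      Function.Periodic.qParam 1 (τ : ℂ) ^ q := by
    rw [coe_heckeDiagMatrix_smul hN, Function.Periodic.qParam, Function.Periodic.qParam,
      ← Complex.exp_nat_mul]
    congr 1
    push_cast
    ring
  rw [hq] at h1
  have hinj : Function.Injective (fun m : ℕ => q * m) := fun a b hab =>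
    Nat.eq_of_mul_eq_mul_left (Nat.pos_of_ne_zero hN) hab
  refine (hinj.hasSum_iff ?_).mp ?_
  · intro n hn
    have hnd : ¬ q ∣ n := fun ⟨m, hm⟩ => hn ⟨m, hm.symm⟩
    simp [hnd]
  · convert h1 using 2 with m
    simp only [Function.comp_apply, dvd_mul_right, if_true, Nat.mul_div_cancel_left _
      (Nat.pos_of_ne_zero hN), smul_eq_mul, pow_mul]

theorem h79_qCoeff_Vq (M q : ℕ) [NeZero q] {k : ℤ}
    (f : CuspForm ((Gamma0 M : Subgroup SL(2, ℤ)) : Subgroup (GL (Fin 2) ℝ)) k) (n : ℕ) :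
    qCoeff (h79_Vq M q f) n = if q ∣ n then qCoeff f (n / q) else 0 :=
  (ModularFormClass.qExpansion_coeff_unique one_pos (h79_one_mem_strictPeriods (M * q))
    (f := h79_Vq M q f) (fun τ => h79_hasSum_VqFun M q f τ) n).symm

/-- The `q`-expansion of `A - β • B` for cusp forms on `Γ₀(N)`. -/
theorem h79_qCoeff_sub_smul (N : ℕ) {k : ℤ}
    (A B : CuspForm ((Gamma0 N : Subgroup SL(2, ℤ)) : Subgroup (GL (Fin 2) ℝ)) k) (β : ℂ)
    (n : ℕ) :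
    qCoeff (⇑(A - β • B :
      CuspForm ((Gamma0 N : Subgroup SL(2, ℤ)) : Subgroup (GL (Fin 2) ℝ)) k)) n =
      qCoeff A n - β * qCoeff B n := by
  have hΓ := h79_one_mem_strictPeriods N
  have e2 : qExpansion 1 (β • (⇑B : ℍ → ℂ)) = β • qExpansion 1 B :=
    ModularForm.qExpansion_smul one_pos hΓ β B
  have e1 : qExpansion 1 ((⇑A : ℍ → ℂ) - β • (⇑B : ℍ → ℂ)) =
      qExpansion 1 A - qExpansion 1 (β • (⇑B : ℍ → ℂ)) :=
    ModularForm.qExpansion_sub one_pos hΓ A (β • B)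
  show (qExpansion 1 ((⇑A : ℍ → ℂ) - β • (⇑B : ℍ → ℂ))).coeff n = _
  rw [e1, e2]
  simp [qCoeff]

end Fermat.Agent.S58
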