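import Mathlib
import Fermat.Prelude.Def_FLTPrelim_Modularity
import Fermat.Agent.S58.h79_Vq

/-!
# S58, row R8 (STABILISE): `q`-stabilisation of a normalised eigenform

For a normalised eigenform `g` of weight 2 on `Γ₀(M)` and a prime `q ∤ M`, the form
`g' = g - β · g(q ·)` on `Γ₀(M q)`, with `β` a root of `X² - a_q X + q`, is a normalised
eigenform on `Γ₀(M q)` with the same `ℓ`-th coefficients for all primes `ℓ ≠ q`
(and `a_q(g') = a_q(g) - β`, the other root).
-/

set_option autoImplicit false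

open UpperHalfPlane ModularForm CongruenceSubgroup ModularFormClass
open scoped MatrixGroups ModularForm

namespace Fermat.Agent.S58

/-- The `q`-stabilisation `g - β · g(q ·)` on `Γ₀(M q)`. -/
noncomputable def h79_stab (M q : ℕ) [NeZero q] (β : ℂ)
    (g : CuspForm (CongruenceSubgroup.Gamma0 M) 2) :
    CuspForm (CongruenceSubgroup.Gamma0 (M * q)) 2 :=
  h79_incl M q g - β • h79_Vq M q g

theorem h79_qCoeff_stab (M q : ℕ) [NeZero q] (β : ℂ)
    (g : CuspForm (CongruenceSubgroup.Gamma0 M) 2) (n : ℕ) :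
    qCoeff (h79_stab M q β g) n =
      qCoeff g n - β * (if q ∣ n then qCoeff g (n / q) else 0) := by
  rw [h79_stab, h79_qCoeff_sub_smul, h79_qCoeff_incl, h79_qCoeff_Vq]

theorem h79_qCoeff_stab_of_not_dvd (M q : ℕ) [NeZero q] (β : ℂ)
    (g : CuspForm (CongruenceSubgroup.Gamma0 M) 2) {n : ℕ} (hn : ¬ q ∣ n) :
    qCoeff (h79_stab M q β g) n = qCoeff g n := by
  rw [h79_qCoeff_stab, if_neg hn, mul_zero, sub_zero]

theorem h79_qCoeff_stab_mul (M q : ℕ) [NeZero q] (β : ℂ)
    (g : CuspForm (CongruenceSubgroup.Gamma0 M) 2) (n : ℕ) :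
    qCoeff (h79_stab M q β g) (q * n) = qCoeff g (q * n) - β * qCoeff g n := by
  rw [h79_qCoeff_stab, if_pos (dvd_mul_right q n),
    Nat.mul_div_cancel_left _ (Nat.pos_of_ne_zero (NeZero.ne q))]

/-- The `q`-stabilisation of a normalised eigenform of level `M` (`q ∤ M` prime, `β` a root of
the Hecke polynomial at `q`) is a normalised eigenform of level `M q`. -/
theorem h79_stab_isNormalizedEigenform {M : ℕ} (g : CuspForm (CongruenceSubgroup.Gamma0 M) 2)
    (hg : g.IsNormalizedEigenform) (q : ℕ) [NeZero q] (hq : q.Prime) (hqM : ¬ q ∣ M) (β : ℂ)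
    (hβ : β ^ 2 - qCoeff g q * β + q = 0) :
    (h79_stab M q β g).IsNormalizedEigenform := by
  have hpow : ∀ p : ℕ, p.Prime → p ≠ q → ∀ k, ¬ q ∣ p ^ k := by
    intro p hp hpq k hdvd
    exact hpq ((Nat.prime_dvd_prime_iff_eq hq hp).mp (hq.dvd_of_dvd_pow hdvd)).symm
  have h1 : ¬ q ∣ 1 := hq.one_lt.ne' ∘ Nat.dvd_one.mp
  refine ⟨?_, ?_, ?_, ?_⟩
  · rw [h79_qCoeff_stab_of_not_dvd M q β g h1]
    exact hg.qCoeff_one
  · intro m n hmn
    by_cases hm : q ∣ m
    · obtain ⟨m', rfl⟩ := hm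
      have hn : ¬ q ∣ n := fun hn =>
        hq.one_lt.ne' (Nat.eq_one_of_dvd_coprimes hmn (dvd_mul_right q m') hn)
      have hmn' : m'.Coprime n := Nat.Coprime.coprime_dvd_left (dvd_mul_left m' q) hmn
      rw [mul_assoc, h79_qCoeff_stab_mul, h79_qCoeff_stab_mul,
        h79_qCoeff_stab_of_not_dvd M q β g hn, ← mul_assoc,
        hg.qCoeff_mul_of_coprime _ _ hmn, hg.qCoeff_mul_of_coprime _ _ hmn']
      ring
    · by_cases hn : q ∣ n
      · obtain ⟨n', rfl⟩ := hn
        have hmn' : m.Coprime n' := Nat.Coprime.coprime_dvd_right (dvd_mul_left n' q) hmn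
        rw [mul_left_comm, h79_qCoeff_stab_mul, h79_qCoeff_stab_mul,
          h79_qCoeff_stab_of_not_dvd M q β g hm, mul_left_comm q m n',
          hg.qCoeff_mul_of_coprime _ _ hmn, hg.qCoeff_mul_of_coprime _ _ hmn']
        ring
      · have hmn' : ¬ q ∣ m * n := fun h => (hq.dvd_mul.mp h).elim hm hn
        rw [h79_qCoeff_stab_of_not_dvd M q β g hmn', h79_qCoeff_stab_of_not_dvd M q β g hm,
          h79_qCoeff_stab_of_not_dvd M q β g hn]
        exact hg.qCoeff_mul_of_coprime _ _ hmn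
  · intro p r hp hpN
    have hpM : ¬ p ∣ M := fun h => hpN (h.mul_right q)
    have hpq : p ≠ q := fun h => hpN (h ▸ dvd_mul_left p M)
    have hp1 : ¬ q ∣ p := by simpa using hpow p hp hpq 1
    rw [h79_qCoeff_stab_of_not_dvd M q β g (hpow p hp hpq _),
      h79_qCoeff_stab_of_not_dvd M q β g (hpow p hp hpq _),
      h79_qCoeff_stab_of_not_dvd M q β g (hpow p hp hpq _),
      h79_qCoeff_stab_of_not_dvd M q β g hp1]
    exact hg.qCoeff_prime_pow_of_not_dvd p r hp hpM
  · intro p r hp hpN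
    by_cases hpq : p = q
    · subst hpq
      have e2 : p ^ (r + 2) = p * p ^ (r + 1) := by ring
      have e1 : p ^ (r + 1) = p * p ^ r := by ring
      have e0 : qCoeff (h79_stab M p β g) p = qCoeff g p - β := by
        have := h79_qCoeff_stab_mul M p β g 1
        rw [mul_one, hg.qCoeff_one, mul_one] at this
        exact this
      have hrec := hg.qCoeff_prime_pow_of_not_dvd p r hp hqM
      rw [e2, h79_qCoeff_stab_mul, e0, e1, h79_qCoeff_stab_mul, ← e1, ← e2, hrec]
      linear_combination (-(qCoeff g (p ^ r))) * hβ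
    · have hpM : p ∣ M := by
        rcases (Nat.Prime.dvd_mul hp).mp hpN with h | h
        · exact h
        · exact absurd ((Nat.prime_dvd_prime_iff_eq hp hq).mp h) hpq
      have hp1 : ¬ q ∣ p := by simpa using hpow p hp hpq 1
      rw [h79_qCoeff_stab_of_not_dvd M q β g (hpow p hp hpq _),
        h79_qCoeff_stab_of_not_dvd M q β g (hpow p hp hpq _),
        h79_qCoeff_stab_of_not_dvd M q β g hp1]
      exact hg.qCoeff_prime_pow_of_dvd p r hp hpM

/-- **S58 row R8 (STABILISE).** -/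
theorem h79_stabilise {M : ℕ} [NeZero M] (g : CuspForm (CongruenceSubgroup.Gamma0 M) 2)
    (hg : g.IsNormalizedEigenform) (q : ℕ) (hq : q.Prime) (hqM : ¬ q ∣ M) :
    ∃ g' : CuspForm (CongruenceSubgroup.Gamma0 (M * q)) 2, g'.IsNormalizedEigenform ∧
      ∀ ℓ : ℕ, ℓ.Prime → ℓ ≠ q → qCoeff g' ℓ = qCoeff g ℓ := by
  have : NeZero q := ⟨hq.ne_zero⟩
  obtain ⟨s, hs⟩ := IsAlgClosed.exists_pow_nat_eq (qCoeff g q ^ 2 - 4 * (q : ℂ)) (n := 2)
    (by norm_num)
  have hβ : ((qCoeff g q + s) / 2) ^ 2 - qCoeff g q * ((qCoeff g q + s) / 2) + q = 0 := by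
    linear_combination (1 / 4 : ℂ) * hs
  refine ⟨h79_stab M q ((qCoeff g q + s) / 2) g,
    h79_stab_isNormalizedEigenform g hg q hq hqM _ hβ, ?_⟩
  intro ℓ hℓ hℓq
  refine h79_qCoeff_stab_of_not_dvd M q _ g ?_
  intro h
  exact hℓq ((Nat.prime_dvd_prime_iff_eq hq hℓ).mp h).symm

end Fermat.Agent.S58
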