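import Mathlib
import Fermat.Prelude.Def_FLTPrelim_Modularity
import Fermat.Prelude.Def_WeierstrassCurve_ConductorLevel
import Fermat.Agent.S58.h79_Stabilise

/-!
# S58, row R8 (STABILISE), iterated form and the consumer form for the top

`h79_stabilise` (helper79) stabilises a normalised eigenform at ONE prime `q ∤ M`.  Here:
* `h24_stabilise_sqfree`: from level `M` to any squarefree level `C` divisible by `M`, keeping
  the coefficients at all primes not dividing `C / M`;
* `h24_modular_conductorLevel`: an eigenform of a level `M ∣ W.conductorLevel` whose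
  coefficients at ALL good primes are those of `W` makes `W` modular of conductor level
  (= step (C) of the S58 route).
-/

set_option autoImplicit false

namespace Fermat.Agent.S58

/-- Iterated stabilisation, auxiliary form (strong induction on the squarefree cofactor). -/
theorem h24_stabilise_aux (D : ℕ) : Squarefree D → ∀ (M : ℕ) [NeZero M], Nat.Coprime M D →
    ∀ g : CuspForm (CongruenceSubgroup.Gamma0 M) 2, g.IsNormalizedEigenform →
    ∀ N : ℕ, N = M * D →
    ∃ g' : CuspForm (CongruenceSubgroup.Gamma0 N) 2, g'.IsNormalizedEigenform ∧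
      ∀ ℓ : ℕ, ℓ.Prime → ¬ ℓ ∣ D →
        ModularFormClass.qCoeff g' ℓ = ModularFormClass.qCoeff g ℓ := by
  induction D using Nat.strong_induction_on with
  | _ D ih =>
    intro hD M _ hcop g hg N hN
    by_cases hD1 : D = 1
    · subst hD1
      rw [mul_one] at hN
      subst hN
      exact ⟨g, hg, fun ℓ _ _ => rfl⟩
    · obtain ⟨q, hq, hqD⟩ := Nat.exists_prime_and_dvd hD1
      obtain ⟨D', rfl⟩ := hqD
      have hD0 : q * D' ≠ 0 := hD.ne_zero
      have hD'0 : D' ≠ 0 := fun h => hD0 (by rw [h, mul_zero])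
      have hqD' : ¬ q ∣ D' := by
        intro h
        obtain ⟨c, rfl⟩ := h
        have hu : IsUnit q := hD q ⟨c, by ring⟩
        exact hq.ne_one (Nat.isUnit_iff.mp hu)
      have hsq' : Squarefree D' := hD.squarefree_of_dvd (dvd_mul_left D' q)
      have hqM : ¬ q ∣ M := by
        intro h
        have h1 := Nat.dvd_gcd h (dvd_mul_right q D')
        rw [Nat.Coprime.gcd_eq_one hcop] at h1
        exact hq.ne_one (Nat.dvd_one.mp h1)
      obtain ⟨g1, hg1, hg1c⟩ := h79_stabilise g hg q hq hqM
      have : NeZero (M * q) := ⟨Nat.mul_ne_zero (NeZero.ne M) hq.ne_zero⟩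
      have hcop' : Nat.Coprime (M * q) D' :=
        Nat.Coprime.mul_left (Nat.Coprime.coprime_dvd_right (dvd_mul_left D' q) hcop)
          ((Nat.Prime.coprime_iff_not_dvd hq).mpr hqD')
      have hlt : D' < q * D' := by
        have h2 := hq.two_le
        have h3 := Nat.pos_of_ne_zero hD'0
        nlinarith
      obtain ⟨g2, hg2, hg2c⟩ := ih D' hlt hsq' (M * q) hcop' g1 hg1 N (by rw [hN]; ring)
      refine ⟨g2, hg2, fun ℓ hℓ hℓD => ?_⟩
      have h1 : ¬ ℓ ∣ D' := fun h => hℓD (Dvd.dvd.mul_left h q)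
      have h2 : ℓ ≠ q := fun h => hℓD (h ▸ dvd_mul_right ℓ D')
      rw [hg2c ℓ hℓ h1, hg1c ℓ hℓ h2]

/-- **Iterated stabilisation**: a normalised eigenform of level `Γ₀(M)` gives one of every
squarefree level `C` divisible by `M`, with the same coefficients at the primes not dividing
`C / M`. -/
theorem h24_stabilise_sqfree {M : ℕ} [NeZero M] (g : CuspForm (CongruenceSubgroup.Gamma0 M) 2)
    (hg : g.IsNormalizedEigenform) (C : ℕ) (hMC : M ∣ C) (hC : Squarefree C) :
    ∃ g' : CuspForm (CongruenceSubgroup.Gamma0 C) 2, g'.IsNormalizedEigenform ∧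
      ∀ ℓ : ℕ, ℓ.Prime → ¬ ℓ ∣ C / M →
        ModularFormClass.qCoeff g' ℓ = ModularFormClass.qCoeff g ℓ := by
  obtain ⟨D, rfl⟩ := hMC
  have hM0 : 0 < M := Nat.pos_of_ne_zero (NeZero.ne M)
  have hDsq : Squarefree D := hC.squarefree_of_dvd (dvd_mul_left D M)
  have hcop : Nat.Coprime M D := (Nat.squarefree_mul_iff.mp hC).1
  obtain ⟨g', hg', h⟩ := h24_stabilise_aux D hDsq M hcop g hg (M * D) rfl
  refine ⟨g', hg', fun ℓ hℓ hℓD => h ℓ hℓ ?_⟩
  rwa [Nat.mul_div_cancel_left D hM0] at hℓD

/-- Consumer form for the top of S58 (step (C)): an eigenform of a level `M` dividing the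
conductor level whose coefficients at ALL good primes are those of `W` makes `W` modular of
conductor level. -/
theorem h24_modular_conductorLevel (W : WeierstrassCurve ℤ) {M : ℕ} [NeZero M]
    (g : CuspForm (CongruenceSubgroup.Gamma0 M) 2) (hg : g.IsNormalizedEigenform)
    (hMC : M ∣ W.conductorLevel)
    (hgW : ∀ ℓ : ℕ, ℓ.Prime → W.IsGoodPrimeFor ℓ →
      ModularFormClass.qCoeff g ℓ = (W.apOfModel ℓ : ℂ)) :
    W.IsModularModelOfLevel W.conductorLevel := by
  obtain ⟨g', hg', h⟩ := h24_stabilise_sqfree g hg W.conductorLevel hMC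
    W.squarefree_conductorLevel
  refine ⟨g', hg', fun p hp hgood hpC => ?_⟩
  rw [h p hp (fun hd => hpC (dvd_trans hd (Nat.div_dvd_of_dvd hMC))), hgW p hp hgood]

end Fermat.Agent.S58
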