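import Mathlib
import Fermat.Prelude.Def_CuspForm_HeckeAlgebra
import Fermat.Prelude.Def_FLTPrelim_Modularity
import Fermat.Agent.GAL.h42_Coh

/-!
# S58 row R9b (EIGCHAR-INT): the integer eigencharacter of a normalised eigenform

Let `g` be a normalised eigenform of level `M` whose prime coefficients away from a finite set
`S ⊇ {q prime : q ∣ M}` are the integers `a ℓ`.  The Hecke algebra `heckeAlgebra M 2 S` is then
generated by the `T_ℓ` alone (there is no `U_q`: every prime divisor of `M` lies in `S`), each of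
which has `g` as an eigenvector with an integer eigenvalue.  So every element of the Hecke algebra
has `g` as an eigenvector with an integer eigenvalue; this gives

* `h42_eigZ : heckeAlgebra M 2 S →+* ℤ`, the integer eigencharacter, and
* `h42_eigchar_int`: the pair `(chig, iota)` in exactly the shape of the frozen statement S36, for
  an arbitrary commutative ring `O'` (the map `iota : chig.range →+* O'` is `Int.cast` composed
  with the inverse of `Int.cast : ℤ → ℂ` on its range).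
-/

set_option autoImplicit false

open ModularFormClass CongruenceSubgroup

namespace Fermat.Agent.S58

section

variable {M : ℕ} [NeZero M] {g : CuspForm (Gamma0 M) 2}

/-- Every element of the Hecke algebra away from `S` has `g` as an eigenvector with an integer
eigenvalue, as soon as `S` contains the prime divisors of the level and the good prime
coefficients of `g` are integers. -/
theorem h42_exists_int_eigen (hg : g.IsNormalizedEigenform) (S : Set ℕ)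
    (hMS : ∀ q : ℕ, q.Prime → q ∣ M → q ∈ S)
    (a : ℕ → ℤ) (ha : ∀ ℓ : ℕ, ℓ.Prime → ℓ ∉ S → qCoeff g ℓ = (a ℓ : ℂ))
    (T : Module.End ℂ (CuspForm (Gamma0 M) 2)) (hT : T ∈ CuspForm.heckeAlgebra M 2 S) :
    ∃ n : ℤ, T g = (n : ℂ) • g := by
  induction hT using Algebra.adjoin_induction with
  | mem T hT =>
    rcases hT with ⟨ℓ, hℓ, hℓM, hℓS, rfl⟩ | ⟨q, hqM, hq, hqS, rfl⟩
    · exact ⟨a ℓ, by rw [Fermat.Agent.GAL.h42_heckeT_eigen hg hℓ hℓM, ha ℓ hℓ hℓS]⟩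
    · exact absurd (hMS q hq hqM) hqS
  | algebraMap r =>
    refine ⟨r, ?_⟩
    rw [Algebra.algebraMap_eq_smul_one, LinearMap.smul_apply, Module.End.one_apply,
      ← Int.cast_smul_eq_zsmul ℂ]
  | add _ _ _ _ hx hy =>
    obtain ⟨n, hn⟩ := hx
    obtain ⟨m, hm⟩ := hy
    exact ⟨n + m, by rw [LinearMap.add_apply, hn, hm, Int.cast_add, add_smul]⟩
  | mul _ _ _ _ hx hy =>
    obtain ⟨n, hn⟩ := hx
    obtain ⟨m, hm⟩ := hy
    exact ⟨n * m, by rw [Module.End.mul_apply, hm, map_smul, hn, smul_smul, Int.cast_mul,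
      mul_comm]⟩

omit [NeZero M] in
/-- Uniqueness of the integer eigenvalue. -/
theorem h42_int_eigen_unique (hg : g.IsNormalizedEigenform) {n m : ℤ}
    (h : (n : ℂ) • g = (m : ℂ) • g) : n = m :=
  Int.cast_injective (smul_left_injective ℂ hg.ne_zero h)

/-- The integer eigenvalue of an element of the Hecke algebra on `g`. -/
noncomputable def h42_eigVal (hg : g.IsNormalizedEigenform) (S : Set ℕ)
    (hMS : ∀ q : ℕ, q.Prime → q ∣ M → q ∈ S)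
    (a : ℕ → ℤ) (ha : ∀ ℓ : ℕ, ℓ.Prime → ℓ ∉ S → qCoeff g ℓ = (a ℓ : ℂ))
    (T : CuspForm.heckeAlgebra M 2 S) : ℤ :=
  Classical.choose (h42_exists_int_eigen hg S hMS a ha T.1 T.2)

theorem h42_eigVal_spec (hg : g.IsNormalizedEigenform) (S : Set ℕ)
    (hMS : ∀ q : ℕ, q.Prime → q ∣ M → q ∈ S)
    (a : ℕ → ℤ) (ha : ∀ ℓ : ℕ, ℓ.Prime → ℓ ∉ S → qCoeff g ℓ = (a ℓ : ℂ))
    (T : CuspForm.heckeAlgebra M 2 S) :
    (T : Module.End ℂ (CuspForm (Gamma0 M) 2)) g = ((h42_eigVal hg S hMS a ha T : ℤ) : ℂ) • g :=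
  Classical.choose_spec (h42_exists_int_eigen hg S hMS a ha T.1 T.2)

theorem h42_eigVal_eq (hg : g.IsNormalizedEigenform) (S : Set ℕ)
    (hMS : ∀ q : ℕ, q.Prime → q ∣ M → q ∈ S)
    (a : ℕ → ℤ) (ha : ∀ ℓ : ℕ, ℓ.Prime → ℓ ∉ S → qCoeff g ℓ = (a ℓ : ℂ))
    (T : CuspForm.heckeAlgebra M 2 S) {n : ℤ}
    (h : (T : Module.End ℂ (CuspForm (Gamma0 M) 2)) g = (n : ℂ) • g) :
    h42_eigVal hg S hMS a ha T = n :=
  h42_int_eigen_unique hg ((h42_eigVal_spec hg S hMS a ha T).symm.trans h)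

/-- The integer eigencharacter of the Hecke algebra attached to `g`. -/
noncomputable def h42_eigZ (hg : g.IsNormalizedEigenform) (S : Set ℕ)
    (hMS : ∀ q : ℕ, q.Prime → q ∣ M → q ∈ S)
    (a : ℕ → ℤ) (ha : ∀ ℓ : ℕ, ℓ.Prime → ℓ ∉ S → qCoeff g ℓ = (a ℓ : ℂ)) :
    CuspForm.heckeAlgebra M 2 S →+* ℤ where
  toFun := h42_eigVal hg S hMS a ha
  map_one' := h42_eigVal_eq hg S hMS a ha 1 (by
    show (1 : Module.End ℂ (CuspForm (Gamma0 M) 2)) g = ((1 : ℤ) : ℂ) • g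
    rw [Module.End.one_apply, Int.cast_one, one_smul])
  map_mul' x y := h42_eigVal_eq hg S hMS a ha (x * y) (by
    show ((x : Module.End ℂ (CuspForm (Gamma0 M) 2)) * (y : Module.End ℂ (CuspForm (Gamma0 M) 2))) g
      = ((h42_eigVal hg S hMS a ha x * h42_eigVal hg S hMS a ha y : ℤ) : ℂ) • g
    rw [Module.End.mul_apply, h42_eigVal_spec hg S hMS a ha y, map_smul,
      h42_eigVal_spec hg S hMS a ha x, smul_smul, Int.cast_mul, mul_comm])
  map_zero' := h42_eigVal_eq hg S hMS a ha 0 (by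
    show (0 : Module.End ℂ (CuspForm (Gamma0 M) 2)) g = ((0 : ℤ) : ℂ) • g
    rw [LinearMap.zero_apply, Int.cast_zero, zero_smul])
  map_add' x y := h42_eigVal_eq hg S hMS a ha (x + y) (by
    show ((x : Module.End ℂ (CuspForm (Gamma0 M) 2)) + (y : Module.End ℂ (CuspForm (Gamma0 M) 2))) g
      = ((h42_eigVal hg S hMS a ha x + h42_eigVal hg S hMS a ha y : ℤ) : ℂ) • g
    rw [LinearMap.add_apply, h42_eigVal_spec hg S hMS a ha x, h42_eigVal_spec hg S hMS a ha y,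
      Int.cast_add, add_smul])

theorem h42_eigZ_spec (hg : g.IsNormalizedEigenform) (S : Set ℕ)
    (hMS : ∀ q : ℕ, q.Prime → q ∣ M → q ∈ S)
    (a : ℕ → ℤ) (ha : ∀ ℓ : ℕ, ℓ.Prime → ℓ ∉ S → qCoeff g ℓ = (a ℓ : ℂ))
    (T : CuspForm.heckeAlgebra M 2 S) :
    (T : Module.End ℂ (CuspForm (Gamma0 M) 2)) g = ((h42_eigZ hg S hMS a ha T : ℤ) : ℂ) • g :=
  h42_eigVal_spec hg S hMS a ha T

theorem h42_eigZ_T (hg : g.IsNormalizedEigenform) (S : Set ℕ)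
    (hMS : ∀ q : ℕ, q.Prime → q ∣ M → q ∈ S)
    (a : ℕ → ℤ) (ha : ∀ ℓ : ℕ, ℓ.Prime → ℓ ∉ S → qCoeff g ℓ = (a ℓ : ℂ))
    {ℓ : ℕ} (hℓ : ℓ.Prime) (hℓM : ¬ ℓ ∣ M) (hℓS : ℓ ∉ S) :
    h42_eigZ hg S hMS a ha (CuspForm.heckeAlgebra.T hℓ hℓM hℓS) = a ℓ :=
  h42_eigVal_eq hg S hMS a ha _ (by
    rw [CuspForm.heckeAlgebra.coe_T, Fermat.Agent.GAL.h42_heckeT_eigen hg hℓ hℓM, ha ℓ hℓ hℓS])

end

/-- The inverse of `Int.cast : ℤ → ℂ` on its range, as a ring isomorphism. -/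
noncomputable def h42_intRangeEquiv : ℤ ≃+* (Int.castRingHom ℂ).range :=
  RingEquiv.ofBijective (Int.castRingHom ℂ).rangeRestrict
    ⟨fun _ _ h => Int.cast_injective (congrArg Subtype.val h),
      (Int.castRingHom ℂ).rangeRestrict_surjective⟩

theorem h42_intRangeEquiv_symm_eq (x : (Int.castRingHom ℂ).range) (n : ℤ)
    (h : (x : ℂ) = (n : ℂ)) : h42_intRangeEquiv.symm x = n := by
  rw [RingEquiv.symm_apply_eq]
  exact Subtype.ext h

/-- **R9b (EIGCHAR-INT).**  The eigencharacter `chig` of a normalised eigenform with integer good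
coefficients `a ℓ`, together with `iota : chig.range →+* O'` sending `chig (T_ℓ)` to `a ℓ`, in the
shape of the binders `chig`, `hchig`, `iota` of the frozen statement S36. -/
theorem h42_eigchar_int {M : ℕ} [NeZero M] {g : CuspForm (Gamma0 M) 2}
    (hg : g.IsNormalizedEigenform) (S : Finset ℕ) (hMS : ∀ q : ℕ, q.Prime → q ∣ M → q ∈ S)
    (a : ℕ → ℤ) (ha : ∀ ℓ : ℕ, ℓ.Prime → ℓ ∉ S → qCoeff g ℓ = (a ℓ : ℂ))
    (O' : Type) [CommRing O'] :
    ∃ (chig : CuspForm.heckeAlgebra M 2 (↑S : Set ℕ) →+* ℂ) (iota : chig.range →+* O'),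
      (∀ (ℓ : ℕ) (hℓ : ℓ.Prime) (hℓM : ¬ ℓ ∣ M) (hℓS : ℓ ∉ (↑S : Set ℕ)),
        chig (CuspForm.heckeAlgebra.T hℓ hℓM hℓS) = qCoeff g ℓ) ∧
      (∀ (ℓ : ℕ) (hℓ : ℓ.Prime) (hℓM : ¬ ℓ ∣ M) (hℓS : ℓ ∉ (↑S : Set ℕ)),
        (iota.comp chig.rangeRestrict) (CuspForm.heckeAlgebra.T hℓ hℓM hℓS) = (a ℓ : O')) := by
  have hMS' : ∀ q : ℕ, q.Prime → q ∣ M → q ∈ (↑S : Set ℕ) := fun q hq hqM =>
    Finset.mem_coe.mpr (hMS q hq hqM)
  have ha' : ∀ ℓ : ℕ, ℓ.Prime → ℓ ∉ (↑S : Set ℕ) → qCoeff g ℓ = (a ℓ : ℂ) := fun ℓ hℓ hℓS =>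
    ha ℓ hℓ (fun h => hℓS (Finset.mem_coe.mpr h))
  let χ : CuspForm.heckeAlgebra M 2 (↑S : Set ℕ) →+* ℤ := h42_eigZ hg (↑S : Set ℕ) hMS' a ha'
  let chig : CuspForm.heckeAlgebra M 2 (↑S : Set ℕ) →+* ℂ := (Int.castRingHom ℂ).comp χ
  have hle : chig.range ≤ (Int.castRingHom ℂ).range := by
    rintro _ ⟨T, rfl⟩
    exact ⟨χ T, rfl⟩
  let iota : chig.range →+* O' :=
    (Int.castRingHom O').comp
      ((h42_intRangeEquiv.symm : (Int.castRingHom ℂ).range →+* ℤ).comp (Subring.inclusion hle))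
  have hχT : ∀ (ℓ : ℕ) (hℓ : ℓ.Prime) (hℓM : ¬ ℓ ∣ M) (hℓS : ℓ ∉ (↑S : Set ℕ)),
      χ (CuspForm.heckeAlgebra.T hℓ hℓM hℓS) = a ℓ := fun ℓ hℓ hℓM hℓS =>
    h42_eigZ_T hg (↑S : Set ℕ) hMS' a ha' hℓ hℓM hℓS
  refine ⟨chig, iota, fun ℓ hℓ hℓM hℓS => ?_, fun ℓ hℓ hℓM hℓS => ?_⟩
  · show ((χ (CuspForm.heckeAlgebra.T hℓ hℓM hℓS) : ℤ) : ℂ) = qCoeff g ℓ
    rw [hχT ℓ hℓ hℓM hℓS, ha' ℓ hℓ hℓS]
  · show ((h42_intRangeEquiv.symm (Subring.inclusion hle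
        (chig.rangeRestrict (CuspForm.heckeAlgebra.T hℓ hℓM hℓS))) : ℤ) : O') = (a ℓ : O')
    rw [h42_intRangeEquiv_symm_eq _ (a ℓ) (by
      show ((χ (CuspForm.heckeAlgebra.T hℓ hℓM hℓS) : ℤ) : ℂ) = ((a ℓ : ℤ) : ℂ)
      rw [hχT ℓ hℓ hℓM hℓS])]

end Fermat.Agent.S58
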