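import Mathlib
import Fermat.Prelude.Def_CuspForm_Newforms

/-!
# S58 row R9a (MINLEVEL): the good eigensystem of a normalised eigenform occurs at a newform

For a normalised eigenform `f` of level `N ≠ 0`, take the least divisor `M` of `N` at which the
good eigensystem of `f` occurs (Prelude `CuspForm.GoodEigensystemOccursAt`); a witness `g` at that
level is a newform in the sense of the Prelude (`CuspForm.IsNewform`), and it has the same
`q`-coefficients as `f` at every prime not dividing `N`.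
-/

set_option autoImplicit false

open ModularFormClass CongruenceSubgroup

namespace Fermat.Agent.S58

/-- **R9a (MINLEVEL).** -/
theorem h42_exists_newform {N : ℕ} (hN : N ≠ 0) (f : CuspForm (Gamma0 N) 2)
    (hf : f.IsNormalizedEigenform) :
    ∃ (M : ℕ) (_ : M ∣ N) (g : CuspForm (Gamma0 M) 2), g.IsNewform ∧
      ∀ ℓ : ℕ, ℓ.Prime → ¬ ℓ ∣ N → qCoeff g ℓ = qCoeff f ℓ := by
  classical
  have hex : ∃ M : ℕ, M ∣ N ∧ CuspForm.GoodEigensystemOccursAt f M :=
    ⟨N, dvd_rfl, CuspForm.GoodEigensystemOccursAt.refl hf⟩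
  obtain ⟨hMN, g, hg, hgf⟩ := Nat.find_spec hex
  refine ⟨Nat.find hex, hMN, g, ⟨hg, fun M' hM' hne hocc => ?_⟩, hgf⟩
  obtain ⟨g', hg', hg'g⟩ := hocc
  have hM0 : Nat.find hex ≠ 0 := fun h0 => hN (by
    have := hMN
    rw [h0] at this
    exact zero_dvd_iff.mp this)
  have hlt : M' < Nat.find hex :=
    lt_of_le_of_ne (Nat.le_of_dvd (Nat.pos_of_ne_zero hM0) hM') hne
  refine Nat.find_min hex hlt ⟨hM'.trans hMN, g', hg', fun ℓ hℓ hℓN => ?_⟩
  rw [hg'g ℓ hℓ (fun h => hℓN (h.trans hMN)), hgf ℓ hℓ hℓN]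

end Fermat.Agent.S58
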