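import Mathlib
import Fermat.Prelude.Def_FLTPrelim_Modularity

/-!
# S58, row R7 (small Frobenius): the shared definition and the point count

* `h82_FrobRel W Ω'`: the characteristic equation of Frobenius `φ² - a φ + #F = 0`,
  `a = W.traceOfFrobenius`, on the points of `W` over an extension `Ω'` of the finite field `F`
  (the shape of `Fermat.Agent.S52.h5_frob_charpoly_W`).
* `h82_card_point`: `#W(F) = 1 + #{(x, y) | nonsingular}`; `h82_trace_eq` the resulting formula
  for `traceOfFrobenius` (the subtype count is decidable for `ZMod 2`, `ZMod 3`).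
-/

set_option autoImplicit false

namespace Fermat.Agent.S58

open WeierstrassCurve WeierstrassCurve.Affine

/-- The Frobenius relation for a Weierstrass curve over a finite field `F`, on the points over an
extension `Ω'` of `F`. -/
def h82_FrobRel {F : Type*} [Field F] [Fintype F] (W : WeierstrassCurve F) (Ω' : Type*)
    [Field Ω'] [DecidableEq Ω'] [Algebra F Ω'] : Prop :=
  ∀ Q : (W.toAffine⁄Ω').Point,
    Affine.Point.map (W' := W.toAffine) (FiniteField.frobeniusAlgHom F Ω')
        (Affine.Point.map (W' := W.toAffine) (FiniteField.frobeniusAlgHom F Ω') Q)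
      - W.traceOfFrobenius •
          Affine.Point.map (W' := W.toAffine) (FiniteField.frobeniusAlgHom F Ω') Q
      + (Fintype.card F : ℤ) • Q = 0

/-- The points of an affine Weierstrass curve: the point at infinity and the nonsingular pairs. -/
def h82_pointEquiv {F : Type*} [CommRing F] (W : WeierstrassCurve F) :
    W.toAffine.Point ≃ Option {xy : F × F // W.toAffine.Nonsingular xy.1 xy.2} where
  toFun
    | .zero => none
    | .some x y h => some ⟨(x, y), h⟩
  invFun
    | none => .zero
    | some xy => .some xy.1.1 xy.1.2 xy.2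
  left_inv := by
    rintro (_ | ⟨x, y, h⟩) <;> rfl
  right_inv := by
    rintro (_ | ⟨⟨x, y⟩, h⟩) <;> rfl

/-- Point count: the point at infinity plus the nonsingular affine pairs. -/
theorem h82_card_point {F : Type*} [CommRing F] [Finite F] (W : WeierstrassCurve F) :
    Nat.card W.toAffine.Point =
      Nat.card {xy : F × F // W.toAffine.Nonsingular xy.1 xy.2} + 1 := by
  rw [Nat.card_congr (h82_pointEquiv W), Finite.card_option]

/-- The trace of Frobenius through the affine count. -/
theorem h82_trace_eq {F : Type*} [CommRing F] [Finite F] (W : WeierstrassCurve F) :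
    W.traceOfFrobenius =
      (Nat.card F : ℤ) - (Nat.card {xy : F × F // W.toAffine.Nonsingular xy.1 xy.2} : ℤ) := by
  unfold WeierstrassCurve.traceOfFrobenius WeierstrassCurve.card
  rw [h82_card_point]
  push_cast
  ring

/-- The trace of Frobenius from an explicit (decidable) count of the affine points. -/
theorem h82_trace_of_count {F : Type*} [CommRing F] [Fintype F] [DecidableEq F]
    (W : WeierstrassCurve F) (n : ℕ)
    (h : (Finset.univ.filter (fun xy : F × F =>
      (xy.2 ^ 2 + W.a₁ * xy.1 * xy.2 + W.a₃ * xy.2 =
          xy.1 ^ 3 + W.a₂ * xy.1 ^ 2 + W.a₄ * xy.1 + W.a₆) ∧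
        (W.a₁ * xy.2 ≠ 3 * xy.1 ^ 2 + 2 * W.a₂ * xy.1 + W.a₄ ∨
          xy.2 ≠ -xy.2 - W.a₁ * xy.1 - W.a₃))).card = n) :
    W.traceOfFrobenius = (Fintype.card F : ℤ) - (n : ℤ) := by
  classical
  rw [h82_trace_eq, Nat.card_eq_fintype_card, Nat.card_eq_fintype_card, Fintype.card_subtype, ← h]
  congr 3
  ext xy
  simp only [Finset.mem_filter, Finset.mem_univ, true_and]
  rw [Affine.nonsingular_iff, Affine.equation_iff]

end Fermat.Agent.S58
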