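import Mathlib
import Fermat.Prelude.Def_FLTPrelim_Modularity
import Fermat.Agent.S58.h82_FrobDefs

/-!
# S58, row R5: the trivial bound `|a_q(W)| ≤ q`

For a Weierstrass curve over a finite field `F` the affine equation is a monic quadratic in `y`
for every `x`, so there are at most `2 * #F` affine points; hence
`|traceOfFrobenius| = |#F - #affine nonsingular points| ≤ #F`.  In particular
`a_q(W) ≠ ± (q + 1)` for every integral model `W` and every prime `q` (no goodness needed).
-/

set_option autoImplicit false

namespace Fermat.Agent.S58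

open WeierstrassCurve WeierstrassCurve.Affine

/-- A monic quadratic over a field has at most two roots. -/
theorem h58_card_quad_roots_le {F : Type*} [Field F] [Fintype F] [DecidableEq F] (b c : F) :
    (Finset.univ.filter (fun y : F => y ^ 2 + b * y + c = 0)).card ≤ 2 := by
  classical
  set P : Polynomial F := Polynomial.X ^ 2 + Polynomial.C b * Polynomial.X + Polynomial.C c
    with hP
  have hdeg : P.natDegree = 2 := by
    rw [hP]; compute_degree!
  have hP0 : P ≠ 0 := by
    intro h
    rw [h, Polynomial.natDegree_zero] at hdeg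
    omega
  have hsub : Finset.univ.filter (fun y : F => y ^ 2 + b * y + c = 0) ⊆ P.roots.toFinset := by
    intro y hy
    rw [Finset.mem_filter] at hy
    rw [Multiset.mem_toFinset, Polynomial.mem_roots hP0, Polynomial.IsRoot.def, hP]
    simpa using hy.2
  calc (Finset.univ.filter (fun y : F => y ^ 2 + b * y + c = 0)).card
      ≤ P.roots.toFinset.card := Finset.card_le_card hsub
    _ ≤ Multiset.card P.roots := Multiset.toFinset_card_le _
    _ ≤ P.natDegree := Polynomial.card_roots' P
    _ = 2 := hdeg

/-- At most `2 * #F` nonsingular affine points. -/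
theorem h58_card_nonsingular_le {F : Type*} [Field F] [Finite F] (W : WeierstrassCurve F) :
    Nat.card {xy : F × F // W.toAffine.Nonsingular xy.1 xy.2} ≤ 2 * Nat.card F := by
  classical
  letI : Fintype F := Fintype.ofFinite F
  rw [Nat.card_eq_fintype_card, Nat.card_eq_fintype_card, Fintype.card_subtype]
  set s : Finset (F × F) := Finset.univ.filter (fun xy : F × F => W.toAffine.Nonsingular xy.1 xy.2)
    with hs
  have h1 : s.card ≤ 2 * (s.image Prod.fst).card := by
    apply Finset.card_le_mul_card_image
    intro x _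
    -- the fibre over `x` embeds into the roots of the quadratic in `y`
    have hinj : (s.filter (fun xy : F × F => xy.1 = x)).card ≤
        (Finset.univ.filter (fun y : F => y ^ 2 + (W.a₁ * x + W.a₃) * y +
          (-(x ^ 3 + W.a₂ * x ^ 2 + W.a₄ * x + W.a₆)) = 0)).card := by
      apply Finset.card_le_card_of_injOn Prod.snd
      · intro xy hxy
        rw [Finset.mem_coe, Finset.mem_filter, hs, Finset.mem_filter] at hxy
        obtain ⟨⟨-, hns⟩, hx⟩ := hxy
        rw [Finset.mem_coe, Finset.mem_filter]
        refine ⟨Finset.mem_univ _, ?_⟩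
        have heq := (Affine.equation_iff _ _).mp hns.1
        rw [hx] at heq
        linear_combination heq
      · intro a ha b hb hab
        rw [Finset.mem_coe, Finset.mem_filter] at ha hb
        exact Prod.ext (ha.2.trans hb.2.symm) hab
    exact hinj.trans (h58_card_quad_roots_le _ _)
  calc s.card ≤ 2 * (s.image Prod.fst).card := h1
    _ ≤ 2 * Fintype.card F := Nat.mul_le_mul_left 2 (Finset.card_le_univ _)

/-- The trivial bound on the trace of Frobenius of a Weierstrass curve over a finite field. -/
theorem h58_trace_abs_le {F : Type*} [Field F] [Finite F] (W : WeierstrassCurve F) :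
    |W.traceOfFrobenius| ≤ (Nat.card F : ℤ) := by
  rw [h82_trace_eq]
  have h := h58_card_nonsingular_le W
  have h' : (Nat.card {xy : F × F // W.toAffine.Nonsingular xy.1 xy.2} : ℤ) ≤ 2 * (Nat.card F : ℤ) := by
    exact_mod_cast h
  have h0 : (0 : ℤ) ≤ (Nat.card {xy : F × F // W.toAffine.Nonsingular xy.1 xy.2} : ℤ) :=
    Int.natCast_nonneg _
  rw [abs_le]
  constructor <;> linarith

/-- **R5**: `|a_q(W)| ≤ q` for every integral Weierstrass model and every prime `q`. -/
theorem h58_ap_abs_le (W : WeierstrassCurve ℤ) (q : ℕ) [Fact q.Prime] :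
    |W.apOfModel q| ≤ (q : ℤ) := by
  have h := h58_trace_abs_le (W.reductionMod q)
  rw [Nat.card_eq_fintype_card, ZMod.card] at h
  exact h

/-- `a_q(W) ≠ q + 1` and `a_q(W) ≠ -(q + 1)`. -/
theorem h58_ap_ne (W : WeierstrassCurve ℤ) (q : ℕ) [Fact q.Prime] :
    W.apOfModel q ≠ (q : ℤ) + 1 ∧ W.apOfModel q ≠ -((q : ℤ) + 1) := by
  have h := abs_le.mp (h58_ap_abs_le W q)
  constructor <;> intro h' <;> rw [h'] at h <;> omega

/-- The form used against the `q`-clause of S35: `X² - a X + q ≠ X² ∓ (q + 1) X + q`, i.e. the
integers `a_q(W)` and `± (q + 1)` differ. -/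
theorem h58_ap_ne_sign (W : WeierstrassCurve ℤ) (q : ℕ) [Fact q.Prime] (ε : ℤ)
    (hε : ε = 1 ∨ ε = -1) : W.apOfModel q ≠ ε * ((q : ℤ) + 1) := by
  obtain ⟨h1, h2⟩ := h58_ap_ne W q
  rcases hε with rfl | rfl
  · simpa using h1
  · simpa using h2

end Fermat.Agent.S58
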