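import Mathlib

/-!
# S58 / R7 (SMALL-FROB), sub-row (R7-K2): Weierstrass curves over `𝔽₂` with `Δ ≠ 0` (helper56)

Every Weierstrass curve over `ZMod 2` with nonzero discriminant is carried by an admissible change
of variables (with `u = 1`) to one of five normal forms.
-/

set_option autoImplicit false

namespace Fermat.Agent.S58

open WeierstrassCurve

/-- The finite check behind `h56_sf_class2`. -/
theorem h56_sf_class2_aux : ∀ a1 a2 a3 a4 a6 : ZMod 2,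
    (WeierstrassCurve.mk a1 a2 a3 a4 a6).Δ ≠ 0 →
    ∃ r s t : ZMod 2,
      (a1 + 2 * s = 1 ∧ a2 - s * a1 + 3 * r - s ^ 2 = 0 ∧ a3 + r * a1 + 2 * t = 0 ∧
        a4 - s * a3 + 2 * r * a2 - (t + r * s) * a1 + 3 * r ^ 2 - 2 * s * t = 0 ∧
        a6 + r * a4 + r ^ 2 * a2 + r ^ 3 - t * a3 - t ^ 2 - r * t * a1 = 1) ∨
      (a1 + 2 * s = 1 ∧ a2 - s * a1 + 3 * r - s ^ 2 = 1 ∧ a3 + r * a1 + 2 * t = 0 ∧
        a4 - s * a3 + 2 * r * a2 - (t + r * s) * a1 + 3 * r ^ 2 - 2 * s * t = 0 ∧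
        a6 + r * a4 + r ^ 2 * a2 + r ^ 3 - t * a3 - t ^ 2 - r * t * a1 = 1) ∨
      (a1 + 2 * s = 0 ∧ a2 - s * a1 + 3 * r - s ^ 2 = 0 ∧ a3 + r * a1 + 2 * t = 1 ∧
        a4 - s * a3 + 2 * r * a2 - (t + r * s) * a1 + 3 * r ^ 2 - 2 * s * t = 0 ∧
        a6 + r * a4 + r ^ 2 * a2 + r ^ 3 - t * a3 - t ^ 2 - r * t * a1 = 0) ∨
      (a1 + 2 * s = 0 ∧ a2 - s * a1 + 3 * r - s ^ 2 = 0 ∧ a3 + r * a1 + 2 * t = 1 ∧
        a4 - s * a3 + 2 * r * a2 - (t + r * s) * a1 + 3 * r ^ 2 - 2 * s * t = 1 ∧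
        a6 + r * a4 + r ^ 2 * a2 + r ^ 3 - t * a3 - t ^ 2 - r * t * a1 = 0) ∨
      (a1 + 2 * s = 0 ∧ a2 - s * a1 + 3 * r - s ^ 2 = 0 ∧ a3 + r * a1 + 2 * t = 1 ∧
        a4 - s * a3 + 2 * r * a2 - (t + r * s) * a1 + 3 * r ^ 2 - 2 * s * t = 1 ∧
        a6 + r * a4 + r ^ 2 * a2 + r ^ 3 - t * a3 - t ^ 2 - r * t * a1 = 1) := by
  decide

/-- **(R7-K2)**: classification of the Weierstrass curves over `𝔽₂` with `Δ ≠ 0` up to a change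
of variables: five normal forms `y² + xy = x³ + a₂x² + 1` (`a₂ = 0, 1`), `y² + y = x³`,
`y² + y = x³ + x`, `y² + y = x³ + x + 1`. -/
theorem h56_sf_class2 : ∀ E : WeierstrassCurve (ZMod 2), E.Δ ≠ 0 →
    ∃ C : VariableChange (ZMod 2), C • E = ⟨1, 0, 0, 0, 1⟩ ∨ C • E = ⟨1, 1, 0, 0, 1⟩ ∨
      C • E = ⟨0, 0, 1, 0, 0⟩ ∨ C • E = ⟨0, 0, 1, 1, 0⟩ ∨ C • E = ⟨0, 0, 1, 1, 1⟩ := by
  intro E hE
  obtain ⟨r, s, t, h⟩ := h56_sf_class2_aux E.a₁ E.a₂ E.a₃ E.a₄ E.a₆ hE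
  refine ⟨⟨1, r, s, t⟩, ?_⟩
  have key : ∀ b1 b2 b3 b4 b6 : ZMod 2,
      (E.a₁ + 2 * s = b1 ∧ E.a₂ - s * E.a₁ + 3 * r - s ^ 2 = b2 ∧ E.a₃ + r * E.a₁ + 2 * t = b3 ∧
        E.a₄ - s * E.a₃ + 2 * r * E.a₂ - (t + r * s) * E.a₁ + 3 * r ^ 2 - 2 * s * t = b4 ∧
        E.a₆ + r * E.a₄ + r ^ 2 * E.a₂ + r ^ 3 - t * E.a₃ - t ^ 2 - r * t * E.a₁ = b6) →
      (⟨1, r, s, t⟩ : VariableChange (ZMod 2)) • E = ⟨b1, b2, b3, b4, b6⟩ := by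
    rintro b1 b2 b3 b4 b6 ⟨h1, h2, h3, h4, h6⟩
    rw [variableChange_def]
    simp only [inv_one, Units.val_one, one_pow, one_mul]
    rw [h1, h2, h3, h4, h6]
  rcases h with h | h | h | h | h
  · exact Or.inl (key _ _ _ _ _ h)
  · exact Or.inr (Or.inl (key _ _ _ _ _ h))
  · exact Or.inr (Or.inr (Or.inl (key _ _ _ _ _ h)))
  · exact Or.inr (Or.inr (Or.inr (Or.inl (key _ _ _ _ _ h))))
  · exact Or.inr (Or.inr (Or.inr (Or.inr (key _ _ _ _ _ h))))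

end Fermat.Agent.S58
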