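import Fermat.Agent.S58.h56_SFAdd

/-!
# S58 / R7 (SMALL-FROB): from the generic point to all points, over every field (helper5)

* `h5_sf_all_of_gen` : over an algebraically closed field, a quadratic relation for an additive
  endomorphism `φ` of the points which holds at all points `(x, y)` with `p(x) ≠ 0` (`p` a nonzero
  polynomial) holds at all points (via `h56_sf_additive`).
* `h5_sf_frob_some` : the Frobenius map on an affine point.
* `h5_sf_frob_of_algClosed` : a quadratic relation for Frobenius over all algebraically closed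
  extensions descends to all field extensions.
* `h5_sf_Δ_baseChange_ne` : the discriminant stays nonzero after base change.
-/

set_option autoImplicit false

namespace Fermat.Agent.S58

open WeierstrassCurve WeierstrassCurve.Affine

universe u v

/-- From the generic point to all points, over an algebraically closed field. -/
theorem h5_sf_all_of_gen {Ω : Type*} [Field Ω] [IsAlgClosed Ω] [DecidableEq Ω]
    (W : WeierstrassCurve Ω) (hΔ : W.Δ ≠ 0) (φ : W.toAffine.Point →+ W.toAffine.Point)
    (a l : ℤ) (p : Polynomial Ω) (hp : p ≠ 0)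
    (h : ∀ (x y : Ω) (hxy : W.toAffine.Nonsingular x y), p.eval x ≠ 0 →
      φ (φ (Point.some x y hxy)) - a • φ (Point.some x y hxy) + l • Point.some x y hxy = 0)
    (P : W.toAffine.Point) : φ (φ P) - a • φ P + l • P = 0 := by
  classical
  let ψ : W.toAffine.Point →+ W.toAffine.Point :=
    φ.comp φ - a • φ + l • AddMonoidHom.id _
  have key := h56_sf_additive W hΔ ψ p.roots.toFinset (fun x y hxy hx => by
    have hx' : p.eval x ≠ 0 := by
      intro h0
      exact hx (Multiset.mem_toFinset.mpr ((Polynomial.mem_roots hp).mpr h0))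
    exact h x y hxy hx') P
  exact key

/-- The Frobenius map on an affine point. -/
theorem h5_sf_frob_some {F : Type*} [Field F] [Fintype F] (E : WeierstrassCurve F)
    {Ω : Type*} [Field Ω] [DecidableEq Ω] [Algebra F Ω] (n : ℕ) (hn : Fintype.card F = n)
    (x y : Ω) (h : (E.toAffine⁄Ω).Nonsingular x y) :
    ∃ h' : (E.toAffine⁄Ω).Nonsingular (x ^ n) (y ^ n),
      Affine.Point.map (W' := E.toAffine) (FiniteField.frobeniusAlgHom F Ω) (Point.some x y h) =
        Point.some (x ^ n) (y ^ n) h' := by
  subst hn
  exact ⟨_, rfl⟩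

/-- Frobenius commutes with the maps on points induced by algebra homomorphisms. -/
theorem h5_sf_frob_map {F : Type*} [Field F] [Fintype F] (E : WeierstrassCurve F)
    {Ω : Type*} [Field Ω] [DecidableEq Ω] [Algebra F Ω]
    {Ω' : Type*} [Field Ω'] [DecidableEq Ω'] [Algebra F Ω'] (j : Ω →ₐ[F] Ω')
    (P : (E.toAffine⁄Ω).Point) :
    Affine.Point.map (W' := E.toAffine) j
        (Affine.Point.map (W' := E.toAffine) (FiniteField.frobeniusAlgHom F Ω) P) =
      Affine.Point.map (W' := E.toAffine) (FiniteField.frobeniusAlgHom F Ω')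
        (Affine.Point.map (W' := E.toAffine) j P) := by
  rcases P with _ | ⟨X, Y, h⟩
  · rfl
  · simp only [Affine.Point.map_some, FiniteField.coe_frobeniusAlgHom]
    congr 1 <;> simp

/-- A quadratic relation for Frobenius over all algebraically closed extensions descends to all
field extensions. -/
theorem h5_sf_frob_of_algClosed {F : Type v} [Field F] [Fintype F] (E : WeierstrassCurve F)
    (a l : ℤ)
    (h : ∀ (Ω : Type u) [Field Ω] [IsAlgClosed Ω] [DecidableEq Ω] [Algebra F Ω]
      (P : (E.toAffine⁄Ω).Point),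
      Affine.Point.map (W' := E.toAffine) (FiniteField.frobeniusAlgHom F Ω)
          (Affine.Point.map (W' := E.toAffine) (FiniteField.frobeniusAlgHom F Ω) P)
        - a • Affine.Point.map (W' := E.toAffine) (FiniteField.frobeniusAlgHom F Ω) P
        + l • P = 0)
    {Ω' : Type u} [Field Ω'] [DecidableEq Ω'] [Algebra F Ω'] (Q : (E.toAffine⁄Ω').Point) :
    Affine.Point.map (W' := E.toAffine) (FiniteField.frobeniusAlgHom F Ω')
        (Affine.Point.map (W' := E.toAffine) (FiniteField.frobeniusAlgHom F Ω') Q)
      - a • Affine.Point.map (W' := E.toAffine) (FiniteField.frobeniusAlgHom F Ω') Q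
      + l • Q = 0 := by
  classical
  have h1 := h (AlgebraicClosure Ω') (Affine.Point.map (W' := E.toAffine)
    (IsScalarTower.toAlgHom F Ω' (AlgebraicClosure Ω')) Q)
  apply Affine.Point.map_injective (W' := E.toAffine)
    (IsScalarTower.toAlgHom F Ω' (AlgebraicClosure Ω'))
  rw [map_add, map_sub, map_zsmul, map_zsmul, h5_sf_frob_map, h5_sf_frob_map, map_zero]
  exact h1

/-- The discriminant stays nonzero after base change to a field. -/
theorem h5_sf_Δ_baseChange_ne {F : Type*} [Field F] (E : WeierstrassCurve F) (hE : E.Δ ≠ 0)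
    (Ω : Type*) [Field Ω] [Algebra F Ω] : (E.toAffine⁄Ω).Δ ≠ 0 := by
  change (E.map (algebraMap F Ω)).Δ ≠ 0
  rw [map_Δ]
  exact (map_ne_zero_iff _ (algebraMap F Ω).injective).mpr hE

/-- The characteristic of an algebra over `ZMod 2`. -/
theorem h5_sf_char2 (Ω : Type*) [Field Ω] [Algebra (ZMod 2) Ω] : (2 : Ω) = 0 := by
  have h : (algebraMap (ZMod 2) Ω) 2 = 2 := map_ofNat _ 2
  rw [← h, show (2 : ZMod 2) = 0 from rfl, map_zero]

/-- The characteristic of an algebra over `ZMod 3`. -/
theorem h5_sf_char3 (Ω : Type*) [Field Ω] [Algebra (ZMod 3) Ω] : (3 : Ω) = 0 := by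
  have h : (algebraMap (ZMod 3) Ω) 3 = 3 := map_ofNat _ 3
  rw [← h, show (3 : ZMod 3) = 0 from rfl, map_zero]

end Fermat.Agent.S58
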