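import Fermat.Agent.S58.h5_SfCore
import Fermat.Agent.S58.h5_SfWrap

/-!
# S58 / R7 (SMALL-FROB): generic point on the curve `c2c` over a field of characteristic 2

Machine-generated (helper5's function-field script): for a point `(x, y)` outside an explicit
finite set of `x`, `φ² - (0) φ + 2 = 0` where `φ` is the `2`-power Frobenius.
Coefficients `(a₁, a₂, a₃, a₄, a₆) = (0, 0, 1, 0, 0)`.
-/

set_option autoImplicit false
set_option maxHeartbeats 1000000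
set_option linter.unusedVariables false
set_option linter.unusedSimpArgs false

namespace Fermat.Agent.S58

open WeierstrassCurve WeierstrassCurve.Affine

theorem h5_sf_c2c_gen {Ω : Type*} [Field Ω] [DecidableEq Ω] (W : WeierstrassCurve Ω)
    (ha1 : W.a₁ = 0) (ha2 : W.a₂ = 0) (ha3 : W.a₃ = 1) (ha4 : W.a₄ = 0) (ha6 : W.a₆ = 0)
    (hchar : (2 : Ω) = 0) (φ : W.toAffine.Point →+ W.toAffine.Point)
    (hφ : ∀ (x y : Ω) (h : W.toAffine.Nonsingular x y),
      ∃ h' : W.toAffine.Nonsingular (x ^ 2) (y ^ 2),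
        φ (Point.some x y h) = Point.some (x ^ 2) (y ^ 2) h')
    (x y : Ω) (h : W.toAffine.Nonsingular x y)
    (hB : (1 : Ω) ≠ 0) :
    φ (φ (Point.some x y h)) - (0 : ℤ) • φ (Point.some x y h) + (2 : ℤ) • Point.some x y h = 0 := by
  have hE := h5_sf_eq_n W ha1 ha2 ha3 ha4 ha6 h
  have hone : (1 : Ω) ≠ 0 := one_ne_zero
  obtain ⟨X1, Y1, h1, e1, hx1, hy1⟩ := h5_sf_dbl_n W ha1 ha2 ha3 ha4 h
    (fun h0 => hone (by linear_combination (1) * h0 + (-y) * hchar))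
    (x ^ 2) (1) hone
    (by linear_combination (-x ^ 2 + x ^ 2 * y) * hchar)
    (x ^ 4) (1) (x ^ 6 + x ^ 3 + 1 + y) (1) hone hone
    (by linear_combination (x) * hchar)
    (by linear_combination (x ^ 6 + 1 + y) * hchar)
  obtain ⟨hF, eF⟩ := hφ x y h
  obtain ⟨Z2, h2, e2, hw2⟩ := h5_sf_neg_n W ha1 ha3 hF (x ^ 2) (1) (y ^ 2) (1) (mul_one _) (mul_one _) hone hone
    (x ^ 3 + 1 + y) (1)
    (by linear_combination (1) * hE + (x ^ 3 + 1) * hchar)
  obtain ⟨hFV, eFV⟩ := hφ (x ^ 2) Z2 h2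
  have eC : φ (Point.some (x ^ 2) Z2 h2) = (Point.some X1 Y1 h1) := by
    rw [eFV]
    exact (h5_sf_final W 2 h1 hFV (x ^ 4) (1) (x ^ 6 + x ^ 3 + 1 + y) (1) (x ^ 2) (1) (x ^ 3 + 1 + y) (1)
      hx1 hy1 (mul_one _) hw2 hone hone hone hone
      (by ring)
      (by linear_combination (-1) * hE + (-x ^ 3 - x ^ 3 * y) * hchar)).symm
  have eA : (2 : ℤ) • (Point.some x y h) = (Point.some X1 Y1 h1) := by rw [← e1]; exact two_zsmul _
  have eB : (0 : ℤ) • (Point.some x y h) - φ (Point.some x y h) = (Point.some (x ^ 2) Z2 h2) := by rw [zero_zsmul, zero_sub, eF, e2]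
  exact h5_sf_finish φ _ _ _ (0) 2 eA eB eC

/-- The Frobenius relation `φ² - (0) φ + 2 = 0` on all points of the curve
`(a₁, a₂, a₃, a₄, a₆) = (0, 0, 1, 0, 0)` over every field extension of `ZMod 2`. -/
theorem h5_sf_c2c_frob {Ω' : Type*} [Field Ω'] [DecidableEq Ω'] [Algebra (ZMod 2) Ω']
    (Q : ((⟨0, 0, 1, 0, 0⟩ : WeierstrassCurve (ZMod 2)).toAffine⁄Ω').Point) :
    Affine.Point.map (W' := (⟨0, 0, 1, 0, 0⟩ : WeierstrassCurve (ZMod 2)).toAffine) (FiniteField.frobeniusAlgHom (ZMod 2) Ω')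
        (Affine.Point.map (W' := (⟨0, 0, 1, 0, 0⟩ : WeierstrassCurve (ZMod 2)).toAffine) (FiniteField.frobeniusAlgHom (ZMod 2) Ω') Q)
      - (0 : ℤ) • Affine.Point.map (W' := (⟨0, 0, 1, 0, 0⟩ : WeierstrassCurve (ZMod 2)).toAffine) (FiniteField.frobeniusAlgHom (ZMod 2) Ω') Q
      + (2 : ℤ) • Q = 0 := by
  refine h5_sf_frob_of_algClosed _ (0) 2 (fun Ω _ _ _ _ P => ?_) Q
  have hchar : (2 : Ω) = 0 := h5_sf_char2 Ω
  have hΔ := h5_sf_Δ_baseChange_ne (⟨0, 0, 1, 0, 0⟩ : WeierstrassCurve (ZMod 2)) (by decide) Ω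
  have hp : (1 : Polynomial Ω) ≠ 0 := by
    exact one_ne_zero
  refine h5_sf_all_of_gen _ hΔ _ (0) 2 _ hp (fun x y hxy hx => ?_) P
  refine h5_sf_c2c_gen _ (map_zero (algebraMap (ZMod 2) Ω)) (map_zero (algebraMap (ZMod 2) Ω)) (map_one (algebraMap (ZMod 2) Ω)) (map_zero (algebraMap (ZMod 2) Ω)) (map_zero (algebraMap (ZMod 2) Ω)) hchar _
    (fun x y h => h5_sf_frob_some _ 2 (ZMod.card 2) x y h) x y hxy ?_
  intro h0
  apply hx
  simp only [Polynomial.eval_mul, Polynomial.eval_add, Polynomial.eval_sub, Polynomial.eval_pow,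
    Polynomial.eval_X, Polynomial.eval_one]
  exact h0

end Fermat.Agent.S58
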