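import Fermat.Agent.S58.h5_SfCore
import Fermat.Agent.S58.h5_SfWrap

/-!
# S58 / R7 (SMALL-FROB): generic point on the curve `c3b` over a field of characteristic 3

Machine-generated (helper5's function-field script): for a point `(x, y)` outside an explicit
finite set of `x`, `φ² - (1) φ + 3 = 0` where `φ` is the `3`-power Frobenius.
Coefficients `(a₁, a₂, a₃, a₄, a₆) = (0, 1, 0, 0, 2)`.
-/

set_option autoImplicit false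
set_option maxHeartbeats 1000000
set_option linter.unusedVariables false
set_option linter.unusedSimpArgs false

namespace Fermat.Agent.S58

open WeierstrassCurve WeierstrassCurve.Affine

theorem h5_sf_c3b_gen {Ω : Type*} [Field Ω] [DecidableEq Ω] (W : WeierstrassCurve Ω)
    (ha1 : W.a₁ = 0) (ha2 : W.a₂ = 1) (ha3 : W.a₃ = 0) (ha4 : W.a₄ = 0) (ha6 : W.a₆ = 2)
    (hchar : (3 : Ω) = 0) (φ : W.toAffine.Point →+ W.toAffine.Point)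
    (hφ : ∀ (x y : Ω) (h : W.toAffine.Nonsingular x y),
      ∃ h' : W.toAffine.Nonsingular (x ^ 3) (y ^ 3),
        φ (Point.some x y h) = Point.some (x ^ 3) (y ^ 3) h')
    (x y : Ω) (h : W.toAffine.Nonsingular x y)
    (hB : (x ^ 3 + x ^ 2 - 1) * ((x ^ 6 - x ^ 5 + x ^ 4 + x ^ 3 + x ^ 2 + 1) * ((x ^ 3 - 1) * ((x ^ 6 + x ^ 5 + x ^ 3 - x ^ 2 + 1) * ((x ^ 6 + x ^ 3 + 1) * ((x ^ 9 - 1) * ((x ^ 3 - x) * ((x - 1) * ((x ^ 2 + x + 1))))))))) ≠ 0) :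
    φ (φ (Point.some x y h)) - (1 : ℤ) • φ (Point.some x y h) + (3 : ℤ) • Point.some x y h = 0 := by
  have hE := h5_sf_eq_n W ha1 ha2 ha3 ha4 ha6 h
  have hone : (1 : Ω) ≠ 0 := one_ne_zero
  have hz1 : x ^ 3 + x ^ 2 - 1 ≠ 0 := left_ne_zero_of_mul hB
  have hB1 := right_ne_zero_of_mul hB
  have hz2 : x ^ 6 - x ^ 5 + x ^ 4 + x ^ 3 + x ^ 2 + 1 ≠ 0 := left_ne_zero_of_mul hB1
  have hB2 := right_ne_zero_of_mul hB1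
  have hz3 : x ^ 3 - 1 ≠ 0 := left_ne_zero_of_mul hB2
  have hB3 := right_ne_zero_of_mul hB2
  have hz4 : x ^ 6 + x ^ 5 + x ^ 3 - x ^ 2 + 1 ≠ 0 := left_ne_zero_of_mul hB3
  have hB4 := right_ne_zero_of_mul hB3
  have hz5 : x ^ 6 + x ^ 3 + 1 ≠ 0 := left_ne_zero_of_mul hB4
  have hB5 := right_ne_zero_of_mul hB4
  have hz6 : x ^ 9 - 1 ≠ 0 := left_ne_zero_of_mul hB5
  have hB6 := right_ne_zero_of_mul hB5
  have hz7 : x ^ 3 - x ≠ 0 := left_ne_zero_of_mul hB6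
  have hB7 := right_ne_zero_of_mul hB6
  have hz8 : x - 1 ≠ 0 := left_ne_zero_of_mul hB7
  have hB8 := right_ne_zero_of_mul hB7
  have hz9 : x ^ 2 + x + 1 ≠ 0 := hB8
  obtain ⟨X1, Y1, h1, e1, hx1, hy1⟩ := h5_sf_dbl_n W ha1 ha2 ha3 ha4 h
    (fun h0 => hz1 (by linear_combination (-y) * h0 + (2) * hE + (x ^ 3 + x ^ 2 + 1) * hchar))
    (x * y) (x ^ 3 + x ^ 2 - 1) hz1
    (by linear_combination (2 * x) * hE + (-x ^ 5 - x ^ 4 + x ^ 2 + 2 * x) * hchar)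
    (x ^ 4 - x + 1) (x ^ 3 + x ^ 2 - 1) (-x ^ 6 * y + x ^ 5 * y - x ^ 3 * y - x ^ 2 * y - x * y - y) (x ^ 6 - x ^ 5 + x ^ 4 + x ^ 3 + x ^ 2 + 1) hz1 hz2
    (by linear_combination (-x ^ 5 - x ^ 4 + x ^ 2) * hE + (x ^ 10 + 3 * x ^ 9 + 3 * x ^ 8 - 2 * x ^ 7 - 6 * x ^ 6 - 4 * x ^ 5 + 2 * x ^ 4 + 3 * x ^ 3 + x ^ 2 - x) * hchar)
    (by linear_combination (x ^ 9 * y - x ^ 7 * y - 2 * x ^ 6 * y + x ^ 4 * y + x ^ 3 * y) * hchar)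
  obtain ⟨X2, Y2, h2, e2, hx2, hy2⟩ := h5_sf_add_n W ha1 ha2 ha3 h1 h
    (x ^ 4 - x + 1) (x ^ 3 + x ^ 2 - 1) (-x ^ 6 * y + x ^ 5 * y - x ^ 3 * y - x ^ 2 * y - x * y - y) (x ^ 6 - x ^ 5 + x ^ 4 + x ^ 3 + x ^ 2 + 1)
    (x) (1) (y) (1)
    hx1 hy1 (mul_one x) (mul_one y) hz1 hz2 hone hone
    (fun h0 => hz3 (by linear_combination (-1) * h0))
    (-x ^ 6 * y + x ^ 5 * y + x ^ 4 * y - x ^ 3 * y - x ^ 2 * y + x * y - y) (x ^ 6 + x ^ 5 + x ^ 3 - x ^ 2 + 1) hz4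
    (by linear_combination (x ^ 15 * y + x ^ 12 * y + 2 * x ^ 11 * y + x ^ 10 * y + 3 * x ^ 9 * y + 2 * x ^ 8 * y - x ^ 7 * y - 2 * x ^ 6 * y + 2 * x ^ 5 * y - y) * hchar)
    (x ^ 9 + x ^ 3 - 1) (x ^ 6 + x ^ 3 + 1) (x ^ 12 * y + x ^ 11 * y - x ^ 9 * y - x ^ 6 * y - x ^ 5 * y - x ^ 3 * y + x ^ 2 * y - y) (x ^ 9 - 1) hz5 hz6
    (by linear_combination (-x ^ 21 + x ^ 20 + 3 * x ^ 19 - 3 * x ^ 18 - 6 * x ^ 17 + 7 * x ^ 16 + 4 * x ^ 15 - 10 * x ^ 14 + 2 * x ^ 13 + 11 * x ^ 12 - 12 * x ^ 11 - 5 * x ^ 10 + 14 * x ^ 9 - 3 * x ^ 8 - 11 * x ^ 7 + 8 * x ^ 6 + x ^ 5 - 6 * x ^ 4 + 2 * x ^ 3 + 2 * x ^ 2 - 2 * x + 1) * hE + (x ^ 23 + 3 * x ^ 22 + 2 * x ^ 21 + 4 * x ^ 19 + 4 * x ^ 18 - 3 * x ^ 17 + 6 * x ^ 16 + 11 * x ^ 15 - 4 * x ^ 14 - 6 * x ^ 13 + 11 * x ^ 12 - 2 * x ^ 11 - 8 * x ^ 10 + 12 * x ^ 9 + 2 * x ^ 8 - 13 * x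 ^ 7 + 6 * x ^ 6 + 2 * x ^ 5 - 5 * x ^ 4 + 3 * x ^ 3 + x ^ 2 - 2 * x + 1) * hchar)
    (by linear_combination (x ^ 32 * y + x ^ 31 * y - x ^ 30 * y + x ^ 29 * y + 5 * x ^ 28 * y + x ^ 27 * y - 2 * x ^ 26 * y + x ^ 25 * y - 2 * x ^ 24 * y - 7 * x ^ 23 * y + x ^ 21 * y - 8 * x ^ 20 * y - 8 * x ^ 19 * y - 2 * x ^ 18 * y - 4 * x ^ 17 * y - x ^ 16 * y + x ^ 14 * y + x ^ 13 * y - 4 * x ^ 12 * y + 6 * x ^ 10 * y - 2 * x ^ 9 * y - 2 * x ^ 8 * y + 3 * x ^ 7 * y - x ^ 6 * y - 3 * x ^ 5 * y + x ^ 4 * y + x ^ 3 * y - x ^ 2 * y) * hchar)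
  obtain ⟨hF, eF⟩ := hφ x y h
  obtain ⟨Z3, h3, e3, hw3⟩ := h5_sf_neg_n W ha1 ha3 hF (x ^ 3) (1) (y ^ 3) (1) (mul_one _) (mul_one _) hone hone
    (-x ^ 3 * y - x ^ 2 * y + y) (1)
    (by linear_combination (y) * hE + (y) * hchar)
  obtain ⟨X4, Y4, h4, e4, hx4, hy4⟩ := h5_sf_add_n W ha1 ha2 ha3 h h3
    (x) (1) (y) (1)
    (x ^ 3) (1) (-x ^ 3 * y - x ^ 2 * y + y) (1)
    (mul_one x) (mul_one y) (mul_one _) hw3 hone hone hone hone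
    (fun h0 => hz7 (by linear_combination (-1) * h0))
    (-x * y) (x - 1) hz8
    (by ring)
    (x ^ 3 + x - 1) (x ^ 2 + x + 1) (x ^ 3 * y - x * y + y) (x ^ 3 - 1) hz9 hz3
    (by linear_combination (-x ^ 4 - x ^ 3 - x ^ 2) * hE + (-x ^ 6 - 2 * x ^ 4 - 2 * x ^ 2 + x) * hchar)
    (by linear_combination (x ^ 6 * y - x ^ 3 * y) * hchar)
  obtain ⟨hFV, eFV⟩ := hφ X4 Y4 h4
  have eC : φ (Point.some X4 Y4 h4) = (Point.some X2 Y2 h2) := by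
    rw [eFV]
    exact (h5_sf_final W 3 h2 hFV (x ^ 9 + x ^ 3 - 1) (x ^ 6 + x ^ 3 + 1) (x ^ 12 * y + x ^ 11 * y - x ^ 9 * y - x ^ 6 * y - x ^ 5 * y - x ^ 3 * y + x ^ 2 * y - y) (x ^ 9 - 1) (x ^ 3 + x - 1) (x ^ 2 + x + 1) (x ^ 3 * y - x * y + y) (x ^ 3 - 1)
      hx2 hy2 hx4 hy4 hz5 hz6 hz9 hz3
      (by linear_combination (x ^ 14 + x ^ 13 + 3 * x ^ 12 + x ^ 11 + 2 * x ^ 10 + x ^ 8 + 2 * x ^ 7 + 2 * x ^ 6 + x ^ 5 - 3 * x ^ 3 - x ^ 2 - 2 * x) * hchar)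
      (by linear_combination (-x ^ 18 * y + 3 * x ^ 16 * y - 3 * x ^ 15 * y - 3 * x ^ 14 * y + 6 * x ^ 13 * y - 2 * x ^ 12 * y - 3 * x ^ 11 * y + 3 * x ^ 10 * y - 3 * x ^ 7 * y + 3 * x ^ 6 * y + 3 * x ^ 5 * y - 6 * x ^ 4 * y + 2 * x ^ 3 * y + 3 * x ^ 2 * y - 3 * x * y + y) * hE + (x ^ 19 * y - 2 * x ^ 18 * y - 3 * x ^ 17 * y + 3 * x ^ 16 * y + x ^ 15 * y - 3 * x ^ 14 * y + 4 * x ^ 13 * y - x ^ 12 * y - x ^ 11 * y + x ^ 10 * y - 3 * x ^ 7 * y + x ^ 6 * y + 5 * x ^ 5 * y - 4 * x ^ 4 * y + 2 * x ^ 2 * y - 2 * x * y + y) * hchar)).symm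
  have eA : (3 : ℤ) • (Point.some x y h) = (Point.some X2 Y2 h2) := by rw [← e2, ← e1]; abel
  have eB : (1 : ℤ) • (Point.some x y h) - φ (Point.some x y h) = (Point.some X4 Y4 h4) := by rw [← e4, ← e3, ← eF]; abel
  exact h5_sf_finish φ _ _ _ (1) 3 eA eB eC

/-- The Frobenius relation `φ² - (1) φ + 3 = 0` on all points of the curve
`(a₁, a₂, a₃, a₄, a₆) = (0, 1, 0, 0, 2)` over every field extension of `ZMod 3`. -/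
theorem h5_sf_c3b_frob {Ω' : Type*} [Field Ω'] [DecidableEq Ω'] [Algebra (ZMod 3) Ω']
    (Q : ((⟨0, 1, 0, 0, 2⟩ : WeierstrassCurve (ZMod 3)).toAffine⁄Ω').Point) :
    Affine.Point.map (W' := (⟨0, 1, 0, 0, 2⟩ : WeierstrassCurve (ZMod 3)).toAffine) (FiniteField.frobeniusAlgHom (ZMod 3) Ω')
        (Affine.Point.map (W' := (⟨0, 1, 0, 0, 2⟩ : WeierstrassCurve (ZMod 3)).toAffine) (FiniteField.frobeniusAlgHom (ZMod 3) Ω') Q)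
      - (1 : ℤ) • Affine.Point.map (W' := (⟨0, 1, 0, 0, 2⟩ : WeierstrassCurve (ZMod 3)).toAffine) (FiniteField.frobeniusAlgHom (ZMod 3) Ω') Q
      + (3 : ℤ) • Q = 0 := by
  refine h5_sf_frob_of_algClosed _ (1) 3 (fun Ω _ _ _ _ P => ?_) Q
  have hchar : (3 : Ω) = 0 := h5_sf_char3 Ω
  have hΔ := h5_sf_Δ_baseChange_ne (⟨0, 1, 0, 0, 2⟩ : WeierstrassCurve (ZMod 3)) (by decide) Ω
  have hp : ((Polynomial.X ^ 3 + Polynomial.X ^ 2 - 1) * ((Polynomial.X ^ 6 - Polynomial.X ^ 5 + Polynomial.X ^ 4 + Polynomial.X ^ 3 + Polynomial.X ^ 2 + 1) * ((Polynomial.X ^ 3 - 1) * ((Polynomial.X ^ 6 + Polynomial.X ^ 5 + Polynomial.X ^ 3 - Polynomial.X ^ 2 + 1) * ((Polynomial.X ^ 6 + Polynomial.X ^ 3 + 1) * ((Polynomial.X ^ 9 - 1) * ((Polynomial.X ^ 3 - Polynomial.X) * ((Polynomial.X - 1) * ((Polynomial.X ^ 2 + Polynomial.X + 1)))))))))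 : Polynomial Ω) ≠ 0 := by
    apply Polynomial.Monic.ne_zero
    monicity!
  refine h5_sf_all_of_gen _ hΔ _ (1) 3 _ hp (fun x y hxy hx => ?_) P
  refine h5_sf_c3b_gen _ (map_zero (algebraMap (ZMod 3) Ω)) (map_one (algebraMap (ZMod 3) Ω)) (map_zero (algebraMap (ZMod 3) Ω)) (map_zero (algebraMap (ZMod 3) Ω)) (map_ofNat (algebraMap (ZMod 3) Ω) 2) hchar _
    (fun x y h => h5_sf_frob_some _ 3 (ZMod.card 3) x y h) x y hxy ?_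
  intro h0
  apply hx
  simp only [Polynomial.eval_mul, Polynomial.eval_add, Polynomial.eval_sub, Polynomial.eval_pow,
    Polynomial.eval_X, Polynomial.eval_one]
  exact h0

end Fermat.Agent.S58
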