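import Mathlib
import Fermat.Prelude.Def_FLTPrelim_Modularity

/-!
# S58 / R7 (SMALL-FROB), sub-row (R7-C): the nine point counts over `𝔽₂` and `𝔽₃`

The nine normal forms of #3791 and the numbers of their points (with the point at infinity):
`ℓ = 2`: `⟨1,0,0,0,1⟩ ↦ 4`, `⟨1,1,0,0,1⟩ ↦ 2`, `⟨0,0,1,0,0⟩ ↦ 3`, `⟨0,0,1,1,0⟩ ↦ 5`,
`⟨0,0,1,1,1⟩ ↦ 1`;
`ℓ = 3`: `⟨0,1,0,0,1⟩ ↦ 6`, `⟨0,1,0,0,2⟩ ↦ 3`, `⟨0,2,0,0,1⟩ ↦ 5`, `⟨0,2,0,0,2⟩ ↦ 2`.
-/

set_option autoImplicit false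

noncomputable section

namespace Fermat.Agent.S58

open WeierstrassCurve

/-- points = `none` (infinity) or a nonsingular pair. -/
def h85_pointEquiv {F : Type*} [CommRing F] (W : WeierstrassCurve F) :
    W.toAffine.Point ≃ Option {p : F × F // W.toAffine.Nonsingular p.1 p.2} where
  toFun P := match P with
    | .zero => none
    | .some x y h => some ⟨(x, y), h⟩
  invFun o := match o with
    | none => .zero
    | some p => .some p.1.1 p.1.2 p.2
  left_inv P := by cases P <;> rfl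
  right_inv o := by cases o <;> rfl

/-- the number of points of a Weierstrass curve over a finite ring, as an explicit count. -/
theorem h85_card_point {F : Type*} [CommRing F] [Fintype F] [DecidableEq F]
    (W : WeierstrassCurve F) :
    Nat.card W.toAffine.Point =
      (Finset.univ.filter (fun p : F × F =>
        p.2 ^ 2 + W.a₁ * p.1 * p.2 + W.a₃ * p.2 = p.1 ^ 3 + W.a₂ * p.1 ^ 2 + W.a₄ * p.1 + W.a₆ ∧
        (W.a₁ * p.2 ≠ 3 * p.1 ^ 2 + 2 * W.a₂ * p.1 + W.a₄ ∨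
          p.2 ≠ -p.2 - W.a₁ * p.1 - W.a₃))).card + 1 := by
  classical
  rw [Nat.card_congr (h85_pointEquiv W), Nat.card_eq_fintype_card, Fintype.card_option,
    Fintype.card_subtype]
  congr 2
  ext p
  simp only [Finset.mem_filter, Finset.mem_univ, true_and]
  rw [Affine.nonsingular_iff, Affine.equation_iff]

/-- the trace of Frobenius from the explicit count. -/
theorem h85_trace_of_card {F : Type*} [CommRing F] (W : WeierstrassCurve F) {n : ℕ}
    (h : Nat.card W.toAffine.Point = n) :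
    W.traceOfFrobenius = (Nat.card F : ℤ) + 1 - (n : ℤ) := by
  unfold WeierstrassCurve.traceOfFrobenius WeierstrassCurve.card
  rw [h]

/-! ### `ℓ = 2` -/

theorem h85_sf_card_2_1 :
    Nat.card ((⟨1, 0, 0, 0, 1⟩ : WeierstrassCurve (ZMod 2)).toAffine.Point) = 4 := by
  rw [h85_card_point]
  decide

theorem h85_sf_card_2_2 :
    Nat.card ((⟨1, 1, 0, 0, 1⟩ : WeierstrassCurve (ZMod 2)).toAffine.Point) = 2 := by
  rw [h85_card_point]
  decide

theorem h85_sf_card_2_3 :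
    Nat.card ((⟨0, 0, 1, 0, 0⟩ : WeierstrassCurve (ZMod 2)).toAffine.Point) = 3 := by
  rw [h85_card_point]
  decide

theorem h85_sf_card_2_4 :
    Nat.card ((⟨0, 0, 1, 1, 0⟩ : WeierstrassCurve (ZMod 2)).toAffine.Point) = 5 := by
  rw [h85_card_point]
  decide

theorem h85_sf_card_2_5 :
    Nat.card ((⟨0, 0, 1, 1, 1⟩ : WeierstrassCurve (ZMod 2)).toAffine.Point) = 1 := by
  rw [h85_card_point]
  decide

/-! ### `ℓ = 3` -/

theorem h85_sf_card_3_1 :
    Nat.card ((⟨0, 1, 0, 0, 1⟩ : WeierstrassCurve (ZMod 3)).toAffine.Point) = 6 := by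
  rw [h85_card_point]
  decide

theorem h85_sf_card_3_2 :
    Nat.card ((⟨0, 1, 0, 0, 2⟩ : WeierstrassCurve (ZMod 3)).toAffine.Point) = 3 := by
  rw [h85_card_point]
  decide

theorem h85_sf_card_3_3 :
    Nat.card ((⟨0, 2, 0, 0, 1⟩ : WeierstrassCurve (ZMod 3)).toAffine.Point) = 5 := by
  rw [h85_card_point]
  decide

theorem h85_sf_card_3_4 :
    Nat.card ((⟨0, 2, 0, 0, 2⟩ : WeierstrassCurve (ZMod 3)).toAffine.Point) = 2 := by
  rw [h85_card_point]
  decide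

/-! ### the traces -/

theorem h85_sf_trace_2_1 :
    (⟨1, 0, 0, 0, 1⟩ : WeierstrassCurve (ZMod 2)).traceOfFrobenius = -1 := by
  rw [h85_trace_of_card _ h85_sf_card_2_1, Nat.card_zmod]; norm_num

theorem h85_sf_trace_2_2 :
    (⟨1, 1, 0, 0, 1⟩ : WeierstrassCurve (ZMod 2)).traceOfFrobenius = 1 := by
  rw [h85_trace_of_card _ h85_sf_card_2_2, Nat.card_zmod]; norm_num

theorem h85_sf_trace_2_3 :
    (⟨0, 0, 1, 0, 0⟩ : WeierstrassCurve (ZMod 2)).traceOfFrobenius = 0 := by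
  rw [h85_trace_of_card _ h85_sf_card_2_3, Nat.card_zmod]; norm_num

theorem h85_sf_trace_2_4 :
    (⟨0, 0, 1, 1, 0⟩ : WeierstrassCurve (ZMod 2)).traceOfFrobenius = -2 := by
  rw [h85_trace_of_card _ h85_sf_card_2_4, Nat.card_zmod]; norm_num

theorem h85_sf_trace_2_5 :
    (⟨0, 0, 1, 1, 1⟩ : WeierstrassCurve (ZMod 2)).traceOfFrobenius = 2 := by
  rw [h85_trace_of_card _ h85_sf_card_2_5, Nat.card_zmod]; norm_num

theorem h85_sf_trace_3_1 :
    (⟨0, 1, 0, 0, 1⟩ : WeierstrassCurve (ZMod 3)).traceOfFrobenius = -2 := by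
  rw [h85_trace_of_card _ h85_sf_card_3_1, Nat.card_zmod]; norm_num

theorem h85_sf_trace_3_2 :
    (⟨0, 1, 0, 0, 2⟩ : WeierstrassCurve (ZMod 3)).traceOfFrobenius = 1 := by
  rw [h85_trace_of_card _ h85_sf_card_3_2, Nat.card_zmod]; norm_num

theorem h85_sf_trace_3_3 :
    (⟨0, 2, 0, 0, 1⟩ : WeierstrassCurve (ZMod 3)).traceOfFrobenius = -1 := by
  rw [h85_trace_of_card _ h85_sf_card_3_3, Nat.card_zmod]; norm_num

theorem h85_sf_trace_3_4 :
    (⟨0, 2, 0, 0, 2⟩ : WeierstrassCurve (ZMod 3)).traceOfFrobenius = 2 := by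
  rw [h85_trace_of_card _ h85_sf_card_3_4, Nat.card_zmod]; norm_num

end Fermat.Agent.S58
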