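import Fermat.Agent.S52.h5_FrobW
import Fermat.Agent.S58.h82_FrobDefs
import Fermat.Agent.S58.h85_SFCount
import Fermat.Agent.S58.h56_SFClass2
import Fermat.Agent.S58.h56_SFClass3
import Fermat.Agent.S58.h5_SfG2a
import Fermat.Agent.S58.h5_SfG2b
import Fermat.Agent.S58.h5_SfG2c
import Fermat.Agent.S58.h5_SfG2d
import Fermat.Agent.S58.h5_SfG2e
import Fermat.Agent.S58.h5_SfG3a
import Fermat.Agent.S58.h5_SfG3b
import Fermat.Agent.S58.h5_SfG3c
import Fermat.Agent.S58.h5_SfG3d

/-!
# S58 / R7 (SMALL-FROB): the Frobenius relation at every good prime (helper5)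

The characteristic equation of Frobenius `φ² - a φ + ℓ = 0` for every Weierstrass curve with
`Δ ≠ 0` over `ZMod ℓ`, **every** prime `ℓ` (the cases `ℓ = 2, 3` are new: classification
`h56_sf_class2` / `h56_sf_class3`, the nine normal forms `h5_sf_c**_frob`, the counts
`h85_sf_trace_*`, transport `S52.h48_charpoly_transport`; `ℓ ≥ 5` is `S52.h5_frob_charpoly_W`).

* `h5_sf_transport` : transport of the relation along a change of variables over the base field.
* `h5_sf_frobRel2`, `h5_sf_frobRel3`, `h5_sf_frobRel_zmod` : `h82_FrobRel E Ω'`.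
* `h5_sf_frob_charpoly_int` : the integral-model form (the statement of
  `S52.h5_frob_charpoly_int` without the hypothesis `5 ≤ ℓ`).
-/

set_option autoImplicit false

namespace Fermat.Agent.S58

open WeierstrassCurve WeierstrassCurve.Affine

/-- Transport of the Frobenius relation along a change of variables over the base field. -/
theorem h5_sf_transport {F : Type*} [Field F] [Fintype F] (E E' : WeierstrassCurve F)
    (C : VariableChange F) (hC : C • E = E') (a q : ℤ) (ha : E'.traceOfFrobenius = a)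
    (hq : (Fintype.card F : ℤ) = q)
    {Ω' : Type*} [Field Ω'] [DecidableEq Ω'] [Algebra F Ω']
    (h : ∀ P : (E'.toAffine⁄Ω').Point,
      Affine.Point.map (W' := E'.toAffine) (FiniteField.frobeniusAlgHom F Ω')
          (Affine.Point.map (W' := E'.toAffine) (FiniteField.frobeniusAlgHom F Ω') P)
        - a • Affine.Point.map (W' := E'.toAffine) (FiniteField.frobeniusAlgHom F Ω') P
        + q • P = 0) :
    h82_FrobRel E Ω' := by
  classical
  intro Q
  have hcard : Nat.card E.toAffine.Point = Nat.card E'.toAffine.Point := by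
    rw [← hC]
    exact (Nat.card_congr (S51.vc_addEquiv E C).toEquiv).symm
  have htr : E.traceOfFrobenius = a := by
    rw [← ha]
    unfold WeierstrassCurve.traceOfFrobenius WeierstrassCurve.card
    rw [hcard]
  have hC' : C.map (algebraMap F Ω') • E.map (algebraMap F Ω') = E'.map (algebraMap F Ω') := by
    rw [map_variableChange, hC]
  rw [htr, hq]
  exact S52.h48_charpoly_transport (E.map (algebraMap F Ω')) (E'.map (algebraMap F Ω'))
    (C.map (algebraMap F Ω')) hC' (FiniteField.frobeniusAlgHom F Ω' : Ω' →+* Ω')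
    ((FiniteField.frobeniusAlgHom F Ω').commutes _) ((FiniteField.frobeniusAlgHom F Ω').commutes _)
    ((FiniteField.frobeniusAlgHom F Ω').commutes _) ((FiniteField.frobeniusAlgHom F Ω').commutes _)
    (Affine.Point.map (W' := E.toAffine) (FiniteField.frobeniusAlgHom F Ω'))
    (fun X Y h => ⟨_, Affine.Point.map_some (W' := E.toAffine) _ h⟩)
    (Affine.Point.map (W' := E'.toAffine) (FiniteField.frobeniusAlgHom F Ω'))
    (fun X Y h => ⟨_, Affine.Point.map_some (W' := E'.toAffine) _ h⟩)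
    a q h Q

theorem h5_sf_card2 : ((Fintype.card (ZMod 2) : ℕ) : ℤ) = 2 := by
  rw [ZMod.card]
  rfl

theorem h5_sf_card3 : ((Fintype.card (ZMod 3) : ℕ) : ℤ) = 3 := by
  rw [ZMod.card]
  rfl

/-- **The Frobenius relation over `𝔽₂`.** -/
theorem h5_sf_frobRel2 (E : WeierstrassCurve (ZMod 2)) (hΔ : E.Δ ≠ 0)
    {Ω' : Type*} [Field Ω'] [DecidableEq Ω'] [Algebra (ZMod 2) Ω'] : h82_FrobRel E Ω' := by
  obtain ⟨C, hC⟩ := h56_sf_class2 E hΔ
  rcases hC with hC | hC | hC | hC | hC
  · exact h5_sf_transport E _ C hC (-1) 2 h85_sf_trace_2_1 h5_sf_card2 (fun P => h5_sf_c2a_frob P)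
  · exact h5_sf_transport E _ C hC 1 2 h85_sf_trace_2_2 h5_sf_card2 (fun P => h5_sf_c2b_frob P)
  · exact h5_sf_transport E _ C hC 0 2 h85_sf_trace_2_3 h5_sf_card2 (fun P => h5_sf_c2c_frob P)
  · exact h5_sf_transport E _ C hC (-2) 2 h85_sf_trace_2_4 h5_sf_card2 (fun P => h5_sf_c2d_frob P)
  · exact h5_sf_transport E _ C hC 2 2 h85_sf_trace_2_5 h5_sf_card2 (fun P => h5_sf_c2e_frob P)

/-- **The Frobenius relation over `𝔽₃`.** -/
theorem h5_sf_frobRel3 (E : WeierstrassCurve (ZMod 3)) (hΔ : E.Δ ≠ 0)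
    {Ω' : Type*} [Field Ω'] [DecidableEq Ω'] [Algebra (ZMod 3) Ω'] : h82_FrobRel E Ω' := by
  obtain ⟨C, hC⟩ := h56_sf_class3 E hΔ
  rcases hC with ⟨A, B, hC⟩ | hC | hC | hC | hC
  · have h2 : (2 : ZMod 3) ≠ 0 := by decide
    have hΔ' : 4 * A ^ 3 + 27 * B ^ 2 ≠ 0 := by
      intro h0
      have h1 : (C • E).Δ = 0 := by rw [hC, S52.h5_sw_Δ, h0, mul_zero]
      rw [variableChange_Δ] at h1
      rcases mul_eq_zero.mp h1 with h4 | h4
      · exact (pow_ne_zero 12 (Units.ne_zero _)) h4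
      · exact hΔ h4
    have htr : (S52.h5_sw A B).traceOfFrobenius = S52.h5_trace A B := by
      unfold WeierstrassCurve.traceOfFrobenius WeierstrassCurve.card S52.h5_trace
      rw [Nat.card_eq_fintype_card]
    exact h5_sf_transport E _ C hC (S52.h5_trace A B) (Fintype.card (ZMod 3) : ℤ) htr rfl
      (fun P => S52.h5_frob_charpoly A B h2 hΔ' P)
  · exact h5_sf_transport E _ C hC (-2) 3 h85_sf_trace_3_1 h5_sf_card3 (fun P => h5_sf_c3a_frob P)
  · exact h5_sf_transport E _ C hC 1 3 h85_sf_trace_3_2 h5_sf_card3 (fun P => h5_sf_c3b_frob P)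
  · exact h5_sf_transport E _ C hC (-1) 3 h85_sf_trace_3_3 h5_sf_card3 (fun P => h5_sf_c3c_frob P)
  · exact h5_sf_transport E _ C hC 2 3 h85_sf_trace_3_4 h5_sf_card3 (fun P => h5_sf_c3d_frob P)

/-- **The Frobenius relation over `𝔽_ℓ`, every prime `ℓ`.** -/
theorem h5_sf_frobRel_zmod (ℓ : ℕ) [Fact ℓ.Prime] (E : WeierstrassCurve (ZMod ℓ)) (hΔ : E.Δ ≠ 0)
    {Ω' : Type*} [Field Ω'] [DecidableEq Ω'] [Algebra (ZMod ℓ) Ω'] : h82_FrobRel E Ω' := by
  have hp : ℓ.Prime := Fact.out
  by_cases hℓ : 5 ≤ ℓ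
  · have h2 : (2 : ZMod ℓ) ≠ 0 := by
      intro h
      have h' : ((2 : ℕ) : ZMod ℓ) = 0 := by exact_mod_cast h
      rw [ZMod.natCast_eq_zero_iff] at h'
      have := Nat.le_of_dvd (by norm_num) h'
      omega
    have h3 : (3 : ZMod ℓ) ≠ 0 := by
      intro h
      have h' : ((3 : ℕ) : ZMod ℓ) = 0 := by exact_mod_cast h
      rw [ZMod.natCast_eq_zero_iff] at h'
      have := Nat.le_of_dvd (by norm_num) h'
      omega
    intro Q
    exact S52.h5_frob_charpoly_W h2 h3 E hΔ Q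
  · have h23 : ℓ = 2 ∨ ℓ = 3 := by
      have h5 : ℓ < 5 := by omega
      have h2 := hp.two_le
      interval_cases ℓ
      · exact Or.inl rfl
      · exact Or.inr rfl
      · exact absurd hp (by decide)
    rcases h23 with rfl | rfl
    · exact h5_sf_frobRel2 E hΔ
    · exact h5_sf_frobRel3 E hΔ

/-- **R7 (SMALL-FROB), export.**  The statement of `S52.h5_frob_charpoly_int` for every good
prime `ℓ` (no hypothesis `5 ≤ ℓ`). -/
theorem h5_sf_frob_charpoly_int (W : WeierstrassCurve ℤ) (ℓ : ℕ) [Fact ℓ.Prime]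
    (hgood : W.IsGoodPrimeFor ℓ) {Ω' : Type*} [Field Ω'] [DecidableEq Ω'] [Algebra (ZMod ℓ) Ω']
    (Q : ((W.reductionMod ℓ).toAffine⁄Ω').Point) :
    Affine.Point.map (W' := (W.reductionMod ℓ).toAffine) (FiniteField.frobeniusAlgHom (ZMod ℓ) Ω')
        (Affine.Point.map (W' := (W.reductionMod ℓ).toAffine)
          (FiniteField.frobeniusAlgHom (ZMod ℓ) Ω') Q)
      - W.apOfModel ℓ • Affine.Point.map (W' := (W.reductionMod ℓ).toAffine)
          (FiniteField.frobeniusAlgHom (ZMod ℓ) Ω') Q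
      + (ℓ : ℤ) • Q = 0 := by
  have hΔ : (W.reductionMod ℓ).Δ ≠ 0 := by
    unfold WeierstrassCurve.reductionMod
    rw [map_Δ]
    intro h
    exact hgood ((ZMod.intCast_zmod_eq_zero_iff_dvd _ _).mp h)
  have key := h5_sf_frobRel_zmod ℓ (W.reductionMod ℓ) hΔ (Ω' := Ω') Q
  rw [ZMod.card] at key
  exact key

end Fermat.Agent.S58
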