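import Mathlib
import Fermat.Agent.S35
import Fermat.Agent.S54.Frob
import Fermat.Agent.GAL.h65_Cyclo
import Fermat.Agent.S58.h82_Match
import Fermat.Agent.S58.h82_FrobAll
import Fermat.Agent.S58.h42_EigCharInt
import Fermat.Agent.S58.h42_MinLevel
import Fermat.Agent.S58.h24_StabIter
import Fermat.Agent.S58.h58_ApBound
import Fermat.Prelude.Def_CuspForm_Newforms
import Fermat.Prelude.Def_GaloisRep_LocalConditions
import Fermat.Prelude.Def_FLTPrelim_ModularRep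
import Fermat.Prelude.Def_WeierstrassCurve_ConductorLevel

/-!
# S58: the top assembly

`h82_S58_core`: the statement S58 from

* `hS36`: the statement S36 (`h82_S36Stmt`, the type of `Fermat.Agent.S36.result`);
* `hfix` (row R1): for a semistable integral model, inertia at `q ≠ p` fixes a point of exact
  order `p ^ (k + 1)` for every `k`;
* `hres` (row R3): residual absolute irreducibility and oddness of every adic representation
  with the Frobenius characteristic polynomials of `W`, from the irreducibility of `W[p]`;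
* `hcoeff` (row R6): the coefficient of an eigenform at a good prime `ℓ` not dividing its level
  is `a_ℓ(W)` as soon as this holds outside a finite set.

Route: minimal level `M` of the good eigensystem (`h42_exists_newform`); no prime `q` with
`q² ∥ M` (`h82_A1`: S36 against MATCH-FIX); no good prime `q ∥ M` (`h82_A2`: the `q`-clause of S35
against MATCH and `|a_q| ≤ q`); so `M` divides the conductor level; coefficients at all good
primes (`hcoeff`); stabilisation (`h24_modular_conductorLevel`).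
-/

set_option autoImplicit false

namespace Fermat.Agent.S58

open Polynomial CuspForm WeierstrassCurve WeierstrassCurve.Affine ModularFormClass
  CongruenceSubgroup

local notation "Qb" => AlgebraicClosure ℚ

/-- The statement S36 (the type of `Fermat.Agent.S36.result`). -/
def h82_S36Stmt : Prop :=
  ∀ {M : ℕ} [NeZero M] {g : CuspForm (CongruenceSubgroup.Gamma0 M) 2} (_ : g.IsNewform)
    (lam : ℕ) [Fact lam.Prime]
    (S : Finset ℕ)
    (O' : Type) [CommRing O'] [IsDomain O'] [IsDiscreteValuationRing O']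
    [IsAdicComplete (IsLocalRing.maximalIdeal O') O'] [Finite (IsLocalRing.ResidueField O')]
    [CharZero O'] (_ : (lam : O') ∈ IsLocalRing.maximalIdeal O')
    (_ : lam ≠ 2)
    (chig : CuspForm.heckeAlgebra M 2 (↑S : Set ℕ) →+* ℂ)
    (_ : ∀ (ℓ : ℕ) (hℓ : ℓ.Prime) (hℓM : ¬ ℓ ∣ M) (hℓS : ℓ ∉ (↑S : Set ℕ)),
      chig (CuspForm.heckeAlgebra.T hℓ hℓM hℓS) = ModularFormClass.qCoeff g ℓ)
    (iota : chig.range →+* O')
    (_ : lam ∈ S) (_ : ∀ q : ℕ, q.Prime → q ∣ M → q ∈ S)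
    (_ : ∀ (O'' : Type) [CommRing O''] [IsDomain O''] [IsDiscreteValuationRing O'']
      [IsAdicComplete (IsLocalRing.maximalIdeal O'') O''] [Finite (IsLocalRing.ResidueField O'')] [CharZero O'']
      [Algebra O' O''] [Module.Finite O' O''] [IsLocalHom (algebraMap O' O'')],
      Function.Injective (algebraMap O' O'') → ∀ (ρ : GaloisRepAdic O''),
      (∀ (ℓ : ℕ) (hℓ : ℓ.Prime) (_ : ℓ ≠ lam) (hℓM : ¬ ℓ ∣ M) (hℓS : ℓ ∉ (↑S : Set ℕ)),
        ∀ A : ValuationSubring (AlgebraicClosure ℚ), A.LiesOverPrime ℓ →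
          ∀ σ : AlgebraicClosure ℚ ≃ₐ[ℚ] AlgebraicClosure ℚ, A.IsFrobeniusAt σ ℓ →
            LinearMap.charpoly (ρ.ρ σ) =
              X ^ 2 - C (algebraMap O' O'' ((iota.comp chig.rangeRestrict) (CuspForm.heckeAlgebra.T hℓ hℓM hℓS))) * X
                + C ((ℓ : O'')))
      → ρ.residual.IsAbsolutelyIrreducible ∧ ρ.residual.IsOdd),
    ∃ (O'' : Type) (_ : CommRing O'') (_ : IsDomain O'') (_ : IsDiscreteValuationRing O'')
      (_ : IsAdicComplete (IsLocalRing.maximalIdeal O'') O'') (_ : Finite (IsLocalRing.ResidueField O''))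
      (_ : CharZero O'') (_ : Algebra O' O'') (_ : Module.Finite O' O'') (_ : IsLocalHom (algebraMap O' O'')),
      Function.Injective (algebraMap O' O'') ∧
      ∃ ρ : GaloisRepAdic O'',
        (∀ (ℓ : ℕ) (hℓ : ℓ.Prime) (hℓM : ¬ ℓ ∣ M) (hℓS : ℓ ∉ (↑S : Set ℕ)),
          ∀ A : ValuationSubring (AlgebraicClosure ℚ), A.LiesOverPrime ℓ →
            ∀ σ : AlgebraicClosure ℚ ≃ₐ[ℚ] AlgebraicClosure ℚ, A.IsFrobeniusAt σ ℓ →
              LinearMap.charpoly (ρ.ρ σ) =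
                X ^ 2 - C (algebraMap O' O'' ((iota.comp chig.rangeRestrict) (CuspForm.heckeAlgebra.T hℓ hℓM hℓS))) * X
                  + C ((ℓ : O''))) ∧
        (∀ q : ℕ, q.Prime → q ≠ lam → M.factorization q = 2 → ¬ ρ.IsUnipotentOnInertiaAt q)

/-- Row R1 (FIX), as a proposition. -/
def h82_FixStmt : Prop :=
  ∀ (W : WeierstrassCurve ℤ) (_ : W.Δ ≠ 0) {p q : ℕ} (_ : p.Prime) (_ : p ≠ 2) (_ : q.Prime)
    (_ : q ≠ p) (_ : (q : ℤ) ∣ W.Δ → ¬ (q : ℤ) ∣ W.c₄) (A : ValuationSubring Qb)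
    (_ : A.LiesOverPrime q) (k : ℕ),
    ∃ P : ((W.map (Int.castRingHom ℚ)).toAffine⁄Qb).Point,
      p ^ (k + 1) • P = 0 ∧ p ^ k • P ≠ 0 ∧ ∀ τ ∈ A.inertiaSubgroupIn ℚ, τ • P = P

/-- Row R3 (HRES), as a proposition. -/
def h82_HresStmt : Prop :=
  ∀ (W : WeierstrassCurve ℤ) (_ : W.Δ ≠ 0) (p : ℕ) [Fact p.Prime] (_ : p ≠ 2)
    (_ : W.ModRepIsIrreducible p)
    {O : Type} [CommRing O] [IsLocalRing O] (_ : (p : O) ∈ IsLocalRing.maximalIdeal O)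
    (ρ : GaloisRepAdic O) (S : Finset ℕ)
    (_ : ∀ ℓ : ℕ, ℓ.Prime → ℓ ∉ S → ∀ A : ValuationSubring Qb, A.LiesOverPrime ℓ →
      ∀ τ : Qb ≃ₐ[ℚ] Qb, A.IsFrobeniusAt τ ℓ →
        LinearMap.charpoly (ρ.ρ τ) = X ^ 2 - C ((W.apOfModel ℓ : ℤ) : O) * X + C ((ℓ : ℕ) : O)),
    ρ.residual.IsAbsolutelyIrreducible ∧ ρ.residual.IsOdd

/-- Row R6 (coefficients at the good primes), as a proposition. -/
def h82_CoeffStmt : Prop :=
  ∀ {M : ℕ} [NeZero M] {g : CuspForm (Gamma0 M) 2} (_ : g.IsNormalizedEigenform)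
    (W : WeierstrassCurve ℤ) (_ : W.Δ ≠ 0)
    (S : Finset ℕ) (_ : ∀ ℓ : ℕ, ℓ.Prime → ℓ ∉ S → qCoeff g ℓ = (W.apOfModel ℓ : ℂ))
    (ℓ : ℕ) (_ : ℓ.Prime) (_ : ¬ ℓ ∣ M) (p : ℕ) (_ : p.Prime) (_ : p ≠ 2) (_ : p ≠ ℓ)
    (_ : ∀ (k : ℕ) (A : ValuationSubring Qb), A.LiesOverPrime ℓ → ∀ σ : Qb ≃ₐ[ℚ] Qb,
      A.IsFrobeniusAt σ ℓ →
      ∀ P : Submodule.torsionBy ℤ ((W.map (Int.castRingHom ℚ)).toAffine⁄Qb).Point
          ((p ^ (k + 1) : ℕ) : ℤ),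
        σ • σ • P - W.apOfModel ℓ • σ • P + (ℓ : ℤ) • P = 0),
    qCoeff g ℓ = (W.apOfModel ℓ : ℂ)

section Pieces

variable (W : WeierstrassCurve ℤ) (hΔ : W.Δ ≠ 0)
  {M : ℕ} [NeZero M] {g : CuspForm (Gamma0 M) 2} (hg : g.IsNewform)
  (S₀ : Finset ℕ) (hMS₀ : ∀ q : ℕ, q.Prime → q ∣ M → q ∈ S₀)
  (hgW : ∀ ℓ : ℕ, ℓ.Prime → ℓ ∉ S₀ → qCoeff g ℓ = (W.apOfModel ℓ : ℂ))
include hΔ hg hMS₀ hgW

/-- **(A1).** No prime `q ≠ p` divides the minimal level exactly twice. -/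
theorem h82_A1 (hS36 : h82_S36Stmt) (hfix : h82_FixStmt) (hres : h82_HresStmt)
    (hss : W.IsSemistableModel) (p : ℕ) [Fact p.Prime] (hp2 : p ≠ 2)
    (hirr : W.ModRepIsIrreducible p) (q : ℕ) (hq : q.Prime) (hqp : q ≠ p) :
    M.factorization q ≠ 2 := by
  classical
  intro hfac
  have hp : p.Prime := Fact.out
  have hE := h82_isElliptic W hΔ
  have hWE := h82_isIntegralModelOf W
  set S : Finset ℕ := insert p S₀ with hS
  have hpS : p ∈ S := Finset.mem_insert_self p S₀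
  have hMS : ∀ q : ℕ, q.Prime → q ∣ M → q ∈ S := fun q hq hqM =>
    Finset.mem_insert_of_mem (hMS₀ q hq hqM)
  have ha : ∀ ℓ : ℕ, ℓ.Prime → ℓ ∉ S → qCoeff g ℓ = ((W.apOfModel ℓ : ℤ) : ℂ) :=
    fun ℓ hℓ hℓS => hgW ℓ hℓ (fun h => hℓS (Finset.mem_insert_of_mem h))
  obtain ⟨chig, iota, hchig, hiota⟩ :=
    h42_eigchar_int hg.1 S hMS (fun ℓ => W.apOfModel ℓ) ha ℤ_[p]
  have hpO' : (p : ℤ_[p]) ∈ IsLocalRing.maximalIdeal ℤ_[p] := by
    rw [PadicInt.maximalIdeal_eq_span_p]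
    exact Ideal.subset_span rfl
  have hnorm : ∀ (O'' : Type) [CommRing O''] [IsDomain O''] [IsDiscreteValuationRing O'']
      [Algebra ℤ_[p] O''] (ρ : GaloisRepAdic O''),
      (∀ (ℓ : ℕ) (hℓ : ℓ.Prime) (_ : ℓ ≠ p) (hℓM : ¬ ℓ ∣ M) (hℓS : ℓ ∉ (↑S : Set ℕ)),
        ∀ A : ValuationSubring Qb, A.LiesOverPrime ℓ →
          ∀ σ : Qb ≃ₐ[ℚ] Qb, A.IsFrobeniusAt σ ℓ →
            LinearMap.charpoly (ρ.ρ σ) =
              X ^ 2 - C (algebraMap ℤ_[p] O'' ((iota.comp chig.rangeRestrict)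
                (CuspForm.heckeAlgebra.T hℓ hℓM hℓS))) * X + C ((ℓ : O''))) →
      ∀ ℓ : ℕ, ℓ.Prime → ℓ ∉ S → ∀ A : ValuationSubring Qb, A.LiesOverPrime ℓ →
        ∀ τ : Qb ≃ₐ[ℚ] Qb, A.IsFrobeniusAt τ ℓ →
          LinearMap.charpoly (ρ.ρ τ) =
            X ^ 2 - C ((W.apOfModel ℓ : ℤ) : O'') * X + C ((ℓ : ℕ) : O'') := by
    intro O'' _ _ _ _ ρ h ℓ hℓ hℓS A hA τ hτ
    have hℓp : ℓ ≠ p := fun e => hℓS (e ▸ hpS)
    have hℓM : ¬ ℓ ∣ M := fun hd => hℓS (hMS ℓ hℓ hd)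
    have hℓS' : ℓ ∉ (↑S : Set ℕ) := fun h => hℓS (Finset.mem_coe.mp h)
    rw [h ℓ hℓ hℓp hℓM hℓS' A hA τ hτ, hiota ℓ hℓ hℓM hℓS', map_intCast]
  have hpO'' : ∀ (O'' : Type) [CommRing O''] [IsDomain O''] [IsDiscreteValuationRing O'']
      [Algebra ℤ_[p] O''] [IsLocalHom (algebraMap ℤ_[p] O'')],
      (p : O'') ∈ IsLocalRing.maximalIdeal O'' := by
    intro O'' _ _ _ _ _
    have := map_nonunit (algebraMap ℤ_[p] O'') (p : ℤ_[p]) hpO'
    rwa [map_natCast] at this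
  obtain ⟨O'', i1, i2, i3, i4, i5, i6, i7, i8, i9, hinj, ρ, hfrob, hnot⟩ :=
    hS36 hg p S ℤ_[p] hpO' hp2 chig hchig iota hpS hMS
      (fun O'' _ _ _ _ _ _ _ _ _ _ ρ h =>
        hres W hΔ p hp2 hirr (hpO'' O'') ρ S (hnorm O'' ρ h))
  apply hnot q hq hqp hfac
  intro P hP σ hσ
  have hρ := hnorm O'' ρ (fun ℓ hℓ _ hℓM hℓS A hA σ hσ => hfrob ℓ hℓ hℓM hℓS A hA σ hσ)
  refine h82_match_fix (W.map (Int.castRingHom ℚ)) hWE hΔ ρ S hρ p hp hp2 (hpO'' O'') σ ?_ ?_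
  · intro k
    obtain ⟨Pt, h1, h2, h3⟩ := hfix W hΔ hp hp2 hq hqp (hss q hq) P hP k
    exact ⟨Pt, h1, h2, h3 σ hσ⟩
  · intro k ζ hζ
    have hqm : ¬ q ∣ p ^ (k + 1) := fun h =>
      hqp ((Nat.prime_dvd_prime_iff_eq hq hp).mp (hq.dvd_of_dvd_pow h))
    exact Fermat.Agent.GAL.h65_inertia_root P hq hP hσ hqm hζ

/-- **(A2).** A prime dividing the minimal level exactly once is a bad prime of `W`. -/
theorem h82_A2 (q : ℕ) (hq : q.Prime) (hqM : q ∣ M) (hq2 : ¬ q ^ 2 ∣ M) :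
    ¬ W.IsGoodPrimeFor q := by
  classical
  intro hgood
  have hE := h82_isElliptic W hΔ
  have hWE := h82_isIntegralModelOf W
  obtain ⟨lam, hlam, hlam2, hlamq⟩ : ∃ lam : ℕ, lam.Prime ∧ lam ≠ 2 ∧ lam ≠ q := by
    by_cases h : q = 3
    · exact ⟨5, by norm_num, by norm_num, by omega⟩
    · exact ⟨3, by norm_num, by norm_num, fun h' => h h'.symm⟩
  have : Fact lam.Prime := ⟨hlam⟩
  have : Fact q.Prime := ⟨hq⟩
  set S : Finset ℕ := insert lam S₀ with hS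
  have hlamS : lam ∈ S := Finset.mem_insert_self lam S₀
  have hMS : ∀ q : ℕ, q.Prime → q ∣ M → q ∈ S := fun q hq hqM =>
    Finset.mem_insert_of_mem (hMS₀ q hq hqM)
  have ha : ∀ ℓ : ℕ, ℓ.Prime → ℓ ∉ S → qCoeff g ℓ = ((W.apOfModel ℓ : ℤ) : ℂ) :=
    fun ℓ hℓ hℓS => hgW ℓ hℓ (fun h => hℓS (Finset.mem_insert_of_mem h))
  obtain ⟨chig, iota, hchig, hiota⟩ :=
    h42_eigchar_int hg.1 S hMS (fun ℓ => W.apOfModel ℓ) ha ℤ_[lam]
  have hlamO' : (lam : ℤ_[lam]) ∈ IsLocalRing.maximalIdeal ℤ_[lam] := by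
    rw [PadicInt.maximalIdeal_eq_span_p]
    exact Ideal.subset_span rfl
  obtain ⟨O'', i1, i2, i3, i4, i5, i6, i7, i8, i9, hinj, ρ, hfrob, hqc⟩ :=
    Fermat.Agent.S35.result hg lam S ℤ_[lam] hlamO' chig hchig iota hlamS hMS
  have hlamO'' : (lam : O'') ∈ IsLocalRing.maximalIdeal O'' := by
    have := map_nonunit (algebraMap ℤ_[lam] O'') (lam : ℤ_[lam]) hlamO'
    rwa [map_natCast] at this
  have hρ : ∀ ℓ : ℕ, ℓ.Prime → ℓ ∉ S → ∀ A : ValuationSubring Qb, A.LiesOverPrime ℓ →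
      ∀ τ : Qb ≃ₐ[ℚ] Qb, A.IsFrobeniusAt τ ℓ →
        LinearMap.charpoly (ρ.ρ τ) =
          X ^ 2 - C ((W.apOfModel ℓ : ℤ) : O'') * X + C ((ℓ : ℕ) : O'') := by
    intro ℓ hℓ hℓS A hA τ hτ
    have hℓM : ¬ ℓ ∣ M := fun hd => hℓS (hMS ℓ hℓ hd)
    have hℓS' : ℓ ∉ (↑S : Set ℕ) := fun h => hℓS (Finset.mem_coe.mp h)
    rw [hfrob ℓ hℓ hℓM hℓS' A hA τ hτ, hiota ℓ hℓ hℓM hℓS', map_intCast]
  obtain ⟨A, σ, hA, hσ⟩ := Fermat.Agent.S54.exists_isFrobeniusAt q hq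
  have hqlam : ∀ k : ℕ, ¬ q ∣ lam ^ (k + 1) := fun k h =>
    hlamq ((Nat.prime_dvd_prime_iff_eq hq hlam).mp (hq.dvd_of_dvd_pow h)).symm
  have hcp := h82_match (W.map (Int.castRingHom ℚ)) hWE hΔ ρ S hρ lam hlam hlam2 hlamO'' σ
    (W.apOfModel q) q
    (fun k P => h82_frob_rel_torsion (W.map (Int.castRingHom ℚ)) hWE q hgood A hA σ hσ
      (lam ^ (k + 1)) (hqlam k) P)
    (fun k ζ hζ => Fermat.Agent.GAL.h65_frob_root A hq hA hσ (hqlam k) hζ)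
  have htr := (h82_trace_det_of_charpoly ρ.finrank_eq (ρ.ρ σ) _ _ hcp).1
  have hne := h58_ap_ne W q
  rcases hqc q hq hlamq.symm hqM hq2 A hA σ hσ with h | h
  · have htr' := (h82_trace_det_of_charpoly ρ.finrank_eq (ρ.ρ σ) _ _ h).1
    rw [htr] at htr'
    have e : ((W.apOfModel q : ℤ) : O'') = (((q : ℤ) + 1 : ℤ) : O'') := by
      rw [htr']; push_cast; ring
    exact hne.1 (Int.cast_injective e)
  · have h' : LinearMap.charpoly (ρ.ρ σ) =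
        X ^ 2 - C (-((q : O'') + 1)) * X + C ((q : O'')) := by
      rw [h, map_neg]; ring
    have htr' := (h82_trace_det_of_charpoly ρ.finrank_eq (ρ.ρ σ) _ _ h').1
    rw [htr] at htr'
    have e : ((W.apOfModel q : ℤ) : O'') = ((-((q : ℤ) + 1) : ℤ) : O'') := by
      rw [htr']; push_cast; ring
    exact hne.2 (Int.cast_injective e)

end Pieces

/-- **S58 from S36 and the rows R1, R3, R6.** -/
theorem h82_S58_core (hS36 : h82_S36Stmt) (hfix : h82_FixStmt) (hres : h82_HresStmt)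
    (hcoeff : h82_CoeffStmt)
    (W : WeierstrassCurve ℤ) (hss : W.IsSemistableModel) (N : ℕ)
    (p : ℕ) [Fact p.Prime] (hp2 : p ≠ 2) (hirr : W.ModRepIsIrreducible p)
    (hp2N : ¬ p ^ 2 ∣ N)
    (hN : W.IsModularModelOfLevel N) (hbad : ∀ ℓ : ℕ, ℓ.Prime → (ℓ : ℤ) ∣ W.Δ → ℓ ∣ N)
    (hN3 : ∀ q : ℕ, q.Prime → ¬ q ^ 3 ∣ N) :
    W.IsModularModelOfLevel W.conductorLevel := by
  classical
  have hN0 : N ≠ 0 := by
    rintro rfl
    exact hN3 2 Nat.prime_two (dvd_zero _)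
  have hΔ : W.Δ ≠ 0 := by
    intro h0
    obtain ⟨ℓ, hℓN, hℓ⟩ := Nat.exists_infinite_primes (N + 1)
    have h1 : ℓ ∣ N := hbad ℓ hℓ (by rw [h0]; exact dvd_zero _)
    have h2 := Nat.le_of_dvd (Nat.pos_of_ne_zero hN0) h1
    omega
  have hWE := h82_isIntegralModelOf W
  obtain ⟨f, hf, hfW⟩ := hN
  obtain ⟨M, hMN, g, hg, hgf⟩ := h42_exists_newform hN0 f hf
  have hM0 : M ≠ 0 := fun h => hN0 (by rw [h] at hMN; exact zero_dvd_iff.mp hMN)
  have : NeZero M := ⟨hM0⟩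
  have hMS₀ : ∀ q : ℕ, q.Prime → q ∣ M → q ∈ N.primeFactors := fun q hq hqM =>
    Nat.mem_primeFactors.mpr ⟨hq, dvd_trans hqM hMN, hN0⟩
  have hgW : ∀ ℓ : ℕ, ℓ.Prime → ℓ ∉ N.primeFactors → qCoeff g ℓ = (W.apOfModel ℓ : ℂ) := by
    intro ℓ hℓ hℓS
    have hℓN : ¬ ℓ ∣ N := fun h => hℓS (Nat.mem_primeFactors.mpr ⟨hℓ, h, hN0⟩)
    rw [hgf ℓ hℓ hℓN]
    exact hfW ℓ hℓ (fun h => hℓN (hbad ℓ hℓ h)) hℓN
  -- the primes of `M`
  have hprimes : ∀ q : ℕ, q.Prime → q ∣ M → ¬ q ^ 2 ∣ M ∧ (q : ℤ) ∣ W.Δ := by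
    intro q hq hqM
    have h2 : ¬ q ^ 2 ∣ M := by
      intro h2
      have h3 : ¬ q ^ 3 ∣ M := fun h => hN3 q hq (dvd_trans h hMN)
      have hfac : M.factorization q = 2 := by
        have ha := (hq.pow_dvd_iff_le_factorization hM0).mp h2
        have hb : ¬ 3 ≤ M.factorization q := fun h => h3 ((hq.pow_dvd_iff_le_factorization hM0).mpr h)
        omega
      have hqp : q ≠ p := by
        rintro rfl
        exact hp2N (dvd_trans h2 hMN)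
      exact h82_A1 W hΔ hg N.primeFactors hMS₀ hgW hS36 hfix hres hss p hp2 hirr q hq hqp hfac
    refine ⟨h2, ?_⟩
    by_contra hgood
    exact h82_A2 W hΔ hg N.primeFactors hMS₀ hgW q hq hqM h2 hgood
  have hMsq : Squarefree M := by
    rw [Nat.squarefree_iff_prime_squarefree]
    intro q hq hqq
    have hqM : q ∣ M := dvd_trans (dvd_mul_right q q) hqq
    exact (hprimes q hq hqM).1 (by rw [pow_two]; exact hqq)
  have hMC : M ∣ W.conductorLevel := by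
    rw [← Nat.prod_primeFactors_of_squarefree hMsq]
    apply Finset.prod_primes_dvd
    · intro q hq
      exact (Nat.prime_of_mem_primeFactors hq).prime
    · intro q hq
      have hqp := Nat.prime_of_mem_primeFactors hq
      exact (W.prime_dvd_conductorLevel_iff hΔ hqp).mpr
        (hprimes q hqp (Nat.dvd_of_mem_primeFactors hq)).2
  -- the coefficients at all good primes
  have hgood : ∀ ℓ : ℕ, ℓ.Prime → W.IsGoodPrimeFor ℓ → qCoeff g ℓ = (W.apOfModel ℓ : ℂ) := by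
    intro ℓ hℓ hℓgood
    have hℓM : ¬ ℓ ∣ M := fun h => hℓgood (hprimes ℓ hℓ h).2
    obtain ⟨p', hp', hp'2, hp'ℓ⟩ : ∃ p' : ℕ, p'.Prime ∧ p' ≠ 2 ∧ p' ≠ ℓ := by
      by_cases h : ℓ = 3
      · exact ⟨5, by norm_num, by norm_num, by omega⟩
      · exact ⟨3, by norm_num, by norm_num, fun h' => h h'.symm⟩
    have : Fact ℓ.Prime := ⟨hℓ⟩
    have hℓp' : ∀ k : ℕ, ¬ ℓ ∣ p' ^ (k + 1) := fun k h =>
      hp'ℓ ((Nat.prime_dvd_prime_iff_eq hℓ hp').mp (hℓ.dvd_of_dvd_pow h)).symm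
    exact hcoeff hg.1 W hΔ N.primeFactors hgW ℓ hℓ hℓM p' hp' hp'2 hp'ℓ
      (fun k A hA σ hσ P => h82_frob_rel_torsion (W.map (Int.castRingHom ℚ)) hWE ℓ hℓgood A hA σ hσ
        (p' ^ (k + 1)) (hℓp' k) P)
  exact h24_modular_conductorLevel W g hg.1 hMC hgood

end Fermat.Agent.S58
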