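import Mathlib
import Fermat.Agent.S58.h82_Top
import Fermat.Agent.S58.h45_UnFix
import Fermat.Agent.S58.h26_Un2

/-!
# S58: row R1 plugged in

`h82_fix`: row R1 (FIX) in the shape `h82_FixStmt`, from `h45_un_fix_of_two` (helper45: good
primes and odd bad primes) and `h26_un2_fix` (helper26: the bad prime `2`).
-/

set_option autoImplicit false

namespace Fermat.Agent.S58

open Polynomial CuspForm WeierstrassCurve WeierstrassCurve.Affine ModularFormClass
  CongruenceSubgroup

/-- Row R1 (FIX). -/
theorem h82_fix : h82_FixStmt := by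
  intro W hΔ p q hp hp2 hq hqp hss A hA k
  refine h45_un_fix_of_two W hΔ hp hp2 hq hqp hss A hA k (fun h2 h2Δ => ?_)
  subst h2
  exact h26_un2_fix W hΔ hp hp2 h2Δ (hss (by exact_mod_cast h2Δ)) A hA k

end Fermat.Agent.S58
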