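import Mathlib

/-!
# S58, row R3 (HRES): the linear algebra core of absolute irreducibility

`G` a group acting irreducibly on a plane `X` over a field `F` (`2 ≠ 0`).  Suppose every `g`
satisfies a quadratic relation `g² - D(g) g + e(g) = 0` on `X`, that `c ∈ G` is an involution
with `e(c g) = - e(g)`, `e(g) ≠ 0`, and that `χ : G → K` is a nowhere vanishing multiplicative
function into a field `K ⊇ F` with `χ(g)² - D(g) χ(g) + e(g) = 0` for every `g`.  Then we reach
a contradiction (`h82_absirr_core`).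

Proof.  `c` is not a scalar on `X` (otherwise the relations of `g` and `c g` make every `g` a
scalar).  In an eigenbasis of `c` write `g = [[a, b], [c', d]]`.  If `b ≠ 0` the relations of `g`
and `c g` give `D(g) = a + d`, `D(c g) = a - d`, `e(g) = a d - b c'`; the two quadratics for
`u = χ(g)` and `χ(c) u = ± u` give `u = a` or `u = d`, so `b c' = 0`.  Hence every `g` is upper
or lower triangular; a group is not the union of two proper subgroups; one of the two
eigenlines of `c` is stable.
-/

set_option autoImplicit false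

namespace Fermat.Agent.S58

section MatCore

variable {F K : Type*} [Field F] [Field K]

/-- The matrix computation: `b c' = 0`. -/
theorem h82_mat_bc (φ : F →+* K) (h2 : (2 : F) ≠ 0)
    (A A' : Matrix (Fin 2) (Fin 2) F) (hA0 : ∀ j, A' 0 j = A 0 j) (hA1 : ∀ j, A' 1 j = -A 1 j)
    (D e D' : F)
    (hrel : A * A - D • A + e • (1 : Matrix (Fin 2) (Fin 2) F) = 0)
    (hrel' : A' * A' - D' • A' - e • (1 : Matrix (Fin 2) (Fin 2) F) = 0)
    (u ε : K) (hε : ε * ε = 1) (hu0 : u ≠ 0)
    (hu : u * u - φ D * u + φ e = 0)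
    (hu' : (ε * u) * (ε * u) - φ D' * (ε * u) - φ e = 0) :
    A 0 1 = 0 ∨ A 1 0 = 0 := by
  by_contra hcon
  push Not at hcon
  obtain ⟨hb, hc⟩ := hcon
  have h01 := congrFun (congrFun hrel 0) 1
  have h00 := congrFun (congrFun hrel 0) 0
  have h01' := congrFun (congrFun hrel' 0) 1
  simp only [Matrix.add_apply, Matrix.sub_apply, Matrix.mul_apply, Fin.sum_univ_two,
    Matrix.smul_apply, Matrix.one_apply_eq, Matrix.zero_apply, smul_eq_mul, mul_one, hA0, hA1,
    Matrix.one_apply_ne (show (0 : Fin 2) ≠ 1 by decide), mul_zero, add_zero, sub_zero]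
    at h01 h00 h01'
  have hD : D = A 0 0 + A 1 1 := by
    have : A 0 1 * (A 0 0 + A 1 1 - D) = 0 := by linear_combination h01
    rcases mul_eq_zero.mp this with h | h
    · exact absurd h hb
    · linear_combination -h
  have hD' : D' = A 0 0 - A 1 1 := by
    have : A 0 1 * (A 0 0 - A 1 1 - D') = 0 := by linear_combination h01'
    rcases mul_eq_zero.mp this with h | h
    · exact absurd h hb
    · linear_combination -h
  have he : e = A 0 0 * A 1 1 - A 0 1 * A 1 0 := by
    rw [hD] at h00
    linear_combination h00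
  have h2K : (2 : K) ≠ 0 := by
    intro h
    apply h2
    apply φ.injective
    rw [map_ofNat, map_zero]
    exact h
  rw [hD, he, map_add, map_sub, map_mul, map_mul] at hu
  rw [hD', he, map_sub, map_sub, map_mul, map_mul] at hu'
  have hbc : φ (A 0 1) * φ (A 1 0) ≠ 0 := by
    rw [← map_mul]
    intro h
    rcases mul_eq_zero.mp ((map_eq_zero φ).mp h) with h | h
    · exact hb h
    · exact hc h
  have hε' : (ε - 1) * (ε + 1) = 0 := by linear_combination hε
  rcases mul_eq_zero.mp hε' with h | h
  · have h1 : ε = 1 := by linear_combination h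
    rw [h1, one_mul] at hu'
    have h3 : 2 * u * (u - φ (A 0 0)) = 0 := by linear_combination hu + hu'
    have h4 : u = φ (A 0 0) := by
      rcases mul_eq_zero.mp h3 with h | h
      · rcases mul_eq_zero.mp h with h | h
        · exact absurd h h2K
        · exact absurd h hu0
      · linear_combination h
    apply hbc
    rw [h4] at hu
    linear_combination -hu
  · have h1 : ε = -1 := by linear_combination h
    rw [h1] at hu'
    have h3 : 2 * u * (u - φ (A 1 1)) = 0 := by linear_combination hu + hu'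
    have h4 : u = φ (A 1 1) := by
      rcases mul_eq_zero.mp h3 with h | h
      · rcases mul_eq_zero.mp h with h | h
        · exact absurd h h2K
        · exact absurd h hu0
      · linear_combination h
    apply hbc
    rw [h4] at hu
    linear_combination -hu

/-- A group of `2 × 2` matrices each of which is upper or lower triangular is upper triangular
or lower triangular. -/
theorem h82_tri_union {G : Type*} [Group G] (M : G →* Matrix (Fin 2) (Fin 2) F)
    (h : ∀ g, M g 0 1 = 0 ∨ M g 1 0 = 0) :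
    (∀ g, M g 0 1 = 0) ∨ (∀ g, M g 1 0 = 0) := by
  by_contra hcon
  push Not at hcon
  obtain ⟨⟨g₁, h₁⟩, ⟨g₂, h₂⟩⟩ := hcon
  have h₁' : M g₁ 1 0 = 0 := (h g₁).resolve_left h₁
  have h₂' : M g₂ 0 1 = 0 := (h g₂).resolve_right h₂
  have hd₁ : M g₁ 1 1 ≠ 0 := by
    intro h0
    have e : M g₁ * M g₁⁻¹ = 1 := by rw [← map_mul, mul_inv_cancel, map_one]
    have := congrFun (congrFun e 1) 1
    simp [Matrix.mul_apply, Fin.sum_univ_two, h₁', h0] at this
  have hd₂ : M g₂ 1 1 ≠ 0 := by
    intro h0
    have e : M g₂⁻¹ * M g₂ = 1 := by rw [← map_mul, inv_mul_cancel, map_one]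
    have := congrFun (congrFun e 1) 1
    simp [Matrix.mul_apply, Fin.sum_univ_two, h₂', h0] at this
  have hprod := h (g₁ * g₂)
  rw [map_mul] at hprod
  simp only [Matrix.mul_apply, Fin.sum_univ_two, h₁', h₂', mul_zero, zero_mul, zero_add,
    mul_eq_zero] at hprod
  rcases hprod with (h | h) | (h | h)
  · exact h₁ h
  · exact hd₂ h
  · exact hd₁ h
  · exact h₂ h

end MatCore

section ModCore

variable {F K : Type*} [Field F] [Field K] {G : Type*} [Group G]
  {X : Type*} [AddCommGroup X] [Module F X]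

/-- No vector of an irreducible plane spans a stable line. -/
theorem h82_no_stable_vector (hX : Module.finrank F X = 2) (rX : G →* Module.End F X)
    (hirr : ∀ U : Submodule F X, (∀ g, ∀ x ∈ U, rX g x ∈ U) → U = ⊥ ∨ U = ⊤)
    (v : X) (hv : v ≠ 0) (h : ∀ g, ∃ t : F, rX g v = t • v) : False := by
  have hst : ∀ g, ∀ w ∈ Submodule.span F {v}, rX g w ∈ Submodule.span F {v} := by
    intro g w hw
    obtain ⟨a, rfl⟩ := Submodule.mem_span_singleton.mp hw
    obtain ⟨t, ht⟩ := h g
    rw [map_smul, ht]
    exact Submodule.smul_mem _ _ (Submodule.smul_mem _ _ (Submodule.mem_span_singleton_self v))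
  rcases hirr _ hst with h | h
  · apply hv
    have : v ∈ Submodule.span F {v} := Submodule.mem_span_singleton_self v
    rw [h, Submodule.mem_bot] at this
    exact this
  · have h1 : Module.finrank F (Submodule.span F {v}) = 1 := finrank_span_singleton hv
    rw [h, finrank_top, hX] at h1
    norm_num at h1

/-- **(NS).** The involution is not a scalar. -/
theorem h82_not_scalar (h2 : (2 : F) ≠ 0) (hX : Module.finrank F X = 2)
    (rX : G →* Module.End F X)
    (hirr : ∀ U : Submodule F X, (∀ g, ∀ x ∈ U, rX g x ∈ U) → U = ⊥ ∨ U = ⊤)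
    (D e : G → F)
    (hrel : ∀ g x, rX g (rX g x) - D g • rX g x + e g • x = 0)
    (c : G) (hc : c * c = 1) (hec : ∀ g, e (c * g) = - e g) (he0 : ∀ g, e g ≠ 0) :
    ¬ ∃ s : F, ∀ x, rX c x = s • x := by
  rintro ⟨s, hs⟩
  have hnt : Nontrivial X := Module.nontrivial_of_finrank_pos (R := F) (by rw [hX]; norm_num)
  obtain ⟨x₀, hx₀⟩ := exists_ne (0 : X)
  have hs2 : s * s = 1 := by
    have h1 : rX c (rX c x₀) = x₀ := by
      rw [← Module.End.mul_apply, ← map_mul, hc, map_one, Module.End.one_apply]
    rw [hs, hs, smul_smul] at h1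
    have h3 : (s * s - 1) • x₀ = 0 := by rw [sub_smul, one_smul, h1, sub_self]
    rcases smul_eq_zero.mp h3 with h | h
    · linear_combination h
    · exact absurd h hx₀
  apply h82_no_stable_vector hX rX hirr x₀ hx₀
  intro g
  have hcg : ∀ x, rX (c * g) x = s • rX g x := by
    intro x
    rw [map_mul, Module.End.mul_apply, hs]
  have key : ∀ x, (s * D (c * g) - D g) • rX g x = -(2 * e g) • x := by
    intro x
    have h1 := hrel g x
    have h2' := hrel (c * g) x
    rw [hcg, hcg, map_smul, hec, smul_smul, smul_smul, hs2, one_smul] at h2'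
    linear_combination (norm := module) h1 - h2'
  have ht : s * D (c * g) - D g ≠ 0 := by
    intro h0
    have := key x₀
    rw [h0, zero_smul] at this
    rcases smul_eq_zero.mp this.symm with h | h
    · rcases mul_eq_zero.mp (neg_eq_zero.mp h) with h | h
      · exact h2 h
      · exact he0 g h
    · exact hx₀ h
  refine ⟨(s * D (c * g) - D g)⁻¹ * -(2 * e g), ?_⟩
  rw [mul_smul, ← key x₀, smul_smul, inv_mul_cancel₀ ht, one_smul]

/-- **The core.** -/
theorem h82_absirr_core (φ : F →+* K) (h2 : (2 : F) ≠ 0) (hX : Module.finrank F X = 2)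
    (rX : G →* Module.End F X)
    (hirr : ∀ U : Submodule F X, (∀ g, ∀ x ∈ U, rX g x ∈ U) → U = ⊥ ∨ U = ⊤)
    (D e : G → F)
    (hrel : ∀ g x, rX g (rX g x) - D g • rX g x + e g • x = 0)
    (c : G) (hc : c * c = 1) (hec : ∀ g, e (c * g) = - e g) (he0 : ∀ g, e g ≠ 0)
    (χ : G → K) (hχmul : ∀ g h, χ (g * h) = χ g * χ h) (hχ0 : ∀ g, χ g ≠ 0)
    (hχ : ∀ g, χ g * χ g - φ (D g) * χ g + φ (e g) = 0) : False := by
  have hns := h82_not_scalar h2 hX rX hirr D e hrel c hc hec he0
  have hcc : ∀ x, rX c (rX c x) = x := by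
    intro x
    rw [← Module.End.mul_apply, ← map_mul, hc, map_one, Module.End.one_apply]
  obtain ⟨x₁, hx₁⟩ : ∃ x, rX c x ≠ x := by
    by_contra hcon
    push Not at hcon
    exact hns ⟨1, fun x => by rw [hcon x, one_smul]⟩
  obtain ⟨x₂, hx₂⟩ : ∃ x, rX c x ≠ -x := by
    by_contra hcon
    push Not at hcon
    exact hns ⟨-1, fun x => by rw [hcon x, neg_one_smul]⟩
  have hvp : rX c (x₂ + rX c x₂) = x₂ + rX c x₂ := by rw [map_add, hcc, add_comm]
  have hvm : rX c (x₁ - rX c x₁) = -(x₁ - rX c x₁) := by rw [map_sub, hcc, neg_sub]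
  have hvp0 : x₂ + rX c x₂ ≠ 0 := fun h => hx₂ (by
    rw [eq_neg_iff_add_eq_zero, add_comm]; exact h)
  have hvm0 : x₁ - rX c x₁ ≠ 0 := fun h => hx₁ (sub_eq_zero.mp h).symm
  have hli : LinearIndependent F ![x₂ + rX c x₂, x₁ - rX c x₁] := by
    rw [LinearIndependent.pair_iff]
    intro α β hαβ
    have h1 := congrArg (rX c) hαβ
    rw [map_add, map_smul, map_smul, hvp, hvm, map_zero] at h1
    have h3 : (2 * α) • (x₂ + rX c x₂) = 0 := by
      linear_combination (norm := module) hαβ + h1
    have hα : α = 0 := by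
      rcases smul_eq_zero.mp h3 with h | h
      · exact (mul_eq_zero.mp h).resolve_left h2
      · exact absurd h hvp0
    rw [hα, zero_smul, zero_add] at hαβ
    exact ⟨hα, (smul_eq_zero.mp hαβ).resolve_right hvm0⟩
  let b : Module.Basis (Fin 2) F X :=
    basisOfLinearIndependentOfCardEqFinrank hli (by rw [hX]; rfl)
  have hb0 : b 0 = x₂ + rX c x₂ := by simp [b]
  have hb1 : b 1 = x₁ - rX c x₁ := by simp [b]
  have e0 : rX c (b 0) = b 0 := by rw [hb0]; exact hvp
  have e1 : rX c (b 1) = -(b 1) := by rw [hb1]; exact hvm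
  let T : Module.End F X ≃ₐ[F] Matrix (Fin 2) (Fin 2) F := LinearMap.toMatrixAlgEquiv b
  let M : G →* Matrix (Fin 2) (Fin 2) F := (MonoidHomClass.toMonoidHom T).comp rX
  have hM : ∀ g, M g = T (rX g) := fun g => rfl
  have hMc : M c = !![1, 0; 0, -1] := by
    ext i j
    rw [hM]
    show LinearMap.toMatrixAlgEquiv b (rX c) i j = _
    rw [LinearMap.toMatrixAlgEquiv_apply]
    fin_cases i <;> fin_cases j <;> simp [e0, e1]
  have hMrel : ∀ g, M g * M g - D g • M g + e g • (1 : Matrix (Fin 2) (Fin 2) F) = 0 := by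
    intro g
    have hE : rX g * rX g - D g • rX g + e g • (1 : Module.End F X) = 0 := by
      apply LinearMap.ext
      intro x
      simpa using hrel g x
    have := congrArg T hE
    rw [map_add, map_sub, map_mul, map_smul, map_smul, map_one, map_zero] at this
    exact this
  have hε : χ c * χ c = 1 := by
    have h1 : χ 1 * χ 1 = χ 1 := by rw [← hχmul, mul_one]
    have h11 : χ 1 = 1 := by
      have : χ 1 * (χ 1 - 1) = 0 := by linear_combination h1
      rcases mul_eq_zero.mp this with h | h
      · exact absurd h (hχ0 1)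
      · linear_combination h
    rw [← hχmul, hc, h11]
  have htri : ∀ g, M g 0 1 = 0 ∨ M g 1 0 = 0 := by
    intro g
    have hrel' := hMrel (c * g)
    rw [map_mul, hMc, hec] at hrel'
    have hu' := hχ (c * g)
    rw [hχmul, hec, map_neg] at hu'
    refine h82_mat_bc φ h2 (M g) (!![1, 0; 0, -1] * M g) ?_ ?_ (D g) (e g) (D (c * g))
      (hMrel g) ?_ (χ g) (χ c) hε (hχ0 g) (hχ g) ?_
    · intro j
      simp [Matrix.mul_apply, Fin.sum_univ_two]
    · intro j
      simp [Matrix.mul_apply, Fin.sum_univ_two]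
    · rw [← hrel']
      simp [sub_eq_add_neg]
    · rw [← hu']
      ring
  have hcol : ∀ g j, rX g (b j) = M g 0 j • b 0 + M g 1 j • b 1 := by
    intro g j
    have h1 := b.sum_repr (rX g (b j))
    rw [Fin.sum_univ_two] at h1
    rw [← h1]
    rw [show M g 0 j = b.repr (rX g (b j)) 0 from LinearMap.toMatrixAlgEquiv_apply b (rX g) 0 j,
      show M g 1 j = b.repr (rX g (b j)) 1 from LinearMap.toMatrixAlgEquiv_apply b (rX g) 1 j]
  rcases h82_tri_union M htri with h | h
  · exact h82_no_stable_vector hX rX hirr (b 1) (b.ne_zero 1)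
      (fun g => ⟨M g 1 1, by rw [hcol g 1, h g, zero_smul, zero_add]⟩)
  · exact h82_no_stable_vector hX rX hirr (b 0) (b.ne_zero 0)
      (fun g => ⟨M g 0 0, by rw [hcol g 0, h g, zero_smul, add_zero]⟩)

end ModCore

end Fermat.Agent.S58
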