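import Mathlib
import Fermat.Agent.S58.h58_ApBound

/-!
# S58, row (INV): an involution of `ℚ̄` inverts every root of unity

`h58_involution_root`: if `c ∈ Gal(ℚ̄/ℚ)` satisfies `c * c = 1`, `c ≠ 1`, then `c ζ * ζ = 1` for
every root of unity `ζ` ("`c` is a complex conjugation on roots of unity").

The proof is "Artin–Schreier lite" and uses no ordered fields.  Let `F` be the fixed field of
`c` and `i² = -1`.

1. `c i = -i`;
2. `x² + y²` is a square in `F` for `x, y ∈ F` (the norm of a square root of `x + i y`);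
3. `-1` is not a square in `F`, hence by 2. not a sum of squares in `F`;
4. `w := ζ * c ζ` is a square in `F` (the norm of a square root of `ζ`) and `w ^ n = 1`; if
   `w ≠ 1` then `-1 = w + w² + ⋯ + w^(n-1)` is a sum of squares in `F`: contradiction.

Also here: the alias `h58_ap_bound` of the trivial bound `|a_q(W)| ≤ q` (row R5).
-/

set_option autoImplicit false

namespace Fermat.Agent.S58

section Generic

variable {K : Type*} [Field K]

/-- "Square in the fixed field of `c`". -/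
def h58_FixSq (c : K →+* K) (a : K) : Prop := ∃ b : K, c b = b ∧ b * b = a

theorem h58_fixSq_zero (c : K →+* K) : h58_FixSq c 0 := ⟨0, map_zero c, by ring⟩

theorem h58_fixSq_pow (c : K →+* K) {a : K} (ha : h58_FixSq c a) (j : ℕ) :
    h58_FixSq c (a ^ j) := by
  obtain ⟨b, hb, hba⟩ := ha
  exact ⟨b ^ j, by rw [map_pow, hb], by rw [← hba, mul_pow]⟩

/-- The norm `v * c v` of a square root `v` of `a` is a square root of `a * c a` in the fixed
field. -/
theorem h58_fixSq_norm (hsq : ∀ a : K, ∃ b : K, b * b = a) (c : K →+* K)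
    (hcc : ∀ x, c (c x) = x) (a : K) : h58_FixSq c (a * c a) := by
  obtain ⟨v, hv⟩ := hsq a
  refine ⟨v * c v, by rw [map_mul, hcc]; ring, ?_⟩
  have h : c v * c v = c a := by rw [← map_mul, hv]
  linear_combination c a * hv + v * v * h

/-- Step 1: a nontrivial involution of a field with square roots, `2 ≠ 0`, maps `i` to `-i`. -/
theorem h58_conj_i (hsq : ∀ a : K, ∃ b : K, b * b = a) (h2 : (2 : K) ≠ 0)
    (c : K →+* K) (hcc : ∀ x, c (c x) = x) (hc1 : ∃ z, c z ≠ z) {i : K} (hi : i * i = -1) :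
    c i = -i := by
  have hsqci : c i * c i = -1 := by rw [← map_mul, hi, map_neg, map_one]
  have h' : (c i - i) * (c i + i) = 0 := by linear_combination hsqci - hi
  rcases mul_eq_zero.mp h' with h | h
  · exfalso
    have hcii : c i = i := sub_eq_zero.mp h
    obtain ⟨z, hz⟩ := hc1
    have hδ0 : z - c z ≠ 0 := sub_ne_zero.mpr (Ne.symm hz)
    have hcδ : c (z - c z) = -(z - c z) := by rw [map_sub, hcc]; ring
    obtain ⟨u, hu⟩ := hsq (z - c z)
    have hu0 : u ≠ 0 := by
      rintro rfl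
      exact hδ0 (by rw [← hu]; ring)
    have hcu2 : c u * c u = -(z - c z) := by rw [← map_mul, hu, hcδ]
    have h3 : (c u - i * u) * (c u + i * u) = 0 := by
      linear_combination hcu2 + hu - u * u * hi
    have hkey : (2 : K) * u = 0 := by
      rcases mul_eq_zero.mp h3 with h4 | h4
      · have h5 : c u = i * u := sub_eq_zero.mp h4
        have h6 := hcc u
        rw [h5, map_mul, hcii, h5] at h6
        linear_combination -h6 + u * hi
      · have h5 : c u = -(i * u) := eq_neg_of_add_eq_zero_left h4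
        have h6 := hcc u
        rw [h5, map_neg, map_mul, hcii, h5] at h6
        linear_combination -h6 + u * hi
    rcases mul_eq_zero.mp hkey with h7 | h7
    · exact h2 h7
    · exact hu0 h7
  · exact eq_neg_of_add_eq_zero_left h

/-- Step 2: sums of two squares of the fixed field are squares of the fixed field. -/
theorem h58_fixSq_add (hsq : ∀ a : K, ∃ b : K, b * b = a) (h2 : (2 : K) ≠ 0)
    (c : K →+* K) (hcc : ∀ x, c (c x) = x) (hc1 : ∃ z, c z ≠ z) {a b : K}
    (ha : h58_FixSq c a) (hb : h58_FixSq c b) : h58_FixSq c (a + b) := by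
  obtain ⟨i, hi⟩ := hsq (-1)
  have hci := h58_conj_i hsq h2 c hcc hc1 hi
  obtain ⟨x, hx, hxa⟩ := ha
  obtain ⟨y, hy, hyb⟩ := hb
  have h := h58_fixSq_norm hsq c hcc (x + i * y)
  have hrw : (x + i * y) * c (x + i * y) = a + b := by
    rw [map_add, map_mul, hx, hy, hci, ← hxa, ← hyb]
    linear_combination -y * y * hi
  rwa [hrw] at h

/-- Step 3: `-1` is not a square in the fixed field. -/
theorem h58_not_fixSq_neg_one (hsq : ∀ a : K, ∃ b : K, b * b = a) (h2 : (2 : K) ≠ 0)
    (c : K →+* K) (hcc : ∀ x, c (c x) = x) (hc1 : ∃ z, c z ≠ z) : ¬ h58_FixSq c (-1) := by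
  rintro ⟨i, hci, hi⟩
  have h := h58_conj_i hsq h2 c hcc hc1 hi
  rw [hci] at h
  have h0 : (2 : K) * i = 0 := by linear_combination h
  rcases mul_eq_zero.mp h0 with h3 | h3
  · exact h2 h3
  · rw [h3] at hi
    have : (1 : K) = 0 := by linear_combination hi
    exact one_ne_zero this

/-- Finite sums of squares of the fixed field are squares of the fixed field. -/
theorem h58_fixSq_sum (hsq : ∀ a : K, ∃ b : K, b * b = a) (h2 : (2 : K) ≠ 0)
    (c : K →+* K) (hcc : ∀ x, c (c x) = x) (hc1 : ∃ z, c z ≠ z) {ι : Type*} (s : Finset ι)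
    (f : ι → K) (hf : ∀ j ∈ s, h58_FixSq c (f j)) : h58_FixSq c (∑ j ∈ s, f j) := by
  classical
  induction s using Finset.induction_on with
  | empty => simpa using h58_fixSq_zero c
  | insert a s ha ih =>
    rw [Finset.sum_insert ha]
    exact h58_fixSq_add hsq h2 c hcc hc1 (hf a (Finset.mem_insert_self a s))
      (ih fun j hj => hf j (Finset.mem_insert_of_mem hj))

/-- **(INV), generic form**: a nontrivial involution `c` of a field in which every element is a
square and `2 ≠ 0` inverts every root of unity. -/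
theorem h58_involution_root_gen (hsq : ∀ a : K, ∃ b : K, b * b = a) (h2 : (2 : K) ≠ 0)
    (c : K →+* K) (hcc : ∀ x, c (c x) = x) (hc1 : ∃ z, c z ≠ z)
    (n : ℕ) (hn : n ≠ 0) (ζ : K) (hζ : ζ ^ n = 1) : c ζ * ζ = 1 := by
  have hw : h58_FixSq c (ζ * c ζ) := h58_fixSq_norm hsq c hcc ζ
  have hwn : (ζ * c ζ) ^ n = 1 := by rw [mul_pow, ← map_pow, hζ, map_one, mul_one]
  by_contra hne
  have hw1 : ζ * c ζ ≠ 1 := fun h => hne (by rw [mul_comm]; exact h)
  obtain ⟨m, rfl⟩ : ∃ m, n = m + 1 := Nat.exists_eq_succ_of_ne_zero hn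
  -- the geometric sum vanishes
  have hgeom : (∑ j ∈ Finset.range (m + 1), (ζ * c ζ) ^ j) * (ζ * c ζ - 1) = 0 := by
    rw [geom_sum_mul, hwn, sub_self]
  have hsum : ∑ j ∈ Finset.range (m + 1), (ζ * c ζ) ^ j = 0 := by
    rcases mul_eq_zero.mp hgeom with h | h
    · exact h
    · exact absurd (sub_eq_zero.mp h) hw1
  rw [Finset.sum_range_succ', pow_zero] at hsum
  have hneg : (-1 : K) = ∑ j ∈ Finset.range m, (ζ * c ζ) ^ (j + 1) := by
    linear_combination -hsum
  refine h58_not_fixSq_neg_one hsq h2 c hcc hc1 ?_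
  rw [hneg]
  exact h58_fixSq_sum hsq h2 c hcc hc1 _ _ fun j _ => h58_fixSq_pow c hw (j + 1)

end Generic

/-- **(INV)**: an element `c ≠ 1` of order two of `Gal(ℚ̄/ℚ)` inverts every root of unity. -/
theorem h58_involution_root (c : AlgebraicClosure ℚ ≃ₐ[ℚ] AlgebraicClosure ℚ) (hc : c * c = 1)
    (hc1 : c ≠ 1) (n : ℕ) (hn : n ≠ 0) (ζ : AlgebraicClosure ℚ) (hζ : ζ ^ n = 1) :
    c ζ * ζ = 1 := by
  have hsq : ∀ a : AlgebraicClosure ℚ, ∃ b : AlgebraicClosure ℚ, b * b = a := fun a => by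
    obtain ⟨b, hb⟩ := IsAlgClosed.exists_pow_nat_eq a (n := 2) (by norm_num)
    exact ⟨b, by rw [← hb]; ring⟩
  have hcc : ∀ x, (c : AlgebraicClosure ℚ →+* AlgebraicClosure ℚ)
      ((c : AlgebraicClosure ℚ →+* AlgebraicClosure ℚ) x) = x := fun x => by
    have h := congrArg (fun g : AlgebraicClosure ℚ ≃ₐ[ℚ] AlgebraicClosure ℚ => g x) hc
    simpa using h
  have hex : ∃ z, (c : AlgebraicClosure ℚ →+* AlgebraicClosure ℚ) z ≠ z := by
    by_contra hall
    have hall' : ∀ z, (c : AlgebraicClosure ℚ →+* AlgebraicClosure ℚ) z = z :=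
      fun z => by_contra fun h => hall ⟨z, h⟩
    exact hc1 (AlgEquiv.ext fun z => by simpa using hall' z)
  exact h58_involution_root_gen hsq two_ne_zero
    (c : AlgebraicClosure ℚ →+* AlgebraicClosure ℚ) hcc hex n hn ζ hζ

/-- In power form: `c ζ = ζ⁻¹`. -/
theorem h58_involution_root_inv (c : AlgebraicClosure ℚ ≃ₐ[ℚ] AlgebraicClosure ℚ)
    (hc : c * c = 1) (hc1 : c ≠ 1) (n : ℕ) (hn : n ≠ 0) (ζ : AlgebraicClosure ℚ)
    (hζ : ζ ^ n = 1) : c ζ = ζ⁻¹ :=
  eq_inv_of_mul_eq_one_left (h58_involution_root c hc hc1 n hn ζ hζ)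

/-- **R5**, in the two-sided shape: `-q ≤ a_q(W) ≤ q`. -/
theorem h58_ap_bound (W : WeierstrassCurve ℤ) (q : ℕ) [Fact q.Prime] :
    -(q : ℤ) ≤ W.apOfModel q ∧ W.apOfModel q ≤ (q : ℤ) :=
  abs_le.mp (h58_ap_abs_le W q)

end Fermat.Agent.S58
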