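import Mathlib
import Fermat.Agent.S58.h82_Match
import Fermat.Agent.S58.h58_Inv
import Fermat.Prelude.Def_GaloisRep_Adic

/-!
# S58, row R3 (HRES), first half: the residual package and oddness

For an adic representation `ρ` over a local ring `O` with `p ∈ 𝔪`, having the Frobenius
characteristic polynomials of the integral model `W` outside a finite set:

* `h82_res_package`: for every `σ` there are integers `D`, `e` such that
  `σ² - D σ + e = 0` on `E[p]`, the residual trace and determinant of `σ` are `D` and `e`,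
  and `σ` raises the `p`-th roots of unity to the power `e`;
* `h82_res_odd`: the residual representation is odd.
-/

set_option autoImplicit false

namespace Fermat.Agent.S58

open Polynomial WeierstrassCurve WeierstrassCurve.Affine

local notation "Qb" => AlgebraicClosure ℚ

/-- The residual trace is the residue of the trace. -/
theorem h82_residual_trace {O : Type} [CommRing O] [IsLocalRing O] (ρ : GaloisRepAdic O)
    (σ : Qb ≃ₐ[ℚ] Qb) :
    LinearMap.trace (IsLocalRing.ResidueField O) ρ.residual.V (ρ.residual.ρ σ) =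
      IsLocalRing.residue O (LinearMap.trace O ρ.V (ρ.ρ σ)) :=
  LinearMap.trace_baseChange (ρ.ρ σ) (IsLocalRing.ResidueField O)

/-- The residual determinant is the residue of the determinant. -/
theorem h82_residual_det {O : Type} [CommRing O] [IsLocalRing O] (ρ : GaloisRepAdic O)
    (σ : Qb ≃ₐ[ℚ] Qb) :
    LinearMap.det (ρ.residual.ρ σ) = IsLocalRing.residue O (LinearMap.det (ρ.ρ σ)) :=
  LinearMap.det_baseChange (ρ.ρ σ)

/-- Congruence modulo the maximal ideal, read in the residue field. -/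
theorem h82_residue_eq_of_sub_mem {O : Type} [CommRing O] [IsLocalRing O] {x y : O}
    (h : x - y ∈ IsLocalRing.maximalIdeal O ^ 1) :
    IsLocalRing.residue O x = IsLocalRing.residue O y := by
  rw [pow_one] at h
  rw [← sub_eq_zero, ← map_sub]
  exact (IsLocalRing.residue_eq_zero_iff _).mpr h

/-- **The residual package.** -/
theorem h82_res_package (W : WeierstrassCurve ℤ) (hΔ : W.Δ ≠ 0) (p : ℕ) (hp : p.Prime)
    (hp2 : p ≠ 2)
    {O : Type} [CommRing O] [IsLocalRing O]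
    (ρ : GaloisRepAdic O) (S : Finset ℕ)
    (hρ : ∀ ℓ : ℕ, ℓ.Prime → ℓ ∉ S → ∀ A : ValuationSubring Qb, A.LiesOverPrime ℓ →
      ∀ τ : Qb ≃ₐ[ℚ] Qb, A.IsFrobeniusAt τ ℓ →
        LinearMap.charpoly (ρ.ρ τ) = X ^ 2 - C ((W.apOfModel ℓ : ℤ) : O) * X + C ((ℓ : ℕ) : O))
    (σ : Qb ≃ₐ[ℚ] Qb) :
    ∃ (D : ℤ) (e : ℕ),
      (∀ P : Submodule.torsionBy ℤ ((W.map (Int.castRingHom ℚ)).toAffine⁄Qb).Point p,
        σ • σ • P - D • σ • P + (e : ℤ) • P = 0) ∧
      LinearMap.trace (IsLocalRing.ResidueField O) ρ.residual.V (ρ.residual.ρ σ) =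
        ((D : ℤ) : IsLocalRing.ResidueField O) ∧
      LinearMap.det (ρ.residual.ρ σ) = ((e : ℕ) : IsLocalRing.ResidueField O) ∧
      ∀ ζ : Qb, ζ ^ p = 1 → σ ζ = ζ ^ e := by
  have hE := h82_isElliptic W hΔ
  have hodd : p % 2 = 1 := by
    rcases hp.eq_two_or_odd with h | h
    · exact absurd h hp2
    · exact h
  have hp3 : 3 ≤ p := by
    have := hp.two_le
    omega
  obtain ⟨D, e, hrel, htr, hdet, hroot⟩ :=
    h82_transfer (W.map (Int.castRingHom ℚ)) (h82_isIntegralModelOf W) hΔ ρ S hρ p hodd hp3 1 p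
      hp.pos σ
  refine ⟨D, e, hrel, ?_, ?_, hroot⟩
  · rw [h82_residual_trace, h82_residue_eq_of_sub_mem htr, map_intCast]
  · rw [h82_residual_det, h82_residue_eq_of_sub_mem hdet, map_natCast]

/-- The exponent of the package is prime to `p`, and it is `-1` modulo `p` for an involution. -/
theorem h82_exp_involution (p : ℕ) (hp : p.Prime) (c : Qb ≃ₐ[ℚ] Qb) (hc : c * c = 1)
    (hc1 : c ≠ 1) (e : ℕ) (he : ∀ ζ : Qb, ζ ^ p = 1 → c ζ = ζ ^ e) : (p : ℤ) ∣ (e : ℤ) + 1 := by
  obtain ⟨ζ, hζ⟩ := h82_exists_primitive_root p hp.pos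
  have h1 := h58_involution_root c hc hc1 p hp.ne_zero ζ hζ.pow_eq_one
  rw [he ζ hζ.pow_eq_one, ← pow_succ] at h1
  obtain ⟨u, hu⟩ := (hζ.pow_eq_one_iff_dvd _).mp h1
  exact ⟨u, by exact_mod_cast hu⟩

/-- **(ODD).** The residual representation is odd. -/
theorem h82_res_odd (W : WeierstrassCurve ℤ) (hΔ : W.Δ ≠ 0) (p : ℕ) (hp : p.Prime)
    (hp2 : p ≠ 2)
    {O : Type} [CommRing O] [IsLocalRing O] (hpO : (p : O) ∈ IsLocalRing.maximalIdeal O)
    (ρ : GaloisRepAdic O) (S : Finset ℕ)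
    (hρ : ∀ ℓ : ℕ, ℓ.Prime → ℓ ∉ S → ∀ A : ValuationSubring Qb, A.LiesOverPrime ℓ →
      ∀ τ : Qb ≃ₐ[ℚ] Qb, A.IsFrobeniusAt τ ℓ →
        LinearMap.charpoly (ρ.ρ τ) = X ^ 2 - C ((W.apOfModel ℓ : ℤ) : O) * X + C ((ℓ : ℕ) : O)) :
    ρ.residual.IsOdd := by
  intro c hc hc1
  obtain ⟨D, e, -, -, hdet, hroot⟩ := h82_res_package W hΔ p hp hp2 ρ S hρ c
  obtain ⟨u, hu⟩ := h82_exp_involution p hp c hc hc1 e hroot
  have hpk : ((p : ℕ) : IsLocalRing.ResidueField O) = 0 := by
    have := (IsLocalRing.residue_eq_zero_iff (p : O)).mpr hpO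
    rwa [map_natCast] at this
  have h2 : ((e : ℕ) : IsLocalRing.ResidueField O) + 1 = 0 := by
    have := congrArg (fun z : ℤ => (z : IsLocalRing.ResidueField O)) hu
    simp only [Int.cast_add, Int.cast_natCast, Int.cast_one, Int.cast_mul] at this
    rw [this, hpk, zero_mul]
  rw [hdet]
  exact eq_neg_of_add_eq_zero_left h2

end Fermat.Agent.S58
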