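import Mathlib
import Fermat.Agent.S58.h82_ResOdd
import Fermat.Agent.S58.h82_AbsIrrCore
import Fermat.Agent.GAL.h47_ComplexConj
import Fermat.Prelude.Def_FLTPrelim_ModularRep
import Fermat.Prelude.Def_GaloisRep_ComplexConjugation
import Fermat.Prelude.Def_EllipticCurve_FrobeniusTrace

/-!
# S58, row R3 (HRES), second half: residual absolute irreducibility

`h82_res_absirr`: for an adic representation `ρ` over a local ring `O` with `p ∈ 𝔪` (`p` odd)
having the Frobenius characteristic polynomials of the integral model `W` outside a finite set,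
the residual representation is absolutely irreducible as soon as `W[p]` is irreducible.

`h82_hres`: row R3 (residual absolute irreducibility and oddness).

The proof applies the linear algebra core `h82_absirr_core` to `X = W[p]` over `ZMod p`, the
integers `D(σ)`, `e(σ)` of the residual package `h82_res_package`, complex conjugation, and the
eigenvalue character `χ` of a hypothetical stable line of `K ⊗ ρ.residual.V`.
-/

set_option autoImplicit false

namespace Fermat.Agent.S58

open Polynomial WeierstrassCurve WeierstrassCurve.Affine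

open scoped TensorProduct

local notation "Qb" => AlgebraicClosure ℚ

/-- Complex conjugation is not the identity. -/
theorem h82_complexConjugation_ne_one : complexConjugation ≠ 1 := by
  intro h
  obtain ⟨ζ, hζ⟩ := h82_exists_primitive_root 3 (by norm_num)
  have h1 := Fermat.Agent.GAL.h47_complexConjugation_root_mul ζ 3 (by norm_num) hζ.pow_eq_one
  rw [h, AlgEquiv.one_apply, ← pow_two] at h1
  have := (hζ.pow_eq_one_iff_dvd 2).mp h1
  omega

/-- The exponent of `c g` for an involution `c`. -/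
theorem h82_exp_conj (p : ℕ) (hp : p.Prime) (c g : Qb ≃ₐ[ℚ] Qb) (hc : c * c = 1) (hc1 : c ≠ 1)
    (e e' : ℕ) (he : ∀ ζ : Qb, ζ ^ p = 1 → g ζ = ζ ^ e)
    (he' : ∀ ζ : Qb, ζ ^ p = 1 → (c * g) ζ = ζ ^ e') : p ∣ e' + e := by
  obtain ⟨ζ, hζ⟩ := h82_exists_primitive_root p hp.pos
  have h1 : (ζ ^ e) ^ p = 1 := by rw [← pow_mul, mul_comm, pow_mul, hζ.pow_eq_one, one_pow]
  have h2 := h58_involution_root c hc hc1 p hp.ne_zero (ζ ^ e) h1
  have h3 := he' ζ hζ.pow_eq_one
  rw [AlgEquiv.mul_apply, he ζ hζ.pow_eq_one] at h3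
  rw [h3, ← pow_add] at h2
  exact (hζ.pow_eq_one_iff_dvd _).mp h2

/-- The exponent of an automorphism is prime to `p`. -/
theorem h82_exp_ne_zero (p : ℕ) (hp : p.Prime) (g : Qb ≃ₐ[ℚ] Qb) (e : ℕ)
    (he : ∀ ζ : Qb, ζ ^ p = 1 → g ζ = ζ ^ e) : ¬ p ∣ e := by
  intro hdvd
  obtain ⟨ζ, hζ⟩ := h82_exists_primitive_root p hp.pos
  have h1 := he ζ hζ.pow_eq_one
  rw [(hζ.pow_eq_one_iff_dvd e).mpr hdvd] at h1
  have h2 : ζ = 1 := g.injective (by rw [h1, map_one])
  have h3 : p ∣ 1 := (hζ.pow_eq_one_iff_dvd 1).mp (by rw [pow_one, h2])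
  exact hp.one_lt.ne' (Nat.dvd_one.mp h3)

/-- A proper nonzero subspace of a plane is a line. -/
theorem h82_line_of_proper {K V : Type*} [Field K] [AddCommGroup V] [Module K V]
    (hV : Module.finrank K V = 2) (L : Submodule K V) (hbot : L ≠ ⊥) (htop : L ≠ ⊤) :
    ∃ v : V, v ∈ L ∧ v ≠ 0 ∧ ∀ w ∈ L, ∃ a : K, a • v = w := by
  have hfin : Module.Finite K V := Module.finite_of_finrank_pos (by rw [hV]; norm_num)
  have h1 : Module.finrank K L < 2 := by
    rw [← hV]
    exact Submodule.finrank_lt htop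
  have h0 : Module.finrank K L ≠ 0 := by
    intro h
    exact hbot (Submodule.finrank_eq_zero.mp h)
  have h' : Module.finrank K L = 1 := by omega
  obtain ⟨v, hv, hall⟩ := finrank_eq_one_iff'.mp h'
  refine ⟨v, v.2, fun h => hv (Subtype.ext h), fun w hw => ?_⟩
  obtain ⟨a, ha⟩ := hall ⟨w, hw⟩
  exact ⟨a, congrArg Subtype.val ha⟩

/-- **(ABS-IRR).** -/
theorem h82_res_absirr (W : WeierstrassCurve ℤ) (hΔ : W.Δ ≠ 0) (p : ℕ) [Fact p.Prime]
    (hp2 : p ≠ 2) (hirr : W.ModRepIsIrreducible p)
    {O : Type} [CommRing O] [IsLocalRing O] (hpO : (p : O) ∈ IsLocalRing.maximalIdeal O)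
    (ρ : GaloisRepAdic O) (S : Finset ℕ)
    (hρ : ∀ ℓ : ℕ, ℓ.Prime → ℓ ∉ S → ∀ A : ValuationSubring Qb, A.LiesOverPrime ℓ →
      ∀ τ : Qb ≃ₐ[ℚ] Qb, A.IsFrobeniusAt τ ℓ →
        LinearMap.charpoly (ρ.ρ τ) = X ^ 2 - C ((W.apOfModel ℓ : ℤ) : O) * X + C ((ℓ : ℕ) : O)) :
    ρ.residual.IsAbsolutelyIrreducible := by
  have hp : p.Prime := Fact.out
  have hE := h82_isElliptic W hΔ
  have hodd : p % 2 = 1 := by
    rcases hp.eq_two_or_odd with h | h
    · exact absurd h hp2
    · exact h
  have hp3 : 3 ≤ p := by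
    have := hp.two_le
    omega
  -- the residue field has characteristic `p`
  have hpk : ((p : ℕ) : IsLocalRing.ResidueField O) = 0 := by
    have := (IsLocalRing.residue_eq_zero_iff (p : O)).mpr hpO
    rwa [map_natCast] at this
  have hpK : ((p : ℕ) : AlgebraicClosure (IsLocalRing.ResidueField O)) = 0 := by
    have := congrArg (algebraMap (IsLocalRing.ResidueField O)
      (AlgebraicClosure (IsLocalRing.ResidueField O))) hpk
    rwa [map_natCast, map_zero] at this
  have : CharP (AlgebraicClosure (IsLocalRing.ResidueField O)) p :=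
    (CharP.charP_iff_prime_eq_zero hp).mpr hpK
  let φ : ZMod p →+* AlgebraicClosure (IsLocalRing.ResidueField O) :=
    ZMod.castHom (dvd_refl p) (AlgebraicClosure (IsLocalRing.ResidueField O))
  -- the package
  choose D e hrel htr hdet hroot using fun σ => h82_res_package W hΔ p hp hp2 ρ S hρ σ
  intro L hL
  by_contra hcon
  push Not at hcon
  obtain ⟨hbot, htop⟩ := hcon
  obtain ⟨v, hvL, hv0, hline⟩ := h82_line_of_proper
    (ρ.residual.baseChange (AlgebraicClosure (IsLocalRing.ResidueField O))).finrank_eq L hbot htop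
  -- the eigenvalue character
  choose χ hχv using fun σ : Qb ≃ₐ[ℚ] Qb => hline _ (hL σ v hvL)
  have hχmul : ∀ g h, χ (g * h) = χ g * χ h := by
    intro g h
    have h1 := hχv (g * h)
    rw [map_mul, Module.End.mul_apply, ← hχv h, map_smul, ← hχv g, smul_smul, mul_comm] at h1
    exact smul_left_injective _ hv0 h1
  have hχ1 : χ 1 = 1 := by
    have h1 := hχv 1
    rw [map_one, Module.End.one_apply] at h1
    have h3 : χ 1 • v = (1 : AlgebraicClosure (IsLocalRing.ResidueField O)) • v := by
      rw [h1, one_smul]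
    exact smul_left_injective _ hv0 h3
  have hχ0 : ∀ g, χ g ≠ 0 := by
    intro g h0
    have h1 := hχmul g g⁻¹
    rw [mul_inv_cancel, hχ1, h0, zero_mul] at h1
    exact one_ne_zero h1
  have hχ : ∀ g, χ g * χ g - ((D g : ℤ) : AlgebraicClosure (IsLocalRing.ResidueField O)) * χ g
      + ((e g : ℕ) : AlgebraicClosure (IsLocalRing.ResidueField O)) = 0 := by
    intro g
    have hCH := h82_cayley_hamilton
      (ρ.residual.baseChange (AlgebraicClosure (IsLocalRing.ResidueField O))).finrank_eq
      ((ρ.residual.baseChange (AlgebraicClosure (IsLocalRing.ResidueField O))).ρ g)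
    have htr' : LinearMap.trace (AlgebraicClosure (IsLocalRing.ResidueField O)) _
        ((ρ.residual.baseChange (AlgebraicClosure (IsLocalRing.ResidueField O))).ρ g) =
        ((D g : ℤ) : AlgebraicClosure (IsLocalRing.ResidueField O)) := by
      have := LinearMap.trace_baseChange (ρ.residual.ρ g)
        (AlgebraicClosure (IsLocalRing.ResidueField O))
      rw [htr g, map_intCast] at this
      exact this
    have hdet' : LinearMap.det
        ((ρ.residual.baseChange (AlgebraicClosure (IsLocalRing.ResidueField O))).ρ g) =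
        ((e g : ℕ) : AlgebraicClosure (IsLocalRing.ResidueField O)) := by
      have := LinearMap.det_baseChange (A := AlgebraicClosure (IsLocalRing.ResidueField O))
        (ρ.residual.ρ g)
      rw [hdet g, map_natCast] at this
      exact this
    rw [htr', hdet'] at hCH
    have h1 := congrArg (fun f => f v) hCH
    simp only [LinearMap.add_apply, LinearMap.sub_apply, Module.End.mul_apply,
      LinearMap.smul_apply, Module.End.one_apply, LinearMap.zero_apply] at h1
    rw [← hχv g, map_smul, ← hχv g, smul_smul, smul_smul, ← sub_smul, ← add_smul] at h1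
    rcases smul_eq_zero.mp h1 with h | h
    · exact h
    · exact absurd h hv0
  -- the curve side
  have hcard : Nat.card (Submodule.torsionBy ℤ
      ((W.map (Int.castRingHom ℚ)).toAffine⁄Qb).Point p) = p ^ 2 :=
    Fermat.Agent.S41.h70_card_torsionBy
      ((W.map (Int.castRingHom ℚ)).map (algebraMap ℚ (AlgebraicClosure ℚ))) hodd hp3
  have hfin : Finite (Submodule.torsionBy ℤ
      ((W.map (Int.castRingHom ℚ)).toAffine⁄Qb).Point p) :=
    Nat.finite_of_card_ne_zero (by rw [hcard]; positivity)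
  have hX : Module.finrank (ZMod p) (Submodule.torsionBy ℤ
      ((W.map (Int.castRingHom ℚ)).toAffine⁄Qb).Point p) = 2 := by
    have h := Module.natCard_eq_pow_finrank (K := ZMod p)
      (V := Submodule.torsionBy ℤ ((W.map (Int.castRingHom ℚ)).toAffine⁄Qb).Point p)
    rw [hcard, Nat.card_zmod] at h
    exact (Nat.pow_right_injective hp.two_le h).symm
  have h2 : (2 : ZMod p) ≠ 0 := by
    intro h
    have h' : ((2 : ℕ) : ZMod p) = 0 := by exact_mod_cast h
    have := (CharP.cast_eq_zero_iff (ZMod p) p 2).mp h'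
    have := Nat.le_of_dvd (by norm_num) this
    omega
  have hc1 := h82_complexConjugation_ne_one
  have hc := complexConjugation_mul_self
  refine h82_absirr_core φ h2 hX
    (Point.galoisRepModuleEnd (K := Qb) ℚ (W.map (Int.castRingHom ℚ)).toAffine p)
    (fun U hU => hirr.2 U hU)
    (fun g => ((D g : ℤ) : ZMod p)) (fun g => ((e g : ℕ) : ZMod p)) ?_
    complexConjugation hc ?_ ?_ χ hχmul hχ0 ?_
  · intro g x
    have h1 := hrel g x
    rw [Int.cast_smul_eq_zsmul, ← Int.cast_natCast (R := ZMod p), Int.cast_smul_eq_zsmul]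
    exact h1
  · intro g
    have h1 := h82_exp_conj p hp complexConjugation g hc hc1 (e g) (e (complexConjugation * g))
      (hroot g) (hroot (complexConjugation * g))
    have h3 := (CharP.cast_eq_zero_iff (ZMod p) p _).mpr h1
    rw [Nat.cast_add] at h3
    exact eq_neg_of_add_eq_zero_left h3
  · intro g h0
    exact h82_exp_ne_zero p hp g (e g) (hroot g) ((CharP.cast_eq_zero_iff (ZMod p) p _).mp h0)
  · intro g
    show χ g * χ g - φ ((D g : ℤ) : ZMod p) * χ g + φ ((e g : ℕ) : ZMod p) = 0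
    rw [map_intCast, map_natCast]
    exact hχ g

/-- **Row R3 (HRES).** -/
theorem h82_hres (W : WeierstrassCurve ℤ) (hΔ : W.Δ ≠ 0) (p : ℕ) [Fact p.Prime]
    (hp2 : p ≠ 2) (hirr : W.ModRepIsIrreducible p)
    {O : Type} [CommRing O] [IsLocalRing O] (hpO : (p : O) ∈ IsLocalRing.maximalIdeal O)
    (ρ : GaloisRepAdic O) (S : Finset ℕ)
    (hρ : ∀ ℓ : ℕ, ℓ.Prime → ℓ ∉ S → ∀ A : ValuationSubring Qb, A.LiesOverPrime ℓ →
      ∀ τ : Qb ≃ₐ[ℚ] Qb, A.IsFrobeniusAt τ ℓ →
        LinearMap.charpoly (ρ.ρ τ) = X ^ 2 - C ((W.apOfModel ℓ : ℤ) : O) * X + C ((ℓ : ℕ) : O)) :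
    ρ.residual.IsAbsolutelyIrreducible ∧ ρ.residual.IsOdd :=
  ⟨h82_res_absirr W hΔ p hp2 hirr hpO ρ S hρ, h82_res_odd W hΔ p Fact.out hp2 hpO ρ S hρ⟩

end Fermat.Agent.S58
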