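import Mathlib
import Fermat.Agent.S58.h82_Top
import Fermat.Agent.S58.h82_Fix
import Fermat.Agent.S58.h82_ResAbsIrr
import Fermat.Agent.S58.h24_CoeffGood

/-!
# S58 from the statement S36

`h82_S58_of_S36`: the statement S58 (conductor-level matching) from the statement S36
(`h82_S36Stmt`, the type of `Fermat.Agent.S36.result`) alone: the rows R1 (`h82_fix`),
R3 (`h82_hres`) and R6 (`h24_coeff_good`) of `h82_S58_core` are discharged.
-/

set_option autoImplicit false

namespace Fermat.Agent.S58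

/-- **S58 from S36.** -/
theorem h82_S58_of_S36 (hS36 : h82_S36Stmt) (W : WeierstrassCurve ℤ)
    (hss : W.IsSemistableModel)
    (N : ℕ) (p : ℕ) [Fact p.Prime] (hp2 : p ≠ 2) (hirr : W.ModRepIsIrreducible p)
    (hp2N : ¬ p ^ 2 ∣ N)
    (hN : W.IsModularModelOfLevel N)
    (hbad : ∀ ℓ : ℕ, ℓ.Prime → (ℓ : ℤ) ∣ W.Δ → ℓ ∣ N)
    (hN3 : ∀ q : ℕ, q.Prime → ¬ q ^ 3 ∣ N) :
    W.IsModularModelOfLevel W.conductorLevel :=
  h82_S58_core hS36 h82_fix @h82_hres @h24_coeff_good W hss N p hp2 hirr hp2N hN hbad hN3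

end Fermat.Agent.S58
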