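import Mathlib
import Fermat.Agent.S58.h82_Match
import Fermat.Agent.S58.h58_Inv
import Fermat.Prelude.Def_FLTPrelim_ModularRep

/-!
# S58, row R3 (HRES): the two pieces (ODD) and (NS)

`W` an integral Weierstrass curve with `Δ ≠ 0`, `p` an odd prime, `ρ` a `GaloisRepAdic O` whose
Frobenius characteristic polynomials off a finite set are `X² - a_ℓ(W) X + ℓ`, `p ∈ 𝔪_O`.

* `h26_hres_odd` (ODD): the residual representation of `ρ` is odd;
* `h26_conj_not_scalar` (NS): if `E[p]` is irreducible, an element `c ≠ 1` of order two of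
  `Gal(ℚ̄/ℚ)` does not act on `E[p]` as a scalar.

Both from the Dickson transfer `h82_transfer` (at `m = p`, `n = 1`, `c = p`) and
`h58_involution_root` (`c ζ = ζ⁻¹` on roots of unity).
-/

set_option autoImplicit false

namespace Fermat.Agent.S58

open Polynomial WeierstrassCurve WeierstrassCurve.Affine

local notation "Qb" => AlgebraicClosure ℚ

/-- **(ODD)** -/
theorem h26_hres_odd (W : WeierstrassCurve ℤ) (hΔ : W.Δ ≠ 0) (p : ℕ) [Fact p.Prime]
    (hp2 : p ≠ 2) {O : Type} [CommRing O] [IsLocalRing O]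
    (hpO : (p : O) ∈ IsLocalRing.maximalIdeal O) (ρ : GaloisRepAdic O) (S : Finset ℕ)
    (hρ : ∀ ℓ : ℕ, ℓ.Prime → ℓ ∉ S → ∀ A : ValuationSubring Qb, A.LiesOverPrime ℓ →
      ∀ τ : Qb ≃ₐ[ℚ] Qb, A.IsFrobeniusAt τ ℓ →
        LinearMap.charpoly (ρ.ρ τ) = X ^ 2 - C ((W.apOfModel ℓ : ℤ) : O) * X + C ((ℓ : ℕ) : O)) :
    ρ.residual.IsOdd := by
  intro c hc hc1
  have hp : p.Prime := Fact.out
  have hodd : p % 2 = 1 := (hp.eq_two_or_odd).resolve_left hp2
  have hp3 : 3 ≤ p := by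
    have := hp.two_le
    omega
  have := h82_isElliptic W hΔ
  obtain ⟨D, e, -, -, hdet, hroot⟩ := h82_transfer (W.map (Int.castRingHom ℚ))
    (h82_isIntegralModelOf W) hΔ ρ S hρ p hodd hp3 1 p hp.pos c
  obtain ⟨ζ, hζ⟩ := h82_exists_primitive_root p hp.pos
  have h1 := hroot ζ hζ.pow_eq_one
  have h2 := h58_involution_root c hc hc1 p hp.ne_zero ζ hζ.pow_eq_one
  rw [h1, ← pow_succ] at h2
  obtain ⟨u, hu⟩ := (hζ.pow_eq_one_iff_dvd _).mp h2
  have he : ((e : O) + 1) ∈ IsLocalRing.maximalIdeal O := by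
    have : ((e : O) + 1) = (p : O) * (u : O) := by exact_mod_cast congrArg (Nat.cast : ℕ → O) hu
    rw [this]
    exact Ideal.mul_mem_right _ _ hpO
  rw [pow_one] at hdet
  have h3 : LinearMap.det (ρ.residual.ρ c) =
      algebraMap O (IsLocalRing.ResidueField O) (LinearMap.det (ρ.ρ c)) :=
    LinearMap.det_baseChange (ρ.ρ c)
  rw [h3, IsLocalRing.ResidueField.algebraMap_eq]
  have h4 : IsLocalRing.residue O (LinearMap.det (ρ.ρ c) - (e : O)) = 0 :=
    (IsLocalRing.residue_eq_zero_iff _).mpr hdet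
  have h5 : IsLocalRing.residue O ((e : O) + 1) = 0 :=
    (IsLocalRing.residue_eq_zero_iff _).mpr he
  rw [map_sub] at h4
  rw [map_add, map_one] at h5
  linear_combination h4 + h5

/-- **(NS)**: if `E[p]` is irreducible, an element `c ≠ 1` of order two of `Gal(ℚ̄/ℚ)` does not
act on `E[p]` as a scalar. -/
theorem h26_conj_not_scalar (W : WeierstrassCurve ℤ) (hΔ : W.Δ ≠ 0) (p : ℕ) [Fact p.Prime]
    (hp2 : p ≠ 2) (hirr : W.ModRepIsIrreducible p) {O : Type} [CommRing O] [IsLocalRing O]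
    (ρ : GaloisRepAdic O) (S : Finset ℕ)
    (hρ : ∀ ℓ : ℕ, ℓ.Prime → ℓ ∉ S → ∀ A : ValuationSubring Qb, A.LiesOverPrime ℓ →
      ∀ τ : Qb ≃ₐ[ℚ] Qb, A.IsFrobeniusAt τ ℓ →
        LinearMap.charpoly (ρ.ρ τ) = X ^ 2 - C ((W.apOfModel ℓ : ℤ) : O) * X + C ((ℓ : ℕ) : O))
    (c : Qb ≃ₐ[ℚ] Qb) (hc : c * c = 1) (hc1 : c ≠ 1) :
    ¬ ∃ s : ℤ, ∀ P : Submodule.torsionBy ℤ
      ((W.map (Int.castRingHom ℚ)).toAffine⁄Qb).Point p, c • P = s • P := by
  rintro ⟨s, hs⟩
  have hp : p.Prime := Fact.out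
  have hodd : p % 2 = 1 := (hp.eq_two_or_odd).resolve_left hp2
  have hp3 : 3 ≤ p := by
    have := hp.two_le
    omega
  have := h82_isElliptic W hΔ
  -- `s² = 1` on `E[p]`
  have hs2 : ∀ P : Submodule.torsionBy ℤ
      ((W.map (Int.castRingHom ℚ)).toAffine⁄Qb).Point p, (s * s) • P = P := by
    intro P
    calc (s * s) • P = s • s • P := mul_smul _ _ _
      _ = c • (s • P) := (hs (s • P)).symm
      _ = c • c • P := by rw [hs P]
      _ = P := by rw [← mul_smul, hc, one_smul]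
  -- every `P` is an integer multiple of `σ • P`
  have key : ∀ (σ : Qb ≃ₐ[ℚ] Qb) (P : Submodule.torsionBy ℤ
      ((W.map (Int.castRingHom ℚ)).toAffine⁄Qb).Point p), ∃ z : ℤ, P = z • σ • P := by
    intro σ P
    obtain ⟨D, e, hrel, -, -, hroot⟩ := h82_transfer (W.map (Int.castRingHom ℚ))
      (h82_isIntegralModelOf W) hΔ ρ S hρ p hodd hp3 1 p hp.pos σ
    obtain ⟨D', e', hrel', -, -, hroot'⟩ := h82_transfer (W.map (Int.castRingHom ℚ))
      (h82_isIntegralModelOf W) hΔ ρ S hρ p hodd hp3 1 p hp.pos (c * σ)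
    obtain ⟨ζ, hζ⟩ := h82_exists_primitive_root p hp.pos
    have h1 := hroot ζ hζ.pow_eq_one
    have h1' := hroot' ζ hζ.pow_eq_one
    have h2 := h58_involution_root c hc hc1 p hp.ne_zero ζ hζ.pow_eq_one
    have h3 : ζ ^ (e' + e) = 1 := by
      rw [pow_add, ← h1', AlgEquiv.mul_apply, h1, map_pow, ← mul_pow, h2, one_pow]
    obtain ⟨u, hu⟩ := (hζ.pow_eq_one_iff_dvd _).mp h3
    have hpe : ¬ p ∣ e := by
      intro hdvd
      have h4 : ζ ^ e = 1 := (hζ.pow_eq_one_iff_dvd _).mpr hdvd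
      rw [h4] at h1
      have h5 : ζ = 1 := σ.injective (h1.trans (map_one σ).symm)
      exact hζ.ne_one hp.one_lt h5
    have r1 := hrel P
    have r2 := hrel' P
    have e1 : (c * σ) • P = s • σ • P := by rw [mul_smul, hs]
    have e2 : (c * σ) • (c * σ) • P = σ • σ • P := by
      rw [e1, mul_smul, smul_comm σ s (σ • P), hs, ← mul_smul, hs2]
    have h4 : (D - D' * s) • σ • P = ((e : ℤ) - (e' : ℤ)) • P := by
      rw [e2, e1] at r2
      generalize σ • σ • P = X2 at r1 r2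
      generalize σ • P = Y at r1 r2 ⊢
      linear_combination (norm := module) r2 - r1
    have hpi : Prime (p : ℤ) := Nat.prime_iff_prime_int.mp hp
    have hcop : IsCoprime ((e : ℤ) - e') (p : ℤ) := by
      rw [isCoprime_comm]
      refine (Prime.coprime_iff_not_dvd hpi).mpr ?_
      intro hdvd
      have h2e : (p : ℤ) ∣ 2 * (e : ℤ) := by
        have h6 : (2 * (e : ℤ)) = ((e : ℤ) - e') + (p : ℤ) * u := by
          have h7 := congrArg (Nat.cast : ℕ → ℤ) hu
          push_cast at h7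
          linarith
        rw [h6]
        exact dvd_add hdvd (dvd_mul_right _ _)
      rcases hpi.dvd_or_dvd h2e with h | h
      · have h8 : p ∣ 2 := by exact_mod_cast h
        exact hp2 ((Nat.prime_dvd_prime_iff_eq hp Nat.prime_two).mp h8)
      · exact hpe (by exact_mod_cast h)
    obtain ⟨a, b, hab⟩ := hcop
    refine ⟨a * (D - D' * s), ?_⟩
    have hpP : (p : ℤ) • P = 0 := Submodule.smul_torsionBy _ _
    calc P = (a * ((e : ℤ) - e') + b * p) • P := by rw [hab, one_smul]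
      _ = a • (((e : ℤ) - e') • P) + b • ((p : ℤ) • P) := by
        rw [add_smul, mul_smul, mul_smul]
      _ = a • ((D - D' * s) • σ • P) := by rw [hpP, smul_zero, add_zero, h4]
      _ = (a * (D - D' * s)) • σ • P := (mul_smul _ _ _).symm
  have key' : ∀ (σ : Qb ≃ₐ[ℚ] Qb) (P : Submodule.torsionBy ℤ
      ((W.map (Int.castRingHom ℚ)).toAffine⁄Qb).Point p), ∃ z : ℤ, σ • P = z • P := by
    intro σ P
    obtain ⟨z, hz⟩ := key σ⁻¹ (σ • P)
    exact ⟨z, hz.trans (by rw [inv_smul_smul])⟩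
  -- a Galois-stable line
  obtain ⟨hnt, hirr'⟩ := hirr
  obtain ⟨P, hP⟩ := exists_ne (0 : Submodule.torsionBy ℤ
      ((W.map (Int.castRingHom ℚ)).toAffine⁄Qb).Point p)
  have hstab : Affine.Point.IsGaloisStable ℚ (Submodule.span (ZMod p) {P}) := by
    intro σ x hx
    obtain ⟨a, rfl⟩ := Submodule.mem_span_singleton.mp hx
    obtain ⟨z, hz⟩ := key' σ P
    obtain ⟨n, rfl⟩ := ZMod.intCast_surjective a
    rw [Int.cast_smul_eq_zsmul, smul_comm σ n P, hz]
    exact Submodule.mem_span_singleton.mpr ⟨((n * z : ℤ) : ZMod p), by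
      rw [Int.cast_smul_eq_zsmul, mul_smul]⟩
  rcases hirr' _ hstab with hbot | htop
  · have h1 : P ∈ (⊥ : Submodule (ZMod p) (Submodule.torsionBy ℤ
      ((W.map (Int.castRingHom ℚ)).toAffine⁄Qb).Point p)) :=
      hbot ▸ Submodule.mem_span_singleton_self P
    exact hP ((Submodule.mem_bot _).mp h1)
  · have hcard := S41.c_p2 (W.map (Int.castRingHom ℚ)) hp hp2
    have hsurj : Function.Surjective (fun a : ZMod p => a • P) := by
      intro Q
      have h1 : Q ∈ Submodule.span (ZMod p) {P} := htop ▸ Submodule.mem_top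
      exact Submodule.mem_span_singleton.mp h1
    have hle := Nat.card_le_card_of_surjective _ hsurj
    rw [Nat.card_zmod] at hle
    have hle' : p ^ 2 ≤ p := hcard ▸ hle
    nlinarith [hp.two_le]

end Fermat.Agent.S58
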