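import Mathlib
import Fermat.Prelude.Def_GaloisRep_Residual

/-!
# S58, row R3 (ABS-IRR): the generic last step

`X` a plane over `F` with an irreducible action of `G`, `c ∈ G` an involution which is not a scalar
on `X`; `Y` a plane over an extension `k` of `F` (`2 ≠ 0`) with an action of `G` and an injective
`F`-linear equivariant map `ι : X → Y`.  Then `K ⊗[k] Y` is irreducible for every extension `K`
of `k` (`h45_absirr_gen`).

Proof.  `X = F e₊ ⊕ F e₋` (eigenvectors of `c`); `ι e₊`, `ι e₋` are eigenvectors of `c` on `Y` for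
the eigenvalues `1 ≠ -1`, hence a basis of `Y`, and `1 ⊗ ι e₊`, `1 ⊗ ι e₋` span `K ⊗ Y`.  A stable
subspace `L ≠ 0, ⊤` contains exactly one of them (it is `c`-stable), say `1 ⊗ ι e₊`; then the
`e₋`-coordinate of `g e₊` vanishes for every `g`, i.e. `F e₊` is stable: contradiction.
-/

set_option autoImplicit false

namespace Fermat.Agent.S58

open scoped TensorProduct

/-- A non-scalar involution has eigenvectors for both `1` and `-1`. -/
lemma h45_inv_eigen {F : Type*} [Field F] {X : Type*} [AddCommGroup X] [Module F X]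
    (c : Module.End F X) (hc : c * c = 1) (hns : ¬ ∃ s : F, ∀ x, c x = s • x) :
    ∃ e₁ e₂ : X, e₁ ≠ 0 ∧ e₂ ≠ 0 ∧ c e₁ = e₁ ∧ c e₂ = -e₂ := by
  have hcc : ∀ x, c (c x) = x := fun x => by
    have h := congrArg (fun f : Module.End F X => f x) hc
    simpa using h
  have h1 : ∃ e, e ≠ 0 ∧ c e = e := by
    by_contra hcon
    push Not at hcon
    apply hns
    refine ⟨-1, fun x => ?_⟩
    have h3 : c (x + c x) = x + c x := by rw [map_add, hcc]; abel
    have h0 : x + c x = 0 := by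
      by_contra hne
      exact hcon _ hne h3
    rw [neg_one_smul]
    exact eq_neg_of_add_eq_zero_right h0
  have h2 : ∃ e, e ≠ 0 ∧ c e = -e := by
    by_contra hcon
    push Not at hcon
    apply hns
    refine ⟨1, fun x => ?_⟩
    have h3 : c (x - c x) = -(x - c x) := by rw [map_sub, hcc]; abel
    have h0 : x - c x = 0 := by
      by_contra hne
      exact hcon _ hne h3
    rw [one_smul]
    exact (sub_eq_zero.mp h0).symm
  obtain ⟨e1, he1, hc1⟩ := h1
  obtain ⟨e2, he2, hc2⟩ := h2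
  exact ⟨e1, e2, he1, he2, hc1, hc2⟩

/-- Eigenvectors of an endomorphism for the eigenvalues `1` and `-1` are independent. -/
lemma h45_inv_indep {k : Type*} [Field k] (h2 : (2 : k) ≠ 0) {Y : Type*} [AddCommGroup Y]
    [Module k Y] (c : Module.End k Y) {f₁ f₂ : Y} (h₁ : f₁ ≠ 0) (h₂ : f₂ ≠ 0)
    (hc₁ : c f₁ = f₁) (hc₂ : c f₂ = -f₂) (a b : k) (hab : a • f₁ + b • f₂ = 0) :
    a = 0 ∧ b = 0 := by
  have h1 : a • f₁ - b • f₂ = 0 := by
    have h := congrArg c hab
    rw [map_add, map_smul, map_smul, hc₁, hc₂, map_zero, smul_neg] at h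
    rw [sub_eq_add_neg]
    exact h
  have ha : (2 * a) • f₁ = 0 := by
    have h : (a • f₁ + b • f₂) + (a • f₁ - b • f₂) = 0 := by rw [hab, h1, add_zero]
    rw [mul_smul, two_smul, ← h]
    abel
  have hb : (2 * b) • f₂ = 0 := by
    have h : (a • f₁ + b • f₂) - (a • f₁ - b • f₂) = 0 := by rw [hab, h1, sub_zero]
    rw [mul_smul, two_smul, ← h]
    abel
  constructor
  · rcases smul_eq_zero.mp ha with h | h
    · exact (mul_eq_zero.mp h).resolve_left h2
    · exact absurd h h₁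
  · rcases smul_eq_zero.mp hb with h | h
    · exact (mul_eq_zero.mp h).resolve_left h2
    · exact absurd h h₂

/-- Two independent vectors of a plane span it. -/
lemma h45_span_pair {k : Type*} [Field k] {Y : Type*} [AddCommGroup Y] [Module k Y]
    (hY : Module.finrank k Y = 2) {f₁ f₂ : Y}
    (hli : ∀ a b : k, a • f₁ + b • f₂ = 0 → a = 0 ∧ b = 0) (y : Y) :
    ∃ a b : k, a • f₁ + b • f₂ = y := by
  have : Module.Finite k Y := Module.finite_of_finrank_eq_succ hY
  have hli' : LinearIndependent k ![f₁, f₂] := LinearIndependent.pair_iff.mpr hli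
  have hspan : Submodule.span k (Set.range ![f₁, f₂]) = ⊤ :=
    hli'.span_eq_top_of_card_eq_finrank' (by simp [hY])
  have hy : y ∈ Submodule.span k (Set.range ![f₁, f₂]) := by
    rw [hspan]
    trivial
  rw [Matrix.range_cons_cons_empty] at hy
  exact Submodule.mem_span_pair.mp hy

section Main

variable {F k K : Type*} [Field F] [Field k] [Field K] [Algebra F k] [Algebra k K]

/-- Moving a scalar of `k` out of a pure tensor of `K ⊗[k] Y`. -/
lemma h45_tmul_smul_one {Y : Type*} [AddCommGroup Y] [Module k Y] (a : K) (α : k) (f : Y) :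
    a ⊗ₜ[k] (α • f) = (α • a) • ((1 : K) ⊗ₜ[k] f) := by
  rw [TensorProduct.smul_tmul', smul_eq_mul, mul_one, TensorProduct.tmul_smul,
    TensorProduct.smul_tmul']

/-- **(ABS-IRR), generic last step.** -/
theorem h45_absirr_gen (h2 : (2 : k) ≠ 0) {G : Type*} [Monoid G]
    {X : Type*} [AddCommGroup X] [Module F X] (hX : Module.finrank F X = 2)
    {Y : Type*} [AddCommGroup Y] [Module k Y] (hY : Module.finrank k Y = 2)
    (rX : G →* Module.End F X) (rY : G →* Module.End k Y)
    (ι : X →+ Y) (hιF : ∀ (a : F) (x : X), ι (a • x) = algebraMap F k a • ι x)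
    (hι : Function.Injective ι) (hιG : ∀ g x, ι (rX g x) = rY g (ι x))
    (c : G) (hc : c * c = 1) (hns : ¬ ∃ s : F, ∀ x, rX c x = s • x)
    (hirr : ∀ U : Submodule F X, (∀ g, ∀ x ∈ U, rX g x ∈ U) → U = ⊥ ∨ U = ⊤) :
    ∀ L : Submodule K (K ⊗[k] Y), (∀ g, ∀ y ∈ L, (rY g).baseChange K y ∈ L) →
      L = ⊥ ∨ L = ⊤ := by
  intro L hL
  by_contra hcon
  push Not at hcon
  obtain ⟨hLbot, hLtop⟩ := hcon
  have h2F : (2 : F) ≠ 0 := by
    intro h
    apply h2
    have h' := congrArg (algebraMap F k) h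
    rw [map_ofNat, map_zero] at h'
    exact h'
  have h2K : (2 : K) ≠ 0 := by
    intro h
    apply h2
    have h' : algebraMap k K 2 = algebraMap k K 0 := by
      rw [map_ofNat, map_zero]
      exact h
    exact (algebraMap k K).injective h'
  have hcX : rX c * rX c = 1 := by rw [← map_mul, hc, map_one]
  have hcY : rY c * rY c = 1 := by rw [← map_mul, hc, map_one]
  obtain ⟨e1, e2, he1, he2, hc1, hc2⟩ := h45_inv_eigen (rX c) hcX hns
  have hf1 : ι e1 ≠ 0 := fun h => he1 (hι (by rw [h, map_zero]))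
  have hf2 : ι e2 ≠ 0 := fun h => he2 (hι (by rw [h, map_zero]))
  have hcf1 : rY c (ι e1) = ι e1 := by rw [← hιG, hc1]
  have hcf2 : rY c (ι e2) = -ι e2 := by rw [← hιG, hc2, map_neg]
  have hliX := h45_inv_indep h2F (rX c) he1 he2 hc1 hc2
  have hliY := h45_inv_indep h2 (rY c) hf1 hf2 hcf1 hcf2
  have hspanX := h45_span_pair hX hliX
  have hspanY := h45_span_pair hY hliY
  -- the two vectors `1 ⊗ ι e₁`, `1 ⊗ ι e₂` span `K ⊗ Y`
  have hspanK : ∀ z : K ⊗[k] Y, ∃ A B : K,
      A • ((1 : K) ⊗ₜ[k] ι e1) + B • ((1 : K) ⊗ₜ[k] ι e2) = z := by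
    intro z
    induction z using TensorProduct.induction_on with
    | zero => exact ⟨0, 0, by simp⟩
    | tmul a y =>
      obtain ⟨α, β, rfl⟩ := hspanY y
      refine ⟨α • a, β • a, ?_⟩
      rw [TensorProduct.tmul_add, h45_tmul_smul_one, h45_tmul_smul_one]
    | add x y hx hy =>
      obtain ⟨A, B, rfl⟩ := hx
      obtain ⟨A', B', rfl⟩ := hy
      refine ⟨A + A', B + B', ?_⟩
      rw [add_smul, add_smul]
      abel
  have hboth : (1 : K) ⊗ₜ[k] ι e1 ∈ L → (1 : K) ⊗ₜ[k] ι e2 ∈ L → False := by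
    intro m1 m2
    apply hLtop
    rw [eq_top_iff]
    intro z _
    obtain ⟨A, B, rfl⟩ := hspanK z
    exact L.add_mem (L.smul_mem A m1) (L.smul_mem B m2)
  have mem_of_smul : ∀ (t : K) (u : K ⊗[k] Y), t ≠ 0 → t • u ∈ L → u ∈ L := by
    intro t u ht h
    have h' := L.smul_mem t⁻¹ h
    rwa [smul_smul, inv_mul_cancel₀ ht, one_smul] at h'
  -- a stable `1 ⊗ ι e` gives a stable line `F e`
  have key : ∀ e e' : X, e ≠ 0 → (∀ x : X, ∃ a b : F, a • e + b • e' = x) →
      (∀ t : F, e' ≠ t • e) → (1 : K) ⊗ₜ[k] ι e ∈ L → (1 : K) ⊗ₜ[k] ι e' ∉ L → False := by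
    intro e e' he hsp hind hm hm'
    have hstab : ∀ g : G, ∃ a : F, rX g e = a • e := by
      intro g
      obtain ⟨a, b, hab⟩ := hsp (rX g e)
      have h1 : (rY g).baseChange K ((1 : K) ⊗ₜ[k] ι e) ∈ L := hL g _ hm
      rw [LinearMap.baseChange_tmul, ← hιG, ← hab, map_add, hιF, hιF, TensorProduct.tmul_add,
        h45_tmul_smul_one, h45_tmul_smul_one] at h1
      have h3 : (algebraMap F k b • (1 : K)) • ((1 : K) ⊗ₜ[k] ι e') ∈ L := by
        have h4 := L.sub_mem h1 (L.smul_mem (algebraMap F k a • (1 : K)) hm)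
        rwa [add_sub_cancel_left] at h4
      have hb : b = 0 := by
        by_contra hb
        apply hm'
        refine mem_of_smul _ _ ?_ h3
        rw [Algebra.smul_def, mul_one]
        intro h0
        apply hb
        have h5 : algebraMap F k b = 0 := by
          apply (algebraMap k K).injective
          rw [h0, map_zero]
        apply (algebraMap F k).injective
        rw [h5, map_zero]
      refine ⟨a, ?_⟩
      rw [← hab, hb, zero_smul, add_zero]
    rcases hirr (Submodule.span F {e}) (fun g x hx => by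
      obtain ⟨t, rfl⟩ := Submodule.mem_span_singleton.mp hx
      obtain ⟨a, ha⟩ := hstab g
      rw [map_smul, ha]
      exact Submodule.smul_mem _ _ (Submodule.smul_mem _ _ (Submodule.mem_span_singleton_self e)))
      with h | h
    · apply he
      have h1 : e ∈ Submodule.span F {e} := Submodule.mem_span_singleton_self e
      rw [h] at h1
      exact (Submodule.mem_bot F).mp h1
    · have h1 : e' ∈ Submodule.span F {e} := by rw [h]; trivial
      obtain ⟨t, ht⟩ := Submodule.mem_span_singleton.mp h1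
      exact hind t ht.symm
  -- the action of `c` on the two vectors
  have hcK1 : (rY c).baseChange K ((1 : K) ⊗ₜ[k] ι e1) = (1 : K) ⊗ₜ[k] ι e1 := by
    rw [LinearMap.baseChange_tmul, hcf1]
  have hcK2 : (rY c).baseChange K ((1 : K) ⊗ₜ[k] ι e2) = -((1 : K) ⊗ₜ[k] ι e2) := by
    rw [LinearMap.baseChange_tmul, hcf2, TensorProduct.tmul_neg]
  obtain ⟨v, hvL, hv0⟩ := (Submodule.ne_bot_iff L).mp hLbot
  obtain ⟨A, B, hAB⟩ := hspanK v
  have hvL' : A • ((1 : K) ⊗ₜ[k] ι e1) + B • ((1 : K) ⊗ₜ[k] ι e2) ∈ L := by rw [hAB]; exact hvL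
  have hcv : (rY c).baseChange K v ∈ L := hL c v hvL
  rw [← hAB, map_add, map_smul, map_smul, hcK1, hcK2, smul_neg] at hcv
  have hA : (2 * A) • ((1 : K) ⊗ₜ[k] ι e1) ∈ L := by
    have h := L.add_mem hvL' hcv
    have e : (2 * A) • ((1 : K) ⊗ₜ[k] ι e1) =
        A • ((1 : K) ⊗ₜ[k] ι e1) + B • ((1 : K) ⊗ₜ[k] ι e2) +
          (A • ((1 : K) ⊗ₜ[k] ι e1) + -(B • ((1 : K) ⊗ₜ[k] ι e2))) := by
      rw [mul_smul, two_smul]
      abel
    rw [e]
    exact h
  have hB : (2 * B) • ((1 : K) ⊗ₜ[k] ι e2) ∈ L := by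
    have h := L.sub_mem hvL' hcv
    have e : (2 * B) • ((1 : K) ⊗ₜ[k] ι e2) =
        A • ((1 : K) ⊗ₜ[k] ι e1) + B • ((1 : K) ⊗ₜ[k] ι e2) -
          (A • ((1 : K) ⊗ₜ[k] ι e1) + -(B • ((1 : K) ⊗ₜ[k] ι e2))) := by
      rw [mul_smul, two_smul]
      abel
    rw [e]
    exact h
  by_cases hA0 : A = 0
  · by_cases hB0 : B = 0
    · apply hv0
      rw [← hAB, hA0, hB0, zero_smul, zero_smul, add_zero]
    · have m2 : (1 : K) ⊗ₜ[k] ι e2 ∈ L := mem_of_smul _ _ (mul_ne_zero h2K hB0) hB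
      refine key e2 e1 he2 (fun x => ?_) (fun t ht => ?_) m2 (fun m1 => hboth m1 m2)
      · obtain ⟨a, b, hab⟩ := hspanX x
        exact ⟨b, a, by rw [add_comm]; exact hab⟩
      · have h := hliX 1 (-t) (by rw [one_smul, neg_smul, ← ht, add_neg_cancel])
        exact one_ne_zero h.1
  · have m1 : (1 : K) ⊗ₜ[k] ι e1 ∈ L := mem_of_smul _ _ (mul_ne_zero h2K hA0) hA
    refine key e1 e2 he1 hspanX (fun t ht => ?_) m1 (fun m2 => hboth m1 m2)
    have h := hliX t (-1) (by rw [neg_smul, one_smul, ← ht, add_neg_cancel])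
    exact one_ne_zero (neg_eq_zero.mp h.2)

end Main

/-- **(ABS-IRR) in the language of the Prelude.**  A residual representation `ρ'` over `k`
(`2 ≠ 0`) which contains, semilinearly over a subfield `F`, an irreducible plane `X` on which a
Galois involution is not a scalar, is absolutely irreducible. -/
theorem h45_absirr_residual {F : Type*} [Field F] {k : Type} [Field k] [Algebra F k]
    (h2 : (2 : k) ≠ 0) (ρ' : ResidualGaloisRep k)
    {X : Type*} [AddCommGroup X] [Module F X] (hX : Module.finrank F X = 2)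
    (rX : (AlgebraicClosure ℚ ≃ₐ[ℚ] AlgebraicClosure ℚ) →* Module.End F X)
    (ι : X →+ ρ'.V) (hιF : ∀ (a : F) (x : X), ι (a • x) = algebraMap F k a • ι x)
    (hι : Function.Injective ι) (hιG : ∀ g x, ι (rX g x) = ρ'.ρ g (ι x))
    (c : AlgebraicClosure ℚ ≃ₐ[ℚ] AlgebraicClosure ℚ) (hc : c * c = 1)
    (hns : ¬ ∃ s : F, ∀ x, rX c x = s • x)
    (hirr : ∀ U : Submodule F X, (∀ g, ∀ x ∈ U, rX g x ∈ U) → U = ⊥ ∨ U = ⊤) :
    ρ'.IsAbsolutelyIrreducible := by
  intro L hL
  exact h45_absirr_gen (K := AlgebraicClosure k) h2 hX ρ'.finrank_eq rX ρ'.ρ ι hιF hι hιG c hc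
    hns hirr L (fun g y hy => hL g y hy)

end Fermat.Agent.S58
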