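import Mathlib
import Fermat.Prelude.Def_GaloisRep_Residual
import Fermat.Agent.S40.h63_BLR
import Fermat.Agent.S58.h45_AbsIrrGen

/-!
# S58, row R3 (ABS-IRR): from quadratic relations to absolute irreducibility

* `h45_blr_semilinear` : the Boston–Lenstra–Ribet embedding (`S40.h63_blr_embed`) across a field
  extension `F → k`: `X` an irreducible plane over `F`, `Y ≠ 0` a `k`-space, every `g` killed on
  `X` by `T² - t T + χ g` and on `Y` by the image of the same polynomial; then there is an
  injective, equivariant, `F → k`-semilinear additive map `X → Y`.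
* `h45_absirr_of_rel` : if moreover `Y` is the space of a residual representation `ρ'` and some
  Galois involution is not a scalar on `X`, then `ρ'` is absolutely irreducible.
-/

set_option autoImplicit false

namespace Fermat.Agent.S58

/-- **BLR embedding, semilinear form.** -/
theorem h45_blr_semilinear {F k : Type*} [Field F] [Field k] [Algebra F k] (h2 : (2 : F) ≠ 0)
    {G : Type*} [Group G] {X : Type*} [AddCommGroup X] [Module F X]
    (hX : Module.finrank F X = 2) (rX : G →* Module.End F X)
    (hirr : ∀ U : Submodule F X, (∀ g, ∀ x ∈ U, rX g x ∈ U) → U = ⊥ ∨ U = ⊤)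
    {Y : Type*} [AddCommGroup Y] [Module k Y] [Nontrivial Y] (rY : G →* Module.End k Y)
    (χ : G →* Fˣ)
    (hrel : ∀ g, ∃ t : F,
      rX g * rX g - t • rX g + (χ g : F) • (1 : Module.End F X) = 0 ∧
      rY g * rY g - algebraMap F k t • rY g
        + algebraMap F k (χ g : F) • (1 : Module.End k Y) = 0) :
    ∃ ι : X →+ Y, (∀ (a : F) (x : X), ι (a • x) = algebraMap F k a • ι x) ∧
      Function.Injective ι ∧ ∀ g x, ι (rX g x) = rY g (ι x) := by
  let _ : Module F Y := Module.compHom Y (algebraMap F k)
  have : IsScalarTower F k Y := IsScalarTower.of_algebraMap_smul (fun _ _ => rfl)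
  let act : G →* Module.End F Y :=
    { toFun := fun g => (rY g).restrictScalars F
      map_one' := by
        rw [map_one]
        rfl
      map_mul' := fun g h => by
        rw [map_mul]
        rfl }
  have hact : ∀ g y, act g y = rY g y := fun _ _ => rfl
  obtain ⟨ι, hι, hιG⟩ := Fermat.Agent.S40.h63_blr_embed h2 hX rX hirr act χ (fun g => by
    obtain ⟨t, h1, h3⟩ := hrel g
    refine ⟨t, h1, ?_⟩
    apply LinearMap.ext
    intro y
    have h4 := congrArg (fun f : Module.End k Y => f y) h3
    simp only [LinearMap.add_apply, LinearMap.sub_apply, LinearMap.smul_apply,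
      Module.End.mul_apply, Module.End.one_apply, LinearMap.zero_apply] at h4 ⊢
    rw [hact, hact]
    exact h4)
  refine ⟨ι.toAddMonoidHom, fun a x => ?_, hι, fun g x => ?_⟩
  · change ι (a • x) = algebraMap F k a • ι x
    rw [map_smul]
    rfl
  · change ι (rX g x) = rY g (ι x)
    rw [hιG]
    rfl

/-- **(ABS-IRR) from relations.**  `ρ'` a residual representation over `k`, `F` a subfield
(`2 ≠ 0`), `X` an irreducible plane over `F` with a Galois action such that every `g` is killed on
`X` by `T² - t T + χ g` and on `ρ'.V` by the image of this polynomial, and some involution is not a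
scalar on `X`.  Then `ρ'` is absolutely irreducible. -/
theorem h45_absirr_of_rel {F : Type*} [Field F] {k : Type} [Field k] [Algebra F k]
    (h2 : (2 : k) ≠ 0) (ρ' : ResidualGaloisRep k)
    {X : Type*} [AddCommGroup X] [Module F X] (hX : Module.finrank F X = 2)
    (rX : (AlgebraicClosure ℚ ≃ₐ[ℚ] AlgebraicClosure ℚ) →* Module.End F X)
    (hirr : ∀ U : Submodule F X, (∀ g, ∀ x ∈ U, rX g x ∈ U) → U = ⊥ ∨ U = ⊤)
    (χ : (AlgebraicClosure ℚ ≃ₐ[ℚ] AlgebraicClosure ℚ) →* Fˣ)
    (hrel : ∀ g, ∃ t : F,
      rX g * rX g - t • rX g + (χ g : F) • (1 : Module.End F X) = 0 ∧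
      ρ'.ρ g * ρ'.ρ g - algebraMap F k t • ρ'.ρ g
        + algebraMap F k (χ g : F) • (1 : Module.End k ρ'.V) = 0)
    (c : AlgebraicClosure ℚ ≃ₐ[ℚ] AlgebraicClosure ℚ) (hc : c * c = 1)
    (hns : ¬ ∃ s : F, ∀ x, rX c x = s • x) : ρ'.IsAbsolutelyIrreducible := by
  have h2F : (2 : F) ≠ 0 := by
    intro h
    apply h2
    have h' := congrArg (algebraMap F k) h
    rw [map_ofNat, map_zero] at h'
    exact h'
  have hnt : Nontrivial ρ'.V :=
    Module.nontrivial_of_finrank_pos (R := k) (by rw [ρ'.finrank_eq]; norm_num)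
  obtain ⟨ι, hιF, hι, hιG⟩ := h45_blr_semilinear h2F hX rX hirr ρ'.ρ χ hrel
  exact h45_absirr_residual h2 ρ' hX rX ι hιF hι hιG c hc hns hirr

end Fermat.Agent.S58
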