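import Mathlib
import Fermat.Agent.S58.h82_Transfer
import Fermat.Agent.S58.h82_Match
import Fermat.Agent.S58.h45_AbsIrrRel
import Fermat.Agent.GAL.h11_CycFrob
import Fermat.Agent.S41.h70_P2
import Fermat.Prelude.Def_GaloisRep_ComplexConjugation
import Fermat.Prelude.Def_GaloisRep_Adic
import Fermat.Prelude.Def_FLTPrelim_ModularRep

/-!
# S58, row R3 (HRES): absolute irreducibility of the residual representation

`W` a Weierstrass curve over `ℤ` with `Δ ≠ 0`, `p` an odd prime with `W[p]` irreducible, `ρ` an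
adic representation over a local ring `O` with `p ∈ 𝔪` whose Frobenius elements outside a finite
set `S` have the characteristic polynomials `X² - a_ℓ(W) X + ℓ`.  If complex conjugation is not a
scalar on `W[p]`, then the residual representation of `ρ` is absolutely irreducible
(`h45_hres_absirr`).

Route: the Dickson transfer `h82_transfer` (at `m = p`, `n = 1`, `c = p`) gives for every `σ` one
quadratic polynomial `T² - D T + e` killing `σ` on `W[p]` and, modulo `𝔪`, on `ρ` (Cayley–Hamilton),
with `e = χ_p(σ)`; then `h45_absirr_of_rel` (BLR embedding + complex conjugation).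
-/

set_option autoImplicit false

namespace Fermat.Agent.S58

open Polynomial WeierstrassCurve WeierstrassCurve.Affine

local notation "Qb" => AlgebraicClosure ℚ

/-- Cayley–Hamilton on the residual representation, with trace and determinant given modulo the
maximal ideal. -/
theorem h45_hres_resid_rel {O : Type} [CommRing O] [IsLocalRing O] (ρ : GaloisRepAdic O)
    (σ : Qb ≃ₐ[ℚ] Qb) (t d : O)
    (ht : LinearMap.trace O ρ.V (ρ.ρ σ) - t ∈ IsLocalRing.maximalIdeal O)
    (hd : LinearMap.det (ρ.ρ σ) - d ∈ IsLocalRing.maximalIdeal O) :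
    ρ.residual.ρ σ * ρ.residual.ρ σ - IsLocalRing.residue O t • ρ.residual.ρ σ
      + IsLocalRing.residue O d •
        (1 : Module.End (IsLocalRing.ResidueField O) ρ.residual.V) = 0 := by
  have h1 := Fermat.Agent.S40.h63_ch2 ρ.residual.finrank_eq (ρ.residual.ρ σ)
  have htr : LinearMap.trace (IsLocalRing.ResidueField O) ρ.residual.V (ρ.residual.ρ σ)
      = IsLocalRing.residue O t := by
    have e1 : LinearMap.trace (IsLocalRing.ResidueField O) ρ.residual.V (ρ.residual.ρ σ)
        = algebraMap O (IsLocalRing.ResidueField O) (LinearMap.trace O ρ.V (ρ.ρ σ)) :=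
      LinearMap.trace_baseChange (ρ.ρ σ) (IsLocalRing.ResidueField O)
    rw [e1, IsLocalRing.ResidueField.algebraMap_eq, ← sub_eq_zero, ← map_sub,
      IsLocalRing.residue_eq_zero_iff]
    exact ht
  have hdet : LinearMap.det (ρ.residual.ρ σ) = IsLocalRing.residue O d := by
    have e1 : LinearMap.det (ρ.residual.ρ σ)
        = algebraMap O (IsLocalRing.ResidueField O) (LinearMap.det (ρ.ρ σ)) :=
      LinearMap.det_baseChange (ρ.ρ σ)
    rw [e1, IsLocalRing.ResidueField.algebraMap_eq, ← sub_eq_zero, ← map_sub,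
      IsLocalRing.residue_eq_zero_iff]
    exact hd
  rw [htr, hdet] at h1
  exact h1

/-- **(ABS-IRR) of R3**, with "complex conjugation is not a scalar on `W[p]`" as a hypothesis. -/
theorem h45_hres_absirr (W : WeierstrassCurve ℤ) (hΔ : W.Δ ≠ 0) (p : ℕ) [Fact p.Prime]
    (hp2 : p ≠ 2) (hirr : W.ModRepIsIrreducible p) {O : Type} [CommRing O] [IsLocalRing O]
    (hpO : (p : O) ∈ IsLocalRing.maximalIdeal O) (ρ : GaloisRepAdic O) (S : Finset ℕ)
    (hρ : ∀ ℓ : ℕ, ℓ.Prime → ℓ ∉ S → ∀ A : ValuationSubring Qb, A.LiesOverPrime ℓ →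
      ∀ τ : Qb ≃ₐ[ℚ] Qb, A.IsFrobeniusAt τ ℓ →
        LinearMap.charpoly (ρ.ρ τ) = X ^ 2 - C ((W.apOfModel ℓ : ℤ) : O) * X + C ((ℓ : ℕ) : O))
    (hns : ¬ ∃ s : ℤ,
      ∀ P : Submodule.torsionBy ℤ ((W.map (Int.castRingHom ℚ)).toAffine⁄Qb).Point p,
        complexConjugation • P = s • P) :
    ρ.residual.IsAbsolutelyIrreducible := by
  have hp : p.Prime := Fact.out
  have hEll : (W.map (Int.castRingHom ℚ)).IsElliptic := h82_isElliptic W hΔ
  have hW : W.IsIntegralModelOf (W.map (Int.castRingHom ℚ)) := h82_isIntegralModelOf W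
  have hodd : p % 2 = 1 := (hp.eq_two_or_odd).resolve_left hp2
  have hp3 : 3 ≤ p := by
    have := hp.two_le
    omega
  -- the residue field has characteristic `p`
  have hpk : ((p : ℕ) : IsLocalRing.ResidueField O) = 0 := by
    have h := (IsLocalRing.residue_eq_zero_iff (p : O)).mpr hpO
    rw [map_natCast] at h
    exact h
  have hchar : CharP (IsLocalRing.ResidueField O) p := (CharP.charP_iff_prime_eq_zero hp).mpr hpk
  let _ : Algebra (ZMod p) (IsLocalRing.ResidueField O) := ZMod.algebra _ p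
  have h2 : (2 : IsLocalRing.ResidueField O) ≠ 0 := by
    intro h
    have h' : ((2 : ℕ) : IsLocalRing.ResidueField O) = 0 := by exact_mod_cast h
    rw [CharP.cast_eq_zero_iff (IsLocalRing.ResidueField O) p] at h'
    exact hp2 ((Nat.prime_dvd_prime_iff_eq hp Nat.prime_two).mp h')
  -- the plane `W[p]`
  have hcard : Nat.card (Submodule.torsionBy ℤ
      ((W.map (Int.castRingHom ℚ)).toAffine⁄Qb).Point p) = p ^ 2 :=
    Fermat.Agent.S41.c_p2 (W.map (Int.castRingHom ℚ)) hp hp2
  have hfin : Finite (Submodule.torsionBy ℤ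
      ((W.map (Int.castRingHom ℚ)).toAffine⁄Qb).Point p) :=
    Nat.finite_of_card_ne_zero (by rw [hcard]; positivity)
  have hX : Module.finrank (ZMod p) (Submodule.torsionBy ℤ
      ((W.map (Int.castRingHom ℚ)).toAffine⁄Qb).Point p) = 2 := by
    have h := Module.natCard_eq_pow_finrank (K := ZMod p)
      (V := Submodule.torsionBy ℤ ((W.map (Int.castRingHom ℚ)).toAffine⁄Qb).Point p)
    rw [hcard, Nat.card_zmod] at h
    exact (Nat.pow_right_injective hp.two_le h).symm
  obtain ⟨ζ, hζ⟩ := Fermat.Agent.GAL.h11_exists_primitiveRoot p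
  refine h45_absirr_of_rel (F := ZMod p) h2 ρ.residual hX
    (Affine.Point.galoisRepModuleEnd ℚ (W.map (Int.castRingHom ℚ)).toAffine p)
    (fun U hU => hirr.2 U (fun σ x hx => hU σ x hx)) (ExtCitation.cycloChar p) (fun g => ?_)
    complexConjugation complexConjugation_mul_self ?_
  · obtain ⟨D, e, h1, h2', h3, h4⟩ :=
      h82_transfer (W.map (Int.castRingHom ℚ)) hW hΔ ρ S hρ p hodd hp3 1 p hp.pos g
    rw [pow_one] at h2' h3
    have hχ : ((ExtCitation.cycloChar p g : (ZMod p)ˣ) : ZMod p) = (e : ZMod p) :=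
      Fermat.Agent.GAL.h11_cycloChar_eq_of_pow g ζ hζ e (h4 ζ hζ.pow_eq_one)
    refine ⟨(D : ZMod p), ?_, ?_⟩
    · rw [hχ]
      apply LinearMap.ext
      intro P
      have h5 := h1 P
      simp only [LinearMap.add_apply, LinearMap.sub_apply, LinearMap.smul_apply,
        Module.End.mul_apply, Module.End.one_apply, LinearMap.zero_apply,
        Affine.Point.galoisRepModuleEnd_apply]
      rw [Int.cast_smul_eq_zsmul, Nat.cast_smul_eq_nsmul, ← natCast_zsmul]
      exact h5
    · rw [hχ, map_intCast, map_natCast]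
      have h6 := h45_hres_resid_rel ρ g (D : O) (e : O) h2' h3
      rw [map_intCast, map_natCast] at h6
      exact h6
  · rintro ⟨s, hs⟩
    apply hns
    obtain ⟨s', rfl⟩ := ZMod.intCast_surjective s
    refine ⟨s', fun P => ?_⟩
    have h := hs P
    rw [Affine.Point.galoisRepModuleEnd_apply, Int.cast_smul_eq_zsmul] at h
    exact h

end Fermat.Agent.S58
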