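import Mathlib
import Fermat.Agent.S58.h45_HresAbsIrr
import Fermat.Agent.S58.h26_HresOdd
import Fermat.Agent.GAL.h47_ComplexConj

/-!
# S58, row R3 (HRES): the export

`h45_hres`: `W` a Weierstrass curve over `ℤ` with `Δ ≠ 0`, `p` an odd prime with `W[p]`
irreducible, `ρ` an adic representation over a local ring `O` with `p ∈ 𝔪` whose Frobenius elements
outside a finite set have the characteristic polynomials `X² - a_ℓ(W) X + ℓ`.  Then the residual
representation of `ρ` is absolutely irreducible and odd.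

* absolutely irreducible: `h45_hres_absirr` (Dickson transfer + BLR embedding + complex
  conjugation) with `h26_conj_not_scalar` (helper26);
* odd: `h26_hres_odd` (helper26).
-/

set_option autoImplicit false

namespace Fermat.Agent.S58

open Polynomial WeierstrassCurve WeierstrassCurve.Affine

local notation "Qb" => AlgebraicClosure ℚ

/-- Complex conjugation is not the identity of `ℚ̄`. -/
theorem h45_complexConj_ne_one : complexConjugation ≠ 1 := by
  intro h
  obtain ⟨ζ, hζ⟩ := h82_exists_primitive_root 3 (by norm_num)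
  have h1 := Fermat.Agent.GAL.h47_complexConjugation_root_mul ζ 3 (by norm_num) hζ.pow_eq_one
  rw [h, AlgEquiv.one_apply, ← pow_two] at h1
  have h2 := hζ.dvd_of_pow_eq_one 2 h1
  norm_num at h2

/-- **(HRES).** -/
theorem h45_hres (W : WeierstrassCurve ℤ) (hΔ : W.Δ ≠ 0) (p : ℕ) [Fact p.Prime] (hp2 : p ≠ 2)
    (hirr : W.ModRepIsIrreducible p) {O : Type} [CommRing O] [IsLocalRing O]
    (hpO : (p : O) ∈ IsLocalRing.maximalIdeal O) (ρ : GaloisRepAdic O) (S : Finset ℕ)
    (hρ : ∀ ℓ : ℕ, ℓ.Prime → ℓ ∉ S → ∀ A : ValuationSubring Qb, A.LiesOverPrime ℓ →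
      ∀ τ : Qb ≃ₐ[ℚ] Qb, A.IsFrobeniusAt τ ℓ →
        LinearMap.charpoly (ρ.ρ τ) = X ^ 2 - C ((W.apOfModel ℓ : ℤ) : O) * X + C ((ℓ : ℕ) : O)) :
    ρ.residual.IsAbsolutelyIrreducible ∧ ρ.residual.IsOdd :=
  ⟨h45_hres_absirr W hΔ p hp2 hirr hpO ρ S hρ
      (h26_conj_not_scalar W hΔ p hp2 hirr ρ S hρ complexConjugation complexConjugation_mul_self
        h45_complexConj_ne_one),
    h26_hres_odd W hΔ p hp2 hpO ρ S hρ⟩

end Fermat.Agent.S58
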