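import Mathlib
import Fermat.Agent.S13.h99_NodeLevel
import Fermat.Agent.S13.h48_At2Core
import Fermat.Agent.S58.h45_UnFix

/-!
# S58, row R1 (FIX): the prime `2` (split nodal model `Y² + d X Y = X³ + c X`)

* `h45_un2_cases_E0` : on the nodal model (any residue characteristic), a point `T` with
  `n • T ∈ E₀` (`n` odd) lies in `E₀` or `± T` has a level `g` with `g ^ n = v(c) ^ (2 j)`;
* `h45_un2_label`    : the label (at most `p` classes modulo `E₀` of points `T` with `p • T ∈ E₀`);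
* `h45_un2_exists_of_model` : residue characteristic `2`: if a change of variables with `u = 1` and
  integral `r, s` puts `W` in nodal form with `v(d) = 1`, `0 < v(c) < 1`, then `W` has a point of
  exact order `p^(k+1)` with integral `x` and nonsingular reduction;
* `h45_un_fix_of_model2` : (FIX) with the nodal model at `2` as a hypothesis.
-/

set_option autoImplicit false

namespace Fermat.Agent.S58

open WeierstrassCurve Fermat.Agent.S05 Fermat.Agent.S13

section KLevel

variable {K : Type*} [Field K] [DecidableEq K] (A : ValuationSubring K) (d c : K)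

/-- Classification by components of the points `T` with `n • T ∈ E₀`, `n` odd. -/
theorem h45_un2_cases_E0 (hd : A.valuation d = 1) (hc : A.valuation c < 1) (hc0 : c ≠ 0)
    {T : (h45_nodalW d c).toAffine.Point} {n : ℕ} (hn : Odd n)
    (hT : ¬ h45_IsN d c A (n • T)) :
    ¬ h45_IsN d c A T ∨
      ∃ g : A.ValueGroup, (h45_InC d c A g T ∨ h45_InC d c A g (-T)) ∧
        ∃ j : ℕ, g ^ n = A.valuation c ^ (2 * j) := by
  by_cases hN : h45_IsN d c A T
  · right
    rcases h99_trichotomy A d c hN with ⟨g, hg⟩ | ⟨g, hg⟩ | hM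
    · exact ⟨g, Or.inl hg, h99_level A d c hd hc hc0 hg n hT⟩
    · refine ⟨g, Or.inr hg, h99_level A d c hd hc hc0 hg n ?_⟩
      rw [smul_neg, h99_isN_neg_iff]
      exact hT
    · exfalso
      have h1 : T + h99_T0 d c hc0 ∈ h99_E0 A d c hd hc := h99_inM_add_T0 A d c hc0 hM
      have h2 : n • (T + h99_T0 d c hc0) ∈ h99_E0 A d c hd hc :=
        (h99_E0 A d c hd hc).nsmul_mem h1 n
      obtain ⟨j, rfl⟩ := hn
      have h3 : (2 * j + 1) • h99_T0 d c hc0 = h99_T0 d c hc0 := by
        rw [add_smul, mul_comm, mul_smul, two_smul, h99_T0_add_T0, smul_zero, one_smul, zero_add]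
      rw [smul_add, h3] at h2
      have h4 : h99_T0 d c hc0 ∈ h99_E0 A d c hd hc := by
        have h5 := (h99_E0 A d c hd hc).sub_mem h2
          (show (2 * j + 1) • T ∈ h99_E0 A d c hd hc from hT)
        rwa [add_sub_cancel_left] at h5
      exact h4 (h99_isN_T0 A d c hc0)
  · exact Or.inl hN

/-- **The label.** The points `T` with `p • T ∈ E₀` fall into at most `p` classes modulo `E₀`. -/
theorem h45_un2_label (hd : A.valuation d = 1) (hc : A.valuation c < 1) (hc0 : c ≠ 0)
    (p : ℕ) (hp : p.Prime) (hp2 : p ≠ 2) :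
    ∃ f : (h45_nodalW d c).toAffine.Point → ℕ,
      (∀ T, ¬ h45_IsN d c A (p • T) → f T < p) ∧
      ∀ T T', ¬ h45_IsN d c A (p • T) → ¬ h45_IsN d c A (p • T') → f T = f T' →
        ¬ h45_IsN d c A (T - T') := by
  classical
  have hvb0 : A.valuation c ≠ 0 := (Valuation.ne_zero_iff _).mpr hc0
  have hvbpos : 0 < A.valuation c := lt_of_le_of_ne zero_le (Ne.symm hvb0)
  have hp0 : p ≠ 0 := hp.ne_zero
  obtain ⟨m, hm⟩ : ∃ m, p = 2 * m + 1 := by
    rcases hp.eq_two_or_odd with h | h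
    · exact absurd h hp2
    · exact ⟨p / 2, by omega⟩
  have hodd : Odd p := ⟨m, hm⟩
  -- the label relation
  let L : (h45_nodalW d c).toAffine.Point → ℤ → Prop := fun T z =>
    (z = 0 ∧ ¬ h45_IsN d c A T) ∨
    (∃ (g : A.ValueGroup) (k : ℕ), 0 < k ∧ z = k ∧ h45_InC d c A g T ∧
      g ^ p = A.valuation c ^ (2 * k)) ∨
    (∃ (g : A.ValueGroup) (k : ℕ), 0 < k ∧ z = -(k : ℤ) ∧ h45_InC d c A g (-T) ∧
      g ^ p = A.valuation c ^ (2 * k))
  -- bounds on `k`
  have hk_bd : ∀ (g : A.ValueGroup) (k : ℕ), A.valuation c < g → g < 1 →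
      g ^ p = A.valuation c ^ (2 * k) → 0 < k ∧ k ≤ m := by
    intro g k hbg hg1 hgk
    have hgpos : 0 < g := hvbpos.trans hbg
    constructor
    · rcases Nat.eq_zero_or_pos k with h0 | h0
      · exfalso
        rw [h0, mul_zero, pow_zero] at hgk
        exact absurd hgk (pow_lt_one₀ zero_le hg1 hp0).ne
      · exact h0
    · have h1 : A.valuation c ^ p < g ^ p := pow_lt_pow_left₀ hbg zero_le hp0
      rw [hgk] at h1
      have h2' : 2 * k < p := (pow_lt_pow_iff_right_of_lt_one₀ hvbpos hc).mp h1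
      omega
  have hlabel : ∀ T : (h45_nodalW d c).toAffine.Point, ¬ h45_IsN d c A (p • T) →
      ∃ z : ℤ, (-(m : ℤ) ≤ z ∧ z ≤ m) ∧ L T z := by
    intro T hT
    rcases h45_un2_cases_E0 A d c hd hc hc0 hodd hT with hN | ⟨g, hC, k, hgk⟩
    · exact ⟨0, by omega, Or.inl ⟨rfl, hN⟩⟩
    · rcases hC with hC | hC
      · have hbg : A.valuation c < g := by obtain ⟨_, _, _, -, -, hbg, -, -⟩ := hC; exact hbg
        have hg1 : g < 1 := by obtain ⟨_, _, _, -, -, -, hg1, -⟩ := hC; exact hg1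
        obtain ⟨hk0, hkm⟩ := hk_bd g k hbg hg1 hgk
        exact ⟨k, by omega, Or.inr (Or.inl ⟨g, k, hk0, rfl, hC, hgk⟩)⟩
      · have hbg : A.valuation c < g := by obtain ⟨_, _, _, -, -, hbg, -, -⟩ := hC; exact hbg
        have hg1 : g < 1 := by obtain ⟨_, _, _, -, -, -, hg1, -⟩ := hC; exact hg1
        obtain ⟨hk0, hkm⟩ := hk_bd g k hbg hg1 hgk
        exact ⟨-(k : ℤ), by omega, Or.inr (Or.inr ⟨g, k, hk0, rfl, hC, hgk⟩)⟩
  -- same label ⟹ difference in `E₀`
  have hsame : ∀ (T T' : (h45_nodalW d c).toAffine.Point) (z : ℤ), L T z → L T' z →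
      ¬ h45_IsN d c A (T - T') := by
    intro T T' z hL hL'
    rcases hL with ⟨hz, hN⟩ | ⟨g, k, hk0, hz, hC, hgk⟩ | ⟨g, k, hk0, hz, hC, hgk⟩
    · rcases hL' with ⟨-, hN'⟩ | ⟨g', k', hk0', hz', -, -⟩ | ⟨g', k', hk0', hz', -, -⟩
      · exact (h99_E0 A d c hd hc).sub_mem (show T ∈ h99_E0 A d c hd hc from hN)
          (show T' ∈ h99_E0 A d c hd hc from hN')
      · omega
      · omega
    · rcases hL' with ⟨hz', -⟩ | ⟨g', k', hk0', hz', hC', hgk'⟩ | ⟨g', k', hk0', hz', -, -⟩
      · omega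
      · have hkk : k = k' := by omega
        subst hkk
        have hgg : g = g' := (pow_left_inj₀ zero_le zero_le hp0).mp (hgk.trans hgk'.symm)
        subst hgg
        exact h99_inC_sub_not_isN A d c hd hC hC'
      · omega
    · rcases hL' with ⟨hz', -⟩ | ⟨g', k', hk0', hz', -, -⟩ | ⟨g', k', hk0', hz', hC', hgk'⟩
      · omega
      · omega
      · have hkk : k = k' := by omega
        subst hkk
        have hgg : g = g' := (pow_left_inj₀ zero_le zero_le hp0).mp (hgk.trans hgk'.symm)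
        subst hgg
        have h3 := h99_inC_sub_not_isN A d c hd hC hC'
        have e : -T - -T' = -(T - T') := by abel
        rw [e, h99_isN_neg_iff] at h3
        exact h3
  -- the label function
  let z : (h45_nodalW d c).toAffine.Point → ℤ := fun T =>
    if hT : ¬ h45_IsN d c A (p • T) then (hlabel T hT).choose else 0
  have hz : ∀ T, ¬ h45_IsN d c A (p • T) → (-(m : ℤ) ≤ z T ∧ z T ≤ m) ∧ L T (z T) := by
    intro T hT
    simp only [z, dif_pos hT]
    exact (hlabel T hT).choose_spec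
  refine ⟨fun T => (z T + m).toNat, fun T hT => ?_, fun T T' hT hT' hff => ?_⟩
  · have := (hz T hT).1
    change (z T + m).toNat < p
    omega
  · have h1 := (hz T hT).1
    have h1' := (hz T' hT').1
    have hzz : z T = z T' := by
      change (z T + m).toNat = (z T' + m).toNat at hff
      omega
    exact hsame T T' (z T) (hz T hT).2 (hzz ▸ (hz T' hT').2)


variable [IsAlgClosed K] [CharZero K]

/-- **Multiplicative reduction, residue characteristic `2`, from the nodal model.** A point of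
exact order `p^(k+1)` with integral `x`-coordinate and nonsingular reduction. -/
theorem h45_un2_exists_of_model (W : WeierstrassCurve K) (C : VariableChange K)
    (hC : C • W = h45_nodalW d c) (hu : (C.u : K) = 1) (hr : C.r ∈ A) (hs : C.s ∈ A)
    (h2 : A.valuation (2 : K) < 1) (hd : A.valuation d = 1) (hc : A.valuation c < 1)
    (hc0 : c ≠ 0) (p : ℕ) (hp : p.Prime) (hp2 : p ≠ 2) (hvp : A.valuation (p : K) = 1)
    (k : ℕ) :
    ∃ (X Y : K) (h : W.toAffine.Nonsingular X Y),
      p ^ (k + 1) • (Affine.Point.some X Y h : W.toAffine.Point) = 0 ∧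
      p ^ k • (Affine.Point.some X Y h : W.toAffine.Point) ≠ 0 ∧ X ∈ A ∧
      ¬ (W.toAffine.polynomialX.evalEval X Y ∈ A.nonunits ∧
        W.toAffine.polynomialY.evalEval X Y ∈ A.nonunits) := by
  have : (h45_nodalW d c).IsElliptic := h99_isElliptic A d c hd hc hc0
  obtain ⟨f, hf, hf'⟩ := h45_un2_label A d c hd hc hc0 p hp hp2
  obtain ⟨T, hT0, hT1, hT2⟩ := h45_un_count_gen (h99_E0 A d c hd hc) p hp.two_le k f
    (fun T hT => hf T hT) (fun T T' hT hT' hff => hf' T T' hT hT' hff)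
    (fun j => h45_un_ncard (h45_nodalW d c) (p ^ j) (h45_un_pow_odd hp hp2 j))
  have hT0' : ¬ h45_IsN d c A T := hT0
  rcases T with _ | ⟨X, Y, h⟩
  · exact absurd (smul_zero _) hT2
  · have hW := h48_nodal_integral A d c hd hc
    have hvpk : A.valuation ((p ^ (k + 1) : ℕ) : K) = 1 := by
      rw [Nat.cast_pow, map_pow, hvp, one_pow]
    have hX1 : A.valuation X = 1 := by
      rcases lt_trichotomy (A.valuation X) 1 with hlt | heq | hgt
      · exact absurd ⟨X, Y, h, rfl, hlt⟩ hT0'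
      · exact heq
      · exact absurd hT1 (h86_nsmul_ne_zero A.valuation (h45_nodalW d c) (by simpa using hd.le)
          (by simp) (by simp) (by simpa using hc.le) (by simp) h hgt hvpk)
    have hXA : X ∈ A := (A.valuation_le_one_iff X).mp hX1.le
    have hYA : Y ∈ A := h18_y_mem hW h.1 hXA
    have hns : ¬ ((h45_nodalW d c).toAffine.polynomialX.evalEval X Y ∈ A.nonunits ∧
        (h45_nodalW d c).toAffine.polynomialY.evalEval X Y ∈ A.nonunits) := by
      rintro ⟨-, hY⟩
      rw [Affine.evalEval_polynomialY, A.mem_nonunits_iff] at hY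
      have h1 : A.valuation (2 * Y) < 1 := by
        rw [map_mul]
        exact mul_lt_one_of_lt_of_le h2 ((A.valuation_le_one_iff Y).mpr hYA)
      have h3 : A.valuation ((h45_nodalW d c).toAffine.a₁ * X) = 1 := by
        change A.valuation (d * X) = 1
        rw [map_mul, hd, hX1, one_mul]
      have h4 : A.valuation (2 * Y + (h45_nodalW d c).toAffine.a₁ * X +
          (h45_nodalW d c).toAffine.a₃) = 1 := by
        have h5 : (h45_nodalW d c).toAffine.a₃ = 0 := rfl
        rw [h5, add_zero, Valuation.map_add_eq_of_lt_right _ (by rw [h3]; exact h1), h3]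
      rw [h4] at hY
      exact lt_irrefl _ hY
    exact h45_un_transport A W (h45_nodalW d c) C hC hu hr hs _ _ h hT1 hT2 hXA hns

end KLevel

section QbLevel

open WeierstrassCurve.Affine

local notation "Qb" => AlgebraicClosure ℚ

/-- **(FIX), with the nodal model at `2` as a hypothesis.** -/
theorem h45_un_fix_of_model2 (W : WeierstrassCurve ℤ) (hΔ : W.Δ ≠ 0) {p q : ℕ} (hp : p.Prime)
    (hp2 : p ≠ 2) (hq : q.Prime) (hqp : q ≠ p) (hss : (q : ℤ) ∣ W.Δ → ¬ (q : ℤ) ∣ W.c₄)
    (A : ValuationSubring Qb) (hA : A.LiesOverPrime q) (k : ℕ)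
    (hmodel2 : q = 2 → (2 : ℤ) ∣ W.Δ →
      ∃ (d c : Qb) (C : VariableChange Qb),
        C • ((W.map (Int.castRingHom ℚ)).toAffine⁄Qb) = h45_nodalW d c ∧ (C.u : Qb) = 1 ∧
        C.r ∈ A ∧ C.s ∈ A ∧ A.valuation d = 1 ∧ A.valuation c < 1 ∧ c ≠ 0) :
    ∃ P : ((W.map (Int.castRingHom ℚ)).toAffine⁄Qb).Point,
      p ^ (k + 1) • P = 0 ∧ p ^ k • P ≠ 0 ∧ ∀ τ ∈ A.inertiaSubgroupIn ℚ, τ • P = P := by
  refine h45_un_fix_of_two W hΔ hp hp2 hq hqp hss A hA k (fun hq2 h2Δ => ?_)
  obtain ⟨d, c, C, hC, hu, hr, hs, hd, hc, hc0⟩ := hmodel2 hq2 h2Δ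
  have hcoe : ∀ n : ℤ, algebraMap ℚ Qb ((Int.castRingHom ℚ) n) = (n : Qb) := fun n => by simp
  have hint : h18_Integral A ((W.map (Int.castRingHom ℚ)).toAffine⁄Qb) := by
    refine ⟨?_, ?_, ?_, ?_, ?_⟩ <;>
    · change algebraMap ℚ Qb ((Int.castRingHom ℚ) _) ∈ A
      rw [hcoe]
      exact h26_intCast_mem A _
  have hvp : A.valuation (p : Qb) = 1 := valuation_natCast_eq_one A q hq hA p
    (fun h => hqp ((Nat.prime_dvd_prime_iff_eq hq hp).mp h))
  have hvpk : A.valuation ((p ^ (k + 1) : ℕ) : Qb) = 1 := by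
    rw [Nat.cast_pow, map_pow, hvp, one_pow]
  have h2 : A.valuation (2 : Qb) < 1 := by
    have h3 : ((q : ℕ) : Qb) ∈ A.nonunits := hA
    rw [hq2, A.mem_nonunits_iff] at h3
    exact_mod_cast h3
  obtain ⟨X, Y, h, h1, h2', hX, hns⟩ := h45_un2_exists_of_model A d c
    ((W.map (Int.castRingHom ℚ)).toAffine⁄Qb) C hC hu hr hs h2 hd hc hc0 p hp hp2 hvp k
  exact ⟨Affine.Point.some X Y h, h1, h2',
    fun τ hτ => h45_un_fixed_Qb (W.map (Int.castRingHom ℚ)) A hint _ hvpk h hX hns h1 τ hτ⟩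

end QbLevel

end Fermat.Agent.S58
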