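import Mathlib
import Fermat.Agent.S58.h45_UnFix
import Fermat.Agent.S58.h26_Un2

/-!
# S58, row R1 (FIX): the export

`h45_un_fix`: `W` a Weierstrass curve over `ℤ` with `Δ ≠ 0`, `q ≠ p` primes, `p` odd, `W`
semistable at `q` (`q ∣ Δ → q ∤ c₄`), `A` a valuation subring of `ℚ̄` over `q`.  For every `k`
there is a point of `W(ℚ̄)` of exact order `p^(k+1)` fixed by the inertia group of `A`.

Good `q` and odd multiplicative `q`: `h45_un_fix_of_two` (`S58/h45_UnFix.lean`); the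
multiplicative prime `2`: `h26_un2_fix` (helper26, `S58/h26_Un2.lean`).
-/

set_option autoImplicit false

namespace Fermat.Agent.S58

open WeierstrassCurve WeierstrassCurve.Affine

local notation "Qb" => AlgebraicClosure ℚ

/-- **(FIX).** An inertia-fixed point of exact order `p^(k+1)`. -/
theorem h45_un_fix (W : WeierstrassCurve ℤ) (hΔ : W.Δ ≠ 0) {p q : ℕ} (hp : p.Prime)
    (hp2 : p ≠ 2) (hq : q.Prime) (hqp : q ≠ p) (hss : (q : ℤ) ∣ W.Δ → ¬ (q : ℤ) ∣ W.c₄)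
    (A : ValuationSubring Qb) (hA : A.LiesOverPrime q) (k : ℕ) :
    ∃ P : ((W.map (Int.castRingHom ℚ)).toAffine⁄Qb).Point,
      p ^ (k + 1) • P = 0 ∧ p ^ k • P ≠ 0 ∧ ∀ τ ∈ A.inertiaSubgroupIn ℚ, τ • P = P := by
  refine h45_un_fix_of_two W hΔ hp hp2 hq hqp hss A hA k (fun hq2 h2Δ => ?_)
  subst hq2
  have h2c4 : ¬ (2 : ℤ) ∣ W.c₄ := by
    have h := hss (by exact_mod_cast h2Δ)
    exact_mod_cast h
  exact h26_un2_fix W hΔ hp hp2 h2Δ h2c4 A hA k

end Fermat.Agent.S58
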