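import Mathlib

/-!
# S58 / R7 (SMALL-FROB), sub-row (R7-A): the additivity lemma (helper56)

Mathlib only.  Over an algebraically closed field, an additive endomorphism `ψ` of the group of
points of a Weierstrass curve with `Δ ≠ 0` which kills every affine point whose `x`-coordinate
avoids a finite set `S` is zero:  write `P = (P + R) - R` with `R` and `P + R` outside the finite
bad set.

* `h56_sf_exists_y`   : every `t` is the `x`-coordinate of a point of the curve.
* `h56_sf_bad_finite` : the points with `x`-coordinate in a finite set form a finite set.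
* `h56_sf_additive`   : the lemma.
-/

set_option autoImplicit false

namespace Fermat.Agent.S58

open WeierstrassCurve Polynomial

/-- Over an algebraically closed field every `t` is the `x`-coordinate of a solution of the
Weierstrass equation. -/
theorem h56_sf_exists_y {Ω : Type*} [Field Ω] [IsAlgClosed Ω] (W : WeierstrassCurve Ω) (t : Ω) :
    ∃ y : Ω, W.toAffine.Equation t y := by
  have hdeg : (C (1 : Ω) * X ^ 2 + C (W.a₁ * t + W.a₃) * X
      + C (-(t ^ 3 + W.a₂ * t ^ 2 + W.a₄ * t + W.a₆))).degree ≠ 0 := by
    rw [degree_quadratic one_ne_zero]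
    decide
  obtain ⟨y, hy⟩ := IsAlgClosed.exists_root _ hdeg
  refine ⟨y, ?_⟩
  rw [IsRoot.def] at hy
  simp only [eval_add, eval_mul, eval_C, eval_pow, eval_X] at hy
  rw [Affine.equation_iff]
  linear_combination hy

/-- The affine points whose `x`-coordinate lies in a finite set form a finite set. -/
theorem h56_sf_bad_finite {Ω : Type*} [Field Ω] (W : WeierstrassCurve Ω) (S : Finset Ω) :
    {Q : W.toAffine.Point | ∃ (x y : Ω) (hxy : W.toAffine.Nonsingular x y),
      Q = Affine.Point.some x y hxy ∧ x ∈ S}.Finite := by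
  classical
  -- choose, for every `s`, a point above `s` if there is one
  let pt : Ω → W.toAffine.Point := fun s =>
    if hs : ∃ y : Ω, W.toAffine.Nonsingular s y then Affine.Point.some s hs.choose hs.choose_spec
    else 0
  refine Set.Finite.subset ((S.finite_toSet.image pt).union
    (S.finite_toSet.image fun s => - pt s)) ?_
  rintro Q ⟨x, y, hxy, rfl, hxS⟩
  have hs : ∃ y : Ω, W.toAffine.Nonsingular x y := ⟨y, hxy⟩
  have hpt : pt x = Affine.Point.some x hs.choose hs.choose_spec := dif_pos hs
  rcases (Affine.Point.X_eq_iff (h₁ := hxy) (h₂ := hs.choose_spec)).mp rfl with h1 | h1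
  · exact Or.inl ⟨x, hxS, by rw [hpt, h1]⟩
  · exact Or.inr ⟨x, hxS, by show - pt x = _; rw [hpt, h1]⟩

/-- **(R7-A)**: an additive endomorphism of the points of a Weierstrass curve with `Δ ≠ 0` over an
algebraically closed field which kills all affine points with `x`-coordinate outside a finite set
is zero. -/
theorem h56_sf_additive {Ω : Type*} [Field Ω] [IsAlgClosed Ω] [DecidableEq Ω]
    (W : WeierstrassCurve Ω) (hΔ : W.Δ ≠ 0) (ψ : W.toAffine.Point →+ W.toAffine.Point)
    (S : Finset Ω)
    (h : ∀ (x y : Ω) (hxy : W.toAffine.Nonsingular x y), x ∉ S →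
      ψ (Affine.Point.some x y hxy) = 0) : ∀ P, ψ P = 0 := by
  -- a point above every `t`
  have hex : ∀ t : Ω, ∃ y : Ω, W.toAffine.Nonsingular t y := fun t => by
    obtain ⟨y, hy⟩ := h56_sf_exists_y W t
    exact ⟨y, (W.toAffine.equation_iff_nonsingular_of_Δ_ne_zero hΔ).mp hy⟩
  choose yy hyy using hex
  have hinj : Function.Injective fun t : Ω => Affine.Point.some t (yy t) (hyy t) := by
    intro s t hst
    simp only [Affine.Point.some.injEq] at hst
    exact hst.1
  have : Infinite W.toAffine.Point := Infinite.of_injective _ hinj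
  have hBfin := h56_sf_bad_finite W S
  set B : Set W.toAffine.Point := {Q : W.toAffine.Point |
    ∃ (x y : Ω) (hxy : W.toAffine.Nonsingular x y), Q = Affine.Point.some x y hxy ∧ x ∈ S}
    with hB
  -- `ψ` kills every point outside `B`
  have hkill : ∀ Q : W.toAffine.Point, Q ∉ B → ψ Q = 0 := by
    intro Q hQ
    cases Q with
    | zero => exact map_zero ψ
    | some x y hxy => exact h x y hxy fun hxS => hQ ⟨x, y, hxy, rfl, hxS⟩
  intro P
  have hfin : (B ∪ (fun R => P + R) ⁻¹' B).Finite :=
    hBfin.union (hBfin.preimage fun a _ b _ hab => add_left_cancel hab)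
  obtain ⟨R, hR⟩ := hfin.infinite_compl.nonempty
  rw [Set.mem_compl_iff, Set.mem_union, not_or] at hR
  have h1 : ψ R = 0 := hkill R hR.1
  have h2 : ψ (P + R) = 0 := hkill (P + R) hR.2
  rw [map_add, h1, add_zero] at h2
  exact h2

end Fermat.Agent.S58
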