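import Fermat.Agent.S41.h48_FrobRel
import Fermat.Agent.S58.h5_SfTop

/-!
# S58 / R7 (SMALL-FROB): the Frobenius relation on torsion at EVERY good prime (helper5)

Port of `Fermat/Agent/S41/h48_FrobRel.lean` (helper48) with the hypothesis `5 ≤ ℓ` removed: the
single use of that hypothesis, the call of `S52.h5_frob_charpoly_int`, is replaced by
`h5_sf_frob_charpoly_int` (all primes).  Statements and proofs are otherwise verbatim.

For an integral model `W`, a good prime `ℓ` (also `ℓ = 2, 3`), a place `A` over `ℓ` and a Frobenius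
element `σ` at `A`:  `σ • σ • P - a_ℓ • σ • P + ℓ • P = 0` for every `P` with `n • P = 0`, `ℓ ∤ n`.

* `h5_sf_frob_rel`          : points of `W⁄ℚ̄`, `W : WeierstrassCurve ℤ`;
* `h5_sf_frob_rel_E`        : points of `E⁄ℚ̄` for `E : WeierstrassCurve ℚ`, `W.IsIntegralModelOf E`;
* `h5_sf_frob_rel_torsion`  : the same on `Submodule.torsionBy ℤ (E⁄ℚ̄).Point n`;
* `h5_sf_frob_rel_end`      : the same in `Module.End (ZMod n) E[n]`;
* `h5_sf_frob_unipotent`, `h5_sf_frob_unipotent_end`.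
-/

set_option autoImplicit false
set_option linter.unusedSectionVars false
set_option linter.unusedVariables false

namespace Fermat.Agent.S58

open WeierstrassCurve WeierstrassCurve.Affine WeierstrassCurve.Affine.Point
open Fermat.Agent.S41
open scoped Pointwise

/-- **Frobenius relation, abstract form.**  `WK` is a Weierstrass curve over `ℚ̄` equal to the
base change of the integral model `W`, and `sK` an additive map on its points which acts as `σ`
on coordinates. -/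
theorem h5_sf_frob_rel_aux (W : WeierstrassCurve ℤ) (WK : WeierstrassCurve (AlgebraicClosure ℚ))
    (hWK : WK = W.map (algebraMap ℤ (AlgebraicClosure ℚ)))
    (ℓ : ℕ) [Fact ℓ.Prime] (hgood : W.IsGoodPrimeFor ℓ)
    (A : ValuationSubring (AlgebraicClosure ℚ)) (hA : A.LiesOverPrime ℓ)
    (σ : AlgebraicClosure ℚ ≃ₐ[ℚ] AlgebraicClosure ℚ) (hσ : A.IsFrobeniusAt σ ℓ)
    (n : ℕ) (hn : ¬ ℓ ∣ n)
    (sK : WK.toAffine.Point →+ WK.toAffine.Point)
    (hsK : ∀ (x y : AlgebraicClosure ℚ) (h : WK.toAffine.Nonsingular x y),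
      ∃ h', sK (Point.some x y h) = Point.some (σ x) (σ y) h')
    (P : WK.toAffine.Point) (hP : n • P = 0) :
    sK (sK P) - W.apOfModel ℓ • sK P + (ℓ : ℤ) • P = 0 := by
  classical
  have hℓp : ℓ.Prime := Fact.out
  have hℓm : ((ℓ : ℕ) : A) ∈ IsLocalRing.maximalIdeal A := by
    rw [← ValuationSubring.coe_mem_nonunits_iff]
    exact_mod_cast hA
  have hchar : CharP (IsLocalRing.ResidueField A) ℓ := by
    rw [CharP.charP_iff_prime_eq_zero hℓp]
    have h0 := (IsLocalRing.residue_eq_zero_iff _).mpr hℓm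
    rwa [map_natCast] at h0
  let _ : Algebra (ZMod ℓ) (IsLocalRing.ResidueField A) := ZMod.algebra _ ℓ
  have hΔ : IsUnit (W.map (algebraMap ℤ A)).Δ := by
    rw [WeierstrassCurve.map_Δ]
    exact h48_int_isUnit A ℓ hℓp hA W.Δ hgood
  have hK : (W.map (algebraMap ℤ A)).map A.subtype = WK := by
    have e : A.subtype.comp (algebraMap ℤ A) = algebraMap ℤ (AlgebraicClosure ℚ) :=
      RingHom.ext_int _ _
    rw [hWK, WeierstrassCurve.map_map, e]
  have hk : (W.map (algebraMap ℤ A)).map (IsLocalRing.residue A) =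
      (W.reductionMod ℓ)⁄(IsLocalRing.ResidueField A) := by
    have e : (IsLocalRing.residue A).comp (algebraMap ℤ A) =
        (algebraMap (ZMod ℓ) (IsLocalRing.ResidueField A)).comp (Int.castRingHom (ZMod ℓ)) :=
      RingHom.ext_int _ _
    change (W.map (algebraMap ℤ A)).map (IsLocalRing.residue A) =
      (W.map (Int.castRingHom (ZMod ℓ))).map (algebraMap (ZMod ℓ) (IsLocalRing.ResidueField A))
    rw [WeierstrassCurve.map_map, WeierstrassCurve.map_map, e]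
  have hnA : ((n : ℕ) : AlgebraicClosure ℚ) ∉ A.nonunits := by
    have hu := h48_int_isUnit A ℓ hℓp hA (n : ℤ) (by rwa [Int.natCast_dvd_natCast])
    intro hmem
    have h1 : ((algebraMap ℤ A (n : ℤ) : A) : AlgebraicClosure ℚ) ∈ A.nonunits := by
      simpa using hmem
    rw [ValuationSubring.coe_mem_nonunits_iff] at h1
    exact (IsLocalRing.notMem_maximalIdeal.mpr hu) h1
  have hfrob : ∀ x : IsLocalRing.ResidueField A,
      FiniteField.frobeniusAlgHom (ZMod ℓ) (IsLocalRing.ResidueField A) x = x ^ ℓ := by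
    intro x
    rw [FiniteField.frobeniusAlgHom_apply, ZMod.card]
  exact h48_rel_transport (W.map (algebraMap ℤ A)) hΔ WK hK _ hk n hnA sK σ hsK
    (h48_mem_iff A σ hσ.mem_decompositionSubgroup)
    (Point.map (W' := (W.reductionMod ℓ).toAffine)
      (FiniteField.frobeniusAlgHom (ZMod ℓ) (IsLocalRing.ResidueField A)))
    (fun x => x ^ ℓ) rfl
    (fun x y h => by
      rw [Point.map_some (W' := (W.reductionMod ℓ).toAffine)
        (FiniteField.frobeniusAlgHom (ZMod ℓ) (IsLocalRing.ResidueField A)) h]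
      exact h48_some_congr _ (hfrob x) (hfrob y))
    (fun a ha => by
      have h1 := Fermat.Agent.GAL.h14_frob_sub_pow_mem A ℓ σ hσ (a : AlgebraicClosure ℚ) a.2
      have h2 : (((⟨σ a, ha⟩ : A) - a ^ ℓ : A) : AlgebraicClosure ℚ) ∈ A.nonunits := by
        simpa using h1
      rw [ValuationSubring.coe_mem_nonunits_iff, ← IsLocalRing.residue_eq_zero_iff, map_sub,
        map_pow, sub_eq_zero] at h2
      exact h2)
    (W.apOfModel ℓ) (ℓ : ℤ)
    (fun Q => h5_sf_frob_charpoly_int W ℓ hgood Q) P hP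

/-- **Frobenius relation on prime-to-`ℓ` torsion**, integral model. -/
theorem h5_sf_frob_rel (W : WeierstrassCurve ℤ) (ℓ : ℕ) [Fact ℓ.Prime]
    (hgood : W.IsGoodPrimeFor ℓ)
    (A : ValuationSubring (AlgebraicClosure ℚ)) (hA : A.LiesOverPrime ℓ)
    (σ : AlgebraicClosure ℚ ≃ₐ[ℚ] AlgebraicClosure ℚ) (hσ : A.IsFrobeniusAt σ ℓ)
    (n : ℕ) (hn : ¬ ℓ ∣ n) (P : (W.toAffine⁄(AlgebraicClosure ℚ)).Point) (hP : n • P = 0) :
    σ • σ • P - W.apOfModel ℓ • σ • P + (ℓ : ℤ) • P = 0 :=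
  h5_sf_frob_rel_aux W (W⁄(AlgebraicClosure ℚ)) rfl ℓ hgood A hA σ hσ n hn
    (Point.map (W' := W.toAffine) σ.toAlgHom)
    (fun x y h => ⟨_, Point.map_some (W' := W.toAffine) σ.toAlgHom h⟩) P hP

/-- **Frobenius relation on prime-to-`ℓ` torsion**, a rational curve whose base change is that of
the integral model. -/
theorem h5_sf_frob_rel_rat (E' : WeierstrassCurve ℚ) (W : WeierstrassCurve ℤ)
    (hE' : E' = W.map (Int.castRingHom ℚ)) (ℓ : ℕ) [Fact ℓ.Prime]
    (hgood : W.IsGoodPrimeFor ℓ)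
    (A : ValuationSubring (AlgebraicClosure ℚ)) (hA : A.LiesOverPrime ℓ)
    (σ : AlgebraicClosure ℚ ≃ₐ[ℚ] AlgebraicClosure ℚ) (hσ : A.IsFrobeniusAt σ ℓ)
    (n : ℕ) (hn : ¬ ℓ ∣ n) (P : (E'.toAffine⁄(AlgebraicClosure ℚ)).Point) (hP : n • P = 0) :
    σ • σ • P - W.apOfModel ℓ • σ • P + (ℓ : ℤ) • P = 0 := by
  have hWK : E'⁄(AlgebraicClosure ℚ) = W.map (algebraMap ℤ (AlgebraicClosure ℚ)) := by
    have e : (algebraMap ℚ (AlgebraicClosure ℚ)).comp (Int.castRingHom ℚ) =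
        algebraMap ℤ (AlgebraicClosure ℚ) := RingHom.ext_int _ _
    change E'.map (algebraMap ℚ (AlgebraicClosure ℚ)) = _
    rw [hE', WeierstrassCurve.map_map, e]
  exact h5_sf_frob_rel_aux W (E'⁄(AlgebraicClosure ℚ)) hWK ℓ hgood A hA σ hσ n hn
    (Point.map (W' := E'.toAffine) σ.toAlgHom)
    (fun x y h => ⟨_, Point.map_some (W' := E'.toAffine) σ.toAlgHom h⟩) P hP

/-- **Frobenius relation on prime-to-`ℓ` torsion** of `E⁄ℚ̄` for a rational curve `E` with
integral model `W`. -/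
theorem h5_sf_frob_rel_E (E : WeierstrassCurve ℚ) {W : WeierstrassCurve ℤ}
    (hW : W.IsIntegralModelOf E) (ℓ : ℕ) [Fact ℓ.Prime]
    (hgood : W.IsGoodPrimeFor ℓ)
    (A : ValuationSubring (AlgebraicClosure ℚ)) (hA : A.LiesOverPrime ℓ)
    (σ : AlgebraicClosure ℚ ≃ₐ[ℚ] AlgebraicClosure ℚ) (hσ : A.IsFrobeniusAt σ ℓ)
    (n : ℕ) (hn : ¬ ℓ ∣ n) (P : (E.toAffine⁄(AlgebraicClosure ℚ)).Point) (hP : n • P = 0) :
    σ • σ • P - W.apOfModel ℓ • σ • P + (ℓ : ℤ) • P = 0 := by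
  obtain ⟨C, hC⟩ := hW
  have he : ∀ (τ : AlgebraicClosure ℚ ≃ₐ[ℚ] AlgebraicClosure ℚ)
      (Q : ((C • E).toAffine⁄(AlgebraicClosure ℚ)).Point),
      Fermat.Agent.S05.h15_vcEquivBase (K := AlgebraicClosure ℚ) E C (τ • Q) =
        τ • Fermat.Agent.S05.h15_vcEquivBase (K := AlgebraicClosure ℚ) E C Q :=
    fun τ Q => Fermat.Agent.S05.h15_vcEquivBase_smul E C τ Q
  obtain ⟨Q, rfl⟩ := (Fermat.Agent.S05.h15_vcEquivBase (K := AlgebraicClosure ℚ) E C).surjective P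
  have hQ : n • Q = 0 := by
    apply (Fermat.Agent.S05.h15_vcEquivBase (K := AlgebraicClosure ℚ) E C).injective
    rw [map_nsmul, hP, _root_.map_zero]
  have key := h5_sf_frob_rel_rat (C • E) W hC ℓ hgood A hA σ hσ n hn Q hQ
  have key2 := congrArg (Fermat.Agent.S05.h15_vcEquivBase (K := AlgebraicClosure ℚ) E C) key
  rw [map_add, map_sub, map_zsmul, map_zsmul, he, he, _root_.map_zero] at key2
  exact key2

/-- the relation on the torsion submodule -/
theorem h5_sf_frob_rel_torsion (E : WeierstrassCurve ℚ) {W : WeierstrassCurve ℤ}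
    (hW : W.IsIntegralModelOf E) (ℓ : ℕ) [Fact ℓ.Prime]
    (hgood : W.IsGoodPrimeFor ℓ)
    (A : ValuationSubring (AlgebraicClosure ℚ)) (hA : A.LiesOverPrime ℓ)
    (σ : AlgebraicClosure ℚ ≃ₐ[ℚ] AlgebraicClosure ℚ) (hσ : A.IsFrobeniusAt σ ℓ)
    (n : ℕ) (hn : ¬ ℓ ∣ n)
    (x : Submodule.torsionBy ℤ (E.toAffine⁄(AlgebraicClosure ℚ)).Point n) :
    σ • σ • x - W.apOfModel ℓ • σ • x + (ℓ : ℤ) • x = 0 := by
  apply Subtype.ext
  have hx : n • (x : (E.toAffine⁄(AlgebraicClosure ℚ)).Point) = 0 := by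
    have h1 := x.2
    rw [Submodule.mem_torsionBy_iff, natCast_zsmul] at h1
    exact h1
  exact h5_sf_frob_rel_E E hW ℓ hgood A hA σ hσ n hn x hx

/-- **Unipotency**: if `a_ℓ ≡ 2` and `ℓ ≡ 1` modulo `p`, a Frobenius at `ℓ` satisfies
`(σ - 1)² = 0` on `E[p]`. -/
theorem h5_sf_frob_unipotent (E : WeierstrassCurve ℚ) {W : WeierstrassCurve ℤ}
    (hW : W.IsIntegralModelOf E) (ℓ : ℕ) [Fact ℓ.Prime]
    (hgood : W.IsGoodPrimeFor ℓ)
    (A : ValuationSubring (AlgebraicClosure ℚ)) (hA : A.LiesOverPrime ℓ)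
    (σ : AlgebraicClosure ℚ ≃ₐ[ℚ] AlgebraicClosure ℚ) (hσ : A.IsFrobeniusAt σ ℓ)
    (p : ℕ) (hp : ¬ ℓ ∣ p) (ha : (p : ℤ) ∣ W.apOfModel ℓ - 2) (hl : (p : ℤ) ∣ (ℓ : ℤ) - 1)
    (x : Submodule.torsionBy ℤ (E.toAffine⁄(AlgebraicClosure ℚ)).Point p) :
    σ • σ • x - (2 : ℤ) • σ • x + x = 0 := by
  have key := h5_sf_frob_rel_torsion E hW ℓ hgood A hA σ hσ p hp x
  obtain ⟨u, hu⟩ := ha
  obtain ⟨v, hv⟩ := hl
  have h1 : W.apOfModel ℓ = 2 + (p : ℤ) * u := by linarith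
  have h2 : (ℓ : ℤ) = 1 + (p : ℤ) * v := by linarith
  have hp0 : ∀ (y : Submodule.torsionBy ℤ (E.toAffine⁄(AlgebraicClosure ℚ)).Point p) (w : ℤ),
      ((p : ℤ) * w) • y = 0 := by
    intro y w
    rw [mul_comm, mul_smul, Submodule.smul_torsionBy, smul_zero]
  rw [h1, h2, add_smul, add_smul, hp0, hp0, add_zero, add_zero, one_smul] at key
  exact key

/-- the relation in the endomorphism ring of the `ZMod n`-module `E[n]` -/
theorem h5_sf_frob_rel_end (E : WeierstrassCurve ℚ) {W : WeierstrassCurve ℤ}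
    (hW : W.IsIntegralModelOf E) (ℓ : ℕ) [Fact ℓ.Prime]
    (hgood : W.IsGoodPrimeFor ℓ)
    (A : ValuationSubring (AlgebraicClosure ℚ)) (hA : A.LiesOverPrime ℓ)
    (σ : AlgebraicClosure ℚ ≃ₐ[ℚ] AlgebraicClosure ℚ) (hσ : A.IsFrobeniusAt σ ℓ)
    (n : ℕ) (hn : ¬ ℓ ∣ n) :
    galoisRepModuleEnd ℚ E.toAffine n σ * galoisRepModuleEnd ℚ E.toAffine n σ
      - (W.apOfModel ℓ : ZMod n) • galoisRepModuleEnd ℚ E.toAffine n σ
      + ((ℓ : ℤ) : ZMod n) • (1 : Module.End (ZMod n)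
          (Submodule.torsionBy ℤ (E.toAffine⁄(AlgebraicClosure ℚ)).Point n)) = 0 := by
  apply LinearMap.ext
  intro x
  have key := h5_sf_frob_rel_torsion E hW ℓ hgood A hA σ hσ n hn x
  simp only [LinearMap.add_apply, LinearMap.sub_apply, LinearMap.smul_apply, Module.End.mul_apply,
    galoisRepModuleEnd_apply, Module.End.one_apply, LinearMap.zero_apply,
    Int.cast_smul_eq_zsmul]
  exact key

/-- unipotency in the endomorphism ring of `E[p]` -/
theorem h5_sf_frob_unipotent_end (E : WeierstrassCurve ℚ) {W : WeierstrassCurve ℤ}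
    (hW : W.IsIntegralModelOf E) (ℓ : ℕ) [Fact ℓ.Prime]
    (hgood : W.IsGoodPrimeFor ℓ)
    (A : ValuationSubring (AlgebraicClosure ℚ)) (hA : A.LiesOverPrime ℓ)
    (σ : AlgebraicClosure ℚ ≃ₐ[ℚ] AlgebraicClosure ℚ) (hσ : A.IsFrobeniusAt σ ℓ)
    (p : ℕ) (hp : ¬ ℓ ∣ p) (ha : (p : ℤ) ∣ W.apOfModel ℓ - 2) (hl : (p : ℤ) ∣ (ℓ : ℤ) - 1) :
    (galoisRepModuleEnd ℚ E.toAffine p σ - 1) * (galoisRepModuleEnd ℚ E.toAffine p σ - 1) = 0 := by
  apply LinearMap.ext
  intro x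
  have key := h5_sf_frob_unipotent E hW ℓ hgood A hA σ hσ p hp ha hl x
  simp only [LinearMap.sub_apply, Module.End.mul_apply, galoisRepModuleEnd_apply,
    Module.End.one_apply, LinearMap.zero_apply, map_sub]
  rw [← key, two_smul]
  abel

end Fermat.Agent.S58
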