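import Fermat.Agent.S35
import Fermat.Agent.S54.Frob
import Fermat.Agent.S58.h82_Match
import Fermat.Agent.S58.h42_EigCharInt
import Fermat.Agent.S58.h58_ApBound
import Fermat.Agent.S58.h5_FrobRelAll

/-!
# S58, step (A2): a good prime of `W` dividing the level of the newform divides it twice (helper5)

`W` an integral Weierstrass model with `Δ ≠ 0`, `g` a newform of level `M` with
`a_ℓ(g) = a_ℓ(W)` for almost all primes `ℓ`.  If `q` is a good prime of `W` and `q ∣ M`, then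
`q² ∣ M`.

Proof (ARCH S58, (A2)): if `q ∥ M`, `S35.result` gives a `lam`-adic representation `ρ` (`lam ≠ q`
odd) attached to `g` with `charpoly ρ(Frob_q) = X² ∓ (q + 1) X + q`; the Frobenius relation at
`q` on `W[lam ^ n]` (`h5_sf_frob_rel_torsion`, every good prime) and `h82_match` give
`charpoly ρ(Frob_q) = X² - a_q(W) X + q`; so `a_q(W) = ± (q + 1)`, contradicting
`h58_ap_ne_sign`.
-/

set_option autoImplicit false

namespace Fermat.Agent.S58

open Polynomial WeierstrassCurve WeierstrassCurve.Affine ModularFormClass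

local notation "Qb" => AlgebraicClosure ℚ

/-- Comparing the linear coefficients of two monic quadratics. -/
theorem h5_quad_coeff_eq {O : Type*} [CommRing O] (a b c d : O)
    (h : (X ^ 2 - C a * X + C b : O[X]) = X ^ 2 - C c * X + C d) : a = c := by
  have h1 := congrArg (fun f : O[X] => f.coeff 1) h
  simp only [coeff_add, coeff_sub, coeff_X_pow, coeff_C_mul, coeff_X_one, coeff_C] at h1
  norm_num at h1
  exact h1

/-- (A2) for a fixed auxiliary odd prime `lam ≠ q`. -/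
theorem h5_good_sq_dvd_aux (W : WeierstrassCurve ℤ) (hΔ : W.Δ ≠ 0) {M : ℕ} [NeZero M]
    {g : CuspForm (CongruenceSubgroup.Gamma0 M) 2} (hg : g.IsNewform)
    (S₀ : Finset ℕ)
    (hgW : ∀ ℓ : ℕ, ℓ.Prime → ℓ ∉ S₀ → qCoeff g ℓ = (W.apOfModel ℓ : ℂ))
    (lam : ℕ) [Fact lam.Prime] (hlam2 : lam ≠ 2)
    (q : ℕ) (hq : q.Prime) (hqlam : q ≠ lam) (hgood : W.IsGoodPrimeFor q) (hqM : q ∣ M) :
    q ^ 2 ∣ M := by
  classical
  by_contra hq2
  have hlam : lam.Prime := Fact.out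
  have hM0 : M ≠ 0 := NeZero.ne M
  have : Fact q.Prime := ⟨hq⟩
  -- the finite set of primes
  let S : Finset ℕ := (S₀ ∪ M.primeFactors) ∪ {lam}
  have hMS : ∀ q' : ℕ, q'.Prime → q' ∣ M → q' ∈ S := fun q' hq' hq'M =>
    Finset.mem_union_left _ (Finset.mem_union_right _
      (Nat.mem_primeFactors.mpr ⟨hq', hq'M, hM0⟩))
  have hlamS : lam ∈ S := Finset.mem_union_right _ (Finset.mem_singleton_self lam)
  have ha : ∀ ℓ : ℕ, ℓ.Prime → ℓ ∉ S → qCoeff g ℓ = ((W.apOfModel ℓ : ℤ) : ℂ) :=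
    fun ℓ hℓ hℓS => hgW ℓ hℓ
      (fun h => hℓS (Finset.mem_union_left _ (Finset.mem_union_left _ h)))
  obtain ⟨chig, iota, hchig, hiota⟩ :=
    h42_eigchar_int hg.isNormalizedEigenform S hMS (fun ℓ => W.apOfModel ℓ) ha ℤ_[lam]
  have hlamO' : (lam : ℤ_[lam]) ∈ IsLocalRing.maximalIdeal ℤ_[lam] := by
    rw [PadicInt.maximalIdeal_eq_span_p]
    exact Ideal.mem_span_singleton_self _
  obtain ⟨O'', _, _, _, _, _, _, _, _, _, hinj, ρ, hρ, hρq⟩ :=
    Fermat.Agent.S35.result hg lam S ℤ_[lam] hlamO' chig hchig iota hlamS hMS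
  -- `lam` lies in the maximal ideal of `O''`
  have hlamO : (lam : O'') ∈ IsLocalRing.maximalIdeal O'' := by
    have h1 : algebraMap ℤ_[lam] O'' (lam : ℤ_[lam]) ∈ IsLocalRing.maximalIdeal O'' := by
      rw [IsLocalRing.mem_maximalIdeal, mem_nonunits_iff]
      intro hu
      have hu' : IsUnit (lam : ℤ_[lam]) := isUnit_of_map_unit (algebraMap ℤ_[lam] O'') _ hu
      exact (IsLocalRing.mem_maximalIdeal _).mp hlamO' hu'
    rwa [map_natCast] at h1
  -- the Frobenius characteristic polynomials outside `S`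
  have hρ' : ∀ ℓ : ℕ, ℓ.Prime → ℓ ∉ S → ∀ A : ValuationSubring Qb, A.LiesOverPrime ℓ →
      ∀ τ : Qb ≃ₐ[ℚ] Qb, A.IsFrobeniusAt τ ℓ →
        LinearMap.charpoly (ρ.ρ τ) =
          X ^ 2 - C ((W.apOfModel ℓ : ℤ) : O'') * X + C ((ℓ : ℕ) : O'') := by
    intro ℓ hℓ hℓS A hA τ hτ
    have hℓM : ¬ ℓ ∣ M := fun h => hℓS (hMS ℓ hℓ h)
    have hℓS' : ℓ ∉ (↑S : Set ℕ) := fun h => hℓS (Finset.mem_coe.mp h)
    rw [hρ ℓ hℓ hℓM hℓS' A hA τ hτ, hiota ℓ hℓ hℓM hℓS', map_intCast]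
  -- a Frobenius element at `q`
  obtain ⟨A, σ, hA, hσ⟩ := Fermat.Agent.S54.exists_isFrobeniusAt q hq
  have : (W.map (Int.castRingHom ℚ)).IsElliptic := h82_isElliptic W hΔ
  have hW := h82_isIntegralModelOf W
  have hqpow : ∀ k : ℕ, ¬ q ∣ lam ^ (k + 1) := fun k h =>
    hqlam ((Nat.prime_dvd_prime_iff_eq hq hlam).mp (hq.dvd_of_dvd_pow h))
  have hmatch : LinearMap.charpoly (ρ.ρ σ) =
      X ^ 2 - C ((W.apOfModel q : ℤ) : O'') * X + C ((q : ℕ) : O'') :=
    h82_match (W.map (Int.castRingHom ℚ)) hW hΔ ρ S hρ' lam hlam hlam2 hlamO σ (W.apOfModel q) q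
      (fun k P => h5_sf_frob_rel_torsion (W.map (Int.castRingHom ℚ)) hW q hgood A hA σ hσ
        (lam ^ (k + 1)) (hqpow k) (by exact_mod_cast P))
      (fun k ζ hζ => Fermat.Agent.GAL.h65_frob_root A hq hA hσ (hqpow k) hζ)
  -- compare with the `q`-clause
  have hsign : ∀ ε : ℤ, (ε = 1 ∨ ε = -1) →
      ((W.apOfModel q : ℤ) : O'') = ((ε * ((q : ℤ) + 1) : ℤ) : O'') → False := by
    intro ε hε h
    exact h58_ap_ne_sign W q ε hε (Int.cast_injective h)
  rcases hρq q hq hqlam hqM hq2 A hA σ hσ with h | h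
  · rw [hmatch] at h
    have h1 := h5_quad_coeff_eq _ _ _ _ h
    exact hsign 1 (Or.inl rfl) (by rw [h1]; push_cast; ring)
  · rw [hmatch] at h
    have h2 : (X ^ 2 + C ((q : O'') + 1) * X + C (q : O'') : O''[X]) =
        X ^ 2 - C (-((q : O'') + 1)) * X + C (q : O'') := by
      rw [C_neg]
      ring
    rw [h2] at h
    have h1 := h5_quad_coeff_eq _ _ _ _ h
    exact hsign (-1) (Or.inr rfl) (by rw [h1]; push_cast; ring)

/-- **(A2).** A good prime of `W` dividing the level `M` of a newform `g` with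
`a_ℓ(g) = a_ℓ(W)` for almost all `ℓ` divides `M` twice. -/
theorem h5_good_sq_dvd (W : WeierstrassCurve ℤ) (hΔ : W.Δ ≠ 0) {M : ℕ} [NeZero M]
    {g : CuspForm (CongruenceSubgroup.Gamma0 M) 2} (hg : g.IsNewform)
    (S₀ : Finset ℕ)
    (hgW : ∀ ℓ : ℕ, ℓ.Prime → ℓ ∉ S₀ → qCoeff g ℓ = (W.apOfModel ℓ : ℂ))
    (q : ℕ) (hq : q.Prime) (hgood : W.IsGoodPrimeFor q) (hqM : q ∣ M) : q ^ 2 ∣ M := by
  by_cases h3 : q = 3
  · have : Fact (Nat.Prime 5) := ⟨by norm_num⟩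
    exact h5_good_sq_dvd_aux W hΔ hg S₀ hgW 5 (by norm_num) q hq (by omega) hgood hqM
  · have : Fact (Nat.Prime 3) := ⟨by norm_num⟩
    exact h5_good_sq_dvd_aux W hΔ hg S₀ hgW 3 (by norm_num) q hq h3 hgood hqM

end Fermat.Agent.S58
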