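import Mathlib

/-!
# S58 / R7 (SMALL-FROB): chord and tangent formulas in fraction form (helper5)

Mathlib-only.  `W` a Weierstrass curve over a field `Ω`.  Points are tracked as
`Point.some X Y h` together with "fraction representations" `X * Xd = Xn`, `Y * Yd = Yn`
(`Xd, Yd ≠ 0`), so that every side condition of the group law becomes a polynomial identity
between numerators and denominators.

* `h5_sf_some_ext` : equality of affine points from equality of coordinates.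
* `h5_sf_dbl` : the tangent formula, slope given as a fraction `Ln / Ld`.
* `h5_sf_add` : the chord formula for two points in fraction form.
* `h5_sf_neg_rep` : fraction representation of the `y`-coordinate of the negative.
* `h5_sf_eq_pow` : comparison of a fraction with the `n`-th power of a fraction.
-/

set_option autoImplicit false
set_option linter.unusedSectionVars false

namespace Fermat.Agent.S58

open WeierstrassCurve WeierstrassCurve.Affine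

variable {Ω : Type*} [Field Ω] [DecidableEq Ω] (W : WeierstrassCurve Ω)

/-- Equality of affine points from equality of coordinates. -/
theorem h5_sf_some_ext {x y x' y' : Ω} (h : W.toAffine.Nonsingular x y)
    (h' : W.toAffine.Nonsingular x' y') (hx : x = x') (hy : y = y') :
    (Point.some x y h : W.toAffine.Point) = Point.some x' y' h' := by
  subst hx hy
  rfl

/-- Chord formula with an explicit slope. -/
theorem h5_sf_add_core {x1 y1 x2 y2 : Ω} (h1 : W.toAffine.Nonsingular x1 y1)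
    (h2 : W.toAffine.Nonsingular x2 y2) (hx : x1 ≠ x2) (L X3 Y3 : Ω)
    (hL : L * (x1 - x2) = y1 - y2)
    (hX : X3 = L ^ 2 + W.a₁ * L - W.a₂ - x1 - x2)
    (hY : Y3 = -(L * (X3 - x1) + y1) - W.a₁ * X3 - W.a₃) :
    ∃ h3 : W.toAffine.Nonsingular X3 Y3,
      (Point.some x1 y1 h1 : W.toAffine.Point) + Point.some x2 y2 h2 = Point.some X3 Y3 h3 := by
  have hs : W.toAffine.slope x1 x2 y1 y2 = L := by
    rw [slope_of_X_ne hx, div_eq_iff (sub_ne_zero.mpr hx), hL]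
  have hX' : W.toAffine.addX x1 x2 (W.toAffine.slope x1 x2 y1 y2) = X3 := by
    rw [hs, hX]
    rfl
  have hY' : W.toAffine.addY x1 x2 y1 (W.toAffine.slope x1 x2 y1 y2) = Y3 := by
    rw [addY, negAddY, hX', hs, hY]
    rfl
  have h3 : W.toAffine.Nonsingular X3 Y3 := by
    have := nonsingular_add h1 h2 (fun hxy => hx hxy.left)
    rwa [hX', hY'] at this
  exact ⟨h3, by rw [Point.add_of_X_ne hx]; exact h5_sf_some_ext W _ h3 hX' hY'⟩

/-- Tangent formula with an explicit slope. -/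
theorem h5_sf_dbl_core {x y : Ω} (h : W.toAffine.Nonsingular x y) (L X3 Y3 : Ω)
    (hD : 2 * y + W.a₁ * x + W.a₃ ≠ 0)
    (hL : L * (2 * y + W.a₁ * x + W.a₃) = 3 * x ^ 2 + 2 * W.a₂ * x + W.a₄ - W.a₁ * y)
    (hX : X3 = L ^ 2 + W.a₁ * L - W.a₂ - x - x)
    (hY : Y3 = -(L * (X3 - x) + y) - W.a₁ * X3 - W.a₃) :
    ∃ h3 : W.toAffine.Nonsingular X3 Y3,
      (Point.some x y h : W.toAffine.Point) + Point.some x y h = Point.some X3 Y3 h3 := by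
  have hy : y ≠ W.toAffine.negY x y := by
    intro h0
    apply hD
    rw [negY] at h0
    linear_combination h0
  have hd : y - W.toAffine.negY x y = 2 * y + W.a₁ * x + W.a₃ := by
    rw [negY]
    ring
  have hs : W.toAffine.slope x x y y = L := by
    rw [slope_of_Y_ne rfl hy, hd, div_eq_iff hD, hL]
  have hX' : W.toAffine.addX x x (W.toAffine.slope x x y y) = X3 := by
    rw [hs, hX]
    rfl
  have hY' : W.toAffine.addY x x y (W.toAffine.slope x x y y) = Y3 := by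
    rw [addY, negAddY, hX', hs, hY]
    rfl
  have h3 : W.toAffine.Nonsingular X3 Y3 := by
    have := nonsingular_add h h (fun hxy => hy hxy.right)
    rwa [hX', hY'] at this
  exact ⟨h3, by rw [Point.add_self_of_Y_ne hy]; exact h5_sf_some_ext W _ h3 hX' hY'⟩

/-- **Tangent formula in fraction form.**  Slope `Ln / Ld`, result `(Xn / Xd, Yn / Yd)`. -/
theorem h5_sf_dbl {x y : Ω} (h : W.toAffine.Nonsingular x y)
    (hD : 2 * y + W.a₁ * x + W.a₃ ≠ 0) (Ln Ld : Ω) (hLd : Ld ≠ 0)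
    (hL : Ln * (2 * y + W.a₁ * x + W.a₃) = Ld * (3 * x ^ 2 + 2 * W.a₂ * x + W.a₄ - W.a₁ * y))
    (Xn Xd Yn Yd : Ω) (hXd : Xd ≠ 0) (hYd : Yd ≠ 0)
    (hX : Xn * Ld ^ 2 = (Ln ^ 2 + W.a₁ * Ln * Ld - (W.a₂ + x + x) * Ld ^ 2) * Xd)
    (hY : Yn * (Ld * Xd) =
      (-(Ln * (Xn - x * Xd)) - (y * Xd + W.a₁ * Xn + W.a₃ * Xd) * Ld) * Yd) :
    ∃ (X Y : Ω) (h' : W.toAffine.Nonsingular X Y),
      (Point.some x y h : W.toAffine.Point) + Point.some x y h = Point.some X Y h' ∧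
        X * Xd = Xn ∧ Y * Yd = Yn := by
  have hLL : Ln / Ld * (2 * y + W.a₁ * x + W.a₃) =
      3 * x ^ 2 + 2 * W.a₂ * x + W.a₄ - W.a₁ * y := by
    rw [div_mul_eq_mul_div, div_eq_iff hLd, hL]
    ring
  have hXX : Xn / Xd = (Ln / Ld) ^ 2 + W.a₁ * (Ln / Ld) - W.a₂ - x - x := by
    rw [div_eq_iff hXd]
    have h1 : Xn * Ld ^ 2 = ((Ln / Ld) ^ 2 + W.a₁ * (Ln / Ld) - W.a₂ - x - x) * Xd * Ld ^ 2 := by
      rw [hX]
      field_simp
      ring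
    exact mul_right_cancel₀ (pow_ne_zero 2 hLd) h1
  have hYY : Yn / Yd = -(Ln / Ld * (Xn / Xd - x) + y) - W.a₁ * (Xn / Xd) - W.a₃ := by
    rw [div_eq_iff hYd]
    have h1 : Yn * (Ld * Xd) =
        (-(Ln / Ld * (Xn / Xd - x) + y) - W.a₁ * (Xn / Xd) - W.a₃) * Yd * (Ld * Xd) := by
      rw [hY]
      field_simp
      ring
    exact mul_right_cancel₀ (mul_ne_zero hLd hXd) h1
  obtain ⟨h3, e⟩ := h5_sf_dbl_core W h (Ln / Ld) (Xn / Xd) (Yn / Yd) hD hLL hXX hYY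
  exact ⟨Xn / Xd, Yn / Yd, h3, e, div_mul_cancel₀ _ hXd, div_mul_cancel₀ _ hYd⟩

/-- **Chord formula in fraction form.** -/
theorem h5_sf_add {x1 y1 x2 y2 : Ω} (h1 : W.toAffine.Nonsingular x1 y1)
    (h2 : W.toAffine.Nonsingular x2 y2)
    (X1n X1d Y1n Y1d X2n X2d Y2n Y2d : Ω)
    (hx1 : x1 * X1d = X1n) (hy1 : y1 * Y1d = Y1n) (hx2 : x2 * X2d = X2n) (hy2 : y2 * Y2d = Y2n)
    (hX1d : X1d ≠ 0) (hY1d : Y1d ≠ 0) (hX2d : X2d ≠ 0) (hY2d : Y2d ≠ 0)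
    (hne : X1n * X2d - X2n * X1d ≠ 0)
    (Ln Ld : Ω) (hLd : Ld ≠ 0)
    (hL : Ln * ((X1n * X2d - X2n * X1d) * (Y1d * Y2d)) =
      Ld * ((Y1n * Y2d - Y2n * Y1d) * (X1d * X2d)))
    (Xn Xd Yn Yd : Ω) (hXd : Xd ≠ 0) (hYd : Yd ≠ 0)
    (hX : Xn * (Ld ^ 2 * (X1d * X2d)) =
      ((Ln ^ 2 + W.a₁ * Ln * Ld - W.a₂ * Ld ^ 2) * (X1d * X2d)
        - (X1n * X2d + X2n * X1d) * Ld ^ 2) * Xd)
    (hY : Yn * (Ld * Xd * (X1d * Y1d)) =
      (-(Ln * (Xn * X1d - X1n * Xd) * Y1d)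
        - (Y1n * Xd * X1d + W.a₁ * Xn * X1d * Y1d + W.a₃ * Xd * X1d * Y1d) * Ld) * Yd) :
    ∃ (X Y : Ω) (h' : W.toAffine.Nonsingular X Y),
      (Point.some x1 y1 h1 : W.toAffine.Point) + Point.some x2 y2 h2 = Point.some X Y h' ∧
        X * Xd = Xn ∧ Y * Yd = Yn := by
  have ex1 : x1 = X1n / X1d := eq_div_of_mul_eq hX1d hx1
  have ey1 : y1 = Y1n / Y1d := eq_div_of_mul_eq hY1d hy1
  have ex2 : x2 = X2n / X2d := eq_div_of_mul_eq hX2d hx2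
  have ey2 : y2 = Y2n / Y2d := eq_div_of_mul_eq hY2d hy2
  have hx : x1 ≠ x2 := by
    intro h0
    apply hne
    rw [← hx1, ← hx2, h0]
    ring
  have hLL : Ln / Ld * (x1 - x2) = y1 - y2 := by
    have h0 : (Ln / Ld * (x1 - x2)) * (Ld * (X1d * X2d * (Y1d * Y2d))) =
        (y1 - y2) * (Ld * (X1d * X2d * (Y1d * Y2d))) := by
      rw [ex1, ex2, ey1, ey2]
      field_simp
      linear_combination hL
    exact mul_right_cancel₀ (mul_ne_zero hLd (mul_ne_zero (mul_ne_zero hX1d hX2d)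
      (mul_ne_zero hY1d hY2d))) h0
  have hXX : Xn / Xd = (Ln / Ld) ^ 2 + W.a₁ * (Ln / Ld) - W.a₂ - x1 - x2 := by
    rw [div_eq_iff hXd]
    have h0 : Xn * (Ld ^ 2 * (X1d * X2d)) =
        ((Ln / Ld) ^ 2 + W.a₁ * (Ln / Ld) - W.a₂ - x1 - x2) * Xd * (Ld ^ 2 * (X1d * X2d)) := by
      rw [hX, ex1, ex2]
      field_simp
      ring
    exact mul_right_cancel₀ (mul_ne_zero (pow_ne_zero 2 hLd) (mul_ne_zero hX1d hX2d)) h0
  have hYY : Yn / Yd = -(Ln / Ld * (Xn / Xd - x1) + y1) - W.a₁ * (Xn / Xd) - W.a₃ := by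
    rw [div_eq_iff hYd]
    have h0 : Yn * (Ld * Xd * (X1d * Y1d)) =
        (-(Ln / Ld * (Xn / Xd - x1) + y1) - W.a₁ * (Xn / Xd) - W.a₃) * Yd *
          (Ld * Xd * (X1d * Y1d)) := by
      rw [hY, ex1, ey1]
      field_simp
      ring
    exact mul_right_cancel₀ (mul_ne_zero (mul_ne_zero hLd hXd) (mul_ne_zero hX1d hY1d)) h0
  obtain ⟨h3, e⟩ := h5_sf_add_core W h1 h2 hx (Ln / Ld) (Xn / Xd) (Yn / Yd) hLL hXX hYY
  exact ⟨Xn / Xd, Yn / Yd, h3, e, div_mul_cancel₀ _ hXd, div_mul_cancel₀ _ hYd⟩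

/-- Fraction representation of the `y`-coordinate of the negative of a point. -/
theorem h5_sf_neg_rep {X Y Xn Xd Yn Yd Zn Zd : Ω} (hX : X * Xd = Xn) (hY : Y * Yd = Yn)
    (hXd : Xd ≠ 0) (hYd : Yd ≠ 0)
    (hZ : Zn * (Yd * Xd) = (-(Yn * Xd) - W.a₁ * Xn * Yd - W.a₃ * (Yd * Xd)) * Zd) :
    W.toAffine.negY X Y * Zd = Zn := by
  have h0 : W.toAffine.negY X Y * Zd * (Yd * Xd) = Zn * (Yd * Xd) := by
    rw [hZ, negY, ← hX, ← hY]
    ring
  exact mul_right_cancel₀ (mul_ne_zero hYd hXd) h0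

/-- Comparison of a fraction with the `n`-th power of a fraction. -/
theorem h5_sf_eq_pow {t v tn td vn vd : Ω} (n : ℕ) (ht : t * td = tn) (hv : v * vd = vn)
    (htd : td ≠ 0) (hvd : vd ≠ 0) (c : tn * vd ^ n = vn ^ n * td) : t = v ^ n := by
  have h0 : t * (td * vd ^ n) = v ^ n * (td * vd ^ n) := by
    have h1 : t * (td * vd ^ n) = tn * vd ^ n := by rw [← ht]; ring
    have h2 : v ^ n * (td * vd ^ n) = vn ^ n * td := by rw [← hv]; ring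
    rw [h1, h2, c]
  exact mul_right_cancel₀ (mul_ne_zero htd (pow_ne_zero n hvd)) h0

/-! ### Variants with the Weierstrass coefficients given by hypotheses -/

/-- The curve equation, with the coefficients given by hypotheses. -/
theorem h5_sf_eq_n {a1 a2 a3 a4 a6 : Ω} (ha1 : W.a₁ = a1) (ha2 : W.a₂ = a2) (ha3 : W.a₃ = a3)
    (ha4 : W.a₄ = a4) (ha6 : W.a₆ = a6) {x y : Ω} (h : W.toAffine.Nonsingular x y) :
    y ^ 2 + a1 * x * y + a3 * y = x ^ 3 + a2 * x ^ 2 + a4 * x + a6 := by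
  subst ha1 ha2 ha3 ha4 ha6
  exact (equation_iff x y).mp h.left

/-- `h5_sf_dbl` with the coefficients given by hypotheses. -/
theorem h5_sf_dbl_n {a1 a2 a3 a4 : Ω} (ha1 : W.a₁ = a1) (ha2 : W.a₂ = a2) (ha3 : W.a₃ = a3)
    (ha4 : W.a₄ = a4) {x y : Ω} (h : W.toAffine.Nonsingular x y)
    (hD : 2 * y + a1 * x + a3 ≠ 0) (Ln Ld : Ω) (hLd : Ld ≠ 0)
    (hL : Ln * (2 * y + a1 * x + a3) = Ld * (3 * x ^ 2 + 2 * a2 * x + a4 - a1 * y))
    (Xn Xd Yn Yd : Ω) (hXd : Xd ≠ 0) (hYd : Yd ≠ 0)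
    (hX : Xn * Ld ^ 2 = (Ln ^ 2 + a1 * Ln * Ld - (a2 + x + x) * Ld ^ 2) * Xd)
    (hY : Yn * (Ld * Xd) =
      (-(Ln * (Xn - x * Xd)) - (y * Xd + a1 * Xn + a3 * Xd) * Ld) * Yd) :
    ∃ (X Y : Ω) (h' : W.toAffine.Nonsingular X Y),
      (Point.some x y h : W.toAffine.Point) + Point.some x y h = Point.some X Y h' ∧
        X * Xd = Xn ∧ Y * Yd = Yn := by
  subst ha1 ha2 ha3 ha4
  exact h5_sf_dbl W h hD Ln Ld hLd hL Xn Xd Yn Yd hXd hYd hX hY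

/-- `h5_sf_add` with the coefficients given by hypotheses. -/
theorem h5_sf_add_n {a1 a2 a3 : Ω} (ha1 : W.a₁ = a1) (ha2 : W.a₂ = a2) (ha3 : W.a₃ = a3)
    {x1 y1 x2 y2 : Ω} (h1 : W.toAffine.Nonsingular x1 y1)
    (h2 : W.toAffine.Nonsingular x2 y2)
    (X1n X1d Y1n Y1d X2n X2d Y2n Y2d : Ω)
    (hx1 : x1 * X1d = X1n) (hy1 : y1 * Y1d = Y1n) (hx2 : x2 * X2d = X2n) (hy2 : y2 * Y2d = Y2n)
    (hX1d : X1d ≠ 0) (hY1d : Y1d ≠ 0) (hX2d : X2d ≠ 0) (hY2d : Y2d ≠ 0)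
    (hne : X1n * X2d - X2n * X1d ≠ 0)
    (Ln Ld : Ω) (hLd : Ld ≠ 0)
    (hL : Ln * ((X1n * X2d - X2n * X1d) * (Y1d * Y2d)) =
      Ld * ((Y1n * Y2d - Y2n * Y1d) * (X1d * X2d)))
    (Xn Xd Yn Yd : Ω) (hXd : Xd ≠ 0) (hYd : Yd ≠ 0)
    (hX : Xn * (Ld ^ 2 * (X1d * X2d)) =
      ((Ln ^ 2 + a1 * Ln * Ld - a2 * Ld ^ 2) * (X1d * X2d)
        - (X1n * X2d + X2n * X1d) * Ld ^ 2) * Xd)
    (hY : Yn * (Ld * Xd * (X1d * Y1d)) =
      (-(Ln * (Xn * X1d - X1n * Xd) * Y1d)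
        - (Y1n * Xd * X1d + a1 * Xn * X1d * Y1d + a3 * Xd * X1d * Y1d) * Ld) * Yd) :
    ∃ (X Y : Ω) (h' : W.toAffine.Nonsingular X Y),
      (Point.some x1 y1 h1 : W.toAffine.Point) + Point.some x2 y2 h2 = Point.some X Y h' ∧
        X * Xd = Xn ∧ Y * Yd = Yn := by
  subst ha1 ha2 ha3
  exact h5_sf_add W h1 h2 X1n X1d Y1n Y1d X2n X2d Y2n Y2d hx1 hy1 hx2 hy2 hX1d hY1d hX2d hY2d
    hne Ln Ld hLd hL Xn Xd Yn Yd hXd hYd hX hY

/-- Negation of a point in fraction form, coefficients given by hypotheses. -/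
theorem h5_sf_neg_n {a1 a3 : Ω} (ha1 : W.a₁ = a1) (ha3 : W.a₃ = a3) {X Y : Ω}
    (h : W.toAffine.Nonsingular X Y) (Xn Xd Yn Yd : Ω) (hX : X * Xd = Xn) (hY : Y * Yd = Yn)
    (hXd : Xd ≠ 0) (hYd : Yd ≠ 0) (Zn Zd : Ω)
    (hZ : Zn * (Yd * Xd) = (-(Yn * Xd) - a1 * Xn * Yd - a3 * (Yd * Xd)) * Zd) :
    ∃ (Z : Ω) (h' : W.toAffine.Nonsingular X Z),
      -(Point.some X Y h : W.toAffine.Point) = Point.some X Z h' ∧ Z * Zd = Zn := by
  subst ha1 ha3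
  exact ⟨W.toAffine.negY X Y, (nonsingular_neg X Y).mpr h, Point.neg_some h,
    h5_sf_neg_rep W hX hY hXd hYd hZ⟩

/-- Final comparison: a point equals the `n`-power Frobenius image of another one. -/
theorem h5_sf_final (n : ℕ) {Tx Ty Vx Vy : Ω} (hT : W.toAffine.Nonsingular Tx Ty)
    (hFV : W.toAffine.Nonsingular (Vx ^ n) (Vy ^ n))
    (Txn Txd Tyn Tyd Vxn Vxd Vyn Vyd : Ω)
    (hTx : Tx * Txd = Txn) (hTy : Ty * Tyd = Tyn) (hVx : Vx * Vxd = Vxn) (hVy : Vy * Vyd = Vyn)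
    (hTxd : Txd ≠ 0) (hTyd : Tyd ≠ 0) (hVxd : Vxd ≠ 0) (hVyd : Vyd ≠ 0)
    (cx : Txn * Vxd ^ n = Vxn ^ n * Txd) (cy : Tyn * Vyd ^ n = Vyn ^ n * Tyd) :
    (Point.some Tx Ty hT : W.toAffine.Point) = Point.some (Vx ^ n) (Vy ^ n) hFV :=
  h5_sf_some_ext W hT hFV (h5_sf_eq_pow n hTx hVx hTxd hVxd cx) (h5_sf_eq_pow n hTy hVy hTyd hVyd cy)

/-- The group-theoretic last step: `ℓ Q = φ (a Q - φ Q)` gives `φ² Q - a φ Q + ℓ Q = 0`. -/
theorem h5_sf_finish {A : Type*} [AddCommGroup A] (φ : A →+ A) (Q T V : A) (a l : ℤ)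
    (e1 : l • Q = T) (e2 : a • Q - φ Q = V) (e3 : φ V = T) :
    φ (φ Q) - a • φ Q + l • Q = 0 := by
  rw [e1, ← e3, ← e2, map_sub, map_zsmul]
  abel

end Fermat.Agent.S58
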