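import Mathlib
import Fermat.Prelude.Def_FLTPrelim_GaloisRep
import Fermat.Prelude.Def_FLTPrelim_Ramification
import Fermat.Agent.S40.h57_EFinal
import Fermat.Agent.S41.h70_P2

/-!
# S58, row R1 (FIX), the good-reduction branch

For an integral Weierstrass model `W`, a prime `q ∤ Δ(W)` and a place `A` of `ℚ̄` over `q`:

* `h79_fixed_of_good` : every torsion point of order prime to `q` is fixed by the inertia
  group of `A`;
* `h79_exists_exact_order` : an elliptic curve over an algebraically closed field of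
  characteristic zero has a point of exact order `p ^ (k + 1)` (`p` an odd prime);
* `h79_un_fix_good` : the conclusion of `h45_un_fix` at a prime of good reduction.
-/

set_option autoImplicit false

namespace Fermat.Agent.S58

open WeierstrassCurve WeierstrassCurve.Affine Fermat.Agent.S05 Fermat.Agent.S40

local notation "Qb" => AlgebraicClosure ℚ

/-- At a prime of good reduction, inertia fixes every torsion point of order prime to the
residue characteristic. -/
theorem h79_fixed_of_good (W : WeierstrassCurve ℤ) {q : ℕ} (hq : q.Prime)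
    (hgood : ¬ (q : ℤ) ∣ W.Δ) (A : ValuationSubring Qb) (hA : A.LiesOverPrime q) {n : ℕ}
    (hn : ¬ q ∣ n) (P : (h57_EQb W).toAffine.Point) (hP : n • P = 0)
    (τ : Qb ≃ₐ[ℚ] Qb) (hτ : τ ∈ A.inertiaSubgroupIn ℚ) : τ • P = P := by
  have : Fact q.Prime := ⟨hq⟩
  have hW := h57_EQb_integral W A
  have h1 := h57_inertia_sub_mem_E1 W q hgood A hA hτ P
  have hnA : (n : Qb) ∉ A.nonunits := by
    rw [h26_natCast_mem_nonunits_iff A hq hA]
    exact hn
  have hz : τ • (0 : (h57_EQb W).toAffine.Point) = 0 := rfl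
  have h0 : n • (τ • P - P) = 0 := by
    rw [nsmul_sub, ← h57_smul_nsmul, hP, hz, sub_zero]
  exact sub_eq_zero.mp (h86_E1_nsmul_eq_zero A (h57_EQb W) hW h1 hnA h0)

section exact

variable {K : Type*} [Field K] [DecidableEq K] [IsAlgClosed K] [CharZero K]

/-- `#E[p ^ j] = p ^ (2 j)` for an odd prime `p`. -/
theorem h79_card_torsion_pow (W : WeierstrassCurve K) [W.IsElliptic] {p : ℕ} (hp : p.Prime)
    (hp2 : p ≠ 2) (j : ℕ) :
    Nat.card (Submodule.torsionBy ℤ W.toAffine.Point ((p ^ j : ℕ) : ℤ)) = p ^ (2 * j) := by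
  rcases Nat.eq_zero_or_pos j with rfl | hj
  · have hbot : Submodule.torsionBy ℤ W.toAffine.Point ((p ^ 0 : ℕ) : ℤ) = ⊥ := by
      rw [pow_zero, Nat.cast_one]
      exact Submodule.torsionBy_one
    rw [hbot]
    simp
  · have hodd : p ^ j % 2 = 1 := Nat.odd_iff.mp ((hp.odd_of_ne_two hp2).pow)
    have h3 : 3 ≤ p ^ j := by
      have h3p : 3 ≤ p := by
        have := hp.two_le
        omega
      calc 3 ≤ p := h3p
        _ = p ^ 1 := (pow_one p).symm
        _ ≤ p ^ j := Nat.pow_le_pow_right hp.pos hj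
    rw [Fermat.Agent.S41.h70_card_torsionBy W hodd h3, ← pow_mul, mul_comm]

/-- A point of exact order `p ^ (k + 1)`. -/
theorem h79_exists_exact_order (W : WeierstrassCurve K) [W.IsElliptic] {p : ℕ} (hp : p.Prime)
    (hp2 : p ≠ 2) (k : ℕ) :
    ∃ P : W.toAffine.Point, p ^ (k + 1) • P = 0 ∧ p ^ k • P ≠ 0 := by
  by_contra hno
  have hall : ∀ P : W.toAffine.Point, p ^ (k + 1) • P = 0 → p ^ k • P = 0 := by
    intro P hP
    by_contra h
    exact hno ⟨P, hP, h⟩
  have hle : Submodule.torsionBy ℤ W.toAffine.Point ((p ^ (k + 1) : ℕ) : ℤ) ≤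
      Submodule.torsionBy ℤ W.toAffine.Point ((p ^ k : ℕ) : ℤ) := by
    intro P hP
    rw [Submodule.mem_torsionBy_iff, natCast_zsmul] at hP ⊢
    exact hall P hP
  have hge : Submodule.torsionBy ℤ W.toAffine.Point ((p ^ k : ℕ) : ℤ) ≤
      Submodule.torsionBy ℤ W.toAffine.Point ((p ^ (k + 1) : ℕ) : ℤ) := by
    intro P hP
    rw [Submodule.mem_torsionBy_iff, natCast_zsmul] at hP ⊢
    rw [pow_succ, mul_comm, mul_smul, hP, smul_zero]
  have heq := le_antisymm hle hge
  have h1 := h79_card_torsion_pow W hp hp2 (k + 1)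
  have h2 := h79_card_torsion_pow W hp hp2 k
  rw [heq, h2] at h1
  exact absurd h1 (ne_of_lt (Nat.pow_lt_pow_right hp.one_lt (by omega)))

end exact

/-- **S58 row R1 (FIX), good reduction.** A point of exact order `p ^ (k + 1)` fixed by the
inertia group at a prime `q ≠ p` of good reduction. -/
theorem h79_un_fix_good (W : WeierstrassCurve ℤ) {p q : ℕ} (hp : p.Prime) (hp2 : p ≠ 2)
    (hq : q.Prime) (hqp : q ≠ p) (hgood : ¬ (q : ℤ) ∣ W.Δ) (A : ValuationSubring Qb)
    (hA : A.LiesOverPrime q) (k : ℕ) :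
    ∃ P : ((W.map (Int.castRingHom ℚ)).toAffine⁄Qb).Point,
      p ^ (k + 1) • P = 0 ∧ p ^ k • P ≠ 0 ∧ ∀ τ ∈ A.inertiaSubgroupIn ℚ, τ • P = P := by
  have hΔ : W.Δ ≠ 0 := fun h => hgood (h ▸ dvd_zero _)
  have hell : (h57_EQb W).IsElliptic := by
    refine ⟨?_⟩
    rw [h57_EQb_Δ]
    exact isUnit_iff_ne_zero.mpr (by exact_mod_cast hΔ)
  obtain ⟨P, h1, h2⟩ := h79_exists_exact_order (h57_EQb W) hp hp2 k
  refine ⟨P, h1, h2, fun τ hτ => h79_fixed_of_good W hq hgood A hA ?_ P h1 τ hτ⟩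
  intro hdvd
  exact hqp ((Nat.prime_dvd_prime_iff_eq hq hp).mp (hq.dvd_of_dvd_pow hdvd))

end Fermat.Agent.S58
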