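import Mathlib

/-
helper7, project S58, row R3 (HRES), abstract core (Mathlib only).

`X` a plane over `ZMod p` (`p` odd) with an irreducible action of a group `G`, `c ∈ G` an
involution, `ε : G →* ZMod p` with `ε c = -1`, and for every `σ` a relation
`σ² - D σ · σ + ε σ = 0` on `X`.  If a representation `R` of `G` on a vector space `Y'` over a
field `k'` of characteristic `p` satisfies the same quadratic relations (for instance: `Y'` of
rank two with `tr R σ = D σ`, `det R σ = ε σ`), then `R` has no common eigenvector.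

Exports (namespace `Fermat.Agent.S58`):
* `h7_hc_not_scalar` : the involution `c` is not a scalar on `X`;
* `h7_hc_basis`      : an eigenbasis of `c` on `X`;
* `h7_hc_X`          : the diagonal entries `a, δ` of `σ` in that basis: `D σ = a σ + δ σ`,
                       `D (c σ) = a σ - δ σ`, neither `a` nor `δ` is multiplicative;
* `h7_hc_char`       : a common eigenvector gives a multiplicative eigenvalue function;
* `h7_hres_core`     : the statement above.
-/

set_option autoImplicit false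

namespace Fermat.Agent.S58

section XSide

variable {p : ℕ} [Fact p.Prime] {G : Type*} [Group G] {X : Type*} [AddCommGroup X]
  [Module (ZMod p) X] [DistribMulAction G X]

theorem h7_hc_two_ne_zero (hp2 : p ≠ 2) : (2 : ZMod p) ≠ 0 := by
  intro h
  have h2 : ((2 : ℕ) : ZMod p) = 0 := by exact_mod_cast h
  rw [ZMod.natCast_eq_zero_iff] at h2
  have hp : p.Prime := Fact.out
  exact hp2 ((Nat.prime_dvd_prime_iff_eq hp Nat.prime_two).mp h2)

/-- The involution is not a scalar on `X`. -/
theorem h7_hc_not_scalar (hp2 : p ≠ 2)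
    (hcomm : ∀ (σ : G) (u : ZMod p) (x : X), σ • (u • x) = u • σ • x)
    (hcard : Nat.card X = p ^ 2)
    (hirr : ∀ N : Submodule (ZMod p) X, (∀ σ : G, ∀ x ∈ N, σ • x ∈ N) → N = ⊥ ∨ N = ⊤)
    (c : G) (hc : c * c = 1) (D : G → ZMod p) (ε : G →* ZMod p) (hεc : ε c = -1)
    (hrel : ∀ (σ : G) (x : X), σ • σ • x - D σ • σ • x + ε σ • x = 0)
    (s : ZMod p) (hs : ∀ x : X, c • x = s • x) : False := by
  have hp : p.Prime := Fact.out
  have h2 : (2 : ZMod p) ≠ 0 := h7_hc_two_ne_zero hp2
  have hfin : Finite X := Nat.finite_of_card_ne_zero (by rw [hcard]; exact pow_ne_zero 2 hp.ne_zero)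
  have hnt : Nontrivial X := by
    rw [← Finite.one_lt_card_iff_nontrivial, hcard]
    exact Nat.one_lt_pow (by norm_num) hp.one_lt
  obtain ⟨x0, hx0⟩ := exists_ne (0 : X)
  -- `s * s = 1`
  have hss : s * s = 1 := by
    have h1 : c • c • x0 = x0 := by rw [← mul_smul, hc, one_smul]
    rw [hs, hs, ← mul_smul] at h1
    have h3 : (s * s - 1) • x0 = 0 := by
      rw [sub_smul, one_smul, h1, sub_self]
    rcases smul_eq_zero.mp h3 with h | h
    · exact sub_eq_zero.mp h
    · exact absurd h hx0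
  have hε0 : ∀ σ : G, ε σ ≠ 0 := by
    intro σ h
    have h1 : ε σ * ε σ⁻¹ = 1 := by rw [← map_mul, mul_inv_cancel, map_one]
    rw [h, zero_mul] at h1
    exact zero_ne_one h1
  -- every `σ` is a scalar
  have hscal : ∀ σ : G, ∃ t : ZMod p, ∀ x : X, σ • x = t • x := by
    intro σ
    have key : ∀ x : X, (D (c * σ) * s - D σ) • σ • x + (2 * ε σ) • x = 0 := by
      intro x
      have h1 := hrel σ x
      have h3 := hrel (c * σ) x
      have e1 : ∀ y : X, (c * σ) • y = s • σ • y := fun y => by rw [mul_smul, hs]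
      rw [e1, e1, hcomm, map_mul, hεc] at h3
      generalize σ • σ • x = A at h1 h3
      generalize σ • x = B at h1 h3 ⊢
      linear_combination (norm := module) h1 - h3 + hss • A
    by_cases ht : D (c * σ) * s - D σ = 0
    · exfalso
      have h1 := key x0
      rw [ht, zero_smul, zero_add] at h1
      rcases smul_eq_zero.mp h1 with h | h
      · exact (mul_ne_zero h2 (hε0 σ)) h
      · exact hx0 h
    · refine ⟨-(2 * ε σ) / (D (c * σ) * s - D σ), fun x => ?_⟩
      have h1 := key x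
      have h3 : (D (c * σ) * s - D σ) • σ • x =
          (D (c * σ) * s - D σ) • ((-(2 * ε σ) / (D (c * σ) * s - D σ)) • x) := by
        rw [← mul_smul, mul_div_cancel₀ _ ht]
        generalize σ • x = B at h1 ⊢
        linear_combination (norm := module) h1
      exact smul_right_injective X ht h3
  -- the line through `x0` is stable
  have hstab : ∀ σ : G, ∀ x ∈ Submodule.span (ZMod p) {x0}, σ • x ∈ Submodule.span (ZMod p) {x0} := by
    intro σ x hx
    obtain ⟨t, ht⟩ := hscal σ
    rw [ht]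
    exact Submodule.smul_mem _ _ hx
  rcases hirr _ hstab with h | h
  · have : x0 ∈ Submodule.span (ZMod p) {x0} := Submodule.mem_span_singleton_self x0
    rw [h, Submodule.mem_bot] at this
    exact hx0 this
  · have hsurj : Function.Surjective (fun u : ZMod p => u • x0) := by
      intro x
      have : x ∈ Submodule.span (ZMod p) {x0} := by rw [h]; exact Submodule.mem_top
      exact Submodule.mem_span_singleton.mp this
    have hle := Nat.card_le_card_of_surjective _ hsurj
    rw [hcard, Nat.card_zmod] at hle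
    have : p * p ≤ p * 1 := by rw [mul_one, ← pow_two]; exact hle
    have := Nat.le_of_mul_le_mul_left this hp.pos
    exact absurd hp.one_lt (by omega)

/-- An eigenbasis of the involution. -/
theorem h7_hc_basis (hp2 : p ≠ 2)
    (hcomm : ∀ (σ : G) (u : ZMod p) (x : X), σ • (u • x) = u • σ • x)
    (hcard : Nat.card X = p ^ 2) (c : G) (hc : c * c = 1)
    (hns : ¬ ∃ s : ZMod p, ∀ x : X, c • x = s • x) :
    ∃ e₁ e₂ : X, c • e₁ = e₁ ∧ c • e₂ = -e₂ ∧
      (∀ x : X, ∃ u v : ZMod p, x = u • e₁ + v • e₂) ∧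
      (∀ u v u' v' : ZMod p, u • e₁ + v • e₂ = u' • e₁ + v' • e₂ → u = u' ∧ v = v') := by
  have hp : p.Prime := Fact.out
  have h2 : (2 : ZMod p) ≠ 0 := h7_hc_two_ne_zero hp2
  have hfin : Finite X := Nat.finite_of_card_ne_zero (by rw [hcard]; exact pow_ne_zero 2 hp.ne_zero)
  have hcc : ∀ x : X, c • c • x = x := fun x => by rw [← mul_smul, hc, one_smul]
  obtain ⟨x1, hx1⟩ : ∃ x1 : X, c • x1 - x1 ≠ 0 := by
    by_contra h
    push Not at h
    exact hns ⟨1, fun x => by rw [one_smul]; exact sub_eq_zero.mp (h x)⟩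
  obtain ⟨x2, hx2⟩ : ∃ x2 : X, c • x2 + x2 ≠ 0 := by
    by_contra h
    push Not at h
    exact hns ⟨-1, fun x => by rw [neg_smul, one_smul]; exact eq_neg_of_add_eq_zero_left (h x)⟩
  have he1 : c • (c • x2 + x2) = c • x2 + x2 := by rw [smul_add, hcc, add_comm]
  have he2 : c • (c • x1 - x1) = -(c • x1 - x1) := by rw [smul_sub, hcc, neg_sub]
  generalize c • x2 + x2 = E1 at he1 hx2
  generalize c • x1 - x1 = E2 at he2 hx1
  have huniq : ∀ u v u' v' : ZMod p, u • E1 + v • E2 = u' • E1 + v' • E2 → u = u' ∧ v = v' := by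
    intro u v u' v' h
    have h' : c • (u • E1 + v • E2) = c • (u' • E1 + v' • E2) := by rw [h]
    rw [smul_add, smul_add, hcomm, hcomm, hcomm, hcomm, he1, he2] at h'
    constructor
    · have h3 : (2 * (u - u')) • E1 = 0 := by
        linear_combination (norm := module) h + h'
      rcases smul_eq_zero.mp h3 with h4 | h4
      · rcases mul_eq_zero.mp h4 with h5 | h5
        · exact absurd h5 h2
        · exact sub_eq_zero.mp h5
      · exact absurd h4 hx2
    · have h3 : (2 * (v - v')) • E2 = 0 := by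
        linear_combination (norm := module) h - h'
      rcases smul_eq_zero.mp h3 with h4 | h4
      · rcases mul_eq_zero.mp h4 with h5 | h5
        · exact absurd h5 h2
        · exact sub_eq_zero.mp h5
      · exact absurd h4 hx1
  refine ⟨E1, E2, he1, he2, ?_, huniq⟩
  have hinj : Function.Injective (fun uv : ZMod p × ZMod p => uv.1 • E1 + uv.2 • E2) := by
    rintro ⟨u, v⟩ ⟨u', v'⟩ h
    obtain ⟨h1, h3⟩ := huniq u v u' v' h
    rw [h1, h3]
  have hbij := hinj.bijective_of_nat_card_le (by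
    rw [hcard, Nat.card_prod, Nat.card_zmod, pow_two])
  intro x
  obtain ⟨⟨u, v⟩, huv⟩ := hbij.2 x
  exact ⟨u, v, huv.symm⟩

/-- The diagonal entries of the action in an eigenbasis of the involution. -/
theorem h7_hc_X (hp2 : p ≠ 2)
    (hcomm : ∀ (σ : G) (u : ZMod p) (x : X), σ • (u • x) = u • σ • x)
    (hcard : Nat.card X = p ^ 2)
    (hirr : ∀ N : Submodule (ZMod p) X, (∀ σ : G, ∀ x ∈ N, σ • x ∈ N) → N = ⊥ ∨ N = ⊤)
    (c : G) (hc : c * c = 1) (D : G → ZMod p) (ε : G →* ZMod p) (hεc : ε c = -1)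
    (hrel : ∀ (σ : G) (x : X), σ • σ • x - D σ • σ • x + ε σ • x = 0) :
    ∃ a δ : G → ZMod p, (∀ σ, D σ = a σ + δ σ) ∧ (∀ σ, D (c * σ) = a σ - δ σ) ∧
      ((∀ σ τ, a (σ * τ) = a σ * a τ) → False) ∧ ((∀ σ τ, δ (σ * τ) = δ σ * δ τ) → False) := by
  have hp : p.Prime := Fact.out
  have h2 : (2 : ZMod p) ≠ 0 := h7_hc_two_ne_zero hp2
  have hns : ¬ ∃ s : ZMod p, ∀ x : X, c • x = s • x := fun ⟨s, hs⟩ =>
    h7_hc_not_scalar hp2 hcomm hcard hirr c hc D ε hεc hrel s hs
  obtain ⟨e₁, e₂, he1, he2, hspan, huniq⟩ := h7_hc_basis hp2 hcomm hcard c hc hns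
  have he1_ne : e₁ ≠ 0 := by
    intro h
    have h3 : (1 : ZMod p) • e₁ + (0 : ZMod p) • e₂ = (0 : ZMod p) • e₁ + (0 : ZMod p) • e₂ := by
      rw [h]; simp
    exact one_ne_zero (huniq _ _ _ _ h3).1
  have he2_ne : e₂ ≠ 0 := by
    intro h
    have h3 : (0 : ZMod p) • e₁ + (1 : ZMod p) • e₂ = (0 : ZMod p) • e₁ + (0 : ZMod p) • e₂ := by
      rw [h]; simp
    exact one_ne_zero (huniq _ _ _ _ h3).2
  choose a γ hσ1 using fun σ : G => hspan (σ • e₁)
  choose β δ hσ2 using fun σ : G => hspan (σ • e₂)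
  -- the action in coordinates
  have hact : ∀ (σ : G) (u v : ZMod p), σ • (u • e₁ + v • e₂) =
      (u * a σ + v * β σ) • e₁ + (u * γ σ + v * δ σ) • e₂ := by
    intro σ u v
    rw [smul_add, hcomm, hcomm, hσ1, hσ2]
    module
  have huniq0 : ∀ u v : ZMod p, u • e₁ + v • e₂ = 0 → u = 0 ∧ v = 0 := by
    intro u v h
    exact huniq u v 0 0 (by rw [h, zero_smul, zero_smul, add_zero])
  -- products
  have hmul : ∀ σ τ : G, a (σ * τ) = a τ * a σ + γ τ * β σ ∧ γ (σ * τ) = a τ * γ σ + γ τ * δ σ ∧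
      β (σ * τ) = β τ * a σ + δ τ * β σ ∧ δ (σ * τ) = β τ * γ σ + δ τ * δ σ := by
    intro σ τ
    have h1 : (σ * τ) • e₁ = (a τ * a σ + γ τ * β σ) • e₁ + (a τ * γ σ + γ τ * δ σ) • e₂ := by
      rw [mul_smul, hσ1 τ, hact]
    have h3 : (σ * τ) • e₂ = (β τ * a σ + δ τ * β σ) • e₁ + (β τ * γ σ + δ τ * δ σ) • e₂ := by
      rw [mul_smul, hσ2 τ, hact]
    rw [hσ1 (σ * τ)] at h1
    rw [hσ2 (σ * τ)] at h3
    obtain ⟨h4, h5⟩ := huniq _ _ _ _ h1
    obtain ⟨h6, h7⟩ := huniq _ _ _ _ h3
    exact ⟨h4, h5, h6, h7⟩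
  -- the involution in coordinates
  have hca : ∀ σ : G, a (c * σ) = a σ ∧ γ (c * σ) = -γ σ ∧ β (c * σ) = β σ ∧ δ (c * σ) = -δ σ := by
    intro σ
    have h1 : (c * σ) • e₁ = a σ • e₁ + (-γ σ) • e₂ := by
      rw [mul_smul, hσ1 σ, smul_add, hcomm, hcomm, he1, he2]
      module
    have h3 : (c * σ) • e₂ = β σ • e₁ + (-δ σ) • e₂ := by
      rw [mul_smul, hσ2 σ, smul_add, hcomm, hcomm, he1, he2]
      module
    rw [hσ1 (c * σ)] at h1
    rw [hσ2 (c * σ)] at h3
    obtain ⟨h4, h5⟩ := huniq _ _ _ _ h1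
    obtain ⟨h6, h7⟩ := huniq _ _ _ _ h3
    exact ⟨h4, h5, h6, h7⟩
  -- the quadratic relation in coordinates
  have hR : ∀ σ : G, a σ * a σ + γ σ * β σ - D σ * a σ + ε σ = 0 ∧
      γ σ * (a σ + δ σ - D σ) = 0 ∧ β σ * (a σ + δ σ - D σ) = 0 ∧
      β σ * γ σ + δ σ * δ σ - D σ * δ σ + ε σ = 0 := by
    intro σ
    have h1 := hrel σ e₁
    have h3 := hrel σ e₂
    rw [hσ1 σ, hact] at h1
    rw [hσ2 σ, hact] at h3
    have h1' : (a σ * a σ + γ σ * β σ - D σ * a σ + ε σ) • e₁ +
        (γ σ * (a σ + δ σ - D σ)) • e₂ = 0 := by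
      linear_combination (norm := module) h1
    have h3' : (β σ * (a σ + δ σ - D σ)) • e₁ +
        (β σ * γ σ + δ σ * δ σ - D σ * δ σ + ε σ) • e₂ = 0 := by
      linear_combination (norm := module) h3
    obtain ⟨h4, h5⟩ := huniq0 _ _ h1'
    obtain ⟨h6, h7⟩ := huniq0 _ _ h3'
    exact ⟨h4, h5, h6, h7⟩
  -- `σ` does not kill `e₁`
  have hane : ∀ σ : G, a σ = 0 → γ σ = 0 → False := by
    intro σ h1 h3
    have h4 : σ • e₁ = 0 := by rw [hσ1 σ, h1, h3, zero_smul, zero_smul, add_zero]
    have h5 : σ⁻¹ • σ • e₁ = e₁ := by rw [← mul_smul, inv_mul_cancel, one_smul]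
    rw [h4, smul_zero] at h5
    exact he1_ne h5.symm
  -- the trace
  have hD : ∀ σ : G, D σ = a σ + δ σ := by
    intro σ
    obtain ⟨r1, r2, r3, r4⟩ := hR σ
    by_cases hγ : γ σ = 0
    · by_cases hβ : β σ = 0
      · by_cases had : a σ = δ σ
        · -- the scalar case
          have hs0 : a σ ≠ 0 := fun h => hane σ h hγ
          obtain ⟨c1, c2, c3, c4⟩ := hca σ
          obtain ⟨q1, -, -, q4⟩ := hR (c * σ)
          rw [c1, c2, c3, map_mul, hεc] at q1
          rw [c2, c3, c4, map_mul, hεc] at q4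
          have hD0 : D (c * σ) = 0 := by
            have h5 : (2 * a σ) * D (c * σ) = 0 := by
              linear_combination q4 - q1 + (a σ + δ σ + D (c * σ)) * had
            rcases mul_eq_zero.mp h5 with h6 | h6
            · rcases mul_eq_zero.mp h6 with h7 | h7
              · exact absurd h7 h2
              · exact absurd h7 hs0
            · exact h6
          have h8 : a σ * D σ = a σ * (a σ + δ σ) := by
            linear_combination (-1 : ZMod p) * r1 - q1 + a σ * had - a σ * hD0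
          exact mul_left_cancel₀ hs0 h8
        · have h5 : (a σ - δ σ) * (a σ + δ σ - D σ) = 0 := by
            rw [hγ, hβ] at r1 r4
            linear_combination r1 - r4
          rcases mul_eq_zero.mp h5 with h6 | h6
          · exact absurd (sub_eq_zero.mp h6) had
          · exact (sub_eq_zero.mp h6).symm
      · rcases mul_eq_zero.mp r3 with h6 | h6
        · exact absurd h6 hβ
        · exact (sub_eq_zero.mp h6).symm
    · rcases mul_eq_zero.mp r2 with h6 | h6
      · exact absurd h6 hγ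
      · exact (sub_eq_zero.mp h6).symm
  -- stable lines
  have hline1 : (∀ σ : G, γ σ = 0) → False := by
    intro hγ
    have hstab : ∀ σ : G, ∀ x ∈ Submodule.span (ZMod p) {e₁},
        σ • x ∈ Submodule.span (ZMod p) {e₁} := by
      intro σ x hx
      obtain ⟨u, rfl⟩ := Submodule.mem_span_singleton.mp hx
      rw [hcomm, hσ1 σ, hγ σ, zero_smul, add_zero]
      exact Submodule.smul_mem _ _ (Submodule.smul_mem _ _ (Submodule.mem_span_singleton_self e₁))
    rcases hirr _ hstab with h | h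
    · have : e₁ ∈ Submodule.span (ZMod p) {e₁} := Submodule.mem_span_singleton_self e₁
      rw [h, Submodule.mem_bot] at this
      exact he1_ne this
    · have : e₂ ∈ Submodule.span (ZMod p) {e₁} := by rw [h]; exact Submodule.mem_top
      obtain ⟨u, hu⟩ := Submodule.mem_span_singleton.mp this
      have h3 : u • e₁ + (0 : ZMod p) • e₂ = (0 : ZMod p) • e₁ + (1 : ZMod p) • e₂ := by
        rw [hu]; simp
      exact zero_ne_one (huniq _ _ _ _ h3).2
  have hline2 : (∀ σ : G, β σ = 0) → False := by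
    intro hβ
    have hstab : ∀ σ : G, ∀ x ∈ Submodule.span (ZMod p) {e₂},
        σ • x ∈ Submodule.span (ZMod p) {e₂} := by
      intro σ x hx
      obtain ⟨u, rfl⟩ := Submodule.mem_span_singleton.mp hx
      rw [hcomm, hσ2 σ, hβ σ, zero_smul, zero_add]
      exact Submodule.smul_mem _ _ (Submodule.smul_mem _ _ (Submodule.mem_span_singleton_self e₂))
    rcases hirr _ hstab with h | h
    · have : e₂ ∈ Submodule.span (ZMod p) {e₂} := Submodule.mem_span_singleton_self e₂
      rw [h, Submodule.mem_bot] at this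
      exact he2_ne this
    · have : e₁ ∈ Submodule.span (ZMod p) {e₂} := by rw [h]; exact Submodule.mem_top
      obtain ⟨u, hu⟩ := Submodule.mem_span_singleton.mp this
      have h3 : (0 : ZMod p) • e₁ + u • e₂ = (1 : ZMod p) • e₁ + (0 : ZMod p) • e₂ := by
        rw [hu]; simp
      exact zero_ne_one (huniq _ _ _ _ h3).1
  have hfinal : (∀ σ τ : G, γ τ * β σ = 0) → False := by
    intro h
    by_cases hγ : ∀ σ : G, γ σ = 0
    · exact hline1 hγ
    · push Not at hγ
      obtain ⟨τ, hτ⟩ := hγ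
      exact hline2 fun σ => (mul_eq_zero.mp (h σ τ)).resolve_left hτ
  refine ⟨a, δ, hD, fun σ => ?_, fun ha => ?_, fun hδ => ?_⟩
  · obtain ⟨c1, -, -, c4⟩ := hca σ
    rw [hD (c * σ), c1, c4]
    ring
  · refine hfinal fun σ τ => ?_
    have h1 := (hmul σ τ).1
    rw [ha σ τ] at h1
    linear_combination (-1 : ZMod p) * h1
  · refine hfinal fun σ τ => ?_
    have h1 := (hmul τ σ).2.2.2
    rw [hδ τ σ] at h1
    linear_combination (-1 : ZMod p) * h1

end XSide

section YSide

variable {G : Type*} [Group G] {k' : Type*} [Field k'] {Y' : Type*} [AddCommGroup Y'] [Module k' Y']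

/-- A common eigenvector of a representation satisfying quadratic relations gives a
multiplicative eigenvalue function whose values are roots of the quadratics. -/
theorem h7_hc_char (R : G →* Module.End k' Y') (T Dt : G → k')
    (hCH : ∀ (σ : G) (y : Y'), R σ (R σ y) - T σ • R σ y + Dt σ • y = 0)
    (u : Y') (hu : u ≠ 0) (hstab : ∀ σ : G, ∃ l : k', R σ u = l • u) :
    ∃ χ : G → k', (∀ σ τ, χ (σ * τ) = χ σ * χ τ) ∧ χ 1 = 1 ∧
      ∀ σ, χ σ * χ σ - T σ * χ σ + Dt σ = 0 := by
  choose χ hχ using hstab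
  have hinj : ∀ x y : k', x • u = y • u → x = y := by
    intro x y h
    have h1 : (x - y) • u = 0 := by rw [sub_smul, h, sub_self]
    rcases smul_eq_zero.mp h1 with h2 | h2
    · exact sub_eq_zero.mp h2
    · exact absurd h2 hu
  refine ⟨χ, fun σ τ => ?_, ?_, fun σ => ?_⟩
  · apply hinj
    rw [← hχ (σ * τ), map_mul, Module.End.mul_apply, hχ τ, map_smul, hχ σ, smul_smul, mul_comm]
  · apply hinj
    rw [← hχ 1, map_one, Module.End.one_apply, one_smul]
  · have h1 := hCH σ u
    rw [hχ σ, map_smul, hχ σ] at h1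
    have h2 : (χ σ * χ σ - T σ * χ σ + Dt σ) • u = 0 := by
      linear_combination (norm := module) h1
    rcases smul_eq_zero.mp h2 with h3 | h3
    · exact h3
    · exact absurd h3 hu

end YSide

section Core

variable {p : ℕ} [Fact p.Prime] {G : Type*} [Group G] {X : Type*} [AddCommGroup X]
  [Module (ZMod p) X] [DistribMulAction G X]

/-- **Core of (HRES).**  An irreducible plane `X` over `ZMod p` with an involution `c`,
`ε c = -1`, and quadratic relations `σ² - D σ · σ + ε σ = 0`; a representation `R` over a field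
`k'` of characteristic `p` with the same relations has no common eigenvector. -/
theorem h7_hres_core (hp2 : p ≠ 2)
    (hcomm : ∀ (σ : G) (u : ZMod p) (x : X), σ • (u • x) = u • σ • x)
    (hcard : Nat.card X = p ^ 2)
    (hirr : ∀ N : Submodule (ZMod p) X, (∀ σ : G, ∀ x ∈ N, σ • x ∈ N) → N = ⊥ ∨ N = ⊤)
    (c : G) (hc : c * c = 1) (D : G → ZMod p) (ε : G →* ZMod p) (hεc : ε c = -1)
    (hrel : ∀ (σ : G) (x : X), σ • σ • x - D σ • σ • x + ε σ • x = 0)
    {k' : Type*} [Field k'] (ι : ZMod p →+* k')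
    {Y' : Type*} [AddCommGroup Y'] [Module k' Y'] (R : G →* Module.End k' Y')
    (hCH : ∀ (σ : G) (y : Y'), R σ (R σ y) - ι (D σ) • R σ y + ι (ε σ) • y = 0)
    (u : Y') (hu : u ≠ 0) (hstab : ∀ σ : G, ∃ l : k', R σ u = l • u) : False := by
  obtain ⟨a, δ, hD, hDc, ha, hδ⟩ := h7_hc_X hp2 hcomm hcard hirr c hc D ε hεc hrel
  obtain ⟨χ, hχmul, hχ1, hχq⟩ := h7_hc_char R (fun σ => ι (D σ)) (fun σ => ι (ε σ)) hCH u hu hstab
  have hι : Function.Injective ι := ι.injective
  have h2 : (2 : k') ≠ 0 := by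
    have h := h7_hc_two_ne_zero (p := p) hp2
    intro h0
    apply h
    apply hι
    rw [map_ofNat, map_zero]
    exact h0
  have hχc : χ c * χ c = 1 := by rw [← hχmul, hc, hχ1]
  have hχne : ∀ σ : G, χ σ ≠ 0 := by
    intro σ h
    have h1 : χ σ * χ σ⁻¹ = 1 := by rw [← hχmul, mul_inv_cancel, hχ1]
    rw [h, zero_mul] at h1
    exact zero_ne_one h1
  -- the key identity
  have key : ∀ σ : G, ι (D σ) + χ c * ι (D (c * σ)) = 2 * χ σ := by
    intro σ
    have q1 := hχq σ
    have q2 := hχq (c * σ)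
    simp only [hχmul, map_mul, hεc, map_neg, map_one] at q2
    have h3 : χ σ * (ι (D σ) + χ c * ι (D (c * σ))) = χ σ * (2 * χ σ) := by
      linear_combination (-1 : k') * q1 - q2 + (χ σ * χ σ) * hχc
    exact mul_left_cancel₀ (hχne σ) h3
  have hcase : χ c = 1 ∨ χ c = -1 := by
    have h : (χ c - 1) * (χ c + 1) = 0 := by linear_combination hχc
    rcases mul_eq_zero.mp h with h | h
    · exact Or.inl (sub_eq_zero.mp h)
    · exact Or.inr (eq_neg_of_add_eq_zero_left h)
  rcases hcase with h1 | h1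
  · -- `χ = a`
    have hχa : ∀ σ : G, χ σ = ι (a σ) := by
      intro σ
      have h3 := key σ
      rw [h1, one_mul, ← map_add, hD σ, hDc σ] at h3
      have h4 : (2 : k') * ι (a σ) = 2 * χ σ := by
        rw [← h3, ← map_ofNat ι 2, ← map_mul]
        congr 1
        ring
      exact (mul_left_cancel₀ h2 h4).symm
    refine ha fun σ τ => ?_
    apply hι
    rw [map_mul, ← hχa, ← hχa, ← hχa, hχmul]
  · -- `χ = δ`
    have hχδ : ∀ σ : G, χ σ = ι (δ σ) := by
      intro σ
      have h3 := key σ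
      rw [h1, neg_one_mul, ← sub_eq_add_neg, ← map_sub, hD σ, hDc σ] at h3
      have h4 : (2 : k') * ι (δ σ) = 2 * χ σ := by
        rw [← h3, ← map_ofNat ι 2, ← map_mul]
        congr 1
        ring
      exact (mul_left_cancel₀ h2 h4).symm
    refine hδ fun σ τ => ?_
    apply hι
    rw [map_mul, ← hχδ, ← hχδ, ← hχδ, hχmul]

end Core

end Fermat.Agent.S58
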