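import Mathlib
import Fermat.Prelude.Def_GaloisRep_Adic
import Fermat.Prelude.Def_FLTPrelim_ModularRep
import Fermat.Agent.S58.h7_HresCore
import Fermat.Agent.S58.h82_Transfer
import Fermat.Agent.S58.h82_Match
import Fermat.Agent.S58.h58_Inv
import Fermat.Agent.GAL.h47_ComplexConj

/-
helper7, project S58, row R3 (HRES).

`W` an integral Weierstrass model with `W[p]` irreducible (`p` odd), `ρ` an adic representation
over a local ring `O` of residue characteristic `p` with the characteristic polynomials
`X² - a_ℓ(W) X + ℓ` at the Frobenius elements outside a finite set.  Then the residual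
representation of `ρ` is absolutely irreducible and odd.

Export (namespace `Fermat.Agent.S58`): `h7_hres`.
-/

set_option autoImplicit false
set_option linter.unusedSectionVars false
set_option linter.unusedVariables false

namespace Fermat.Agent.S58

open Polynomial WeierstrassCurve WeierstrassCurve.Affine
open scoped TensorProduct

local notation "Qb" => AlgebraicClosure ℚ

section Residual

variable {O : Type} [CommRing O] [IsLocalRing O]

theorem h7_res_trace (ρ : GaloisRepAdic O) (σ : Qb ≃ₐ[ℚ] Qb) :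
    LinearMap.trace (IsLocalRing.ResidueField O) ρ.residual.V (ρ.residual.ρ σ) =
      IsLocalRing.residue O (LinearMap.trace O ρ.V (ρ.ρ σ)) := by
  show LinearMap.trace (IsLocalRing.ResidueField O) (IsLocalRing.ResidueField O ⊗[O] ρ.V)
    ((ρ.ρ σ).baseChange (IsLocalRing.ResidueField O)) = _
  rw [LinearMap.trace_baseChange]
  rfl

theorem h7_res_det (ρ : GaloisRepAdic O) (σ : Qb ≃ₐ[ℚ] Qb) :
    LinearMap.det (ρ.residual.ρ σ) = IsLocalRing.residue O (LinearMap.det (ρ.ρ σ)) := by
  show LinearMap.det ((ρ.ρ σ).baseChange (IsLocalRing.ResidueField O)) = _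
  rw [LinearMap.det_baseChange]
  rfl

theorem h7_res_of_sub_mem (x y : O) (h : x - y ∈ IsLocalRing.maximalIdeal O ^ 1) :
    IsLocalRing.residue O x = IsLocalRing.residue O y := by
  rw [pow_one] at h
  rw [← sub_eq_zero, ← map_sub]
  exact (IsLocalRing.residue_eq_zero_iff _).mpr h

end Residual

section Top

/-- The Galois action on the torsion commutes with the `ZMod p`-scalars. -/
theorem h7_smul_comm (E : WeierstrassCurve ℚ) (p : ℕ) [NeZero p] (σ : Qb ≃ₐ[ℚ] Qb) (u : ZMod p)
    (x : Submodule.torsionBy ℤ (E.toAffine⁄Qb).Point p) : σ • (u • x) = u • σ • x := by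
  have h1 : ∀ (n : ℕ) (y : Submodule.torsionBy ℤ (E.toAffine⁄Qb).Point ((p : ℕ) : ℤ)),
      (n : ZMod p) • y = n • y := fun n y => Nat.cast_smul_eq_nsmul (ZMod p) n y
  have h2 : u = ((u.val : ℕ) : ZMod p) := (ZMod.natCast_zmod_val u).symm
  rw [h2, h1, h1]
  exact map_nsmul (DistribSMul.toAddMonoidHom _ σ) _ _

/-- **(HRES)**: the residual representation is absolutely irreducible and odd. -/
theorem h7_hres (W : WeierstrassCurve ℤ) (hΔ : W.Δ ≠ 0) (p : ℕ) [Fact p.Prime] (hp2 : p ≠ 2)
    (hirr : W.ModRepIsIrreducible p)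
    {O : Type} [CommRing O] [IsLocalRing O] (hpO : (p : O) ∈ IsLocalRing.maximalIdeal O)
    (ρ : GaloisRepAdic O) (S : Finset ℕ)
    (hρ : ∀ ℓ : ℕ, ℓ.Prime → ℓ ∉ S → ∀ A : ValuationSubring Qb, A.LiesOverPrime ℓ →
      ∀ τ : Qb ≃ₐ[ℚ] Qb, A.IsFrobeniusAt τ ℓ →
        LinearMap.charpoly (ρ.ρ τ) = X ^ 2 - C ((W.apOfModel ℓ : ℤ) : O) * X + C ((ℓ : ℕ) : O)) :
    ρ.residual.IsAbsolutelyIrreducible ∧ ρ.residual.IsOdd := by
  classical
  have hp : p.Prime := Fact.out
  have hodd : p % 2 = 1 := (hp.eq_two_or_odd).resolve_left hp2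
  have hp3 : 3 ≤ p := by
    have := hp.two_le
    omega
  have hE : (W.map (Int.castRingHom ℚ)).IsElliptic := h82_isElliptic W hΔ
  have hW := h82_isIntegralModelOf W
  -- the transfer at level `p`
  choose Dz ez hrelz htr hdet hcyc using fun σ : Qb ≃ₐ[ℚ] Qb =>
    h82_transfer (W.map (Int.castRingHom ℚ)) hW hΔ ρ S hρ p hodd hp3 1 p hp.pos σ
  obtain ⟨ζ, hζ⟩ := h82_exists_primitive_root p hp.pos
  have hcast : ∀ a b : ℕ, ζ ^ a = ζ ^ b → (a : ZMod p) = (b : ZMod p) := by
    intro a b h
    have h1 := h82_dvd_of_pow_eq hp.pos hζ h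
    have h2 : (((a : ℤ) - (b : ℤ) : ℤ) : ZMod p) = 0 :=
      (ZMod.intCast_zmod_eq_zero_iff_dvd _ p).mpr h1
    push_cast at h2
    exact sub_eq_zero.mp h2
  -- the cyclotomic character modulo `p`
  let ε : (Qb ≃ₐ[ℚ] Qb) →* ZMod p :=
    { toFun := fun σ => (ez σ : ZMod p)
      map_one' := by
        have h := hcyc 1 ζ hζ.pow_eq_one
        rw [AlgEquiv.one_apply] at h
        have h1 := hcast 1 (ez 1) (by rw [pow_one]; exact h)
        rw [Nat.cast_one] at h1
        exact h1.symm
      map_mul' := fun σ τ => by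
        have h1 := hcyc (σ * τ) ζ hζ.pow_eq_one
        rw [AlgEquiv.mul_apply, hcyc τ ζ hζ.pow_eq_one, map_pow, hcyc σ ζ hζ.pow_eq_one,
          ← pow_mul] at h1
        have h2 := hcast _ _ h1
        rw [Nat.cast_mul] at h2
        exact h2.symm }
  have hε : ∀ σ, ε σ = (ez σ : ZMod p) := fun σ => rfl
  -- the residue field has characteristic `p`
  have hpk : (p : IsLocalRing.ResidueField O) = 0 := by
    have h := (IsLocalRing.residue_eq_zero_iff (p : O)).mpr hpO
    rwa [map_natCast] at h
  have hchar : CharP (IsLocalRing.ResidueField O) p := (CharP.charP_iff_prime_eq_zero hp).mpr hpk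
  let ι : ZMod p →+* IsLocalRing.ResidueField O := ZMod.castHom (dvd_refl p) _
  -- traces and determinants of the residual representation
  have htrk : ∀ σ, LinearMap.trace (IsLocalRing.ResidueField O) ρ.residual.V (ρ.residual.ρ σ) =
      ι ((Dz σ : ℤ) : ZMod p) := by
    intro σ
    rw [h7_res_trace, h7_res_of_sub_mem _ _ (htr σ), map_intCast, map_intCast]
  have hdetk : ∀ σ, LinearMap.det (ρ.residual.ρ σ) = ι (ε σ) := by
    intro σ
    rw [h7_res_det, h7_res_of_sub_mem _ _ (hdet σ), hε, map_natCast, map_natCast]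
  -- automorphisms inverting `ζ`
  have hinv : ∀ c : Qb ≃ₐ[ℚ] Qb, c ζ * ζ = 1 → ε c = -1 := by
    intro c h1
    rw [hcyc c ζ hζ.pow_eq_one, ← pow_succ] at h1
    have h2 := hcast (ez c + 1) 0 (by rw [h1, pow_zero])
    rw [Nat.cast_add, Nat.cast_one, Nat.cast_zero] at h2
    rw [hε]
    exact eq_neg_of_add_eq_zero_left h2
  refine ⟨?_, ?_⟩
  · -- absolute irreducibility
    intro U hU
    by_contra hne
    push Not at hne
    obtain ⟨hbot, htop⟩ := hne
    -- complex conjugation
    obtain ⟨c, hc, hcroot⟩ := Fermat.Agent.GAL.h47_exists_complexConj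
    have hζ0 : ζ ≠ 0 := hζ.ne_zero hp.ne_zero
    have hεc : ε c = -1 := by
      apply hinv
      rw [hcroot ζ p hp.ne_zero hζ.pow_eq_one, inv_mul_cancel₀ hζ0]
    -- a common eigenvector
    obtain ⟨u, huU, hu0⟩ := Submodule.exists_mem_ne_zero_of_ne_bot hbot
    have hfin2 := (ρ.residual.baseChange (AlgebraicClosure (IsLocalRing.ResidueField O))).finrank_eq
    have hlt := Submodule.finrank_lt htop
    rw [hfin2] at hlt
    have hpos : Module.finrank (AlgebraicClosure (IsLocalRing.ResidueField O)) U ≠ 0 := by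
      intro h0
      exact hbot (Submodule.finrank_eq_zero.mp h0)
    have hone : Module.finrank (AlgebraicClosure (IsLocalRing.ResidueField O)) U = 1 := by omega
    have hspan := (finrank_eq_one_iff_of_nonzero' (⟨u, huU⟩ : U)
      (fun h => hu0 (congrArg Subtype.val h))).mp hone
    have hstab : ∀ σ : Qb ≃ₐ[ℚ] Qb, ∃ l : AlgebraicClosure (IsLocalRing.ResidueField O),
        (ρ.residual.baseChange (AlgebraicClosure (IsLocalRing.ResidueField O))).ρ σ u = l • u := by
      intro σ
      obtain ⟨l, hl⟩ := hspan ⟨_, hU σ u huU⟩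
      exact ⟨l, (congrArg Subtype.val hl).symm⟩
    -- Cayley-Hamilton on the base change
    have hCH : ∀ (σ : Qb ≃ₐ[ℚ] Qb)
        (y : (ρ.residual.baseChange (AlgebraicClosure (IsLocalRing.ResidueField O))).V),
        (ρ.residual.baseChange (AlgebraicClosure (IsLocalRing.ResidueField O))).ρ σ
          ((ρ.residual.baseChange (AlgebraicClosure (IsLocalRing.ResidueField O))).ρ σ y) -
        ((algebraMap (IsLocalRing.ResidueField O)
          (AlgebraicClosure (IsLocalRing.ResidueField O))).comp ι) ((Dz σ : ℤ) : ZMod p) •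
          (ρ.residual.baseChange (AlgebraicClosure (IsLocalRing.ResidueField O))).ρ σ y +
        ((algebraMap (IsLocalRing.ResidueField O)
          (AlgebraicClosure (IsLocalRing.ResidueField O))).comp ι) (ε σ) • y = 0 := by
      intro σ y
      have h1 := h82_cayley_hamilton hfin2
        ((ρ.residual.baseChange (AlgebraicClosure (IsLocalRing.ResidueField O))).ρ σ)
      have htr' : LinearMap.trace (AlgebraicClosure (IsLocalRing.ResidueField O))
          (ρ.residual.baseChange (AlgebraicClosure (IsLocalRing.ResidueField O))).V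
          ((ρ.residual.baseChange (AlgebraicClosure (IsLocalRing.ResidueField O))).ρ σ) =
          algebraMap (IsLocalRing.ResidueField O) (AlgebraicClosure (IsLocalRing.ResidueField O))
            (ι ((Dz σ : ℤ) : ZMod p)) := by
        rw [← htrk σ]
        exact LinearMap.trace_baseChange (ρ.residual.ρ σ)
          (AlgebraicClosure (IsLocalRing.ResidueField O))
      have hdet' : LinearMap.det
          ((ρ.residual.baseChange (AlgebraicClosure (IsLocalRing.ResidueField O))).ρ σ) =
          algebraMap (IsLocalRing.ResidueField O) (AlgebraicClosure (IsLocalRing.ResidueField O))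
            (ι (ε σ)) := by
        rw [← hdetk σ]
        exact LinearMap.det_baseChange (ρ.residual.ρ σ)
      rw [htr', hdet'] at h1
      have h2 := congrArg (fun f => f y) h1
      simpa using h2
    -- the relations on the torsion
    have hrel : ∀ (σ : Qb ≃ₐ[ℚ] Qb)
        (x : Submodule.torsionBy ℤ ((W.map (Int.castRingHom ℚ)).toAffine⁄Qb).Point p),
        σ • σ • x - ((Dz σ : ℤ) : ZMod p) • σ • x + ε σ • x = 0 := by
      intro σ x
      have h1 := hrelz σ x
      rw [hε, Int.cast_smul_eq_zsmul, Nat.cast_smul_eq_nsmul, ← natCast_zsmul]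
      exact h1
    have hcard : Nat.card (Submodule.torsionBy ℤ
        ((W.map (Int.castRingHom ℚ)).toAffine⁄Qb).Point p) = p ^ 2 :=
      Fermat.Agent.S41.h70_card_torsionBy
        ((W.map (Int.castRingHom ℚ)).map (algebraMap ℚ (AlgebraicClosure ℚ))) hodd hp3
    exact h7_hres_core hp2 (h7_smul_comm _ p) hcard (fun N hN => hirr.2 N hN) c hc
      (fun σ => ((Dz σ : ℤ) : ZMod p)) ε hεc hrel
      ((algebraMap (IsLocalRing.ResidueField O)
        (AlgebraicClosure (IsLocalRing.ResidueField O))).comp ι)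
      (ρ.residual.baseChange (AlgebraicClosure (IsLocalRing.ResidueField O))).ρ hCH u hu0 hstab
  · -- oddness
    intro c hc hc1
    rw [hdetk, hinv c (h58_involution_root c hc hc1 p hp.ne_zero ζ hζ.pow_eq_one), map_neg,
      map_one]

end Top

end Fermat.Agent.S58
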