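import Mathlib
import Fermat.Prelude.Def_FLTPrelim_Modularity
import Fermat.Prelude.Def_ModularForm_HeckeOperator
import Fermat.Agent.S23.h97_LevelRaise

/-
helper7, project S58, row R8 (STABILISE).

For a normalized eigenform `g` of level `Γ₀(M)` (weight 2) and a prime `q ∤ M`, the form
`g' := g - β · g(q z)` (`β` a root of `X² - a_q X + q`) is a normalized eigenform of level
`Γ₀(M q)` with the same coefficients at all primes `ℓ ≠ q`.

Exports (namespace `Fermat.Agent.S58`):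
* `h7_st_V`        : `f(z) ↦ f(q z)`, `S_k(Γ₀(M)) → S_k(Γ₀(M q))`;
* `h7_st_incl`     : the inclusion `S_k(Γ₀(M)) → S_k(Γ₀(M q))`;
* `h7_st_qCoeff_V`, `h7_st_qCoeff_incl` : their q-coefficients;
* `h7_stabilise`   : the statement above.
-/

set_option autoImplicit false

open UpperHalfPlane ModularForm Filter Topology CongruenceSubgroup
open scoped MatrixGroups ModularForm Manifold Pointwise

namespace Fermat.Agent.S58

open Fermat.Agent.S23

/-- `Γ₀(M q)` is contained in the conjugate `α⁻¹ Γ₀(M) α`, `α = diag(q, 1)`. -/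
theorem h7_st_Gamma0_le_conj (M q : ℕ) [NeZero q] :
    ((Gamma0 (M * q) : Subgroup SL(2, ℤ)) : Subgroup (GL (Fin 2) ℝ)) ≤
      ConjAct.toConjAct (heckeDiagMatrix q)⁻¹ •
        ((Gamma0 M : Subgroup SL(2, ℤ)) : Subgroup (GL (Fin 2) ℝ)) := by
  rintro _ ⟨γ, hγ, rfl⟩
  rw [Subgroup.mem_pointwise_smul_iff_inv_smul_mem, ← map_inv, inv_inv, ConjAct.smul_def,
    ConjAct.ofConjAct_toConjAct]
  have hdvd : ((M * q : ℕ) : ℤ) ∣ γ 1 0 := by
    have := Gamma0_mem.mp hγ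
    exact (ZMod.intCast_zmod_eq_zero_iff_dvd _ _).mp this
  have hq : (q : ℤ) ∣ γ 1 0 := dvd_trans ⟨(M : ℤ), by push_cast; ring⟩ hdvd
  have hq0 : (q : ℤ) ≠ 0 := by exact_mod_cast NeZero.ne q
  refine ⟨h97_conjSL q γ hq, ?_, ?_⟩
  · rw [SetLike.mem_coe, Gamma0_mem, ZMod.intCast_zmod_eq_zero_iff_dvd]
    have h10 : ((h97_conjSL q γ hq) 1 0 : ℤ) = γ 1 0 / q := by simp [h97_conjSL]
    rw [h10]
    obtain ⟨c, hc⟩ := hdvd
    rw [hc]
    refine ⟨c, ?_⟩
    push_cast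
    rw [mul_comm (M : ℤ) (q : ℤ), mul_assoc, Int.mul_ediv_cancel_left _ hq0]
  · rw [eq_mul_inv_iff_mul_eq]
    exact h97_conjSL_mul q γ hq

theorem h7_st_Gamma0_le (M q : ℕ) :
    ((Gamma0 (M * q) : Subgroup SL(2, ℤ)) : Subgroup (GL (Fin 2) ℝ)) ≤
      ((Gamma0 M : Subgroup SL(2, ℤ)) : Subgroup (GL (Fin 2) ℝ)) := by
  rintro _ ⟨γ, hγ, rfl⟩
  refine ⟨γ, ?_, rfl⟩
  have h1 := Gamma0_mem.mp hγ
  rw [ZMod.intCast_zmod_eq_zero_iff_dvd] at h1
  rw [SetLike.mem_coe, Gamma0_mem, ZMod.intCast_zmod_eq_zero_iff_dvd]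
  exact dvd_trans ⟨(q : ℤ), by push_cast; ring⟩ h1

theorem h7_st_VFun_slash (M q : ℕ) [NeZero q] {k : ℤ} {F : Type*} [FunLike F ℍ ℂ]
    [SlashInvariantFormClass F ((Gamma0 M : Subgroup SL(2, ℤ)) : Subgroup (GL (Fin 2) ℝ)) k]
    (f : F) (γ : GL (Fin 2) ℝ)
    (hγ : γ ∈ ((Gamma0 (M * q) : Subgroup SL(2, ℤ)) : Subgroup (GL (Fin 2) ℝ))) :
    (fun τ => f (heckeDiagMatrix q • τ)) ∣[k] γ = fun τ => f (heckeDiagMatrix q • τ) := by
  rw [h97_levelRaiseFun_eq q k]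
  have h1 := (SlashInvariantForm.translate f (heckeDiagMatrix q)).slash_action_eq' γ
    (h7_st_Gamma0_le_conj M q hγ)
  have h2 : (⇑f ∣[k] heckeDiagMatrix q) ∣[k] γ = ⇑f ∣[k] heckeDiagMatrix q := h1
  obtain ⟨γ', -, rfl⟩ := hγ
  have h3 : (((q : ℂ) ^ (1 - k)) • (⇑f ∣[k] heckeDiagMatrix q)) ∣[k]
      (Matrix.SpecialLinearGroup.mapGL ℝ γ') = ((q : ℂ) ^ (1 - k)) •
        ((⇑f ∣[k] heckeDiagMatrix q) ∣[k] (Matrix.SpecialLinearGroup.mapGL ℝ γ')) :=
    ModularForm.SL_smul_slash k γ' (⇑f ∣[k] heckeDiagMatrix q) ((q : ℂ) ^ (1 - k))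
  rw [h3, h2]

/-- `f(z) ↦ f(q z)` from level `Γ₀(M)` to level `Γ₀(M q)`, for cusp forms. -/
noncomputable def h7_st_V (M q : ℕ) [NeZero q] {k : ℤ}
    (f : CuspForm ((Gamma0 M : Subgroup SL(2, ℤ)) : Subgroup (GL (Fin 2) ℝ)) k) :
    CuspForm ((Gamma0 (M * q) : Subgroup SL(2, ℤ)) : Subgroup (GL (Fin 2) ℝ)) k where
  toFun := fun τ => f (heckeDiagMatrix q • τ)
  slash_action_eq' := h7_st_VFun_slash M q f
  holo' := h97_levelRaiseFun_mdiff q k f.holo'
  zero_at_cusps' := by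
    intro c hc g hg
    have h1 := (CuspForm.translate f (heckeDiagMatrix q)).zero_at_cusps'
      (hc.mono (h7_st_Gamma0_le_conj M q)) g hg
    have h2 : IsZeroAtImInfty ((⇑f ∣[k] heckeDiagMatrix q) ∣[k] g) := h1
    show IsZeroAtImInfty ((fun τ => f (heckeDiagMatrix q • τ)) ∣[k] g)
    rw [h97_levelRaiseFun_eq q k, ModularForm.smul_slash]
    exact h2.smul _

theorem h7_st_V_apply (M q : ℕ) [NeZero q] {k : ℤ}
    (f : CuspForm ((Gamma0 M : Subgroup SL(2, ℤ)) : Subgroup (GL (Fin 2) ℝ)) k) (τ : ℍ) :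
    h7_st_V M q f τ = f (heckeDiagMatrix q • τ) := rfl

/-- The inclusion of level `Γ₀(M)` into level `Γ₀(M q)`, for cusp forms. -/
noncomputable def h7_st_incl (M q : ℕ) {k : ℤ}
    (f : CuspForm ((Gamma0 M : Subgroup SL(2, ℤ)) : Subgroup (GL (Fin 2) ℝ)) k) :
    CuspForm ((Gamma0 (M * q) : Subgroup SL(2, ℤ)) : Subgroup (GL (Fin 2) ℝ)) k where
  toFun := f
  slash_action_eq' := fun γ hγ => f.slash_action_eq' γ (h7_st_Gamma0_le M q hγ)
  holo' := f.holo'
  zero_at_cusps' := fun hc g hg => f.zero_at_cusps' (hc.mono (h7_st_Gamma0_le M q)) g hg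

theorem h7_st_incl_apply (M q : ℕ) {k : ℤ}
    (f : CuspForm ((Gamma0 M : Subgroup SL(2, ℤ)) : Subgroup (GL (Fin 2) ℝ)) k) (τ : ℍ) :
    h7_st_incl M q f τ = f τ := rfl

/-! ### q-expansions -/

theorem h7_st_one_mem_strictPeriods (N : ℕ) :
    (1 : ℝ) ∈ ((Gamma0 N : Subgroup SL(2, ℤ)) : Subgroup (GL (Fin 2) ℝ)).strictPeriods := by
  simp

theorem h7_st_hasSum_VFun (M q : ℕ) [NeZero q] {k : ℤ} {F : Type*} [FunLike F ℍ ℂ]
    [ModularFormClass F ((Gamma0 M : Subgroup SL(2, ℤ)) : Subgroup (GL (Fin 2) ℝ)) k]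
    (f : F) (τ : ℍ) :
    HasSum (fun n : ℕ => (if q ∣ n then (qExpansion 1 f).coeff (n / q) else 0) •
      Function.Periodic.qParam 1 τ ^ n) (f (heckeDiagMatrix q • τ)) := by
  have hN : q ≠ 0 := NeZero.ne q
  have : Fact (IsCusp OnePoint.infty
      ((Gamma0 M : Subgroup SL(2, ℤ)) : Subgroup (GL (Fin 2) ℝ))) :=
    ⟨Subgroup.isCusp_of_mem_strictPeriods one_pos (h7_st_one_mem_strictPeriods M)⟩
  have h1 := ModularForm.hasSum_qExpansion f one_pos (h7_st_one_mem_strictPeriods M)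
    (heckeDiagMatrix q • τ)
  have hq : Function.Periodic.qParam 1 ((heckeDiagMatrix q • τ : ℍ) : ℂ) =
      Function.Periodic.qParam 1 (τ : ℂ) ^ q := by
    rw [coe_heckeDiagMatrix_smul hN, Function.Periodic.qParam, Function.Periodic.qParam,
      ← Complex.exp_nat_mul]
    congr 1
    push_cast
    ring
  rw [hq] at h1
  have hinj : Function.Injective (fun m : ℕ => q * m) := fun a b hab =>
    Nat.eq_of_mul_eq_mul_left (Nat.pos_of_ne_zero hN) hab
  refine (hinj.hasSum_iff ?_).mp ?_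
  · intro n hn
    have hnd : ¬ q ∣ n := fun ⟨m, hm⟩ => hn ⟨m, hm.symm⟩
    simp [hnd]
  · convert h1 using 2 with m
    simp only [Function.comp_apply, dvd_mul_right, if_true, Nat.mul_div_cancel_left _
      (Nat.pos_of_ne_zero hN), smul_eq_mul, pow_mul]

open ModularFormClass in
/-- q-coefficients of `f(q z)`. -/
theorem h7_st_qCoeff_V (M q : ℕ) [NeZero q] {k : ℤ}
    (f : CuspForm ((Gamma0 M : Subgroup SL(2, ℤ)) : Subgroup (GL (Fin 2) ℝ)) k) (n : ℕ) :
    qCoeff (h7_st_V M q f) n = if q ∣ n then qCoeff f (n / q) else 0 :=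
  (ModularFormClass.qExpansion_coeff_unique one_pos (h7_st_one_mem_strictPeriods (M * q))
    (f := h7_st_V M q f) (fun τ => h7_st_hasSum_VFun M q f τ) n).symm

open ModularFormClass in
/-- q-coefficients of the inclusion. -/
theorem h7_st_qCoeff_incl (M q : ℕ) {k : ℤ}
    (f : CuspForm ((Gamma0 M : Subgroup SL(2, ℤ)) : Subgroup (GL (Fin 2) ℝ)) k) (n : ℕ) :
    qCoeff (h7_st_incl M q f) n = qCoeff f n := rfl

/-- The form `f - β f(q z)` of level `Γ₀(M q)`. -/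
noncomputable def h7_st_stab (M q : ℕ) [NeZero q] {k : ℤ}
    (f : CuspForm ((Gamma0 M : Subgroup SL(2, ℤ)) : Subgroup (GL (Fin 2) ℝ)) k) (β : ℂ) :
    CuspForm ((Gamma0 (M * q) : Subgroup SL(2, ℤ)) : Subgroup (GL (Fin 2) ℝ)) k :=
  h7_st_incl M q f - β • h7_st_V M q f

theorem h7_st_stab_apply (M q : ℕ) [NeZero q] {k : ℤ}
    (f : CuspForm ((Gamma0 M : Subgroup SL(2, ℤ)) : Subgroup (GL (Fin 2) ℝ)) k) (β : ℂ) (τ : ℍ) :
    h7_st_stab M q f β τ = f τ - β * f (heckeDiagMatrix q • τ) := rfl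

open ModularFormClass in
/-- q-coefficients of `f - β f(q z)`. -/
theorem h7_st_qCoeff_stab (M q : ℕ) [NeZero q] {k : ℤ}
    (f : CuspForm ((Gamma0 M : Subgroup SL(2, ℤ)) : Subgroup (GL (Fin 2) ℝ)) k) (β : ℂ) (n : ℕ) :
    qCoeff (h7_st_stab M q f β) n =
      qCoeff f n - β * (if q ∣ n then qCoeff f (n / q) else 0) := by
  have h1 : ∀ τ : ℍ, HasSum (fun n : ℕ => (qCoeff f n - β * (if q ∣ n then qCoeff f (n / q) else 0)) •
      Function.Periodic.qParam 1 τ ^ n) (h7_st_stab M q f β τ) := by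
    intro τ
    have : Fact (IsCusp OnePoint.infty
        ((Gamma0 M : Subgroup SL(2, ℤ)) : Subgroup (GL (Fin 2) ℝ))) :=
      ⟨Subgroup.isCusp_of_mem_strictPeriods one_pos (h7_st_one_mem_strictPeriods M)⟩
    have ha := ModularForm.hasSum_qExpansion f one_pos (h7_st_one_mem_strictPeriods M) τ
    have hb := (h7_st_hasSum_VFun M q f τ).mul_left β
    have hc := ha.sub hb
    rw [h7_st_stab_apply]
    have hfun : (fun n : ℕ => (qCoeff f n - β * (if q ∣ n then qCoeff f (n / q) else 0)) •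
        Function.Periodic.qParam 1 τ ^ n) = fun b : ℕ =>
          (qExpansion 1 f).coeff b * Function.Periodic.qParam 1 τ ^ b -
          β * ((if q ∣ b then (qExpansion 1 f).coeff (b / q) else 0) •
            Function.Periodic.qParam 1 τ ^ b) := by
      funext m
      simp only [qCoeff, smul_eq_mul]
      ring
    rw [hfun]
    exact hc
  exact (ModularFormClass.qExpansion_coeff_unique one_pos (h7_st_one_mem_strictPeriods (M * q))
    (f := h7_st_stab M q f β) h1 n).symm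

/-! ### the stabilised eigenform -/

open ModularFormClass in
/-- **Stabilisation** (row R8): a normalized eigenform of level `Γ₀(M)` and a prime `q ∤ M` give
a normalized eigenform of level `Γ₀(M q)` with the same coefficients at all primes `ℓ ≠ q`. -/
theorem h7_stabilise {M : ℕ} [NeZero M] (g : CuspForm (CongruenceSubgroup.Gamma0 M) 2)
    (hg : g.IsNormalizedEigenform) (q : ℕ) (hq : q.Prime) (hqM : ¬ q ∣ M) :
    ∃ g' : CuspForm (CongruenceSubgroup.Gamma0 (M * q)) 2, g'.IsNormalizedEigenform ∧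
      ∀ ℓ : ℕ, ℓ.Prime → ℓ ≠ q → qCoeff g' ℓ = qCoeff g ℓ := by
  have : NeZero q := ⟨hq.ne_zero⟩
  -- a root `β` of `X² - a_q X + q`
  obtain ⟨β, α, hαβ, hsum⟩ : ∃ β α : ℂ, α * β = (q : ℂ) ∧ α + β = qCoeff g q := by
    obtain ⟨z, hz⟩ := IsAlgClosed.exists_pow_nat_eq (qCoeff g q ^ 2 - 4 * (q : ℂ)) (n := 2)
      (by norm_num)
    refine ⟨(qCoeff g q + z) / 2, qCoeff g q - (qCoeff g q + z) / 2, ?_, by ring⟩
    linear_combination (-1 / 4 : ℂ) * hz
  have hα : α = qCoeff g q - β := by rw [← hsum]; ring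
  -- the coefficients of the stabilised form
  have hco : ∀ n : ℕ, qCoeff (h7_st_stab M q g β) n =
      qCoeff g n - β * (if q ∣ n then qCoeff g (n / q) else 0) :=
    fun n => h7_st_qCoeff_stab M q g β n
  have hco_not : ∀ n : ℕ, ¬ q ∣ n → qCoeff (h7_st_stab M q g β) n =
      qCoeff g n := by
    intro n hn
    rw [hco, if_neg hn, mul_zero, sub_zero]
  have hco_dvd : ∀ m : ℕ, qCoeff (h7_st_stab M q g β) (q * m) =
      qCoeff g (q * m) - β * qCoeff g m := by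
    intro m
    rw [hco, if_pos (dvd_mul_right q m), Nat.mul_div_cancel_left _ hq.pos]
  have hnd_pow : ∀ (p : ℕ), p.Prime → p ≠ q → ∀ k : ℕ, ¬ q ∣ p ^ k := by
    intro p hp hpq k hdvd
    exact hpq ((Nat.prime_dvd_prime_iff_eq hq hp).mp (hq.dvd_of_dvd_pow hdvd)).symm
  -- powers of `q`
  have hqpow : ∀ k : ℕ, qCoeff (h7_st_stab M q g β) (q ^ (k + 1)) =
      α ^ (k + 1) := by
    intro k
    have h1 : ∀ k : ℕ, qCoeff g (q ^ (k + 1)) - β * qCoeff g (q ^ k) = α ^ (k + 1) := by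
      intro k
      induction k with
      | zero =>
        rw [zero_add, pow_one, pow_zero, hg.qCoeff_one, pow_one, hα]
        ring
      | succ k ih =>
        have hrec := hg.qCoeff_prime_pow_of_not_dvd q k hq hqM
        rw [show k + 1 + 1 = k + 2 from rfl, hrec, pow_succ α (k + 1), ← ih, ← hsum]
        linear_combination (qCoeff g (q ^ k)) * hαβ
    rw [pow_succ' q k, hco_dvd, ← pow_succ' q k]
    exact h1 k
  refine ⟨h7_st_stab M q g β, ⟨?_, ?_, ?_, ?_⟩, ?_⟩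
  · -- a_1 = 1
    rw [hco_not 1 (fun h => hq.one_lt.ne' (Nat.dvd_one.mp h)), hg.qCoeff_one]
  · -- coprime multiplicativity
    intro m n hmn
    by_cases hm : q ∣ m
    · obtain ⟨m', rfl⟩ := hm
      have hn : ¬ q ∣ n := fun hn =>
        hq.one_lt.ne' (Nat.eq_one_of_dvd_coprimes hmn (dvd_mul_right q m') hn)
      have hmn' : m'.Coprime n := Nat.Coprime.coprime_dvd_left (dvd_mul_left m' q) hmn
      rw [mul_assoc, hco_dvd, hco_dvd, hco_not n hn, ← mul_assoc,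
        hg.qCoeff_mul_of_coprime _ _ hmn, hg.qCoeff_mul_of_coprime _ _ hmn']
      ring
    · by_cases hn : q ∣ n
      · obtain ⟨n', rfl⟩ := hn
        have hmn' : m.Coprime n' := Nat.Coprime.coprime_dvd_right (dvd_mul_left n' q) hmn
        rw [show m * (q * n') = q * (m * n') by ring, hco_dvd, hco_dvd, hco_not m hm,
          show q * (m * n') = m * (q * n') by ring,
          hg.qCoeff_mul_of_coprime _ _ hmn, hg.qCoeff_mul_of_coprime _ _ hmn']
        ring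
      · have hmn' : ¬ q ∣ m * n := fun h => (hq.dvd_mul.mp h).elim hm hn
        rw [hco_not _ hmn', hco_not _ hm, hco_not _ hn, hg.qCoeff_mul_of_coprime _ _ hmn]
  · -- good primes
    intro p r hp hpN
    have hpq : p ≠ q := fun h => hpN (h ▸ dvd_mul_left p M)
    have hpM : ¬ p ∣ M := fun h => hpN (dvd_mul_of_dvd_left h q)
    have hp1 : ¬ q ∣ p := by simpa using hnd_pow p hp hpq 1
    rw [hco_not _ (hnd_pow p hp hpq _), hco_not _ hp1, hco_not _ (hnd_pow p hp hpq _),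
      hco_not _ (hnd_pow p hp hpq _)]
    exact hg.qCoeff_prime_pow_of_not_dvd p r hp hpM
  · -- primes dividing the level
    intro p r hp hpN
    by_cases hpq : p = q
    · subst hpq
      have h1 := hqpow 0
      rw [zero_add, pow_one] at h1
      rw [hqpow (r + 1), hqpow r, h1]
      ring
    · have hpM : p ∣ M := by
        rcases hp.dvd_mul.mp hpN with h | h
        · exact h
        · exact absurd ((Nat.prime_dvd_prime_iff_eq hp hq).mp h) hpq
      have hp1 : ¬ q ∣ p := by simpa using hnd_pow p hp hpq 1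
      rw [hco_not _ (hnd_pow p hp hpq _), hco_not _ hp1, hco_not _ (hnd_pow p hp hpq _)]
      exact hg.qCoeff_prime_pow_of_dvd p r hp hpM
  · intro ℓ hℓ hℓq
    have h1 : ¬ q ∣ ℓ := by simpa using hnd_pow ℓ hℓ hℓq 1
    exact hco_not ℓ h1

open ModularFormClass in
/-- Stabilisation at all primes of a squarefree `D` prime to `M` (level `C = M D`). -/
theorem h7_stabilise_mul {M : ℕ} [NeZero M] (g : CuspForm (CongruenceSubgroup.Gamma0 M) 2)
    (hg : g.IsNormalizedEigenform) :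
    ∀ (D : ℕ), Squarefree D → M.Coprime D → ∀ (C : ℕ), C = M * D →
      ∃ g' : CuspForm (CongruenceSubgroup.Gamma0 C) 2, g'.IsNormalizedEigenform ∧
        ∀ ℓ : ℕ, ℓ.Prime → ¬ ℓ ∣ D → qCoeff g' ℓ = qCoeff g ℓ := by
  intro D
  induction D using Nat.strong_induction_on with
  | _ D ih =>
    intro hD hMD C hC
    by_cases hD1 : D = 1
    · subst hD1
      rw [mul_one] at hC
      subst hC
      exact ⟨g, hg, fun ℓ _ _ => rfl⟩
    · obtain ⟨q, hq, hqD⟩ : ∃ q : ℕ, q.Prime ∧ q ∣ D :=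
        ⟨D.minFac, Nat.minFac_prime hD1, Nat.minFac_dvd D⟩
      obtain ⟨D', hD'⟩ := hqD
      have hD0 : D ≠ 0 := hD.ne_zero
      have hD'0 : D' ≠ 0 := by
        rintro rfl
        exact hD0 (by rw [hD', mul_zero])
      have hlt : D' < D := by
        have h1 : 1 * D' < q * D' :=
          Nat.mul_lt_mul_of_pos_right hq.one_lt (Nat.pos_of_ne_zero hD'0)
        rw [one_mul, ← hD'] at h1
        exact h1
      have hD'dvd : D' ∣ D := ⟨q, by rw [hD', mul_comm]⟩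
      have hD'sq : Squarefree D' := hD.squarefree_of_dvd hD'dvd
      have hMD' : M.Coprime D' := Nat.Coprime.coprime_dvd_right hD'dvd hMD
      have hqD' : ¬ q ∣ D' := by
        rintro ⟨e, he⟩
        have h2 : q * q ∣ D := ⟨e, by rw [hD', he]; ring⟩
        exact hq.one_lt.ne' (Nat.isUnit_iff.mp (hD _ h2))
      have hqM : ¬ q ∣ M := by
        intro h
        have h3 : q ∣ Nat.gcd M D := Nat.dvd_gcd h ⟨D', hD'⟩
        rw [Nat.Coprime.gcd_eq_one hMD] at h3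
        exact hq.one_lt.ne' (Nat.dvd_one.mp h3)
      obtain ⟨g₁, hg₁, hco₁⟩ := ih D' hlt hD'sq hMD' (M * D') rfl
      have : NeZero (M * D') := ⟨mul_ne_zero (NeZero.ne M) hD'0⟩
      have hqMD' : ¬ q ∣ M * D' := fun h => (hq.dvd_mul.mp h).elim hqM hqD'
      obtain ⟨g₂, hg₂, hco₂⟩ := h7_stabilise g₁ hg₁ q hq hqMD'
      have hC' : C = M * D' * q := by
        rw [hC, hD']
        ring
      subst hC'
      refine ⟨g₂, hg₂, fun ℓ hℓ hℓD => ?_⟩
      have hℓq : ℓ ≠ q := fun h => hℓD (h ▸ ⟨D', hD'⟩)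
      have hℓD' : ¬ ℓ ∣ D' := fun h => hℓD (dvd_trans h hD'dvd)
      rw [hco₂ ℓ hℓ hℓq, hco₁ ℓ hℓ hℓD']

open ModularFormClass in
/-- Stabilisation up to a squarefree level `C` divisible by `M`. -/
theorem h7_stabilise_sqfree {M : ℕ} [NeZero M] (g : CuspForm (CongruenceSubgroup.Gamma0 M) 2)
    (hg : g.IsNormalizedEigenform) (C : ℕ) (hC : Squarefree C) (hMC : M ∣ C) :
    ∃ g' : CuspForm (CongruenceSubgroup.Gamma0 C) 2, g'.IsNormalizedEigenform ∧
      ∀ ℓ : ℕ, ℓ.Prime → ¬ ℓ ∣ C → qCoeff g' ℓ = qCoeff g ℓ := by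
  obtain ⟨D, rfl⟩ := hMC
  obtain ⟨hcop, -, hDsq⟩ := Nat.squarefree_mul_iff.mp hC
  obtain ⟨g', hg', hco⟩ := h7_stabilise_mul g hg D hDsq hcop (M * D) rfl
  exact ⟨g', hg', fun ℓ hℓ hℓC => hco ℓ hℓ (fun h => hℓC (dvd_mul_of_dvd_right h M))⟩

end Fermat.Agent.S58
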